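import Fermat.Agent.TwoAdic.TSideLocal
import Fermat.Agent.SemistableRed.Signed
import Fermat.Agent.SemistableRed.AllFacts
import Fermat.Agent.EigenRep.AdicRelation
import Mathlib.FieldTheory.Galois.Infinite

/-!
# Signed new from the sign of `w_q`

`IsSignedNewAt` for the representation of an eigensystem occurring
on the `w_q = - s` part of the Tate module and not at level `N / q`.
-/

set_option autoImplicit false

open ModularCurve AlgebraicCurve Matrix IsLocalRing GaloisRep
open Fermat.Agent.DefRing Fermat.Agent.Deform Fermat.Agent.EigenRep Fermat.Agent.SemistableRed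

namespace Fermat.Agent.TwoAdic

local instance isGaloisQbar_tw : IsGalois ℚ (AlgebraicClosure ℚ) := Frobenius.isGalois_qbar

/-- A dihedral residual representation has a pair with invertible commutator. -/
theorem IsDihedralResidual.exists_commutator_det_ne_zero {k : Type} [Field k] [CharP k 2] {D : ℕ}
    {r : MRep k} (hr : IsDihedralResidual D r) (hD : 0 < D) :
    ∃ g h, (r g * r h - r h * r g).det ≠ 0 := by
  obtain ⟨x, hx⟩ := IsAlgClosed.exists_pow_nat_eq (-(D : AlgebraicClosure ℚ)) (n := 2) two_pos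
  have hroot : ∀ σ : GQ, σ x = x ∨ σ x = -x := fun σ => by
    rw [← sq_eq_sq_iff_eq_or_eq_neg, ← map_pow, hx, map_neg, map_natCast]
  have hfix : ∀ σ : GQ, σ x = x → ∀ y : AlgebraicClosure ℚ, y ^ 2 = -(D : AlgebraicClosure ℚ) →
      σ y = y := fun σ hσ y hy => by
    rcases sq_eq_sq_iff_eq_or_eq_neg.mp (hy.trans hx.symm) with rfl | rfl
    · exact hσ
    · rw [map_neg, hσ]
  obtain ⟨a, ha⟩ : ∃ a : GQ, a x ≠ x := by
    by_contra h
    push Not at h
    obtain ⟨c, hc⟩ := (InfiniteGalois.mem_bot_iff_fixed (k := ℚ) x).mpr h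
    rw [← hc, ← map_natCast (algebraMap ℚ (AlgebraicClosure ℚ)), ← map_neg, ← map_pow] at hx
    have := (algebraMap ℚ (AlgebraicClosure ℚ)).injective hx
    have hD' : (0 : ℚ) < D := Nat.cast_pos.mpr hD
    nlinarith [sq_nonneg c]
  have hmove : ∀ σ : GQ, σ x ≠ x → (r σ).trace = 0 := fun σ hσ => by
    by_contra h
    exact hσ ((hr.fixing σ).mpr (Or.inl h) x hx)
  obtain ⟨g, hg, hgt⟩ : ∃ g : GQ, g x = x ∧ (r g).trace ≠ 0 := by
    by_contra h
    push Not at h
    have hsub : Set.range r ⊆ {1, r a} := by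
      rintro _ ⟨σ, rfl⟩
      have hone : ∀ τ : GQ, τ x = x → r τ = 1 := fun τ hτ =>
        ((hr.fixing τ).mp (hfix τ hτ)).resolve_left (not_ne_iff.mpr (h τ hτ))
      rcases hroot σ with hσ | hσ
      · exact Or.inl (hone σ hσ)
      · refine Or.inr ?_
        have : (a⁻¹ * σ) x = x := by
          rw [AlgEquiv.mul_apply, hσ, ← (hroot a).resolve_left ha, ← AlgEquiv.mul_apply,
            inv_mul_cancel, AlgEquiv.one_apply]
        show r σ = r a
        rw [← mul_inv_cancel_left a σ, map_mul, hone _ this, mul_one]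
    have := Set.ncard_le_ncard hsub (Set.toFinite _)
    have h2 := Set.ncard_insert_le (1 : Matrix (Fin 2) (Fin 2) k) {r a}
    rw [Set.ncard_singleton] at h2
    rw [hr.card_range] at this
    omega
  have hag : (r a * r g).trace = 0 := by
    rw [← map_mul]
    exact hmove _ (by rw [AlgEquiv.mul_apply, hg]; exact ha)
  refine ⟨a, g, fun h0 => hgt (pow_eq_zero_iff two_ne_zero |>.mp ?_)⟩
  have hta := hmove a ha
  have hda := hr.det_one a
  have hdg := hr.det_one g
  simp only [Matrix.trace_fin_two, Matrix.det_fin_two, Matrix.mul_apply, Matrix.sub_apply,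
    Fin.sum_univ_two] at hta hda hdg hag h0 ⊢
  grind [two_eq_zero_of_charP (k := k)]

variable {O : Type} [CommRing O] [IsDomain O] [IsDiscreteValuationRing O]
  [IsAdicComplete (maximalIdeal O) O] {p : ℕ} [Fact p.Prime]

/-- With the trace at Frobenius elements, the quadratic relation on eigenvectors holds with the
trace of the representation. -/
theorem quadratic_of_trace {N : ℕ} [NeZero N] (I : RepInputs N p) (hp : (p : O) ∈ maximalIdeal O)
    (S : Finset ℕ) (a : Nat.Primes → O) (ρ : GaloisRepAdic O)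
    (hfrob : ∀ (ℓ : ℕ) (hℓ : ℓ.Prime), ℓ ∉ S → ∀ A : ValuationSubring (AlgebraicClosure ℚ),
      A.LiesOverPrime ℓ → ∀ σ : GQ, A.IsFrobeniusAt σ ℓ → ρ.trace σ = a ⟨ℓ, hℓ⟩)
    (g : GQ) {v : Fin I.model.d → O} (hv : v ∈ eigenSub I.model (↑S : Set ℕ) a) :
    galEnd I.model (padicHom p hp) g v +
      padicHom p hp (epsilonPadic p g : ℤ_[p]) • galEnd I.model (padicHom p hp) g⁻¹ v =
        ρ.trace g • v := by
  rcases eq_or_ne v 0 with rfl | hv0
  · simp
  set π := galEnd I.model (padicHom p hp)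
  obtain ⟨t, ht, htf⟩ := exists_adic_relation I hp S a ⟨v, hv0, hv⟩
  have hmain : π g v + padicHom p hp (epsilonPadic p g : ℤ_[p]) • π g⁻¹ v = t g • v := by
    have h := ht g _ (galEnd_mem_eigenSub I.model (padicHom p hp) I.equivariant g⁻¹ hv)
    have e : π g (π g⁻¹ v) = v := by
      rw [← Module.End.mul_apply, ← map_mul, mul_inv_cancel, map_one, Module.End.one_apply]
    rw [e] at h
    linear_combination (norm := module) h
  funext i
  refine sub_eq_zero.mp (IsHausdorff.haus (I := maximalIdeal O) inferInstance _ fun n => ?_)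
  rw [SModEq.zero, smul_eq_mul, Ideal.mul_top]
  obtain ⟨L₁, hL₁, hc₁⟩ := Chebotarev.exists_level_trace_congr ρ n
  obtain ⟨L₂, hL₂, hc₂⟩ := exists_level I n
  obtain ⟨ℓ, hℓ, hℓS, A, hA, σ, hσ, hag⟩ :=
    I.dense (L₁ ⊔ L₂) (IntermediateField.finiteDimensional_sup L₁ L₂) g (S ∪ (N * p).primeFactors)
  rw [Finset.mem_union, not_or] at hℓS
  have hd : ¬ ℓ ∣ N * p := fun h => hℓS.2 (Nat.mem_primeFactors.mpr ⟨hℓ, h,
    mul_ne_zero (NeZero.ne N) (Fact.out : p.Prime).ne_zero⟩)
  obtain ⟨h₁, h₂⟩ := hc₂ _ (inv_mul_fixes fun x hx => hag x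
    ((le_sup_right : L₂ ≤ L₁ ⊔ L₂) hx))
  have hgσ : g = σ * (σ⁻¹ * g) := (mul_inv_cancel_left σ g).symm
  have hg1 : matMod p I.model.d n (galMat I.model g) = matMod p I.model.d n (galMat I.model σ) := by
    rw [hgσ, map_mul, map_mul, h₁, mul_one]
  have hg1' : matMod p I.model.d n (galMat I.model g⁻¹) =
      matMod p I.model.d n (galMat I.model σ⁻¹) := by
    calc matMod p I.model.d n (galMat I.model g⁻¹)
        = matMod p I.model.d n (galMat I.model g⁻¹) *
            (matMod p I.model.d n (galMat I.model σ) *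
              matMod p I.model.d n (galMat I.model σ⁻¹)) := by
          rw [← map_mul, ← map_mul, ← map_mul, ← map_mul, mul_inv_cancel, mul_one]
      _ = _ := by
          rw [← hg1, ← mul_assoc, ← map_mul (matMod p I.model.d n), ← map_mul (galMat I.model),
            inv_mul_cancel, map_one, map_one, one_mul]
  have hg2 : PadicInt.toZModPow n (epsilonPadic p g : ℤ_[p]) =
      PadicInt.toZModPow n (epsilonPadic p σ : ℤ_[p]) := by
    rw [hgσ, map_mul, Units.val_mul, map_mul, h₂, mul_one]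
  let qn := Ideal.Quotient.mk (maximalIdeal O ^ n)
  have hpn : qn ((p : O) ^ n) = 0 := Ideal.Quotient.eq_zero_iff_mem.mpr (Ideal.pow_mem_pow hp n)
  have hmap : ∀ {x y : ℤ_[p]}, PadicInt.toZModPow n x = PadicInt.toZModPow n y →
      qn (padicHom p hp x) = qn (padicHom p hp y) := fun {x y} h => by
    obtain ⟨c, hc⟩ := sub_mem_span_pow (padicHom p hp) h
    rw [hc, map_add, map_mul, hpn, zero_mul, add_zero]
  have hvec : ∀ {γ δ : GQ}, matMod p I.model.d n (galMat I.model γ) =
      matMod p I.model.d n (galMat I.model δ) → qn (π γ v i) = qn (π δ v i) := fun {γ δ} h => by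
    show qn (((galMat I.model γ).map (padicHom p hp) *ᵥ v) i) =
      qn (((galMat I.model δ).map (padicHom p hp) *ᵥ v) i)
    simp only [Matrix.mulVec, dotProduct, Matrix.map_apply, map_sum, map_mul]
    exact Finset.sum_congr rfl fun j _ => by rw [hmap congr($h i j)]
  have hrel := galEnd_frobenius I.model (padicHom p hp) I.es I.equivariant hℓ
    (by simpa using hℓS.1) hd hA hσ
    (galEnd_mem_eigenSub I.model (padicHom p hp) I.equivariant σ⁻¹ hv)
  have hσv : π σ v + padicHom p hp (epsilonPadic p σ : ℤ_[p]) • π σ⁻¹ v = ρ.trace σ • v := by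
    have e : π σ (π σ⁻¹ v) = v := by
      rw [← Module.End.mul_apply, ← map_mul, mul_inv_cancel, map_one, Module.End.one_apply]
    rw [e] at hrel
    rw [epsilon_frobenius hℓ (fun h' => hd (h' ▸ dvd_mul_left p N)) hA hσ, map_natCast,
      hfrob ℓ hℓ hℓS.1 A hA σ hσ]
    linear_combination (norm := module) hrel
  rw [← Ideal.Quotient.eq_zero_iff_mem]
  show qn (_ - _) = 0
  have htr : qn (ρ.trace σ) = qn (ρ.trace g) :=
    Ideal.Quotient.eq.mpr (hc₁ g σ fun x hx => hag x ((le_sup_left : L₁ ≤ L₁ ⊔ L₂) hx))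
  have e := congrArg qn (congrFun hσv i)
  simp only [Pi.add_apply, Pi.smul_apply, smul_eq_mul, map_add, map_mul, map_sub,
    hvec hg1, hvec hg1', hmap hg2, htr] at e ⊢
  rw [e, sub_self]

/-- `IsSignedNewAt` for the representation of an eigensystem on the `w_q = - s` part which does
not occur at level `M`. -/
theorem isSignedNewAt_of_eigen {M q : ℕ} [NeZero M] [NeZero q] [Fact q.Prime] [CharZero O]
    (hqM : ¬ q ∣ M) (hqp : q ≠ p) (I : RepInputs (M * q) p) (I' : RepInputs M p)
    (hp : (p : O) ∈ maximalIdeal O) (S : Finset ℕ)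
    (hS : ∀ ℓ : ℕ, ℓ.Prime → ℓ ∉ (↑S : Set ℕ) → ¬ ℓ ∣ M * q * p ∧ ¬ ℓ ∣ M * p)
    (a : Nat.Primes → O) (ρ : GaloisRepAdic O)
    (hdet : ∀ σ, LinearMap.det (ρ.ρ σ) = padicHom p hp (epsilonPadic p σ : ℤ_[p]))
    (hfrob : ∀ (ℓ : ℕ) (hℓ : ℓ.Prime), ℓ ∉ S → ∀ A : ValuationSubring (AlgebraicClosure ℚ),
      A.LiesOverPrime ℓ → ∀ σ : GQ, A.IsFrobeniusAt σ ℓ → ρ.trace σ = a ⟨ℓ, hℓ⟩)
    (hirr : ∃ g h, (matrixRep ρ (repBasis ρ) g * matrixRep ρ (repBasis ρ) h -
      matrixRep ρ (repBasis ρ) h * matrixRep ρ (repBasis ρ) g).det ≠ 0)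
    (s : ℤ) (hs : s = 1 ∨ s = -1) {v₀ : Fin I.model.d → O} (hv₀ : v₀ ≠ 0)
    (hv₀e : v₀ ∈ eigenSub I.model (↑S : Set ℕ) a)
    (hv₀w : (wMatPadic hqM I.model).map (padicHom p hp) *ᵥ v₀ = -((s : O) • v₀))
    {P : MvPolynomial {ℓ : Nat.Primes // (ℓ : ℕ) ∉ (↑S : Set ℕ)} ℤ}
    (hP : evalT I'.model (↑S : Set ℕ) P = 0)
    (hPa : MvPolynomial.eval₂ (Int.castRingHom O) (fun ℓ => a ℓ.1) P ≠ 0) :
    IsSignedNewAt ρ q s := by
  classical
  let ι := padicHom p hp
  let K := FractionRing O
  let ιK : ℤ_[p] →+* K := (algebraMap O K).comp ι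
  have hinj := IsFractionRing.injective O K
  let emb : (Fin I.model.d → O) → (Fin I.model.d → K) := fun v => algebraMap O K ∘ v
  let Eig : Set (Fin I.model.d → O) := {v | v ∈ eigenSub I.model (↑S : Set ℕ) a ∧
    (wMatPadic hqM I.model).map ι *ᵥ v = -((s : O) • v)}
  let V : Submodule K (Fin I.model.d → K) := Submodule.span K (emb '' Eig)
  have hnat : ∀ (X : Matrix (Fin I.model.d) (Fin I.model.d) ℤ_[p]) v,
      X.map ιK *ᵥ emb v = emb (X.map ι *ᵥ v) := fun X v => by
    funext i
    show _ = algebraMap O K ((X.map ι *ᵥ v) i)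
    rw [RingHom.map_mulVec, Matrix.map_map]; rfl
  have hsmul : ∀ (c : O) v, emb (c • v) = algebraMap O K c • emb v := fun c v => by
    funext i; simp [emb]
  have hneg : ∀ v, emb (-v) = -emb v := fun v => by funext i; simp [emb]
  have hV : ∀ σ, ∀ v ∈ V, galEnd I.model ιK σ v ∈ V := fun σ v hv => by
    induction hv using Submodule.span_induction with
    | mem w hw =>
      obtain ⟨u, ⟨hu, huw⟩, rfl⟩ := hw
      refine Submodule.subset_span ⟨galEnd I.model ι σ u,
        ⟨galEnd_mem_eigenSub I.model ι I.equivariant σ hu, ?_⟩, ?_⟩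
      · have hc := congrArg (fun X : Matrix (Fin I.model.d) (Fin I.model.d) ℤ_[p] => X.map ι *ᵥ u)
          (wMatPadic_commute hqM I.model σ).eq
        simp only [Matrix.map_mul, ← mulVec_mulVec] at hc
        rw [galEnd_apply, hc, huw, mulVec_neg, mulVec_smul]
      · rw [galEnd_apply, galEnd_apply]; exact (hnat _ _).symm
    | zero => rw [map_zero]; exact V.zero_mem
    | add x y _ _ hx hy => rw [map_add]; exact V.add_mem hx hy
    | smul c x _ hx => rw [map_smul]; exact V.smul_mem c hx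
  have hext : ∀ (X Y : Module.End K (Fin I.model.d → K)),
      (∀ u ∈ Eig, X (emb u) = Y (emb u)) → ∀ v ∈ V, X v = Y v := fun X Y h v hv =>
    LinearMap.eqOn_span (f := X) (g := Y) (by rintro _ ⟨u, hu, rfl⟩; exact h u hu) hv
  let R : GQ →* Matrix (Fin 2) (Fin 2) K :=
    (algebraMap O K).mapMatrix.toMonoidHom.comp (matrixRep ρ (repBasis ρ))
  have hRtr : ∀ σ, (R σ).trace = algebraMap O K (ρ.trace σ) := fun σ => by
    show ((matrixRep ρ (repBasis ρ) σ).map (algebraMap O K)).trace = _
    rw [show ρ.trace σ = (matrixRep ρ (repBasis ρ) σ).trace from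
      LinearMap.trace_eq_matrix_trace O (repBasis ρ) _]
    exact (AddMonoidHom.map_trace (algebraMap O K).toAddMonoidHom _).symm
  have hRdet : ∀ σ, (R σ).det = ιK (epsilonPadic p σ : ℤ_[p]) := fun σ => by
    show ((algebraMap O K).mapMatrix (matrixRep ρ (repBasis ρ) σ)).det = _
    rw [← RingHom.map_det, matrixRep_apply, LinearMap.det_toMatrix, hdet]
    rfl
  have hmain := fun (A : ValuationSubring (AlgebraicClosure ℚ)) (hA : A.LiesOverPrime q)
      (φ : GQ) (hφ : A.IsFrobeniusAt φ q) => signed_of_eigen I ιK V hV goodReductionFacts hqM hqp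
    (fun h0 => hv₀ (funext fun i => hinj (by
      have h1 : emb v₀ ∈ V := Submodule.subset_span ⟨v₀, ⟨hv₀e, hv₀w⟩, rfl⟩
      rw [h0, Submodule.mem_bot] at h1
      simpa [emb] using congrFun h1 i)))
    R hRdet
    (fun σ v hv => hext (galEnd I.model ιK σ + ιK (epsilonPadic p σ : ℤ_[p]) •
        galEnd I.model ιK σ⁻¹) ((R σ).trace • 1) (fun u hu => by
      simp only [LinearMap.add_apply, LinearMap.smul_apply, Module.End.one_apply, galEnd_apply,
        hnat, hRtr]
      rw [show ιK (epsilonPadic p σ : ℤ_[p]) = algebraMap O K (ι (epsilonPadic p σ : ℤ_[p])) from rfl,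
        ← hsmul, ← hsmul, ← quadratic_of_trace I hp S a ρ hfrob σ hu.1]
      funext i; simp [emb, ι, galEnd_apply]) v hv)
    (by
      obtain ⟨g, h, hgh⟩ := hirr
      refine ⟨g, h, fun h0 => hgh (hinj ?_)⟩
      rw [map_zero, RingHom.map_det, ← h0]
      simp only [R, MonoidHom.comp_apply, RingHom.toMonoidHom_eq_coe, MonoidHom.coe_coe, map_sub,
        map_mul])
    (s : K) (by rcases hs with rfl | rfl <;> norm_num)
    (fun v hv => hext (Matrix.mulVecLin ((wMatPadic hqM I.model).map ιK)) (-((s : K) • 1))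
      (fun u hu => by
        rw [Matrix.mulVecLin_apply, hnat, hu.2, hneg, hsmul, map_intCast]
        rfl) v hv)
    I' hS hP (c := algebraMap O K (MvPolynomial.eval₂ (Int.castRingHom O) (fun ℓ => a ℓ.1) P))
    ((map_ne_zero_iff _ hinj).mpr hPa)
    (fun v hv => hext (Matrix.mulVecLin ((evalT I.model (↑S : Set ℕ) P :
        Matrix (Fin I.model.d) (Fin I.model.d) ℤ).map (Int.cast : ℤ → K))) ((algebraMap O K (MvPolynomial.eval₂ (Int.castRingHom O) (fun ℓ => a ℓ.1) P)) • 1) (fun u hu => by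
      rw [Matrix.mulVecLin_apply, LinearMap.smul_apply, Module.End.one_apply, ← hsmul]
      clear hP hPa
      induction P using MvPolynomial.induction_on with
      | C z =>
        rw [evalT_C, MvPolynomial.eval₂_C, Subalgebra.coe_algebraMap, Matrix.algebraMap_eq_diagonal,
          Matrix.diagonal_map Int.cast_zero]
        funext i
        simp [emb, Matrix.mulVec_diagonal]
      | add P Q hP hQ =>
        rw [evalT_add, Subalgebra.coe_add, Matrix.map_add _ (fun x y => Int.cast_add x y),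
          add_mulVec, hP, hQ, MvPolynomial.eval₂_add]
        funext i; simp [emb, add_mul]
      | mul_X P ℓ hP =>
        rw [evalT_mul, evalT_X, Subalgebra.coe_mul, MvPolynomial.eval₂_mul, MvPolynomial.eval₂_X,
          show (Int.cast : ℤ → K) = ⇑(Int.castRingHom K) from rfl, Matrix.map_mul, ← mulVec_mulVec]
        have hT := congrArg emb ((mem_eigenSub I.model).mp hu.1 ℓ.1 ℓ.2)
        have e : ((matGen (matFamily I.model (↑S : Set ℕ)) ℓ : Matrix _ _ ℤ).map
            (Int.castRingHom K)) *ᵥ emb u = algebraMap O K (a ℓ.1) • emb u := by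
          rw [← hsmul, ← hT]
          funext i
          simp [emb, matGen, matFamily, Matrix.mulVec, dotProduct, Matrix.map_apply, map_sum]
        rw [e, mulVec_smul]
        rw [show (Int.cast : ℤ → K) = ⇑(Int.castRingHom K) from rfl] at hP
        rw [hP, hsmul, hsmul, smul_smul, map_mul]
        congr 1
        exact mul_comm _ _) v hv)
    hA hφ
  have hs' : ((s : O) : O) * s = 1 := by rcases hs with rfl | rfl <;> norm_num
  refine isSignedNewAt_of ρ q s (fun A hA φ hφ => hinj ?_) (fun A hA τ hτ => ?_)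
    (fun A hA φ hφ τ hτ => ?_)
  · rw [← hRtr, (hmain A hA φ hφ).1]
    simp
  · obtain ⟨φ, hφ⟩ := Frobenius.exists_isFrobeniusAt_qbar (Fact.out : q.Prime) hA
    have h2 : ρ.trace τ = 2 := hinj (by
      rw [← hRtr, ((hmain A hA φ hφ).2 τ hτ).1, map_ofNat])
    rw [SemistableRed.charpoly_eq_of_trace_det ρ.finrank_eq, hdet,
      epsilon_inertia (Fact.out : q.Prime) hqp hA hτ, Units.val_one, map_one,
      show LinearMap.trace O ρ.V (ρ.ρ τ) = 2 from h2, Polynomial.C_1, map_ofNat]
    ring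
  · have h := ((hmain A hA φ hφ).2 τ hτ).2
    refine (LinearMap.toMatrixAlgEquiv (repBasis ρ)).injective ?_
    refine Matrix.map_injective hinj ?_
    simp only [map_mul, map_sub, map_smul, map_one, map_zero]
    rw [← RingHom.mapMatrix_apply, map_mul, map_sub, map_sub, map_one]
    refine Eq.trans ?_ (h.trans (Matrix.map_zero _ (map_zero _)).symm)
    congr 2
    rw [RingHom.mapMatrix_apply, Matrix.map_smul' _ _ _ (map_mul _),
      Matrix.map_one _ (map_zero _) (map_one _)]
    simp

end Fermat.Agent.TwoAdic
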