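import Fermat.Agent.TwoAdic.Modules.RelaxIso

/-!
# Enlarging the excluded set of a setup

Adjoining auxiliary primes to the excluded set of a setup does not change it, once their operators
are congruent to the residual values modulo nilpotents.
-/

set_option autoImplicit false

open IsLocalRing

namespace Fermat.Agent.TwoAdic

open HeckeJ0 LevelRaising HeckeModule

attribute [local instance] ALSetup.isPrime

variable {O : Type} [CommRing O] [IsLocalRing O]

namespace ALSetup

/-- The setup with more primes excluded. -/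
@[reducible] noncomputable def enlarge (T : ALSetup O) (S' : Set ℕ) (h : T.S ⊆ S')
    (hE : ∃ (ℓ : ℕ) (hℓ : ℓ.Prime) (hS : ℓ ∉ S'), (ℓ : ZMod (T.core * prodOf T.W)) = 1 ∧
      awayX O hℓ (fun hm => hS (h hm)) - MvPolynomial.C ((ℓ : O) + 1) ∉ T.m) : ALSetup O where
  core := T.core
  M := T.M
  W := T.W
  χ := T.χ
  c := T.c
  S := S'
  m := T.m.comap (restrictAway O h).toRingHom
  core_ne := T.core_ne
  prime := T.prime
  notDvd := T.notDvd
  dvd_core := T.dvd_core
  mem_S e he := h (T.mem_S e he)
  isPrime := Ideal.IsPrime.comap _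
  le := Ideal.map_le_iff_le_comap.mpr fun o ho => by
    rw [Ideal.mem_comap, Ideal.mem_comap]
    show restrictAway O h (algebraMap O _ o) ∈ T.m
    rw [AlgHom.commutes]
    exact T.le (Ideal.mem_map_of_mem _ ho)
  two := T.two
  char_one := T.char_one
  even := T.even
  sq := T.sq
  eisenstein := by
    obtain ⟨ℓ, hℓ, hS, h1, hm⟩ := hE
    refine ⟨ℓ, hℓ, hS, h1, fun hm' => hm ?_⟩
    rw [Ideal.mem_comap] at hm'
    change restrictAway O h _ ∈ T.m at hm'
    rw [map_sub, ← MvPolynomial.algebraMap_eq, AlgHom.commutes, MvPolynomial.algebraMap_eq, awayX,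
      restrictAway, MvPolynomial.rename_X] at hm'
    exact hm'
  elliptic₄ := T.elliptic₄
  elliptic₃ := T.elliptic₃
  quartic := T.quartic

variable (T : ALSetup O) {S' : Set ℕ} (h : T.S ⊆ S')
  (hE : ∃ (ℓ : ℕ) (hℓ : ℓ.Prime) (hS : ℓ ∉ S'), (ℓ : ZMod (T.core * prodOf T.W)) = 1 ∧
    awayX O hℓ (fun hm => hS (h hm)) - MvPolynomial.C ((ℓ : O) + 1) ∉ T.m)

/-- Forgetting the adjoined primes at residual values gives back the prime. -/
theorem relaxIdeal_enlarge (t : ℕ → O)
    (ht : ∀ (l : AwayIndex T.S), ((l : Nat.Primes) : ℕ) ∈ S' →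
      MvPolynomial.X l - MvPolynomial.C (t ((l : Nat.Primes) : ℕ)) ∈ T.m) :
    relaxIdeal (T.enlarge S' h hE).m T.S t = T.m := by
  have key : ∀ a : AwayPoly O T.S, a - restrictAway O h (relaxHom O S' T.S t a) ∈ T.m := by
    intro a
    induction a using MvPolynomial.induction_on with
    | C r =>
      rw [← MvPolynomial.algebraMap_eq, AlgHom.commutes, AlgHom.commutes, sub_self]
      exact zero_mem _
    | add a b ha hb => rw [map_add, map_add, add_sub_add_comm]; exact add_mem ha hb
    | mul_X a l ha =>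
      rw [map_mul, map_mul,
        show a * MvPolynomial.X l - restrictAway O h (relaxHom O S' T.S t a) *
            restrictAway O h (relaxHom O S' T.S t (MvPolynomial.X l)) =
          (a - restrictAway O h (relaxHom O S' T.S t a)) * MvPolynomial.X l +
            restrictAway O h (relaxHom O S' T.S t a) * (MvPolynomial.X l -
              restrictAway O h (relaxHom O S' T.S t (MvPolynomial.X l))) by ring]
      refine add_mem (Ideal.mul_mem_right _ _ ha) (Ideal.mul_mem_left _ _ ?_)
      simp only [relaxHom, MvPolynomial.aeval_X]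
      split
      · rename_i hl
        rw [← MvPolynomial.algebraMap_eq, AlgHom.commutes, MvPolynomial.algebraMap_eq]
        exact ht l hl
      · rw [restrictAway, MvPolynomial.rename_X, Subtype.coe_eta, sub_self]
        exact zero_mem _
  ext a
  rw [Ideal.mem_comap, Ideal.mem_comap]
  show restrictAway O h _ ∈ T.m ↔ _
  exact ⟨fun ha => by simpa using add_mem (key a) ha, fun ha => by simpa using sub_mem ha (key a)⟩

variable (t : ℕ → O)
  (ht : ∀ (l : AwayIndex T.S), ((l : Nat.Primes) : ℕ) ∈ S' →
    MvPolynomial.X l - MvPolynomial.C (t ((l : Nat.Primes) : ℕ)) ∈ T.m)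

include ht in
/-- **Enlarging changes nothing.** -/
theorem nonempty_enlargeIso [IsNoetherianRing O] [IsAdicComplete (maximalIdeal O) O] (A : Type)
    [AddCommGroup A] [Module O A] [Module.Finite O A]
    (hnil : ∀ (l : Nat.Primes), (l : ℕ) ∈ S' → (l : ℕ) ∉ T.S → ∀ V, V ⊆ T.W →
      MvPolynomial.X l - MvPolynomial.C (t l) ∈ nilModIdeal ((T.enlarge S' h hE).H V A)) :
    Nonempty (LevelIso (T.enlarge S' h hE) T A) := by
  have heq : (T.enlarge S' h hE).relax T.S h t T.mem_S = T := by
    have hm := T.relaxIdeal_enlarge h hE t ht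
    obtain ⟨core, M, W, χ, c, S, m, _, _, _, _, _, _, _, _, _, _, _, _, _, _, _⟩ := T
    simp only [relax, enlarge] at hm ⊢
    congr
  have key : Nonempty (LevelIso (T.enlarge S' h hE) ((T.enlarge S' h hE).relax T.S h t T.mem_S) A) :=
    ⟨(T.enlarge S' h hE).relaxIso h t T.mem_S A
      (fun V hV => (T.enlarge S' h hE).finite_H A hV) hnil⟩
  rwa [heq] at key

end ALSetup

end Fermat.Agent.TwoAdic
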