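import Fermat.Agent.TwoAdic.TopModule
import Fermat.Agent.TwoAdic.TopEnlarge
import Fermat.Agent.TwoAdic.Modules.TWSystem
import Fermat.Agent.Engine.TwChar
import Fermat.Agent.Engine.TRep.TwistChain

/-!
# Level modules at the Taylor–Wiles levels of a setup

The Taylor–Wiles level of a setup as a level module: setup with the tuple adjoined, diamond
characters, lifted scalars and the base map, given the action of the ring of pairs on the lifted
new quotient.
-/

set_option autoImplicit false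

open IsLocalRing GaloisRep Fermat.Agent.DefRing Fermat.Agent.Deform

namespace Fermat.Agent.TwoAdic

open HeckeJ0 LevelRaising HeckeModule Engine.TRep

attribute [local instance] ALSetup.isPrime

variable {O : Type} [CommRing O] [IsDomain O] [IsDiscreteValuationRing O]
  [IsAdicComplete (maximalIdeal O) O] [Finite (ResidueField O)]

/-- The product of the characters at `Qs`, at level `∏ Qs`. -/
noncomputable def tupleChar {R : Type} [CommRing R] (Ψ : ∀ x : ℕ, (ZMod x)ˣ →* R)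
    (Qs : Finset ℕ) : (ZMod (prodOf Qs))ˣ →* R :=
  ∏ x ∈ Qs, charOn Ψ x (prodOf Qs)

omit [IsDomain O] [IsDiscreteValuationRing O] [IsAdicComplete (maximalIdeal O) O]
  [Finite (ResidueField O)] in
/-- The augmentation kills the value at a natural number. -/
theorem twAug_charProd {r n : ℕ} (Ψ : ∀ x : ℕ, (ZMod x)ˣ →* Engine.TwQuot O 2 r n)
    (hΨ : ∀ x u, Engine.twAug O 2 r n (Ψ x u) = 1) (Qs : Finset ℕ) (a : ℕ) :
    Engine.twAug O 2 r n (charProd Ψ Qs a) = 1 := by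
  rw [charProd, map_prod]
  refine Finset.prod_eq_one fun x _ => ?_
  rw [charAt]
  split
  exacts [hΨ _ _, map_one _]

omit [IsDomain O] [IsDiscreteValuationRing O] [IsAdicComplete (maximalIdeal O) O]
  [Finite (ResidueField O)] in
/-- The augmentation kills the tuple character. -/
theorem twAug_tupleChar {r n : ℕ} (Ψ : ∀ x : ℕ, (ZMod x)ˣ →* Engine.TwQuot O 2 r n)
    (hΨ : ∀ x u, Engine.twAug O 2 r n (Ψ x u) = 1) (Qs : Finset ℕ) (u : (ZMod (prodOf Qs))ˣ) :
    Engine.twAug O 2 r n (tupleChar Ψ Qs u) = 1 := by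
  rw [tupleChar, MonoidHom.finsetProd_apply, map_prod]
  refine Finset.prod_eq_one fun x _ => ?_
  rw [charOn]
  split
  exacts [hΨ _ _, map_one _]

omit [IsDomain O] [IsDiscreteValuationRing O] [IsAdicComplete (maximalIdeal O) O]
  [Finite (ResidueField O)] in
/-- Diamond characters at the primes of a tuple. -/
theorem exists_diamond {r : ℕ} (n : ℕ) (q : Fin r → ℕ) (hinj : Function.Injective q)
    (hq : ∀ i, (q i).Prime ∧ q i ≠ 2 ∧ 2 ^ (n + 1) ∣ q i - 1)
    (cyc : ∀ i, GQ →* (ZMod (q i))ˣ) (hcyc : ∀ i, IsCycloMod (q i) (cyc i))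
    (P : Fin r → ValuationSubring (AlgebraicClosure ℚ)) (hP : ∀ i, (P i).LiesOverPrime (q i))
    (τ : Fin r → GQ) (hτ : ∀ i, TameInertia.IsTameGenerator (P i) 2 (q i) (τ i)) :
    ∃ Ψ : ∀ x : ℕ, (ZMod x)ˣ →* Engine.TwQuot O 2 r n,
      (∀ x u, Engine.twAug O 2 r n (Ψ x u) = 1) ∧
        ∀ i, Ψ (q i) (cyc i (τ i)) = 1 + Engine.twVar O 2 r n i := by
  classical
  have hex : ∀ i, ∃ ψ : (ZMod (q i))ˣ →* Engine.TwQuot O 2 r n,
      ψ (cyc i (τ i)) = 1 + Engine.twVar O 2 r n i ∧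
        ∀ u, Engine.twAug O 2 r n (ψ u) = 1 := by
    intro i
    obtain ⟨hp, hne, hdvd⟩ := hq i
    obtain ⟨ψ, hψτ, hψpow⟩ := Engine.exists_twChar O Nat.prime_two n hp (Ne.symm hne) hdvd
      (hcyc i) (hP i) (hτ i) i
    refine ⟨ψ, hψτ, fun u => ?_⟩
    obtain ⟨j, w, rfl⟩ := Engine.exists_zpow_mul_pow Nat.prime_two hp (Ne.symm hne) (hcyc i) (hP i)
      (hτ i) (n + 1) u
    rw [map_mul, map_pow, map_pow, hψτ, hψpow, mul_one, map_pow, Engine.twAug_one_add, one_pow]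
  choose ψ hψτ hψaug using hex
  refine ⟨fun x => if h : ∃ i, q i = x then
      (ψ h.choose).comp (ZMod.unitsMap (dvd_of_eq h.choose_spec)) else 1, fun x u => ?_,
    fun i => ?_⟩
  · by_cases h : ∃ i, q i = x
    · simp only [dif_pos h]
      exact hψaug _ _
    · simp only [dif_neg h]
      exact map_one _
  · have h : ∃ j, q j = q i := ⟨i, rfl⟩
    simp only [dif_pos h]
    have hx : q h.choose ∣ q i := dvd_of_eq h.choose_spec
    have key : ∀ j (hd : q j ∣ q i), j = i →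
        (ψ j).comp (ZMod.unitsMap hd) (cyc i (τ i)) = 1 + Engine.twVar O 2 r n i := by
      rintro j hd rfl
      rw [ZMod.unitsMap_self]
      exact hψτ j
    exact key _ hx (hinj h.choose_spec)

variable [CharP (ResidueField O) 2] {D : NormalData O} {E : LiftData} {C : Set (GQ × GQ)}
  {r : ℕ} {h0 : Pair.IsResidualPair D E ∅ C}

open Pair in
/-- The action of the ring of pairs on the lifted new quotient of a Taylor–Wiles level: constants,
twisted Frobenius traces, the twisted root equation and the exact traces of tame inertia. -/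
def TSideAction (T : ALSetup O) {V : Finset ℕ} (_hV : V ⊆ T.W) (B : Finset ℕ) (S₀ : Finset ℕ)
    (n : ℕ) (q : Fin r → ℕ) (α : ℕ → O) (τ : Fin r → GQ) (cyc : ∀ i, GQ →* (ZMod (q i))ˣ)
    {h : IsResidualPair D E (Finset.univ.image q) C} (U : (pairFunctor h).UniversalPoint)
    [Fact ((2 : ℕ).Prime)] [Fact (((2 : ℕ) : O) ∈ maximalIdeal O)] : Prop :=
  ∀ (Ψ : ∀ x : ℕ, (ZMod x)ˣ →* Engine.TwQuot O 2 r n),
      (∀ x u, Engine.twAug O 2 r n (Ψ x u) = 1) →
      (∀ i, Ψ (q i) (cyc i (τ i)) = 1 + Engine.twVar O 2 r n i) →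
      ∀ (T' : ALSetup (Engine.TwQuot O 2 r n)) (hV' : V ⊆ T'.W),
        T'.core = prodOf (Finset.univ.image q) * T.core → T'.W = T.W → T'.S = T.S →
        T'.M = prodOf (Finset.univ.image q) →
        (∀ u : (ZMod (T'.level V))ˣ, T'.char V u = charSq Ψ (Finset.univ.image q) (T'.level V) u) →
        (∀ e ∈ T'.W, T'.c e = Engine.twConst O 2 r n (T.c e) *
          charProd Ψ (Finset.univ.image q) e) →
        (∀ (l : AwayIndex T'.S) (hl : ((l : Nat.Primes) : ℕ) ∉ T.S),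
          ((l : Nat.Primes) : ℕ) ∉ Finset.univ.image q → ∀ t : O,
            MvPolynomial.X (⟨l.1, hl⟩ : AwayIndex T.S) - MvPolynomial.C t ∈ T.m →
              MvPolynomial.X l - MvPolynomial.C (Engine.twConst O 2 r n t) ∈ T'.m) →
        (∀ (l : AwayIndex T'.S), ((l : Nat.Primes) : ℕ) ∈ Finset.univ.image q →
          MvPolynomial.X l - MvPolynomial.C (Engine.twConst O 2 r n (α (l : Nat.Primes))) ∈ T'.m) →
        Module.Free (Engine.TwQuot O 2 r n) (T'.NewQuot (Engine.TwQuot O 2 r n) hV' B) →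
        ∃ ρ : U.R →+* Module.End (Engine.TwQuot O 2 r n)
            (T'.NewQuot (Engine.TwQuot O 2 r n) hV' B),
          (∀ o x, ρ (algebraMap O U.R o) x = Engine.twConst O 2 r n o • x) ∧
          (∀ (l : ℕ) (hl : l.Prime) (hlS : l ∉ T'.S), l ∉ S₀ → l ∉ Finset.univ.image q →
            ∀ A : ValuationSubring (AlgebraicClosure ℚ), A.LiesOverPrime l → ∀ σ : GQ,
              A.IsFrobeniusAt σ l → ∀ x,
                charProd Ψ (Finset.univ.image q) l • ρ (Matrix.trace (uRep U σ)) x =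
                  T'.newAct _ hV' B (awayX _ hl hlS) x) ∧
          (∀ (h2 : 2 ∉ T'.S), ∀ x,
            charProd Ψ (Finset.univ.image q) 2 •
                (ρ (uRoot U) (ρ (uRoot U) x) + (2 : Engine.TwQuot O 2 r n) • x) =
              T'.newAct _ hV' B (awayX _ Nat.prime_two h2) (ρ (uRoot U) x)) ∧
          ∀ i x, ρ (Matrix.trace (uRep U (τ i))) x = Ideal.Quotient.mk (Engine.twIdeal O 2 r n)
            ((1 + MvPowerSeries.X i) + Ring.inverse (1 + MvPowerSeries.X i)) • x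

open Pair in
/-- **The level module of a tuple.** -/
theorem exists_levelModule_of_setup (Vp : (pairFunctor h0).UniversalPoint)
    (hspan : Submodule.span (ResidueField O) (Set.range D.rbar) = ⊤)
    (T : ALSetup O) (hχ : T.χ = 1) {V B : Finset ℕ} (hV : V ⊆ T.W) (hBV : B ⊆ V)
    (hcube : T.CubeInjective hV B) (S₀ : Finset ℕ) (hS₀ : T.S ⊆ ↑S₀)
    [Module Vp.R (T.NewQuot O hV B)] [IsScalarTower O Vp.R (T.NewQuot O hV B)]
    (hMtr : ∀ (l : ℕ) (hl : l.Prime) (hlS : l ∉ T.S), l ∉ S₀ →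
      ∀ A : ValuationSubring (AlgebraicClosure ℚ), A.LiesOverPrime l → ∀ σ : GQ,
        A.IsFrobeniusAt σ l → ∀ y : T.NewQuot O hV B,
          Matrix.trace (uRep Vp σ) • y = T.newAct O hV B (awayX O hl hlS) y)
    (h2S : 2 ∉ T.S)
    (hMα : ∀ y : T.NewQuot O hV B, uRoot Vp • uRoot Vp • y + (2 : O) • y =
      T.newAct O hV B (awayX O Nat.prime_two h2S) (uRoot Vp • y))
    {d : ℕ} (b₀ : Module.Basis (Fin d) O (T.NewQuot O hV B))
    (n : ℕ) (q : Fin r → ℕ) (hinj : Function.Injective q)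
    (hq : ∀ i, (q i).Prime ∧ q i ≠ 2 ∧ 2 ^ (n + 1) ∣ q i - 1 ∧ q i ∉ T.S ∧
      ¬ q i ∣ T.level T.W)
    (hE : ∃ (ℓ : ℕ) (hℓ : ℓ.Prime) (hS : ℓ ∉ T.S ∪ ↑(Finset.univ.image q)),
      (ℓ : ZMod (prodOf (Finset.univ.image q) * T.core * prodOf T.W)) = 1 ∧
        awayX O hℓ (fun hm => hS (Or.inl hm)) - MvPolynomial.C ((ℓ : O) + 1) ∉ T.m)
    (α β : ℕ → O)
    (hroots : ∀ i, α (q i) * β (q i) - (q i : ℕ) ∈ maximalIdeal O ∧ IsUnit (α (q i) - β (q i)) ∧
      IsUnit (α (q i) * α (q i) - 1) ∧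
      IsUnit (((q i : O) + 1) * ((q i : O) + 1) - (α (q i) + β (q i)) * (α (q i) + β (q i))))
    (hm : ∀ (l : AwayIndex T.S), ((l : Nat.Primes) : ℕ) ∈ Finset.univ.image q →
      MvPolynomial.X l - MvPolynomial.C (α (l : Nat.Primes) + β (l : Nat.Primes)) ∈ T.m)
    (hnil : ∀ (hE' : _), ∀ (l : Nat.Primes), (l : ℕ) ∈ Finset.univ.image q → ∀ V', V' ⊆ T.W →
      MvPolynomial.X l - MvPolynomial.C (α l + β l) ∈
        nilModIdeal ((T.enlarge (T.S ∪ ↑(Finset.univ.image q)) Set.subset_union_left hE').H V' O))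
    (P : Fin r → ValuationSubring (AlgebraicClosure ℚ)) (hP : ∀ i, (P i).LiesOverPrime (q i))
    (τ : Fin r → GQ) (hτ : ∀ i, TameInertia.IsTameGenerator (P i) 2 (q i) (τ i))
    (cyc : ∀ i, GQ →* (ZMod (q i))ˣ) (hcyc : ∀ i, IsCycloMod (q i) (cyc i))
    (h : IsResidualPair D E (Finset.univ.image q) C) (U : (pairFunctor h).UniversalPoint)
    (ψ : U.R →ₐ[O] Vp.R) (hψN : mapRep (ψ : U.R →+* Vp.R) (uRep U) = uRep Vp)
    (hψα : ψ (uRoot U) = uRoot Vp)
    [Fact ((2 : ℕ).Prime)] [Fact (((2 : ℕ) : O) ∈ maximalIdeal O)]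
    (hTside : TSideAction T hV B S₀ n q α τ cyc U) :
    Nonempty (LevelModule r ψ (fun i => Matrix.trace (uRep U (τ i))) b₀ n) := by
  classical
  set Qs := Finset.univ.image q with hQs
  have hmemQ : ∀ x ∈ Qs, ∃ i, q i = x := fun x hx => by
    obtain ⟨i, -, rfl⟩ := Finset.mem_image.mp hx
    exact ⟨i, rfl⟩
  obtain ⟨ℓ, hℓ, hℓS, hℓ1, hℓm⟩ := hE
  have hE' : ∃ (ℓ : ℕ) (hℓ : ℓ.Prime) (hS : ℓ ∉ T.S ∪ ↑Qs),
      (ℓ : ZMod (T.core * prodOf T.W)) = 1 ∧
        awayX O hℓ (fun hm => hS (Or.inl hm)) - MvPolynomial.C ((ℓ : O) + 1) ∉ T.m :=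
    ⟨ℓ, hℓ, hℓS, by
      have := congrArg (ZMod.castHom (⟨prodOf Qs, by ring⟩ :
        T.core * prodOf T.W ∣ prodOf Qs * T.core * prodOf T.W) (ZMod (T.core * prodOf T.W))) hℓ1
      rwa [map_natCast, map_one] at this, hℓm⟩
  let TQ := T.enlarge (T.S ∪ ↑Qs) Set.subset_union_left hE'
  have hnil' := hnil hE'
  have hnilk : ∀ (l : Nat.Primes), (l : ℕ) ∈ Qs → ∀ V', V' ⊆ T.W →
      MvPolynomial.X l - MvPolynomial.C (α l + β l) ∈
        nilModIdeal (TQ.H V' (O ⧸ maximalIdeal O)) := fun l hl V' hV' =>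
    nilModIdeal_le_of_surjective
      (charMap (awayMonoid TQ.m) (TQ.char V') (maximalIdeal O).mkQ)
      (haveI : NeZero (TQ.level V') := ⟨TQ.level_ne_zero hV'⟩
       charMap_surjective (TQ.exact hV') _ (Submodule.mkQ_surjective _))
      (hnil' l hl V' hV')
  have ht : ∀ (l : AwayIndex T.S), ((l : Nat.Primes) : ℕ) ∈ T.S ∪ ↑Qs →
      MvPolynomial.X l - MvPolynomial.C (α (l : Nat.Primes) + β (l : Nat.Primes)) ∈ T.m :=
    fun l hl => hm l (Finset.mem_coe.mp (hl.resolve_left l.2))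
  obtain ⟨E0⟩ := T.nonempty_enlargeIso Set.subset_union_left hE' (fun x => α x + β x) ht O
    fun l hl hlS => hnil' l (Finset.mem_coe.mp (hl.resolve_left hlS))
  obtain ⟨E0k⟩ := T.nonempty_enlargeIso Set.subset_union_left hE' (fun x => α x + β x) ht
    (O ⧸ maximalIdeal O) fun l hl hlS => hnilk l (Finset.mem_coe.mp (hl.resolve_left hlS))
  have Dq : TQ.TWPrimes Qs α β :=
    { prime := fun x hx => by obtain ⟨i, rfl⟩ := hmemQ x hx; exact (hq i).1
      not_dvd := fun x hx => by obtain ⟨i, rfl⟩ := hmemQ x hx; exact (hq i).2.2.2.2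
      mem_S := fun x hx => Or.inr (Finset.mem_coe.mpr hx)
      eisenstein := ⟨ℓ, hℓ, hℓS, hℓ1, fun h' => hℓm (by
        change restrictAway O Set.subset_union_left _ ∈ T.m at h'
        rw [map_sub, ← MvPolynomial.algebraMap_eq, AlgHom.commutes, MvPolynomial.algebraMap_eq,
          awayX, restrictAway, MvPolynomial.rename_X] at h'
        exact h')⟩
      mul_sub := fun x hx => by obtain ⟨i, rfl⟩ := hmemQ x hx; exact (hroots i).1
      diff := fun x hx => by obtain ⟨i, rfl⟩ := hmemQ x hx; exact (hroots i).2.1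
      sq := fun x hx => by obtain ⟨i, rfl⟩ := hmemQ x hx; exact (hroots i).2.2.1
      det := fun x hx => by obtain ⟨i, rfl⟩ := hmemQ x hx; exact (hroots i).2.2.2
      nil := fun l hl V' hV' => hnil' l hl V' hV' }
  obtain ⟨T', hcore, -, hW, hc, hχ', hS', hmem, ⟨E1⟩, ⟨E1k⟩⟩ :=
    ALSetup.exists_twSetup Qs α β TQ hχ Dq
  have hST : T'.S = T.S := by
    rw [hS']
    ext x
    refine ⟨fun hx => hx.1.resolve_right hx.2, fun hx => ⟨Or.inl hx, fun hxQ => ?_⟩⟩
    obtain ⟨i, rfl⟩ := hmemQ x (Finset.mem_coe.mp hxQ)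
    exact (hq i).2.2.2.1 hx
  obtain ⟨Ψ, hΨaug, hΨτ⟩ := exists_diamond (O := O) n q hinj
    (fun i => ⟨(hq i).1, (hq i).2.1, (hq i).2.2.1⟩) cyc hcyc P hP τ hτ
  let Λ := Engine.TwQuot O 2 r n
  have h2O : (2 : O) ∈ maximalIdeal O := T.two
  have h2Λ : (2 : Λ) ∈ maximalIdeal Λ := by
    intro hu
    have := hu.map (Engine.twAug O 2 r n)
    rw [map_ofNat] at this
    exact h2O this
  have hMdvd : prodOf Qs ∣ T'.core := hcore ▸ dvd_mul_right _ _
  let L : T'.LiftChar (Engine.twAug O 2 r n) :=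
    ALSetup.LiftChar.ofSqrt T' (Engine.twConst O 2 r n)
      (fun o => by simp [Engine.twAug, Engine.twConst]) hχ' h2Λ hMdvd (tupleChar Ψ Qs)
      (twAug_tupleChar Ψ hΨaug Qs)
  have hVQ : V ⊆ TQ.W := hV
  have hcubeQ : TQ.CubeInjective hVQ B := (E0k.cubeInjective_iff hVQ B).mp hcube
  obtain ⟨g, e, hge, hgact⟩ := TQ.exists_twBasis hχ' E1 E1k (twAug_surjective r n) L hVQ hBV hcubeQ
    (b₀.map (E0.quotEquiv hVQ B).symm)
  let T'' := T'.lift (twAug_surjective r n) L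
  have hlevel : ∀ x ∈ Qs, x ∣ prodOf Qs := fun x hx => Finset.dvd_prod_of_mem id hx
  have hchar : ∀ u : (ZMod (T''.level V))ˣ,
      T''.char V u = charSq Ψ Qs (T''.level V) u := fun u => by
    show (tupleChar Ψ Qs * tupleChar Ψ Qs) (ZMod.unitsMap _ u) = _
    rw [MonoidHom.mul_apply, ← pow_two, tupleChar, MonoidHom.finsetProd_apply, charSq_apply,
      ← Finset.prod_pow]
    exact Finset.prod_congr rfl fun x hx => by
      rw [charOn_unitsMap Ψ (hlevel x hx) (T''.dvd_level V)]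
  have hcT : ∀ e ∈ T''.W, T''.c e = Engine.twConst O 2 r n (T.c e) * charProd Ψ Qs e := by
    intro e he
    have he' : e ∈ T'.W := he
    have hcop : e.Coprime (prodOf Qs) := (Nat.Prime.coprime_iff_not_dvd (T'.prime e he')).mpr
      fun hd => T'.notDvd e he' (hd.trans hMdvd)
    show Engine.twConst O 2 r n (T'.c e) *
      (if hh : e.Coprime (prodOf Qs) then tupleChar Ψ Qs (ZMod.unitOfCoprime e hh) else 1) = _
    rw [dif_pos hcop, congrFun hc e, tupleChar, MonoidHom.finsetProd_apply, charProd]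
    congr 1
    refine Finset.prod_congr rfl fun x hx => ?_
    have hcx : e.Coprime x := hcop.coprime_dvd_right (hlevel x hx)
    rw [charOn, dif_pos (hlevel x hx), charAt, dif_pos hcx, MonoidHom.comp_apply]
    congr 1
    exact Units.ext (by simp [ZMod.unitsMap_def])
  have haug : ∀ o : O, Engine.twAug O 2 r n (Engine.twConst O 2 r n o) = o := fun o => by
    simp [Engine.twAug, Engine.twConst]
  have hmT : ∀ (l : AwayIndex T''.S) (hl : ((l : Nat.Primes) : ℕ) ∉ T.S),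
      ((l : Nat.Primes) : ℕ) ∉ Qs → ∀ t : O,
        MvPolynomial.X (⟨l.1, hl⟩ : AwayIndex T.S) - MvPolynomial.C t ∈ T.m →
          MvPolynomial.X l - MvPolynomial.C (Engine.twConst O 2 r n t) ∈ T''.m := by
    intro l hl hlQ t htm
    show MvPolynomial.map (Engine.twAug O 2 r n) _ ∈ T'.m
    have hlU : ((l : Nat.Primes) : ℕ) ∉ TQ.S :=
      fun h' => h'.elim hl fun h'' => hlQ (Finset.mem_coe.mp h'')
    rw [map_sub, MvPolynomial.map_X, MvPolynomial.map_C, haug, hmem, map_sub, relaxHom,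
      MvPolynomial.aeval_X, dif_neg hlU, MvPolynomial.aeval_C, Ideal.mem_comap]
    show restrictAway O Set.subset_union_left _ ∈ T.m
    rw [map_sub, restrictAway, MvPolynomial.rename_X, AlgHom.commutes,
      MvPolynomial.algebraMap_eq]
    exact htm
  have hmQ : ∀ (l : AwayIndex T''.S), ((l : Nat.Primes) : ℕ) ∈ Qs →
      MvPolynomial.X l - MvPolynomial.C (Engine.twConst O 2 r n (α (l : Nat.Primes))) ∈ T''.m := by
    intro l hlQ
    show MvPolynomial.map (Engine.twAug O 2 r n) _ ∈ T'.m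
    rw [map_sub, MvPolynomial.map_X, MvPolynomial.map_C, haug, hmem, map_sub, relaxHom,
      MvPolynomial.aeval_X,
      dif_pos (show ((l : Nat.Primes) : ℕ) ∈ TQ.S from Or.inr (Finset.mem_coe.mpr hlQ)), MvPolynomial.aeval_C,
      MvPolynomial.algebraMap_eq, sub_self]
    exact zero_mem _
  obtain ⟨ρ, hρO, hρtr, hρα, hρtame⟩ := hTside Ψ hΨaug hΨτ T'' (hVQ.trans E1.subW) hcore hW hST
    rfl hchar hcT hmT hmQ (Module.Free.of_basis e)
  let gT : T''.NewQuot Λ (hVQ.trans E1.subW) B →ₛₗ[Engine.twAug O 2 r n] T.NewQuot O hV B :=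
    (E0.quotEquiv hVQ B).toLinearMap.comp g
  have hgT : ∀ (l : ℕ) (hl : l.Prime) (hlS : l ∉ T''.S) (hlT : l ∉ T.S) (hlQ : l ∉ Qs) x,
      gT (T''.newAct Λ (hVQ.trans E1.subW) B (awayX Λ hl hlS) x) =
        T.newAct O hV B (awayX O hl hlT) (gT x) := by
    intro l hl hlS hlT hlQ x
    have hlU : l ∉ TQ.S := fun h' => h'.elim hlT fun h'' => hlQ (Finset.mem_coe.mp h'')
    have h1 := hgact (awayX Λ hl hlU) x
    rw [awayX, restrictAway, MvPolynomial.rename_X, MvPolynomial.map_X] at h1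
    have h2 := E0.quotEquiv_newAct hVQ B (awayX O hl hlU) (g x)
    rw [awayX, restrictAway, MvPolynomial.rename_X] at h2
    exact (congrArg (E0.quotEquiv hVQ B) h1).trans h2
  have h2q : (2 : ℕ) ∉ Qs := fun h' => by
    obtain ⟨i, hi⟩ := hmemQ 2 h'
    exact (hq i).2.1 hi
  have h2S'' : (2 : ℕ) ∉ T''.S := fun h' => h2S (hST ▸ h')
  have hc2 : IsUnit (charProd Ψ Qs 2) := by
    refine IsLocalRing.notMem_maximalIdeal.mp fun hm' => ?_
    have := map_mem_maximalIdeal (twAug_surjective (O := O) r n) hm'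
    rw [twAug_charProd Ψ hΨaug] at this
    exact this isUnit_one
  refine Pair.nonempty_levelModule Vp U hspan ψ hψN hψα _ b₀ n gT e (fun j => ?_) ρ hρO
    (S₀ ∪ Qs ∪ {2}) (fun σ hσ x => ?_)
    (Ring.inverse (charProd Ψ Qs 2) •
      T''.newAct Λ (hVQ.trans E1.subW) B (awayX Λ Nat.prime_two h2S''))
    (T.newAct O hV B (awayX O Nat.prime_two h2S)) (fun x => ?_) (fun x => ?_) hMα hρtame
  · show (E0.quotEquiv hVQ B) (g (e j)) = _
    rw [hge, Module.Basis.map_apply, LinearEquiv.apply_symm_apply]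
  · obtain ⟨l, hl, hlS, A, hA, hσA⟩ := hσ
    simp only [Finset.mem_union, Finset.mem_singleton, not_or] at hlS
    have hlT : l ∉ T.S := fun h' => hlS.1.1 (Finset.mem_coe.mp (hS₀ h'))
    have hlS'' : l ∉ T''.S := fun h' => hlT (hST ▸ h')
    rw [hMtr l hl hlT hlS.1.1 A hA σ hσA, ← hgT l hl hlS'' hlT hlS.1.2,
      ← hρtr l hl hlS'' hlS.1.1 hlS.1.2 A hA σ hσA, LinearMap.map_smulₛₗ,
      twAug_charProd Ψ hΨaug, one_smul]
  · rw [LinearMap.smul_apply, LinearMap.map_smulₛₗ, hgT 2 Nat.prime_two h2S'' h2S h2q]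
    have h1 : Engine.twAug O 2 r n (Ring.inverse (charProd Ψ Qs 2)) = 1 := by
      have h' := congrArg (Engine.twAug O 2 r n) (Ring.inverse_mul_cancel _ hc2)
      rwa [map_mul, map_one, twAug_charProd Ψ hΨaug, mul_one] at h'
    rw [h1, one_smul]
  · rw [LinearMap.smul_apply, ← hρα h2S'']
    exact ((smul_smul _ _ _).trans
      ((congrArg (· • _) (Ring.inverse_mul_cancel _ hc2)).trans (one_smul Λ _))).symm

end Fermat.Agent.TwoAdic
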