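import Fermat.Agent.TwoAdic.Selmer.Pattern

/-!
# Primes for the auxiliary levels

Primes for the auxiliary levels: order-three Frobenius with prescribed residue class one, residual
frames at such Frobenius elements, and lifts of their eigenvalues.
-/

set_option autoImplicit false

noncomputable section

open GaloisRep Fermat.Agent.DefRing Fermat.Agent.TameInertia
open IsLocalRing (residue residue_surjective residue_eq_zero_iff notMem_maximalIdeal)

namespace Fermat.Agent.TwoAdic

local notation "Ω" => AlgebraicClosure ℚ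

variable {k : Type} [Field k] [CharP k 2] {D : ℕ} {r : MRep k}

/-- Order-three primes congruent to one modulo any number. -/
theorem exists_orderThree_one_mod (hr : IsDihedralResidual D r) (hc : IsCont r) (hD : 0 < D)
    (m : ℕ) [NeZero m] (X : Finset ℕ) :
    ∃ ℓ : ℕ, ℓ.Prime ∧ ℓ ∉ X ∧ (ℓ : ZMod m) = 1 ∧
      ∀ P : ValuationSubring Ω, P.LiesOverPrime ℓ → ∀ φ : GQ, P.IsFrobeniusAt φ ℓ →
        (r φ).trace = 1 := by
  classical
  have : Algebra.IsAlgebraic ℚ Ω := AlgebraicClosure.isAlgebraic ℚ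
  obtain ⟨x, y, hx, hy, hxy⟩ := Selmer.exists_noncommute hr hD
  set ν := x * y * x⁻¹ * y⁻¹ with hν
  have hνT : ¬ Selmer.IsTransp r ν := by
    rw [Selmer.transp_iff hr, not_not, hν]
    exact Selmer.commutator_sqrt (a := -(D : ℤ)) (by rw [Selmer.rootNeg_sq]; push_cast; rfl)
  have hν1 : r ν ≠ 1 := fun h => hxy (by
    have h2 : r (x * y) = r ν * r (y * x) := by
      rw [← map_mul, hν]; congr 1; group
    rw [h, one_mul, map_mul, map_mul] at h2
    exact h2)
  have : NeZero (m : Ω) := ⟨Nat.cast_ne_zero.2 (NeZero.ne _)⟩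
  obtain ⟨ζ, hζ⟩ := HasEnoughRootsOfUnity.exists_primitiveRoot Ω m
  obtain ⟨F, hF, hlev⟩ := Selmer.exists_level hc
  let G : IntermediateField ℚ Ω := IntermediateField.adjoin ℚ {ζ}
  have : FiniteDimensional ℚ G :=
    IntermediateField.adjoin.finiteDimensional (Algebra.IsIntegral.isIntegral ζ)
  have : FiniteDimensional ℚ (F ⊔ G : IntermediateField ℚ Ω) :=
    IntermediateField.finiteDimensional_sup F G
  obtain ⟨q, hq, hqX, P, hP, φ, hφ, hag⟩ := Fermat.Agent.Chebotarev.exists_isFrobeniusAt_eqOn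
    (F ⊔ G) ν (X ∪ D.primeFactors ∪ m.primeFactors)
  simp only [Finset.mem_union, not_or, Nat.mem_primeFactors] at hqX
  have hqD : ¬ q ∣ D := fun h => hqX.1.2 ⟨hq, h, hD.ne'⟩
  have hqm : ¬ q ∣ m := fun h => hqX.2 ⟨hq, h, NeZero.ne m⟩
  have hrφ : r φ = r ν := by
    have h : r (ν⁻¹ * φ) = 1 := hlev _ (by
      rw [IntermediateField.mem_fixingSubgroup_iff]
      intro z hz
      rw [AlgEquiv.mul_apply, hag z ((le_sup_left : F ≤ F ⊔ G) hz), ← AlgEquiv.mul_apply,
        inv_mul_cancel, AlgEquiv.one_apply])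
    calc r φ = r ν * r (ν⁻¹ * φ) := by rw [← map_mul, mul_inv_cancel_left]
      _ = r ν := by rw [h, mul_one]
  refine ⟨q, hq, hqX.1.1, ?_, fun P' hP' φ' hφ' => ?_⟩
  · have h1 := hag ζ ((le_sup_right : G ≤ F ⊔ G) (IntermediateField.mem_adjoin_simple_self ℚ ζ))
    rw [hν, Selmer.commutator_root hζ, frobenius_root_of_unity hq hP hφ hqm hζ.pow_eq_one] at h1
    have h2 := modEq_of_pow_eq hζ (NeZero.ne _) (h1.trans (pow_one ζ).symm)
    rwa [← ZMod.natCast_eq_natCast_iff, Nat.cast_one] at h2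
  · obtain ⟨g, rfl⟩ := Fermat.Agent.Frobenius.exists_smul_eq_of_liesOverPrime_qbar hq hP hP'
    have hτ := Fermat.Agent.Frobenius.isFrobeniusAt_inv_mul_mem_inertia
      (Fermat.Agent.Frobenius.isFrobeniusAt_conj hφ g) hφ'
    have h1 := hr.unramified q hq hqD _ hP' _ hτ
    have h2 : r φ' = r g * r φ * r g⁻¹ := by
      calc r φ' = r (g * φ * g⁻¹) * r ((g * φ * g⁻¹)⁻¹ * φ') := by
            rw [← map_mul, mul_inv_cancel_left]
        _ = r g * r φ * r g⁻¹ := by rw [h1, mul_one, map_mul, map_mul]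
    rw [h2, Matrix.trace_mul_cycle, Selmer.r_inv_mul, one_mul, hrφ]
    exact Selmer.trace_eq_one hr hD hνT hν1

omit [CharP k 2] in
/-- An eigenframe for a matrix of trace and determinant one, given a cube root of unity. -/
theorem exists_frame_of_trace_one [CharP k 2] (hz : ∃ z : k, z * z + z + 1 = 0)
    (M : Matrix (Fin 2) (Fin 2) k) (htr : M.trace = 1) (hdet : M.det = 1) :
    ∃ (g : (Matrix (Fin 2) (Fin 2) k)ˣ) (a b : k), a ≠ b ∧ a + b = 1 ∧ a * b = 1 ∧
      M * g.1 = g.1 * Matrix.diagonal ![a, b] := by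
  have h2 : (2 : k) = 0 := CharTwo.two_eq_zero
  rw [Matrix.trace_fin_two] at htr
  rw [Matrix.det_fin_two] at hdet
  have hne : ∀ a b : k, a + b = 1 → a ≠ b := fun a b h he => by
    subst he
    exact one_ne_zero (α := k) (by linear_combination a * h2 - h)
  by_cases h01 : M 0 1 = 0
  · have hab : M 0 0 * M 1 1 = 1 := by linear_combination hdet + M 1 0 * h01
    let g : Matrix (Fin 2) (Fin 2) k := !![M 0 0 - M 1 1, 0; M 1 0, 1]
    have hg : IsUnit g.det := by
      rw [Matrix.det_fin_two_of, mul_one, zero_mul, sub_zero, isUnit_iff_ne_zero, sub_ne_zero]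
      exact hne _ _ htr
    refine ⟨Matrix.nonsingInvUnit g hg, M 0 0, M 1 1, hne _ _ htr, htr, hab, ?_⟩
    show M * g = g * _
    ext i j
    fin_cases i <;> fin_cases j <;> simp [g, Matrix.mul_apply, h01] <;> ring
  · obtain ⟨z, hz⟩ := hz
    have hab : z * (z + 1) = 1 := by linear_combination hz - h2
    have hsum : z + (z + 1) = 1 := by linear_combination z * h2
    let g : Matrix (Fin 2) (Fin 2) k := !![M 0 1, M 0 1; z - M 0 0, (z + 1) - M 0 0]
    have hg : IsUnit g.det := by
      rw [Matrix.det_fin_two_of, isUnit_iff_ne_zero,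
        show M 0 1 * (z + 1 - M 0 0) - M 0 1 * (z - M 0 0) = M 0 1 by ring]
      exact h01
    refine ⟨Matrix.nonsingInvUnit g hg, z, z + 1, hne _ _ hsum, hsum, hab, ?_⟩
    show M * g = g * _
    have key : ∀ w : k, w * w + w + 1 = 0 →
        M 1 0 * M 0 1 + M 1 1 * (w - M 0 0) = (w - M 0 0) * w := fun w hw => by
      linear_combination w * htr - hdet - hw + w * h2
    have hz' : (z + 1) * (z + 1) + (z + 1) + 1 = 0 := by
      linear_combination hz + (z + 1) * h2
    ext i j
    fin_cases i <;> fin_cases j <;> simp [g, Matrix.mul_apply]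
    · ring
    · ring
    · exact key z hz
    · exact key (z + 1) hz'

/-- Lifts of two distinct eigenvalues with product one at a prime congruent to one. -/
theorem exists_roots_lift {O : Type} [CommRing O] [IsLocalRing O]
    [CharP (IsLocalRing.ResidueField O) 2] {a b : IsLocalRing.ResidueField O} (hne : a ≠ b)
    (hsum : a + b = 1) (hprod : a * b = 1) {q : ℕ} (hq : ¬ 2 ∣ q) :
    ∃ α β : O, residue O α = a ∧ residue O β = b ∧
      α * β - (q : O) ∈ IsLocalRing.maximalIdeal O ∧ IsUnit (α - β) ∧ IsUnit (α * α - 1) ∧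
      IsUnit (((q : O) + 1) * ((q : O) + 1) - (α + β) * (α + β)) := by
  have h2 : (2 : IsLocalRing.ResidueField O) = 0 := CharTwo.two_eq_zero
  have hq1 : (q : IsLocalRing.ResidueField O) = 1 := by
    obtain ⟨m, rfl⟩ : ∃ m, q = 2 * m + 1 := ⟨q / 2, by omega⟩
    rw [Nat.cast_add, Nat.cast_mul, Nat.cast_ofNat, h2, zero_mul, zero_add, Nat.cast_one]
  obtain ⟨α, rfl⟩ := residue_surjective a
  obtain ⟨β, rfl⟩ := residue_surjective b
  refine ⟨α, β, rfl, rfl, ?_, ?_, ?_, ?_⟩
  · rw [← residue_eq_zero_iff, map_sub, map_mul, hprod, map_natCast, hq1, sub_self]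
  · rw [← notMem_maximalIdeal, ← residue_eq_zero_iff, map_sub, sub_eq_zero]
    exact hne
  · rw [← notMem_maximalIdeal, ← residue_eq_zero_iff, map_sub, map_mul, map_one, sub_eq_zero]
    intro h
    refine hne ?_
    calc residue O α = residue O α * (residue O α * residue O β) := by rw [hprod, mul_one]
      _ = residue O β := by rw [← mul_assoc, h, one_mul]
  · rw [← notMem_maximalIdeal, ← residue_eq_zero_iff]
    simp only [map_sub, map_mul, map_add, map_natCast, map_one, hq1, hsum]
    intro h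
    exact one_ne_zero (α := IsLocalRing.ResidueField O) (by linear_combination -h + 2 * h2)

end Fermat.Agent.TwoAdic
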