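import Fermat.Agent.DefRing.MatrixRep
import Fermat.Agent.TameInertia.Frobenius
import Fermat.Agent.BigImage.Unramified
import Fermat.Agent.FreyReducible.Places
import Fermat.Agent.MultRed.Galois
import Fermat.Prelude.Def_EllipticCurve_FrobeniusTrace

/-!
# Elementary facts for the dihedral residual representation in characteristic `2`

Two by two matrices of trace `0` and determinant `1`; Frobenius at `2` and inertia at an odd prime
dividing `D` move a square root of `-D`.
-/

set_option autoImplicit false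

namespace Fermat.Agent.TwoAdic

section Matrices

variable {k : Type*} [Field k] [CharP k 2]

theorem two_eq_zero_of_charP : (2 : k) = 0 := CharTwo.two_eq_zero

theorem mul_self_eq_one {c : Matrix (Fin 2) (Fin 2) k} (ht : c.trace = 0) (hd : c.det = 1) :
    c * c = 1 := by
  rw [Matrix.trace_fin_two] at ht
  rw [Matrix.det_fin_two] at hd
  have h11 : c 1 1 = c 0 0 := by linear_combination ht - (two_eq_zero_of_charP (k := k)) * c 0 0
  rw [h11] at hd
  ext i j
  fin_cases i <;> fin_cases j <;> simp [Matrix.mul_apply, Fin.sum_univ_two, h11]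
  · linear_combination hd + (two_eq_zero_of_charP (k := k)) * (c 0 1 * c 1 0)
  · linear_combination (two_eq_zero_of_charP (k := k)) * (c 0 0 * c 0 1)
  · linear_combination (two_eq_zero_of_charP (k := k)) * (c 0 0 * c 1 0)
  · linear_combination hd + (two_eq_zero_of_charP (k := k)) * (c 0 1 * c 1 0)

theorem trace_eq_zero_of_mul_self {a : Matrix (Fin 2) (Fin 2) k} (ha : a * a = 1)
    (hd : a.det = 1) : a.trace = 0 := by
  by_contra h
  have h1 : a.trace • a = 0 := by
    ext i j
    have e := congrFun (congrFun ha i) j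
    rw [Matrix.det_fin_two] at hd
    simp only [Matrix.mul_apply, Fin.sum_univ_two] at e
    rw [Matrix.smul_apply, smul_eq_mul, Matrix.trace_fin_two, Matrix.zero_apply]
    fin_cases i <;> fin_cases j <;> simp [-mul_eq_zero] at e ⊢
    · linear_combination e + hd + two_eq_zero_of_charP (k := k)
    · linear_combination e
    · linear_combination e
    · linear_combination e + hd + two_eq_zero_of_charP (k := k)
  rcases smul_eq_zero.mp h1 with h2 | h2
  · exact h h2
  · rw [h2] at h; exact h (by simp)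

/-- A matrix commuting with a non-trivial unipotent one has trace zero. -/
theorem trace_eq_zero_of_commute {a c : Matrix (Fin 2) (Fin 2) k} (ht : a.trace = 0)
    (hd : a.det = 1) (hne : a ≠ 1) (hc : c * a = a * c) : c.trace = 0 := by
  rw [Matrix.trace_fin_two] at ht ⊢
  rw [Matrix.det_fin_two] at hd
  have h11 : a 1 1 = a 0 0 := by linear_combination ht - (two_eq_zero_of_charP (k := k)) * a 0 0
  have e01 := congrFun (congrFun hc 0) 1
  have e10 := congrFun (congrFun hc 1) 0
  simp only [Matrix.mul_apply, Fin.sum_univ_two, h11] at e01 e10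
  by_contra hne'
  have hsum : ∀ y : k, (c 0 0 - c 1 1) * y = 0 → y = 0 := fun y hy => by
    rcases mul_eq_zero.mp hy with h | h
    · exact absurd (by linear_combination h + (two_eq_zero_of_charP (k := k)) * c 1 1) hne'
    · exact h
  have h01 : a 0 1 = 0 := hsum _ (by linear_combination e01)
  have h10 : a 1 0 = 0 := hsum _ (by linear_combination -e10)
  rw [h11, h01, h10] at hd
  have h00 : a 0 0 = 1 := by
    have : (a 0 0 - 1) ^ 2 = 0 := by
      linear_combination hd + (two_eq_zero_of_charP (k := k)) * (1 - a 0 0)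
    exact sub_eq_zero.mp (pow_eq_zero_iff two_ne_zero |>.mp this)
  exact hne (Matrix.ext fun i j => by
    fin_cases i <;> fin_cases j <;> simp [h00, h01, h10, h11])

/-- Commuting unipotent matrices satisfy `(A - 1) (B - 1) = 0`. -/
theorem sub_one_mul_sub_one {a b : Matrix (Fin 2) (Fin 2) k} (ha : a.trace = 0) (ha' : a.det = 1)
    (hb : b.trace = 0) (hb' : b.det = 1) (hab : a * b = b * a) : (a - 1) * (b - 1) = 0 := by
  rw [Matrix.trace_fin_two] at ha hb
  rw [Matrix.det_fin_two] at ha' hb'
  have h2 := two_eq_zero_of_charP (k := k)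
  have ha11 : a 1 1 = a 0 0 := by linear_combination ha - h2 * a 0 0
  have hb11 : b 1 1 = b 0 0 := by linear_combination hb - h2 * b 0 0
  rw [ha11] at ha'
  rw [hb11] at hb'
  have hcross : a 0 1 * b 1 0 = b 0 1 * a 1 0 := by
    have := congrFun (congrFun hab 0) 0
    simp only [Matrix.mul_apply, Fin.sum_univ_two] at this
    linear_combination this
  set x := a 0 0 - 1
  set y := b 0 0 - 1
  have hx : x * x = a 0 1 * a 1 0 := by
    linear_combination ha' + h2 * (1 - a 0 0)
  have hy : y * y = b 0 1 * b 1 0 := by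
    linear_combination hb' + h2 * (1 - b 0 0)
  have e1 : x * y + a 0 1 * b 1 0 = 0 := by
    refine pow_eq_zero_iff two_ne_zero |>.mp ?_
    linear_combination y * y * hx + a 0 1 * a 1 0 * hy - a 0 1 * b 1 0 * hcross +
      h2 * (a 0 1 * b 1 0 * x * y + a 0 1 * a 0 1 * b 1 0 * b 1 0)
  have e2 : x * b 0 1 + a 0 1 * y = 0 := by
    refine pow_eq_zero_iff two_ne_zero |>.mp ?_
    linear_combination b 0 1 * b 0 1 * hx + a 0 1 * a 0 1 * hy - a 0 1 * b 0 1 * hcross +
      h2 * (x * b 0 1 * a 0 1 * y + a 0 1 * a 0 1 * b 0 1 * b 1 0)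
  have e3 : a 1 0 * y + x * b 1 0 = 0 := by
    refine pow_eq_zero_iff two_ne_zero |>.mp ?_
    linear_combination b 1 0 * b 1 0 * hx + a 1 0 * a 1 0 * hy + a 1 0 * b 1 0 * hcross +
      h2 * (a 1 0 * y * x * b 1 0 + a 1 0 * a 1 0 * b 0 1 * b 1 0)
  ext i j
  fin_cases i <;> fin_cases j <;>
    simp [Matrix.mul_apply, Fin.sum_univ_two, ha11, hb11]
  · exact e1
  · exact e2
  · exact e3
  · linear_combination e1 - hcross

end Matrices

section Galois

open Fermat.Agent.DefRing

local notation "Ω" => AlgebraicClosure ℚ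

/-- Frobenius at `2` moves `√-D` when `D ≡ 3 (mod 8)`. -/
theorem frobenius_two_moves {D : ℕ} (hD : D % 8 = 3) {P : ValuationSubring Ω}
    (hP : P.LiesOverPrime 2) {φ : GQ} (hφ : P.IsFrobeniusAt φ 2) {x : Ω}
    (hx : x ^ 2 = -(D : Ω)) : φ x ≠ x := by
  intro hfix
  obtain ⟨c, hc⟩ : ∃ c : ℕ, D + 1 = 4 * c := ⟨(D + 1) / 4, by omega⟩
  have hc2 : ¬ 2 ∣ c := by omega
  set y : Ω := (1 + x) / 2 with hy
  have hcΩ : (D : Ω) + 1 = 4 * (c : Ω) := by exact_mod_cast congrArg (Nat.cast : ℕ → Ω) hc
  have hyy : y ^ 2 - y + (c : Ω) = 0 := by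
    rw [hy]
    linear_combination (1 / 4 : Ω) * hx - (1 / 4 : Ω) * hcΩ
  have hmem : y ∈ P := by
    rw [← P.valuation_le_one_iff]
    by_contra hgt
    push Not at hgt
    have h1 : P.valuation (y - (c : Ω)) = P.valuation y ^ 2 := by
      rw [← map_pow, show y - (c : Ω) = y ^ 2 by linear_combination -hyy]
    have h2 : P.valuation (y - (c : Ω)) ≤ P.valuation y := by
      refine (P.valuation.map_sub _ _).trans (max_le le_rfl ?_)
      exact ((P.valuation_le_one_iff _).mpr (natCast_mem P.toSubring c)).trans hgt.le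
    rw [h1, pow_two] at h2
    exact absurd h2 (not_le.mpr (lt_mul_of_one_lt_left (zero_lt_one.trans hgt) hgt))
  have hnon := TameInertia.frobenius_sub_pow_mem hφ hmem
  have hyfix : φ y = y := by
    rw [hy, map_div₀, map_add, map_one, hfix, map_ofNat]
  rw [hyfix, show y - y ^ 2 = (c : Ω) by linear_combination -hyy,
    ValuationSubring.mem_nonunits_iff,
    FreyReducible.valuation_natCast_eq_one Nat.prime_two hP hc2] at hnon
  exact lt_irrefl _ hnon

/-- Inertia at an odd prime exactly dividing `D` moves `√-D`. -/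
theorem exists_inertia_moves {D ℓ : ℕ} (hℓ : ℓ.Prime) (hℓD : ℓ ∣ D) (hsq : Squarefree D)
    {P : ValuationSubring Ω} (hP : P.LiesOverPrime ℓ) {x : Ω} (hx : x ^ 2 = -(D : Ω)) :
    ∃ τ ∈ P.inertiaSubgroupIn ℚ, τ x ≠ x := by
  by_contra! hall
  obtain ⟨m, rfl⟩ := hℓD
  have hm : ¬ ℓ ∣ m := fun h =>
    Nat.squarefree_iff_prime_squarefree.1 hsq ℓ hℓ (mul_dvd_mul_left ℓ h)
  have hD0 : ((ℓ * m : ℕ) : Ω) ≠ 0 := Nat.cast_ne_zero.2 hsq.ne_zero
  have hx0 : x ≠ 0 := fun h => by
    rw [h] at hx
    exact hD0 (by linear_combination hx)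
  obtain ⟨k, hk⟩ := BigImage.exists_valuation_eq_zpow_of_stable hℓ hP
    (S := ({x, -x} : Set Ω)) (Set.toFinite _)
    (fun g z hz => by
      have h1 : g x = x ∨ g x = -x := by
        refine eq_or_eq_neg_of_sq_eq_sq _ _ ?_
        rw [← map_pow, hx, map_neg, map_natCast]
      rcases hz with rfl | rfl
      · exact h1
      · rcases h1 with h | h <;> simp [h])
    (fun σ hσ z hz => by
      rcases hz with rfl | rfl
      · exact hall σ hσ
      · rw [map_neg, hall σ hσ])
    (IntermediateField.subset_adjoin ℚ _ (Or.inl rfl)) hx0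
  have hv := congrArg P.valuation hx
  rw [Valuation.map_neg, Nat.cast_mul, map_mul, map_pow,
    FreyReducible.valuation_natCast_eq_one hℓ hP hm, mul_one, hk, ← zpow_natCast, ← zpow_mul] at hv
  have hinj := zpow_right_injective₀ (MultRed.vq_pos (A := P) hℓ) (MultRed.vq_lt_one hP).ne
  have h1 : k * ((2 : ℕ) : ℤ) = 1 := hinj (by simpa using hv)
  omega

end Galois

end Fermat.Agent.TwoAdic
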