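import Fermat.Agent.TwoAdic.TopData
import Fermat.Agent.TwoAdic.TopPrimes
import Fermat.Agent.TwoAdic.Blueprint.Selmer
import Fermat.Agent.TameInertia.Presentation

/-!
# The top step

The top step assembled: from the key lemma, the T side at all Taylor–Wiles levels, two generators
and the count, the ring of pairs at the auxiliary level is a complete intersection and the new
quotient is free of rank two over it.
-/

set_option autoImplicit false

open IsLocalRing GaloisRep Fermat.Agent.DefRing Fermat.Agent.Deform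

namespace Fermat.Agent.TwoAdic

open HeckeJ0 LevelRaising HeckeModule

attribute [local instance] ALSetup.isPrime

variable {O : Type} [CommRing O] [IsDomain O] [IsDiscreteValuationRing O]
  [IsAdicComplete (maximalIdeal O) O] [Finite (ResidueField O)] [CharP (ResidueField O) 2]

omit [IsAdicComplete (maximalIdeal O) O] [Finite (ResidueField O)] [CharP (ResidueField O) 2] in
/-- Taylor–Wiles patterns separate the indices. -/
theorem injective_of_patterns (E : LiftData) {D : NormalData O} {f : ℕ → ℕ}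
    (hf : ∀ i ∈ E.D.primeFactors.erase E.ℓ₀,
      HasPattern D (f i) E.D.primeFactors (twPattern E i))
    {i j : ℕ} (hi : i ∈ E.D.primeFactors.erase E.ℓ₀) (hj : j ∈ E.D.primeFactors.erase E.ℓ₀)
    (h : f i = f j) : i = j := by
  by_contra hne
  obtain ⟨hi0, hiD⟩ := Finset.mem_erase.mp hi
  have h1 := (hf i hi).2.2.1 i hiD
  have h2 := (hf j hj).2.2.1 i hiD
  rw [h, h2] at h1
  simp only [twPattern, if_neg (show ¬ (i = j ∨ i = E.ℓ₀) from by tauto), true_or, if_true] at h1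
  norm_num at h1

omit [IsAdicComplete (maximalIdeal O) O] in
/-- Tuples of Taylor–Wiles primes of any level, avoiding a finite set. -/
theorem exists_tuple {E : LiftData} {D : NormalData O}
    (hr : IsDihedralResidual E.D D.rbar) (hc : IsCont D.rbar) (m : ℕ) (X : Finset ℕ) :
    ∃ f : ℕ → ℕ, ∀ i ∈ E.D.primeFactors.erase E.ℓ₀,
      HasPattern D (f i) E.D.primeFactors (twPattern E i) ∧ f i ∉ X ∧
        2 ^ (m + 1) ∣ f i - 1 := by
  classical
  have hD0 : E.D ≠ 0 := by have := E.mod_eight; omega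
  have hodd : 2 ∉ E.D.primeFactors := fun h => by
    have := Nat.dvd_of_mem_primeFactors h
    have := E.mod_eight
    omega
  have hex : ∀ i ∈ E.D.primeFactors.erase E.ℓ₀, ∃ q,
      HasPattern D q E.D.primeFactors (twPattern E i) ∧ q ∉ X ∧ 2 ^ (m + 1) ∣ q - 1 := by
    intro i hi
    obtain ⟨hi0, hiD⟩ := Finset.mem_erase.mp hi
    have hℓD : E.ℓ₀ ∈ E.D.primeFactors := Nat.mem_primeFactors.mpr ⟨E.prime_ℓ₀, E.dvd_ℓ₀, hD0⟩
    have hprod : ∏ ℓ ∈ E.D.primeFactors, twPattern E i ℓ = 1 := by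
      rw [← Finset.mul_prod_erase _ _ hiD, ← Finset.mul_prod_erase _ _
        (Finset.mem_erase.mpr ⟨Ne.symm hi0, hℓD⟩), Finset.prod_eq_one fun x hx => ?_]
      · simp [twPattern]
      · obtain ⟨hx1, hx2⟩ := Finset.mem_erase.mp hx
        obtain ⟨hx2, -⟩ := Finset.mem_erase.mp hx2
        simp [twPattern, hx1, hx2]
    obtain ⟨q, hqX, hqn, hq⟩ := exists_hasPattern (E := E) D hr hc E.D.primeFactors
      (fun ℓ hℓ => Nat.prime_of_mem_primeFactors hℓ)
      (fun ℓ hℓ hd => Nat.mem_primeFactors.mpr ⟨hℓ, hd, hD0⟩) (twPattern E i)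
      (fun ℓ _ => by unfold twPattern; split <;> simp) hprod (m + 1)
      (fun _ h => absurd h hodd) X
    exact ⟨q, hq, hqX, (Nat.modEq_iff_dvd' hq.1.one_lt.le).mp hqn.symm⟩
  choose f hf using hex
  exact ⟨fun i => if h : i ∈ E.D.primeFactors.erase E.ℓ₀ then f i h else 0, fun i hi => by
    simp only [dif_pos hi]; exact hf i hi⟩

open Pair in
/-- **The top step.** -/
theorem free_rank_two_top {D : NormalData O} {E : LiftData} {C : Set (GQ × GQ)}
    (hC : IsInertialSet C) (hr : IsDihedralResidual E.D D.rbar) (hc : IsCont D.rbar)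
    (hA : ∀ q ∈ E.aux, ∀ P : ValuationSubring (AlgebraicClosure ℚ), P.LiesOverPrime q →
      ∀ φ : GQ, P.IsFrobeniusAt φ q → (D.rbar φ).trace = 0 ∧ D.rbar φ ≠ 1)
    (hspan : Submodule.span (ResidueField O) (Set.range D.rbar) = ⊤)
    (hz : ∃ z : ResidueField O, z * z + z + 1 = 0)
    {h0 : IsResidualPair D E ∅ C} (Vp : (pairFunctor h0).UniversalPoint)
    (T : ALSetup O) (hχ : T.χ = 1) {V B : Finset ℕ} (hV : V ⊆ T.W) (hBV : B ⊆ V)
    (hcube : T.CubeInjective hV B) (S₀ : Finset ℕ) (hS₀ : T.S ⊆ ↑S₀) (h2S : 2 ∉ T.S)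
    (hmres : ∀ (l : AwayIndex T.S), ((l : Nat.Primes) : ℕ) ∉ S₀ →
      ∀ P : ValuationSubring (AlgebraicClosure ℚ), P.LiesOverPrime ((l : Nat.Primes) : ℕ) →
        ∀ φ : GQ, P.IsFrobeniusAt φ ((l : Nat.Primes) : ℕ) → ∀ o : O,
          residue O o = (D.rbar φ).trace → MvPolynomial.X l - MvPolynomial.C o ∈ T.m)
    [Module Vp.R (T.NewQuot O hV B)] [IsScalarTower O Vp.R (T.NewQuot O hV B)]
    (hMtr : ∀ (l : ℕ) (hl : l.Prime) (hlS : l ∉ T.S), l ∉ S₀ →
      ∀ A : ValuationSubring (AlgebraicClosure ℚ), A.LiesOverPrime l → ∀ σ : GQ,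
        A.IsFrobeniusAt σ l → ∀ y : T.NewQuot O hV B,
          Matrix.trace (uRep Vp σ) • y = T.newAct O hV B (awayX O hl hlS) y)
    (hMα : ∀ y : T.NewQuot O hV B, uRoot Vp • uRoot Vp • y + (2 : O) • y =
      T.newAct O hV B (awayX O Nat.prime_two h2S) (uRoot Vp • y))
    {d : ℕ} [NeZero d] (b₀ : Module.Basis (Fin d) O (T.NewQuot O hV B))
    (hkey : ∀ f : ℕ → ℕ, (∀ i ∈ E.D.primeFactors.erase E.ℓ₀,
        HasPattern D (f i) E.D.primeFactors (twPattern E i)) →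
      ∀ Q, Q = (E.D.primeFactors.erase E.ℓ₀).image f → ∀ (h : IsResidualPair D E Q C)
        (U : (pairFunctor h).UniversalPoint),
          ∃ φ : MvPowerSeries (Fin ((E.D.primeFactors.erase E.ℓ₀).card + 1)) O →ₐ[O] U.R,
            Function.Surjective φ ∧
            φ (MvPowerSeries.X (Fin.last (E.D.primeFactors.erase E.ℓ₀).card)) = uRoot U - 1 ∧
            (xIdeal O (E.D.primeFactors.erase E.ℓ₀).card).map φ = entryIdeal U ∧
            (uRoot U - 1) ^ 2 ∈ entryIdeal U)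
    [Fact ((2 : ℕ).Prime)] [Fact (((2 : ℕ) : O) ∈ maximalIdeal O)]
    (hTside : ∀ (n : ℕ) (q : Fin (E.D.primeFactors.erase E.ℓ₀).card → ℕ),
      (∀ i, (q i).Prime ∧ q i ∉ S₀ ∧ 2 ^ (n + 1) ∣ q i - 1 ∧
        ∀ P : ValuationSubring (AlgebraicClosure ℚ), P.LiesOverPrime (q i) →
          ∀ φ : GQ, P.IsFrobeniusAt φ (q i) → (D.rbar φ).trace = 1) →
      ∀ (α : ℕ → O) (P : Fin _ → ValuationSubring (AlgebraicClosure ℚ)),
        (∀ i, (P i).LiesOverPrime (q i)) → ∀ (τ : Fin _ → GQ),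
          (∀ i, TameInertia.IsTameGenerator (P i) 2 (q i) (τ i)) →
        ∀ (cyc : ∀ i, GQ →* (ZMod (q i))ˣ), (∀ i, IsCycloMod (q i) (cyc i)) →
        ∀ (h : IsResidualPair D E (Finset.univ.image q) C)
          (U : (pairFunctor h).UniversalPoint),
          TSideAction T hV B S₀ n q α τ cyc U)
    (hnil : ∀ (Qs : Finset ℕ) (hE' : _),
      (∀ x ∈ Qs, x.Prime ∧ x ∉ S₀ ∧ ∀ P : ValuationSubring (AlgebraicClosure ℚ),
        P.LiesOverPrime x → ∀ φ : GQ, P.IsFrobeniusAt φ x → (D.rbar φ).trace = 1) →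
      ∀ (l : Nat.Primes), (l : ℕ) ∈ Qs → ∀ o : O, residue O o = 1 → ∀ V', V' ⊆ T.W →
        MvPolynomial.X l - MvPolynomial.C o ∈
          nilModIdeal ((T.enlarge (T.S ∪ ↑Qs) Set.subset_union_left hE').H V' O))
    (hgen : ∃ m : Fin 2 → T.NewQuot O hV B, Submodule.span Vp.R (Set.range m) ⊔
      maximalIdeal Vp.R • (⊤ : Submodule Vp.R (T.NewQuot O hV B)) = ⊤)
    (hdim : Nat.card (ResidueField O) ^ 4 ≤ Nat.card (T.NewQuot O hV B ⧸
      entryIdeal Vp • (⊤ : Submodule Vp.R (T.NewQuot O hV B)))) :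
    IsFiniteCI O Vp.R ∧ Nonempty (Module.Basis (Fin 2) Vp.R (T.NewQuot O hV B)) ∧
      ∀ x : Vp.R, (∀ y : T.NewQuot O hV B, x • y = 0) → x = 0 := by
  classical
  set s := E.D.primeFactors.erase E.ℓ₀ with hs
  have hW0 : T.core * prodOf T.W ≠ 0 := T.level_ne_zero subset_rfl
  let X : Finset ℕ := S₀ ∪ (T.level T.W).primeFactors ∪ E.aux ∪ E.D.primeFactors ∪ {2}
  choose f hf using fun m => exists_tuple (E := E) hr hc m X
  let e : Fin s.card ≃ s := s.equivFin.symm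
  let q : ℕ → Fin s.card → ℕ := fun m i => f m (e i)
  have hinj : ∀ m, Function.Injective (q m) := fun m i j h =>
    e.injective (Subtype.ext (injective_of_patterns E (fun x hx => (hf m x hx).1) (e i).2 (e j).2 h))
  have himg : ∀ m, Finset.univ.image (q m) = s.image (f m) := fun m => by
    ext x
    simp only [Finset.mem_image, Finset.mem_univ, true_and]
    exact ⟨fun ⟨i, hi⟩ => ⟨e i, (e i).2, hi⟩, fun ⟨a, ha, hax⟩ =>
      ⟨e.symm ⟨a, ha⟩, by simp [q, hax]⟩⟩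
  have hqX : ∀ m i, (q m i).Prime ∧ q m i ∉ S₀ ∧ q m i ≠ 2 ∧ ¬ q m i ∣ E.D ∧ q m i ∉ E.aux ∧
      ¬ q m i ∣ T.level T.W ∧ 2 ^ (m + 1) ∣ q m i - 1 ∧
      ∀ P : ValuationSubring (AlgebraicClosure ℚ), P.LiesOverPrime (q m i) →
        ∀ φ : GQ, P.IsFrobeniusAt φ (q m i) → (D.rbar φ).trace = 1 := by
    intro m i
    obtain ⟨hp, hX, hdvd⟩ := hf m (e i) (e i).2
    simp only [X, Finset.mem_union, Finset.mem_singleton, not_or, Nat.mem_primeFactors] at hX
    obtain ⟨⟨⟨⟨h1, h2⟩, h3⟩, h4⟩, h5⟩ := hX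
    have hD0 : E.D ≠ 0 := by have := E.mod_eight; omega
    exact ⟨hp.1, h1, h5, fun hd => h4 ⟨hp.1, hd, hD0⟩, h3,
      fun hd => h2 ⟨hp.1, hd, hW0⟩, hdvd, hp.2.2.2⟩
  have h : ∀ m, IsResidualPair D E (Finset.univ.image (q m)) C := fun m =>
    Pair.isResidualPair E _ hC D hr hA hc
  let U := fun m => (nonempty_universal (h m)).some
  choose P φ hP hφ using fun m i =>
    Frobenius.exists_liesOverPrime_and_isFrobeniusAt_qbar (hqX m i).1
  have hframe := fun m i => exists_frame_of_trace_one hz (D.rbar (φ m i))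
    ((hqX m i).2.2.2.2.2.2.2 (P m i) (hP m i) (φ m i) (hφ m i)) (hr.det_one _)
  choose g₀ a b hab hsum hprod hdiag using hframe
  choose τ hτ using fun m i => TameInertia.exists_tameGenerator (p := 2) Nat.prime_two
    (hqX m i).1 (Ne.symm (hqX m i).2.2.1) (hP m i)
  have : ∀ m i, NeZero (q m i) := fun m i => ⟨(hqX m i).1.ne_zero⟩
  choose cyc hcyc using fun m i => exists_isCycloMod (q m i)
  refine free_rank_two_of_levels (r := s.card) h0 Vp hr q
    (fun m i => ⟨(hqX m i).1, (hqX m i).2.2.1, (hqX m i).2.2.2.1, (hqX m i).2.2.2.2.1⟩) h U P hP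
    (fun m i => ⟨φ m i, hφ m i, g₀ m i, a m i, b m i, hab m i, hdiag m i⟩) τ (fun m i => (hτ m i).1)
    (fun m => hkey (f m) (fun x hx => (hf m x hx).1) _ (himg m) (h m) (U m)) b₀ ?_ hgen hdim
  intro n m hnm ψ hψN hψα
  have hqs : ∀ i, (q m i).Prime ∧ q m i ∉ S₀ ∧ 2 ^ (n + 1) ∣ q m i - 1 ∧
      ∀ P : ValuationSubring (AlgebraicClosure ℚ), P.LiesOverPrime (q m i) →
        ∀ φ : GQ, P.IsFrobeniusAt φ (q m i) → (D.rbar φ).trace = 1 := fun i =>
    ⟨(hqX m i).1, (hqX m i).2.1,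
      (Nat.pow_dvd_pow 2 (by omega)).trans (hqX m i).2.2.2.2.2.2.1, (hqX m i).2.2.2.2.2.2.2⟩
  have hroots := fun i => exists_roots_lift (O := O) (hab m i) (hsum m i) (hprod m i)
    (q := q m i) fun hd => (hqX m i).2.2.1
      ((Nat.prime_dvd_prime_iff_eq Nat.prime_two (hqX m i).1).mp hd).symm
  choose α β hαa hβb hprod' hdiff hsq hdet using hroots
  let α' : ℕ → O := Function.extend (q m) α 0
  let β' : ℕ → O := Function.extend (q m) β 0
  have hα' : ∀ i, α' (q m i) = α i := fun i => (hinj m).extend_apply _ _ i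
  have hβ' : ∀ i, β' (q m i) = β i := fun i => (hinj m).extend_apply _ _ i
  have hsum' : ∀ i, residue O (α' (q m i) + β' (q m i)) = 1 := fun i => by
    rw [hα', hβ', map_add, hαa, hβb, hsum]
  set Qs := Finset.univ.image (q m) with hQs
  have hprodQ : prodOf Qs ≠ 0 := Finset.prod_ne_zero_iff.mpr fun x hx => by
    obtain ⟨i, -, rfl⟩ := Finset.mem_image.mp hx
    exact (hqX m i).1.ne_zero
  have : NeZero (prodOf Qs * T.core * prodOf T.W) := ⟨by rw [mul_assoc]; exact mul_ne_zero hprodQ hW0⟩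
  obtain ⟨ℓ, hℓ, hℓX, hℓ1, hℓtr⟩ := exists_orderThree_one_mod hr hc
    (by have := E.mod_eight; omega) (prodOf Qs * T.core * prodOf T.W) (S₀ ∪ Qs ∪ {2})
  simp only [Finset.mem_union, Finset.mem_singleton, not_or] at hℓX
  have hℓS : ℓ ∉ T.S ∪ ↑Qs := fun hm => hm.elim (fun h' => hℓX.1.1 (Finset.mem_coe.mp (hS₀ h')))
    fun h' => hℓX.1.2 (Finset.mem_coe.mp h')
  refine exists_levelModule_of_setup Vp hspan T hχ hV hBV hcube S₀ hS₀ hMtr h2S hMα b₀ n (q m)
    (hinj m) (fun i => ⟨(hqX m i).1, (hqX m i).2.2.1, (hqs i).2.2.1,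
      fun h' => (hqX m i).2.1 (Finset.mem_coe.mp (hS₀ h')), (hqX m i).2.2.2.2.2.1⟩)
    ⟨ℓ, hℓ, hℓS, hℓ1, fun hm => ?_⟩ α' β'
    (fun i => by simp only [hα', hβ']; exact ⟨hprod' i, hdiff i, hsq i, hdet i⟩)
    (fun l hl => ?_) (fun hE' l hl V' hV' => ?_) (P m) (hP m) (τ m) (hτ m) (cyc m) (hcyc m) (h m)
    (U m) ψ hψN hψα (hTside n (q m) hqs α' (P m) (hP m) (τ m) (hτ m) (cyc m) (hcyc m) (h m) (U m))
  · obtain ⟨A, σ, hA', hσ⟩ := Frobenius.exists_liesOverPrime_and_isFrobeniusAt_qbar hℓ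
    have h1 := hmres ⟨⟨ℓ, hℓ⟩, fun hm => hℓS (Or.inl hm)⟩ hℓX.1.1 A hA' σ hσ 1
      (by rw [map_one, hℓtr A hA' σ hσ])
    have h2 : MvPolynomial.C (ℓ : O) ∈ T.m := by
      have := sub_mem h1 hm
      rw [awayX] at this
      simpa using this
    have hℓu : IsUnit (ℓ : O) := by
      rw [← notMem_maximalIdeal, ← residue_eq_zero_iff, map_natCast]
      obtain ⟨c, rfl⟩ := hℓ.odd_of_ne_two hℓX.2
      simp [CharTwo.two_eq_zero]
    exact T.isPrime.ne_top (Ideal.eq_top_of_isUnit_mem _ h2 (hℓu.map MvPolynomial.C))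
  · obtain ⟨i, -, hi⟩ := Finset.mem_image.mp hl
    have hlp : (q m i).Prime := (hqX m i).1
    refine hmres l (hi ▸ (hqX m i).2.1) (P m i) (hi ▸ hP m i) (φ m i) (hi ▸ hφ m i) _ ?_
    rw [← hi, hsum', (hqX m i).2.2.2.2.2.2.2 (P m i) (hP m i) (φ m i) (hφ m i)]
  · refine hnil Qs hE' (fun x hx => ?_) l hl _ ?_ V' hV'
    · obtain ⟨i, -, rfl⟩ := Finset.mem_image.mp hx
      exact ⟨(hqs i).1, (hqs i).2.1, (hqs i).2.2.2⟩
    · obtain ⟨i, -, hi⟩ := Finset.mem_image.mp hl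
      rw [← hi]
      exact hsum' i

end Fermat.Agent.TwoAdic
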