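import Fermat.Agent.TwoAdic.TopEnlarge
import Fermat.Agent.TwoAdic.TSide.FieldLattice
import Fermat.Agent.Engine.TRep.ChangeRing
import Fermat.Agent.Engine.TRep.Ext
import Fermat.Agent.EigenRep.Residual
import Fermat.Agent.EigenRep.Main
import Fermat.Agent.EigenSystems.Points
import Fermat.Agent.Chebotarev.Main
import Mathlib.RingTheory.Ideal.Maximal
import Mathlib.FieldTheory.IsAlgClosed.AlgebraicClosure

/-!
# Nilpotence of the operators at adjoined primes

The operators at adjoined primes are residually the constants they should be: the hypothesis of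
the top step on nilpotence.  A prime of the Hecke polynomials above the given one and containing
what kills the lattice is an eigen system modulo two; its Galois representation has the traces of
the residual one.
-/

set_option autoImplicit false
set_option linter.unusedSectionVars false

noncomputable section

open IsLocalRing

namespace Fermat.Agent.TwoAdic

open HeckeModule EigenRep Engine.TRep HeckeJ0 LevelRaising DefRing Deform Engine

attribute [local instance] ALSetup.isPrime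

local notation "Qbar" => AlgebraicClosure ℚ

variable {O : Type} [CommRing O] [IsDomain O] [IsDiscreteValuationRing O] [CharZero O]
  [IsAdicComplete (maximalIdeal O) O]

section Kill

variable {N : ℕ} [NeZero N] {r : ℕ} [hr : Fact r.Prime] [Fact (Nat.Prime 2)]

omit [IsAdicComplete (maximalIdeal O) O] in
/-- What kills the lattice kills, after two Eisenstein elements, every class without torsion. -/
theorem eisen_sq_smul_eq_zero_of_latHom (hes : EichlerShimuraRelations N 2) (ι : ℤ_[2] →+* O)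
    (S : Finset ℕ) (hr1 : (r : ZMod N) = 1) (χ : (ZMod N)ˣ →* O) (hχ : χ = 1)
    {P : AwayPoly O (↑S : Set ℕ)} (hP : latHom (stdInputs hes) ι S P = 0)
    (u : Coh1 (scalarRep χ O)) :
    (eisen O r * (eisen O r * awayIncl O (↑S : Set ℕ) P)) • u = 0 := by
  rw [mul_smul]
  obtain ⟨c₀, rfl⟩ := toCoh_surjective _ u
  obtain ⟨c', hc'⟩ := toCoh_surjective _
    ((eisen O r * awayIncl O (↑S : Set ℕ) P) • toCoh (scalarRep χ O) c₀)
  rw [← hc']
  refine eisen_smul_eq_zero_of_fields _ hr1 c' fun K _ _ θ => ?_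
  have key : ∀ χ' : (ZMod N)ˣ →* K, χ' = 1 → ∀ v : Coh1 (scalarRep χ' K),
      MvPolynomial.map θ (eisen O r * awayIncl O (↑S : Set ℕ) P) • v = 0 := by
    rintro χ' rfl
    rw [show scalarRep (1 : (ZMod N)ˣ →* K) K = trivRep N K K from
      MonoidHom.ext fun u => LinearMap.ext fun x => by
        rw [scalarRep_apply, MonoidHom.one_apply, one_smul]; rfl]
    intro v
    rw [map_mul, eisen_map, awayIncl_map]
    exact TSide.smul_eq_zero_of_latHom_field hes (θ.comp ι) S hr1
      (latHom_map_eq_zero (stdInputs hes) θ ι S hP) v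
  have hz := (push_smul χ θ _ c₀ c' hc'.symm).trans
    (key _ (by rw [hχ]; exact MonoidHom.ext fun _ => map_one θ) _)
  obtain ⟨b, hb⟩ := (toCoh_eq_zero_iff _).mp hz
  exact ⟨b, hb⟩

end Kill

section Residual

variable [Fact (Nat.Prime 2)] [Finite (ResidueField O)]

/-- A prime containing what kills the lattice and the maximal ideal of the coefficients, above a
prime away from a larger set, contains `X_q - o` as soon as the residual traces are prescribed at
almost all primes and `o` is the prescribed trace at `q`. -/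
theorem X_sub_C_mem_of_latKernel (h2 : ((2 : ℕ) : O) ∈ maximalIdeal O) {N : ℕ} [NeZero N]
    {rbar : GQ →* Matrix (Fin 2) (Fin 2) (ResidueField O)} (hc : IsCont rbar)
    (S : Finset ℕ) (X : Finset ℕ) (Q : Ideal (AwayPoly O (↑S : Set ℕ))) [Q.IsMaximal]
    (hker : ∀ P, latHom (stdInputs (eichlerShimuraRelations (N := N) (p := 2)))
      (padicHom 2 h2) S P = 0 → P ∈ Q)
    (hmO : ∀ o ∈ maximalIdeal O, MvPolynomial.C o ∈ Q)
    (htr : ∀ (l : AwayIndex (↑S : Set ℕ)), ((l : Nat.Primes) : ℕ) ∉ X →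
      ∀ A : ValuationSubring Qbar, A.LiesOverPrime ((l : Nat.Primes) : ℕ) →
        ∀ σ : GQ, A.IsFrobeniusAt σ ((l : Nat.Primes) : ℕ) → ∀ o : O,
          residue O o = (rbar σ).trace → MvPolynomial.X l - MvPolynomial.C o ∈ Q)
    (l₀ : AwayIndex (↑S : Set ℕ)) (hl₀ : ¬ ((l₀ : Nat.Primes) : ℕ) ∣ N * 2)
    {A₀ : ValuationSubring Qbar} (hA₀ : A₀.LiesOverPrime ((l₀ : Nat.Primes) : ℕ)) {σ₀ : GQ}
    (hσ₀ : A₀.IsFrobeniusAt σ₀ ((l₀ : Nat.Primes) : ℕ)) {o : O}
    (ho : residue O o = (rbar σ₀).trace) :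
    MvPolynomial.X l₀ - MvPolynomial.C o ∈ Q := by
  classical
  set hes := eichlerShimuraRelations (N := N) (p := 2)
  set I := stdInputs hes
  set ι := padicHom 2 h2
  -- the eigen system with values in an algebraically closed field
  let K₀ := AwayPoly O (↑S : Set ℕ) ⧸ Q
  let : Field K₀ := Ideal.Quotient.field Q
  let K := AlgebraicClosure K₀
  let f : AwayPoly O (↑S : Set ℕ) →+* K := (algebraMap K₀ K).comp (Ideal.Quotient.mk Q)
  have hf : ∀ P, f P = 0 ↔ P ∈ Q := fun P => by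
    rw [RingHom.comp_apply, map_eq_zero_iff _ (algebraMap K₀ K).injective,
      Ideal.Quotient.eq_zero_iff_mem]
  let g : O →+* K := f.comp MvPolynomial.C
  have hg : ∀ x ∈ maximalIdeal O, g x = 0 := fun x hx => (hf _).mpr (hmO x hx)
  have hgl : IsLocalHom g := ⟨fun x hx => notMem_maximalIdeal.mp fun hm => hx.ne_zero (hg x hm)⟩
  let gbar : ResidueField O →+* K := Ideal.Quotient.lift _ g hg
  have hgbar : ∀ x, gbar (residue O x) = g x := fun x => rfl
  have : CharP K 2 := CharP.charP_iff_prime_eq_zero Nat.prime_two |>.mpr (by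
    rw [← map_natCast g]; exact hg _ h2)
  let φ : LatAlg I ι S →+* K := RingHom.liftOfSurjective
    (latHom I ι S : AwayPoly O (↑S : Set ℕ) →+* LatAlg I ι S) (latHom_surjective I ι S)
    ⟨f, fun P hP => RingHom.mem_ker.mpr ((hf P).mpr (hker P (RingHom.mem_ker.mp hP)))⟩
  have hφ : ∀ P, φ (latHom I ι S P) = f P := fun P =>
    RingHom.liftOfRightInverse_comp_apply _ _ _ _ P
  obtain ⟨v, hv0, hv⟩ := EigenSystems.exists_eigenvector_of_character (LatAlg I ι S)
    (fun a ha b hb => congrArg Subtype.val (mul_comm (⟨a, ha⟩ : LatAlg I ι S) ⟨b, hb⟩)) φ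
  let a : Nat.Primes → K := fun l =>
    if h : (l : ℕ) ∉ S then f (MvPolynomial.X ⟨l, h⟩) else 0
  have ha : ∀ l : AwayIndex (↑S : Set ℕ), a l = f (MvPolynomial.X l) := fun l => by
    simp only [a]
    rw [dif_pos (show ((l : Nat.Primes) : ℕ) ∉ S from l.2)]
  have hvS : v ∈ eigenSub I.model (↑S : Set ℕ) a := (mem_eigenSub I.model).mpr fun l hl => by
    have h := hv (latHom I ι S (MvPolynomial.X ⟨l, hl⟩))
    rw [hφ, ← ha] at h
    refine Eq.trans ?_ h
    congr 1
    ext i j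
    rw [Matrix.map_apply, Matrix.map_apply, latHom_X, LinearMap.toMatrix'_apply]
    rw [← AlgHom.commutes (latHom I ι S), hφ]
    show _ = g (matEnd I ι _ (Pi.single j 1) i)
    rw [matEnd_apply, Matrix.mulVec_single_one]
    show _ = g (ι (((I.model.T l) i j : ℤ) : ℤ_[2]))
    rw [map_intCast, map_intCast]
  obtain ⟨ρ, hρ, -⟩ := exists_residual_of_eigenvector I S a ⟨v, hv0, hvS⟩
  -- its traces
  have htrρ : ∀ (ℓ : ℕ) (hℓ : ℓ.Prime) (hS : ℓ ∉ S), ¬ ℓ ∣ N * 2 → ∀ A : ValuationSubring Qbar,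
      A.LiesOverPrime ℓ → ∀ σ : GQ, A.IsFrobeniusAt σ ℓ →
        LinearMap.trace K ρ.V (ρ.ρ σ) = f (MvPolynomial.X ⟨⟨ℓ, hℓ⟩, hS⟩) := by
    intro ℓ hℓ hS hd A hA σ hσ
    have h := hρ ℓ hℓ hS hd A hA σ hσ
    let b := Module.finBasisOfFinrankEq K ρ.V ρ.finrank_eq
    rw [LinearMap.trace_eq_matrix_trace K b, Matrix.trace_eq_neg_charpoly_coeff,
      LinearMap.charpoly_toMatrix, h, ← ha ⟨⟨ℓ, hℓ⟩, hS⟩]
    simp [Polynomial.coeff_X_pow, Polynomial.coeff_C]
    ring
  -- they are the residual ones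
  have hall : ∀ σ : GQ, LinearMap.trace K ρ.V (ρ.ρ σ) = gbar (rbar σ).trace := by
    intro σ
    obtain ⟨L₁, hL₁, H₁⟩ := ρ.factorsThroughFiniteLevel
    obtain ⟨L₂, hL₂, H₂⟩ := hc 1
    have := hL₁
    have := hL₂
    have : FiniteDimensional ℚ ↥(L₁ ⊔ L₂) := IntermediateField.finiteDimensional_sup L₁ L₂
    obtain ⟨ℓ, hℓ, hℓX, A, hA, τ, hτ, hτL⟩ := Fermat.Agent.Chebotarev.exists_isFrobeniusAt_eqOn
      (L₁ ⊔ L₂) σ (S ∪ X ∪ (N * 2).primeFactors)
    simp only [Finset.mem_union, not_or, Nat.mem_primeFactors, not_and] at hℓX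
    have hd : ¬ ℓ ∣ N * 2 := fun hd => hℓX.2 hℓ hd (mul_ne_zero (NeZero.ne N) two_ne_zero)
    have e₁ : ρ.ρ τ = ρ.ρ σ := by
      have h := H₁ (σ⁻¹ * τ) fun x hx => by
        rw [AlgEquiv.mul_apply, hτL x (le_sup_left (a := L₁) (b := L₂) hx)]
        exact σ.symm_apply_apply x
      rw [show τ = σ * (σ⁻¹ * τ) from (mul_inv_cancel_left σ τ).symm, map_mul, h, mul_one]
    have e₂ : (rbar τ).trace = (rbar σ).trace := by
      have h := trace_sub_mem_of_eqOn H₂ (σ := σ) (τ := τ)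
        fun x hx => hτL x (le_sup_right (a := L₁) (b := L₂) hx)
      rw [pow_one, IsLocalRing.maximalIdeal_eq_bot, Ideal.mem_bot, sub_eq_zero] at h
      exact h
    rw [← e₁, htrρ ℓ hℓ hℓX.1.1 hd A hA τ hτ, ← e₂]
    obtain ⟨x, hx⟩ := residue_surjective (R := O) (rbar τ).trace
    have h := (hf _).mpr (htr ⟨⟨ℓ, hℓ⟩, hℓX.1.1⟩ hℓX.1.2 A hA τ hτ x hx)
    rw [map_sub, sub_eq_zero] at h
    rw [h, ← hx, hgbar]
    rfl
  refine (hf _).mp ?_
  rw [map_sub, sub_eq_zero]
  refine (htrρ _ (l₀ : Nat.Primes).2 l₀.2 hl₀ A₀ hA₀ σ₀ hσ₀).symm.trans ?_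
  rw [hall, ← ho, hgbar]
  rfl

/-- **Nilpotence at adjoined primes.** -/
theorem nil_of_residualTraces [CharP (ResidueField O) 2] {D : NormalData O} (hc : IsCont D.rbar)
    (T : ALSetup O) (hχ : T.χ = 1) (S₀ : Finset ℕ) (hS₀ : T.S ⊆ ↑S₀) (h20 : 2 ∈ S₀)
    (hlev : (T.level T.W).primeFactors ⊆ S₀)
    (hmres : ∀ (l : AwayIndex T.S), ((l : Nat.Primes) : ℕ) ∉ S₀ →
      ∀ P : ValuationSubring Qbar, P.LiesOverPrime ((l : Nat.Primes) : ℕ) →
        ∀ φ : GQ, P.IsFrobeniusAt φ ((l : Nat.Primes) : ℕ) → ∀ o : O,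
          residue O o = (D.rbar φ).trace → MvPolynomial.X l - MvPolynomial.C o ∈ T.m)
    (Qs : Finset ℕ) (hE' : _)
    (hQs : ∀ x ∈ Qs, x.Prime ∧ x ∉ S₀ ∧ ∀ P : ValuationSubring Qbar,
      P.LiesOverPrime x → ∀ φ : GQ, P.IsFrobeniusAt φ x → (D.rbar φ).trace = 1)
    (l : Nat.Primes) (hl : (l : ℕ) ∈ Qs) (o : O) (ho : residue O o = 1) (V' : Finset ℕ)
    (hV' : V' ⊆ T.W) :
    MvPolynomial.X l - MvPolynomial.C o ∈
      nilModIdeal ((T.enlarge (T.S ∪ ↑Qs) Set.subset_union_left hE').H V' O) := by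
  classical
  obtain ⟨hlp, hl0, hltr⟩ := hQs _ hl
  obtain ⟨S, hS⟩ : ∃ S : Finset ℕ, (↑S : Set ℕ) = T.S :=
    ⟨(S₀.finite_toSet.subset hS₀).toFinset, Set.Finite.coe_toFinset _⟩
  set TQ := T.enlarge (T.S ∪ ↑Qs) Set.subset_union_left hE' with hTQ
  have : NeZero (TQ.level V') := ⟨TQ.level_ne_zero hV'⟩
  have hsub : (↑S : Set ℕ) ⊆ TQ.S := hS ▸ Set.subset_union_left
  let res : AwayPoly O TQ.S →+* AwayPoly O (↑S : Set ℕ) := (restrictAway O hsub).toRingHom
  have h2' : ((2 : ℕ) : O) ∈ maximalIdeal O := by exact_mod_cast T.two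
  let hes := eichlerShimuraRelations (N := TQ.level V') (p := 2)
  let lat := latHom (stdInputs hes) (padicHom 2 h2') S
  have hlS : (l : ℕ) ∉ (↑S : Set ℕ) := fun h => hl0 (Finset.mem_coe.mp (hS₀ (hS ▸ h)))
  let a : AwayPoly O (↑S : Set ℕ) := MvPolynomial.X ⟨l, hlS⟩ - MvPolynomial.C o
  let I : Ideal (AwayPoly O (↑S : Set ℕ)) := RingHom.ker lat ⊔ (maximalIdeal O).map MvPolynomial.C
  -- the relations hold on the localised classes
  obtain ⟨r, hr, hrS, hr1, hre⟩ := TQ.eisenstein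
  have : Fact r.Prime := ⟨hr⟩
  have hrV : (r : ZMod (TQ.level V')) = 1 := by
    have h := congrArg (ZMod.castHom (TQ.level_dvd hV') (ZMod (TQ.level V'))) hr1
    rwa [map_natCast, map_one] at h
  have hE : eisen O r ∈ awayMonoid TQ.m := eisen_mem_awayMonoid _ hre
  have hχ1 : TQ.char V' = 1 := MonoidHom.ext fun u => by
    show T.χ _ = 1
    rw [hχ]; rfl
  have hkillI : ∀ P ∈ I, ∀ x : TQ.H V' O,
      awayIncl O (↑S : Set ℕ) P • x ∈ maximalIdeal O • (⊤ : Submodule O (TQ.H V' O)) := by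
    intro P hP x
    obtain ⟨P₁, hP₁, P₂, hP₂, rfl⟩ := Submodule.mem_sup.mp hP
    rw [map_add, add_smul]
    refine add_mem ?_ ?_
    · have h0 : awayIncl O (↑S : Set ℕ) P₁ • x = 0 := by
        induction x using LocalizedModule.induction_on with
        | _ u s =>
          rw [LocalizedModule.smul'_mk, ← LocalizedModule.zero_mk s, LocalizedModule.mk_eq]
          refine ⟨⟨_, mul_mem hE hE⟩, ?_⟩
          rw [smul_zero, smul_zero, Submonoid.smul_def, Submonoid.smul_def, smul_comm]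
          rw [← mul_smul (eisen O r * eisen O r), mul_assoc,
            eisen_sq_smul_eq_zero_of_latHom hes _ S hrV _ hχ1 (RingHom.mem_ker.mp hP₁), smul_zero]
      rw [h0]; exact zero_mem _
    · clear hP
      induction hP₂ using Submodule.span_induction generalizing x with
      | mem z hz =>
        obtain ⟨c, hc', rfl⟩ := hz
        rw [← MvPolynomial.algebraMap_eq, AlgHom.commutes, algebraMap_smul]
        exact Submodule.smul_mem_smul hc' Submodule.mem_top
      | zero => rw [map_zero, zero_smul]; exact zero_mem _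
      | add y z _ _ hy hz => rw [map_add, add_smul]; exact add_mem (hy x) (hz x)
      | smul c z _ hz =>
        rw [smul_eq_mul, map_mul, mul_comm, mul_smul]
        exact hz _
  -- some power of `a` lies in them up to a unit
  suffices key : ∃ s ∉ TQ.m, ∃ n, res s * a ^ n ∈ I by
    obtain ⟨s, hs, n, hn⟩ := key
    refine (mem_nilModIdeal _).mpr ⟨n, fun x => ?_⟩
    have hu := IsLocalizedModule.map_units
      (LocalizedModule.mkLinearMap (awayMonoid TQ.m) (Coh1 (scalarRep (TQ.char V') O)))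
      ⟨_, mem_awayMonoid hs⟩
    rw [Module.End.isUnit_iff] at hu
    obtain ⟨y, hy⟩ := hu.2 x
    have hy' : awayIncl O TQ.S s • y = x := hy
    have ha : awayIncl O (↑S : Set ℕ) a = MvPolynomial.X l - MvPolynomial.C o := by
      rw [map_sub, awayIncl_X, ← MvPolynomial.algebraMap_eq, AlgHom.commutes]
      rfl
    have h := hkillI _ hn y
    rw [map_mul, show awayIncl O (↑S : Set ℕ) (res s) = awayIncl O TQ.S s from
      awayIncl_restrictAway hsub s, map_pow, ha, mul_comm, mul_smul, hy'] at h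
    exact h
  by_contra hcon
  push Not at hcon
  let M : Submonoid (AwayPoly O (↑S : Set ℕ)) :=
    (TQ.m.primeCompl.map res) ⊔ Submonoid.powers a
  have hdis : Disjoint (I : Set (AwayPoly O (↑S : Set ℕ))) M := by
    refine Set.disjoint_left.mpr fun z hzI hzM => ?_
    obtain ⟨_, ⟨s, hs, rfl⟩, _, ⟨n, rfl⟩, rfl⟩ := Submonoid.mem_sup.mp hzM
    exact hcon s hs n hzI
  obtain ⟨Q, hQ, hIQ, hQM⟩ := Ideal.exists_le_prime_disjoint I M hdis
  have hres : Q.comap res ≤ TQ.m := fun s hs => by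
    by_contra hs'
    exact Set.disjoint_left.mp hQM (Ideal.mem_comap.mp hs)
      (Submonoid.mem_sup_left ⟨s, hs', rfl⟩)
  -- the quotient is finite, so everything is maximal
  have hfin : Finite (AwayPoly O (↑S : Set ℕ) ⧸ Q) := by
    let k := ResidueField O
    let q : AwayPoly O (↑S : Set ℕ) →ₐ[O] AwayPoly O (↑S : Set ℕ) ⧸ Q := Ideal.Quotient.mkₐ O Q
    let ψ := AlgHom.liftOfSurjective lat (latHom_surjective _ _ _) q fun P hP =>
      RingHom.mem_ker.mpr (Ideal.Quotient.eq_zero_iff_mem.mpr (hIQ (Ideal.mem_sup_left hP)))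
    have hψ : Function.Surjective ψ := fun z => by
      obtain ⟨P, rfl⟩ := Ideal.Quotient.mk_surjective z
      exact ⟨lat P, AlgHom.liftOfSurjective_apply _ _ _ _ _⟩
    have : Module.Finite O (AwayPoly O (↑S : Set ℕ) ⧸ Q) :=
      Module.Finite.of_surjective ψ.toLinearMap hψ
    obtain ⟨d, w, hw⟩ := Module.Finite.exists_fin (R := O) (M := AwayPoly O (↑S : Set ℕ) ⧸ Q)
    let cmb : (Fin d → k) → AwayPoly O (↑S : Set ℕ) ⧸ Q := fun c =>
      ∑ i, (Function.surjInv (residue_surjective (R := O)) (c i)) • w i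
    refine Finite.of_surjective cmb fun z => ?_
    obtain ⟨c, rfl⟩ := (Submodule.mem_span_range_iff_exists_fun O).mp (hw ▸ Submodule.mem_top (x := z))
    refine ⟨fun i => residue O (c i), Finset.sum_congr rfl fun i _ => ?_⟩
    obtain ⟨x, hx⟩ : ∃ x, Function.surjInv (residue_surjective (R := O)) (residue O (c i)) = x :=
      ⟨_, rfl⟩
    rw [hx, ← sub_eq_zero, ← sub_smul, Algebra.smul_def]
    have hm : x - c i ∈ maximalIdeal O := by
      rw [← residue_eq_zero_iff, map_sub, ← hx, Function.surjInv_eq residue_surjective, sub_self]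
    have h0 : algebraMap O (AwayPoly O (↑S : Set ℕ) ⧸ Q) (x - c i) = 0 :=
      Ideal.Quotient.eq_zero_iff_mem.mpr (hIQ (Ideal.mem_sup_right (Ideal.mem_map_of_mem _ hm)))
    rw [h0, zero_mul]
  have hQmax : Q.IsMaximal :=
    Ideal.Quotient.maximal_of_isField _ (Finite.isField_of_domain _)
  have : (Q.comap res).IsPrime := Ideal.IsPrime.comap _
  have hcm : (Q.comap res).IsMaximal := by
    have : Finite (AwayPoly O TQ.S ⧸ Q.comap res) :=
      Finite.of_injective (Ideal.quotientMap Q res le_rfl) Ideal.quotientMap_injective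
    exact Ideal.Quotient.maximal_of_isField _ (Finite.isField_of_domain _)
  have heq : Q.comap res = TQ.m :=
    hcm.eq_of_le TQ.isPrime.ne_top hres
  refine Set.disjoint_left.mp hQM ?_ (Submonoid.mem_sup_right (Submonoid.mem_powers a))
  obtain ⟨A₀, σ₀, hA₀, hσ₀⟩ := Frobenius.exists_liesOverPrime_and_isFrobeniusAt_qbar hlp
  refine X_sub_C_mem_of_latKernel h2' hc S (S₀ ∪ Qs) Q
    (fun P hP => hIQ (Ideal.mem_sup_left (RingHom.mem_ker.mpr hP)))
    (fun x hx => hIQ (Ideal.mem_sup_right (Ideal.mem_map_of_mem _ hx)))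
    (fun i hi A hA σ hσ x hx => ?_) ⟨l, hlS⟩ ?_ hA₀ hσ₀ (by rw [ho, hltr A₀ hA₀ σ₀ hσ₀])
  · simp only [Finset.mem_union, not_or] at hi
    have hiS : ((i : Nat.Primes) : ℕ) ∉ T.S := fun h => i.2 ((Set.ext_iff.mp hS _).mpr h)
    have hiQ : ((i : Nat.Primes) : ℕ) ∉ TQ.S :=
      fun h => h.elim hiS fun h' => hi.2 (Finset.mem_coe.mp h')
    have hm := hmres ⟨i.1, hiS⟩ hi.1 A hA σ hσ x hx
    have hmem : MvPolynomial.X (⟨i.1, hiQ⟩ : AwayIndex TQ.S) - MvPolynomial.C x ∈ TQ.m := by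
      refine Ideal.mem_comap.mpr ?_
      show restrictAway O _ _ ∈ T.m
      rw [map_sub, restrictAway, MvPolynomial.rename_X, MvPolynomial.rename_C]
      exact hm
    rw [← heq, Ideal.mem_comap] at hmem
    simpa [res, restrictAway] using hmem
  · intro hd
    rcases hlp.dvd_mul.mp hd with hd | hd
    · exact hl0 (hlev (Nat.mem_primeFactors.mpr
        ⟨hlp, hd.trans (T.level_dvd hV'), T.level_ne_zero subset_rfl⟩))
    · exact hl0 (((Nat.prime_dvd_prime_iff_eq hlp Nat.prime_two).mp hd).symm ▸ h20)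

end Residual

end Fermat.Agent.TwoAdic

end
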