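import Fermat.Agent.TwoAdic.Selmer.KeyLemma
import Fermat.Agent.TwoAdic.TopAssembly
import Fermat.Agent.TwoAdic.TopNil

/-!
# The auxiliary set of the top step

The auxiliary set with the hypothesis `hkey` of the top step.
-/

set_option autoImplicit false

open IsLocalRing GaloisRep Fermat.Agent.DefRing Fermat.Agent.Deform

namespace Fermat.Agent.TwoAdic

open HeckeJ0 LevelRaising HeckeModule

attribute [local instance] ALSetup.isPrime

variable {O : Type} [CommRing O] [IsDomain O] [IsDiscreteValuationRing O]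
  [IsAdicComplete (maximalIdeal O) O] [Finite (ResidueField O)] [CharP (ResidueField O) 2]

/-- The auxiliary set, in the shape of the hypothesis `hkey` of `free_rank_two_top`. -/
theorem exists_aux_topKey {D : NormalData O} {E : LiftData}
    (hr : IsDihedralResidual E.D D.rbar) (hc : IsCont D.rbar)
    (hA₀ : ∀ q ∈ E.aux, ∀ P : ValuationSubring (AlgebraicClosure ℚ), P.LiesOverPrime q →
      ∀ φ : GQ, P.IsFrobeniusAt φ q → (D.rbar φ).trace = 0 ∧ D.rbar φ ≠ 1) (X : Finset ℕ) :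
    ∃ (A : Finset ℕ) (hA : ∀ q ∈ A, q.Prime ∧ q ≠ 2 ∧ ¬ q ∣ E.D),
      E.aux ⊆ A ∧ (∀ q ∈ A, q ∉ E.aux → q ∉ X) ∧
      (∀ q ∈ (E.withAux A hA).aux, ∀ P : ValuationSubring (AlgebraicClosure ℚ),
        P.LiesOverPrime q → ∀ φ : GQ, P.IsFrobeniusAt φ q →
          (D.rbar φ).trace = 0 ∧ D.rbar φ ≠ 1) ∧
      ∀ (K : Pair.KummerPair) (E' : LiftData), E' = E.withAux A hA →
        ∀ f : ℕ → ℕ, (∀ i ∈ E'.D.primeFactors.erase E'.ℓ₀,
          HasPattern D (f i) E'.D.primeFactors (twPattern E' i)) →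
        ∀ Q, Q = (E'.D.primeFactors.erase E'.ℓ₀).image f →
        ∀ (h : Pair.IsResidualPair D E' Q {(K.s, K.t)})
          (U : (Pair.pairFunctor h).UniversalPoint),
          ∃ φ : MvPowerSeries (Fin ((E'.D.primeFactors.erase E'.ℓ₀).card + 1)) O →ₐ[O] U.R,
            Function.Surjective φ ∧
            φ (MvPowerSeries.X (Fin.last (E'.D.primeFactors.erase E'.ℓ₀).card)) =
              Pair.uRoot U - 1 ∧
            (xIdeal O (E'.D.primeFactors.erase E'.ℓ₀).card).map φ = Pair.entryIdeal U ∧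
            (Pair.uRoot U - 1) ^ 2 ∈ Pair.entryIdeal U := by
  obtain ⟨A, hA, hsub, hX, hT, hkey⟩ := Selmer.exists_aux_keyLemma D hr hc hA₀ X
  refine ⟨A, hA, hsub, hX, fun q hq => (hT q hq).2.2.2, fun K E' hE' f hf Q hQ h U => ?_⟩
  subst hE' hQ
  exact hkey f hf K h U

open Pair in
/-- The top step with the nilpotence at the order-three primes discharged. -/
theorem free_rank_two_top_keyed [CharZero O] {D : NormalData O} {E : LiftData} {C : Set (GQ × GQ)}
    (hC : IsInertialSet C) (hr : IsDihedralResidual E.D D.rbar) (hc : IsCont D.rbar)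
    (hA : ∀ q ∈ E.aux, ∀ P : ValuationSubring (AlgebraicClosure ℚ), P.LiesOverPrime q →
      ∀ φ : GQ, P.IsFrobeniusAt φ q → (D.rbar φ).trace = 0 ∧ D.rbar φ ≠ 1)
    (hspan : Submodule.span (ResidueField O) (Set.range D.rbar) = ⊤)
    (hz : ∃ z : ResidueField O, z * z + z + 1 = 0)
    {h0 : IsResidualPair D E ∅ C} (Vp : (pairFunctor h0).UniversalPoint)
    (T : ALSetup O) (hχ : T.χ = 1) {V B : Finset ℕ} (hV : V ⊆ T.W) (hBV : B ⊆ V)
    (hcube : T.CubeInjective hV B) (S₀ : Finset ℕ) (hS₀ : T.S ⊆ ↑S₀) (h2S : 2 ∉ T.S)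
    (hmres : ∀ (l : AwayIndex T.S), ((l : Nat.Primes) : ℕ) ∉ S₀ →
      ∀ P : ValuationSubring (AlgebraicClosure ℚ), P.LiesOverPrime ((l : Nat.Primes) : ℕ) →
        ∀ φ : GQ, P.IsFrobeniusAt φ ((l : Nat.Primes) : ℕ) → ∀ o : O,
          residue O o = (D.rbar φ).trace → MvPolynomial.X l - MvPolynomial.C o ∈ T.m)
    [Module Vp.R (T.NewQuot O hV B)] [IsScalarTower O Vp.R (T.NewQuot O hV B)]
    (hMtr : ∀ (l : ℕ) (hl : l.Prime) (hlS : l ∉ T.S), l ∉ S₀ →
      ∀ A : ValuationSubring (AlgebraicClosure ℚ), A.LiesOverPrime l → ∀ σ : GQ,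
        A.IsFrobeniusAt σ l → ∀ y : T.NewQuot O hV B,
          Matrix.trace (uRep Vp σ) • y = T.newAct O hV B (awayX O hl hlS) y)
    (hMα : ∀ y : T.NewQuot O hV B, uRoot Vp • uRoot Vp • y + (2 : O) • y =
      T.newAct O hV B (awayX O Nat.prime_two h2S) (uRoot Vp • y))
    {d : ℕ} [NeZero d] (b₀ : Module.Basis (Fin d) O (T.NewQuot O hV B))
    (hkey : ∀ f : ℕ → ℕ, (∀ i ∈ E.D.primeFactors.erase E.ℓ₀,
        HasPattern D (f i) E.D.primeFactors (twPattern E i)) →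
      ∀ Q, Q = (E.D.primeFactors.erase E.ℓ₀).image f → ∀ (h : IsResidualPair D E Q C)
        (U : (pairFunctor h).UniversalPoint),
          ∃ φ : MvPowerSeries (Fin ((E.D.primeFactors.erase E.ℓ₀).card + 1)) O →ₐ[O] U.R,
            Function.Surjective φ ∧
            φ (MvPowerSeries.X (Fin.last (E.D.primeFactors.erase E.ℓ₀).card)) = uRoot U - 1 ∧
            (xIdeal O (E.D.primeFactors.erase E.ℓ₀).card).map φ = entryIdeal U ∧
            (uRoot U - 1) ^ 2 ∈ entryIdeal U)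
    [Fact ((2 : ℕ).Prime)] [Fact (((2 : ℕ) : O) ∈ maximalIdeal O)]
    (hTside : ∀ (n : ℕ) (q : Fin (E.D.primeFactors.erase E.ℓ₀).card → ℕ),
      (∀ i, (q i).Prime ∧ q i ∉ S₀ ∧ 2 ^ (n + 1) ∣ q i - 1 ∧
        ∀ P : ValuationSubring (AlgebraicClosure ℚ), P.LiesOverPrime (q i) →
          ∀ φ : GQ, P.IsFrobeniusAt φ (q i) → (D.rbar φ).trace = 1) →
      ∀ (α : ℕ → O) (P : Fin _ → ValuationSubring (AlgebraicClosure ℚ)),
        (∀ i, (P i).LiesOverPrime (q i)) → ∀ (τ : Fin _ → GQ),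
          (∀ i, TameInertia.IsTameGenerator (P i) 2 (q i) (τ i)) →
        ∀ (cyc : ∀ i, GQ →* (ZMod (q i))ˣ), (∀ i, IsCycloMod (q i) (cyc i)) →
        ∀ (h : IsResidualPair D E (Finset.univ.image q) C)
          (U : (pairFunctor h).UniversalPoint),
          TSideAction T hV B S₀ n q α τ cyc U)
    (h20 : 2 ∈ S₀) (hlev : (T.level T.W).primeFactors ⊆ S₀)
    (hgen : ∃ m : Fin 2 → T.NewQuot O hV B, Submodule.span Vp.R (Set.range m) ⊔
      maximalIdeal Vp.R • (⊤ : Submodule Vp.R (T.NewQuot O hV B)) = ⊤)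
    (hdim : Nat.card (ResidueField O) ^ 4 ≤ Nat.card (T.NewQuot O hV B ⧸
      entryIdeal Vp • (⊤ : Submodule Vp.R (T.NewQuot O hV B)))) :
    IsFiniteCI O Vp.R ∧ Nonempty (Module.Basis (Fin 2) Vp.R (T.NewQuot O hV B)) ∧
      ∀ x : Vp.R, (∀ y : T.NewQuot O hV B, x • y = 0) → x = 0 :=
  free_rank_two_top hC hr hc hA hspan hz Vp T hχ hV hBV hcube S₀ hS₀ h2S hmres hMtr hMα b₀ hkey
    hTside (nil_of_residualTraces hc T hχ S₀ hS₀ h20 hlev hmres) hgen hdim

end Fermat.Agent.TwoAdic
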