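import Fermat.Agent.TwoAdic.Pair.EntryIdeal
import Fermat.Agent.TwoAdic.Pair.Quotient
import Fermat.Agent.Deform.TWInertia
import Fermat.Agent.Deform.Relative

/-!
# Rings of pairs at the Taylor–Wiles levels

Universal rings of pairs at Taylor–Wiles levels over the base one: the forgetful surjections, and
tame inertia at an auxiliary prime written as `u + u⁻¹` with `u` congruent to one modulo the entry
ideal and equal to one in the base ring.
-/

set_option autoImplicit false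

open IsLocalRing GaloisRep Fermat.Agent.DefRing Fermat.Agent.Deform

namespace Fermat.Agent.TwoAdic.Pair

variable {𝒪 : Type} [CommRing 𝒪] [IsLocalRing 𝒪] [Finite (ResidueField 𝒪)] {D : NormalData 𝒪}
  {E : LiftData} {Q Q' : Finset ℕ} {C : Set (GQ × GQ)}
  {h : IsResidualPair D E Q C} {h' : IsResidualPair D E Q' C}

omit [Finite (ResidueField 𝒪)] in
/-- **Forgetting auxiliary primes.** -/
theorem exists_forget (hQ : Q' ⊆ Q) (U : (pairFunctor h).UniversalPoint)
    (V : (pairFunctor h').UniversalPoint) :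
    ∃ f : U.R →ₐ[𝒪] V.R, Function.Surjective f ∧ mapRep (f : U.R →+* V.R) (uRep U) = uRep V ∧
      f (uRoot U) = uRoot V ∧ (entryIdeal U).map f = entryIdeal V := by
  obtain ⟨f, ⟨hf, hfN, hfα⟩, -⟩ := existsUnique_map U (A := V.R) V.residue_surjective
    ((isPair_universal V).mono hQ subset_rfl)
  have hfN' : ∀ σ i j, f (uRep U σ i j) = uRep V σ i j := fun σ i j =>
    congrFun (congrFun (DFunLike.congr_fun hfN σ) i) j
  have : IsLocalHom (f : U.R →+* V.R) := hf
  refine ⟨f, ?_, hfN, hfα, ?_⟩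
  · refine surjective_of_cotangent (f : U.R →+* V.R) (fun z => ?_) fun y hy => ?_
    · obtain ⟨o, ho⟩ := V.residue_surjective z
      exact ⟨algebraMap 𝒪 U.R o, by simpa [AlgHom.commutes] using ho⟩
    · obtain ⟨s, hs, hys⟩ := universal_topGen V y 2
      have hle : Algebra.adjoin 𝒪 (insert (uRoot V)
          (Set.range fun x : GQ × Fin 2 × Fin 2 => uRep V x.1 x.2.1 x.2.2)) ≤ f.range :=
        Algebra.adjoin_le (Set.insert_subset_iff.mpr
          ⟨⟨_, hfα⟩, Set.range_subset_iff.mpr fun x => ⟨_, hfN' _ _ _⟩⟩)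
      obtain ⟨x, rfl⟩ := hle hs
      have hx : x ∈ maximalIdeal U.R := fun hu => by
        have h1 : f x ∈ maximalIdeal V.R := by
          have h2 := sub_mem hy (Ideal.pow_le_self two_ne_zero hys)
          simpa using h2
        exact h1 (hu.map f)
      exact Submodule.mem_sup.mpr ⟨f x, Ideal.mem_map_of_mem _ hx, y - f x, hys, by ring⟩
  · rw [entryIdeal, map_entryIdealOf, hfN]
    rfl

variable [CharP (ResidueField 𝒪) 2]

omit [Finite (ResidueField 𝒪)] [CharP (ResidueField 𝒪) 2] in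
/-- **Tame inertia at an auxiliary prime.** -/
theorem exists_tame_root (U : (pairFunctor h).UniversalPoint) {q : ℕ} (hq : q.Prime) (hq2 : q ≠ 2)
    {P : ValuationSubring (AlgebraicClosure ℚ)} (hP : P.LiesOverPrime q)
    (hr : IsDihedralResidual E.D D.rbar) (hqD : ¬ q ∣ E.D) {φ : GQ} (hφ : P.IsFrobeniusAt φ q)
    (g₀ : (Matrix (Fin 2) (Fin 2) (ResidueField 𝒪))ˣ) {a b : ResidueField 𝒪} (hne : a ≠ b)
    (h₀ : D.rbar φ * g₀.1 = g₀.1 * Matrix.diagonal ![a, b])
    {σ : GQ} (hσ : σ ∈ P.inertiaSubgroupIn ℚ) :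
    ∃ u v : U.R, u * v = 1 ∧ Matrix.trace (uRep U σ) = u + v ∧ u - 1 ∈ entryIdeal U ∧
      v - 1 ∈ entryIdeal U ∧
      ∀ {B : Type} [CommRing B] (f : U.R →+* B), mapRep f (uRep U) σ = 1 → f u = 1 ∧ f v = 1 := by
  have hU := isPair_universal U
  obtain ⟨hc, hcond⟩ := hU.isDef.exists_cont
  have : IsLocalHom (algebraMap 𝒪 U.R) := U.instIsLocalHom
  let ι : ResidueField 𝒪 →+* ResidueField U.R := ResidueField.map (algebraMap 𝒪 U.R)
  have hres : ∀ τ, (uRep U τ).map (residue U.R) = (D.rbar τ).map ι := fun τ => by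
    rw [← DFunLike.congr_fun hU.isDef.reduces τ]
    ext i j
    exact (residueField_map_toResidue U.residue_surjective (uRep U τ i j)).symm
  have h2m : (2 : U.R) ∈ maximalIdeal U.R := by simpa using hcond.1.1
  have hrσ : ∀ τ ∈ P.inertiaSubgroupIn ℚ, D.rbar τ = 1 := hr.unramified q hq hqD P hP
  have : NeZero q := ⟨hq.ne_zero⟩
  obtain ⟨cyc, hcyc⟩ := exists_isCycloMod q
  have hq1 : (q : ResidueField U.R) = 1 := by
    have h2 : (2 : ResidueField U.R) = 0 := by rw [← map_ofNat (residue U.R), residue_eq_zero_iff]; exact h2m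
    obtain ⟨m, hm⟩ := hq.odd_of_ne_two hq2
    rw [hm]; simp [h2]
  have hne' : ι a ≠ ι b := fun he => hne (ι.injective he)
  obtain ⟨g, -, -, θ₁, θ₂, -, -, -, -, hdiag, -, hdet⟩ := exists_twPrime_shape hc Nat.prime_two
    h2m hq (Ne.symm hq2) hcyc hP
    (fun τ hτ => by rw [hres, hrσ τ hτ, Matrix.map_one _ (map_zero _) (map_one _)]) hφ
    (Units.map ι.mapMatrix.toMonoidHom g₀) hne' (by rw [hq1, one_mul]; exact hne')
    (by rw [hq1, one_mul]; exact hne'.symm)
    (by
      have h1 := congrArg ι.mapMatrix h₀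
      rw [map_mul, map_mul] at h1
      rw [hres]
      refine h1.trans (congrArg _ ?_)
      ext i j
      by_cases hij : i = j <;> fin_cases i <;> fin_cases j <;> simp_all)
  have hθ : (θ₁ (cyc σ) : U.R) * θ₂ (cyc σ) = 1 :=
    (hdet σ hσ).symm.trans ((det_away hU hq hq2 hP).1 σ hσ)
  have htr : Matrix.trace (uRep U σ) = (θ₁ (cyc σ) : U.R) + θ₂ (cyc σ) := by
    have h1 : uRep U σ = g.1 * Matrix.diagonal ![(θ₁ (cyc σ) : U.R), (θ₂ (cyc σ) : U.R)] *
        (g⁻¹).1 := by rw [← hdiag σ hσ, mul_assoc, Units.mul_inv, mul_one]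
    rw [h1, Matrix.trace_mul_comm, ← mul_assoc, Units.inv_mul, one_mul, Matrix.trace_diagonal,
      Fin.sum_univ_two]
    rfl
  refine ⟨_, _, hθ, htr, diag_sub_one_mem_entryIdealOf D.rbar (uRep U) (hrσ σ hσ) g _
    (hdiag σ hσ) 0, diag_sub_one_mem_entryIdealOf D.rbar (uRep U) (hrσ σ hσ) g _ (hdiag σ hσ) 1,
    fun {B} _ f hf => ⟨diag_eq_one_of_eq_one f (uRep U) g _ (hdiag σ hσ) hf 0,
      diag_eq_one_of_eq_one f (uRep U) g _ (hdiag σ hσ) hf 1⟩⟩

end Fermat.Agent.TwoAdic.Pair
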