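import Fermat.Agent.TwoAdic.TopUniform
import Fermat.Agent.TwoAdic.TopTame

/-!
# The top step at one auxiliary level

The minimal ring of pairs at an auxiliary level is a complete intersection and its module is free
of rank two over it, from the key lemma and the modules of the Taylor–Wiles levels.
-/

set_option autoImplicit false

open IsLocalRing GaloisRep Fermat.Agent.DefRing Fermat.Agent.Deform

namespace Fermat.Agent.TwoAdic.Pair

variable {O : Type} [CommRing O] [IsDomain O] [IsDiscreteValuationRing O]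
  [IsAdicComplete (maximalIdeal O) O] [Finite (ResidueField O)]

/-- The module of level `n` at the auxiliary primes of a tuple, with the action of their ring of
pairs `R` over the base module `M₀`. -/
structure LevelModule (r : ℕ) {R R₀ : Type} [CommRing R] [Algebra O R] [CommRing R₀] [Algebra O R₀]
    (ψ : R →ₐ[O] R₀) (w : Fin r → R) {d : ℕ} {M₀ : Type} [AddCommGroup M₀] [Module R₀ M₀]
    [Module O M₀] (b₀ : Module.Basis (Fin d) O M₀) (n : ℕ) : Type 1 where
  N : Type
  [instAddCommGroup : AddCommGroup N]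
  [instModule : Module (Engine.TwQuot O 2 r n) N]
  g : N →ₛₗ[Engine.twAug O 2 r n] M₀
  basis : Module.Basis (Fin d) (Engine.TwQuot O 2 r n) N
  g_basis : ∀ j, g (basis j) = b₀ j
  ρ : R →+* Module.End (Engine.TwQuot O 2 r n) N
  ρ_algebraMap : ∀ (o : O) (m : N), ρ (algebraMap O R o) m = Engine.twConst O 2 r n o • m
  g_ρ : ∀ x m, g (ρ x m) = ψ x • g m
  /-- The trace of tame inertia `w i` acts by the diamond scalar. -/
  ρ_trace : ∀ i m, ρ (w i) m = Ideal.Quotient.mk (Engine.twIdeal O 2 r n)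
    ((1 + MvPowerSeries.X i) + Ring.inverse (1 + MvPowerSeries.X i)) • m

attribute [instance] LevelModule.instAddCommGroup LevelModule.instModule

/-- Counting through a surjection killing an ideal. -/
theorem card_le_card_quotient_of_surjective {R₀ M₀ X : Type} [CommRing R₀] [AddCommGroup M₀]
    [Module R₀ M₀] [AddCommGroup X] (I : Ideal R₀) [Finite (M₀ ⧸ I • (⊤ : Submodule R₀ M₀))]
    (g : M₀ →+ X) (hg : Function.Surjective g)
    (hI : ∀ a ∈ I, ∀ m : M₀, g (a • m) = 0) :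
    Nat.card X ≤ Nat.card (M₀ ⧸ I • (⊤ : Submodule R₀ M₀)) := by
  let q : M₀ ⧸ (I • (⊤ : Submodule R₀ M₀)).toAddSubgroup →+ X :=
    QuotientAddGroup.lift _ g fun m hm => by
      have hm' : m ∈ I • (⊤ : Submodule R₀ M₀) := hm
      rw [AddMonoidHom.mem_ker]
      induction hm' using Submodule.smul_induction_on' with
      | smul a ha v _ => exact hI a ha v
      | add x hx y hy h1 h2 => rw [map_add, h1 hx, h2 hy, add_zero]
  exact Nat.card_le_card_of_surjective q fun x => by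
    obtain ⟨m, rfl⟩ := hg x
    exact ⟨QuotientAddGroup.mk m, rfl⟩

omit [IsAdicComplete (maximalIdeal O) O] in
/-- A lattice has finite quotient by an ideal containing the uniformizer. -/
theorem finite_quotient_smul_top {R₀ : Type} [CommRing R₀] [Algebra O R₀]
    {M₀ : Type} [AddCommGroup M₀] [Module R₀ M₀] [Module O M₀] [IsScalarTower O R₀ M₀]
    [Module.Finite O M₀] (I : Ideal R₀) (hI : (maximalIdeal O).map (algebraMap O R₀) ≤ I) :
    Finite (M₀ ⧸ I • (⊤ : Submodule R₀ M₀)) := by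
  classical
  obtain ⟨d, b, hb⟩ := Module.Finite.exists_fin (R := O) (M := M₀)
  refine Finite.of_surjective (fun c : Fin d → ResidueField O =>
    (Submodule.mkQ _ (∑ i, Function.surjInv residue_surjective (c i) • b i) :
      M₀ ⧸ I • (⊤ : Submodule R₀ M₀))) fun y => ?_
  obtain ⟨x, rfl⟩ := Submodule.mkQ_surjective _ y
  obtain ⟨a, rfl⟩ := (Submodule.mem_span_range_iff_exists_fun O).mp
    (hb ▸ (Submodule.mem_top : x ∈ ⊤))
  refine ⟨fun i => residue O (a i), (Submodule.Quotient.eq _).mpr ?_⟩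
  rw [← Finset.sum_sub_distrib]
  refine sum_mem fun i _ => ?_
  rw [← sub_smul]
  have hz : ∀ z ∈ maximalIdeal O, z • b i ∈ I • (⊤ : Submodule R₀ M₀) := fun z hz => by
    rw [← algebraMap_smul (A := R₀) z (b i)]
    exact Submodule.smul_mem_smul (hI (Ideal.mem_map_of_mem _ hz)) Submodule.mem_top
  refine hz _ ?_
  rw [← residue_eq_zero_iff, map_sub, Function.surjInv_eq residue_surjective, sub_self]

variable [CharP (ResidueField O) 2] {D : NormalData O} {E : LiftData} {C : Set (GQ × GQ)} {r : ℕ}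

/-- **`R~ = T~` at the top level.** -/
theorem free_rank_two_of_levels (h0 : IsResidualPair D E ∅ C)
    (V : (pairFunctor h0).UniversalPoint) (hr : IsDihedralResidual E.D D.rbar)
    (q : ℕ → Fin r → ℕ) (hq : ∀ m i, (q m i).Prime ∧ q m i ≠ 2 ∧ ¬ q m i ∣ E.D ∧ q m i ∉ E.aux)
    (h : ∀ m, IsResidualPair D E (Finset.univ.image (q m)) C)
    (U : ∀ m, (pairFunctor (h m)).UniversalPoint)
    (P : ℕ → Fin r → ValuationSubring (AlgebraicClosure ℚ))
    (hP : ∀ m i, (P m i).LiesOverPrime (q m i))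
    (hfrob : ∀ m i, ∃ φ : GQ, (P m i).IsFrobeniusAt φ (q m i) ∧
      ∃ (g₀ : (Matrix (Fin 2) (Fin 2) (ResidueField O))ˣ) (a b : ResidueField O), a ≠ b ∧
        D.rbar φ * g₀.1 = g₀.1 * Matrix.diagonal ![a, b])
    (τ : ℕ → Fin r → GQ) (hτ : ∀ m i, τ m i ∈ (P m i).inertiaSubgroupIn ℚ)
    (hkey : ∀ m, ∃ φ : MvPowerSeries (Fin (r + 1)) O →ₐ[O] (U m).R, Function.Surjective φ ∧
      φ (MvPowerSeries.X (Fin.last r)) = uRoot (U m) - 1 ∧
      (xIdeal O r).map φ = entryIdeal (U m) ∧ (uRoot (U m) - 1) ^ 2 ∈ entryIdeal (U m))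
    {d : ℕ} [NeZero d] {M₀ : Type} [AddCommGroup M₀] [Module V.R M₀] [Module O M₀]
    [IsScalarTower O V.R M₀] (b₀ : Module.Basis (Fin d) O M₀)
    (L : ∀ n m, n ≤ m → ∀ ψ : (U m).R →ₐ[O] V.R,
      mapRep (ψ : (U m).R →+* V.R) (uRep (U m)) = uRep V → ψ (uRoot (U m)) = uRoot V →
        Nonempty (LevelModule r ψ (fun i => Matrix.trace (uRep (U m) (τ m i))) b₀ n))
    (hgen : ∃ m : Fin 2 → M₀,
      Submodule.span V.R (Set.range m) ⊔ maximalIdeal V.R • (⊤ : Submodule V.R M₀) = ⊤)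
    (hdim : Nat.card (ResidueField O) ^ 4 ≤
      Nat.card (M₀ ⧸ entryIdeal V • (⊤ : Submodule V.R M₀))) :
    IsFiniteCI O V.R ∧ Nonempty (Module.Basis (Fin 2) V.R M₀) ∧
      ∀ x : V.R, (∀ m : M₀, x • m = 0) → x = 0 := by
  classical
  have : Finite (ResidueField V.R) := Finite.of_surjective
    (fun x : ResidueField O => ResidueField.map (algebraMap O V.R) x) fun y => by
      obtain ⟨o, rfl⟩ := V.residue_surjective y
      exact ⟨residue O o, ResidueField.map_residue _ o⟩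
  have h2 : (2 : O) ∈ maximalIdeal O := by
    rw [← residue_eq_zero_iff, map_ofNat]
    exact CharTwo.two_eq_zero
  choose ψ hψ hψN hψα hψJ using fun m =>
    exists_forget (h := h m) (h' := h0) (Finset.empty_subset _) (U m) V
  obtain ⟨σ, π, φ, hσ, hπ, -, hφ⟩ := exists_uniform (R₀ := V.R) (fun m => (U m).R) ψ hψ
    (fun m => uRoot (U m) - 1) (uRoot V - 1) (fun m => by rw [map_sub, hψα, map_one])
    (fun m => entryIdeal (U m)) (fun m => (hkey m).choose_spec.2.2.2)
    (fun m => ⟨_, (hkey m).choose_spec.1, (hkey m).choose_spec.2.1, (hkey m).choose_spec.2.2.1⟩)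
  have htame : ∀ m i, ∃ u v : (U m).R, u * v = 1 ∧
      Matrix.trace (uRep (U m) (τ m i)) = u + v ∧ u - 1 ∈ entryIdeal (U m) ∧ ψ m u = 1 := by
    intro m i
    obtain ⟨hq1, hq2, hqD, hqa⟩ := hq m i
    obtain ⟨ϕ, hϕ, g₀, a, b, hne, h₀⟩ := hfrob m i
    obtain ⟨u, v, huv, htr, hu, -, hval⟩ := exists_tame_root (U m) hq1 hq2 (hP m i) hr hqD hϕ g₀
      hne h₀ (hτ m i)
    refine ⟨u, v, huv, htr, hu, (hval (ψ m : (U m).R →+* V.R) ?_).1⟩
    rw [hψN]
    obtain ⟨hc, hcond⟩ := (isPair_universal V).isDef.exists_cont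
    exact (Matrix.toLinAlgEquiv' (R := V.R) (n := Fin 2)).injective
      ((hcond.2.2.2.2 (q m i) hq1 hq2 hqD hqa (Finset.notMem_empty _) (P m i) (hP m i) (τ m i)
        (hτ m i)).trans (map_one _).symm)
  choose u v huv htr huJ hu0 using htame
  let Λ := fun n => (L n (σ n) (hσ n) (ψ (σ n)) (hψN _) (hψα _)).some
  refine free_rank_two_of_uniform h2 π hπ b₀ (fun n => (U (σ n)).R) (fun n => ψ (σ n))
    (fun n => entryIdeal (U (σ n))) φ (fun n => (hφ n).1) (fun n => (hφ n).2.2.1)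
    (fun n => (hφ n).2.2.2) (fun n => ?_) (fun n => (Λ n).N) (fun n => (Λ n).g)
    (fun n => (Λ n).basis) (fun n => (Λ n).g_basis) (fun n => (Λ n).ρ)
    (fun n => (Λ n).ρ_algebraMap) (fun n => (Λ n).g_ρ)
    (fun n => u (σ n)) (fun n => v (σ n)) (fun n i => huv _ i) (fun n i => huJ _ i)
    (fun n i => hu0 _ i) (fun n i m => ?_) hgen ?_
  · rw [(hφ n).2.1]
    exact (hkey _).choose_spec.2.2.2
  · rw [← htr (σ n) i]
    exact (Λ n).ρ_trace i m
  · have h1 : (xIdeal O r).map π = entryIdeal V := by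
      rw [← hψJ (σ 0), ← (hφ 0).2.2.1, ← (hφ 0).2.2.2]
      exact (Ideal.map_map _ _).symm
    rw [h1]
    exact hdim

end Fermat.Agent.TwoAdic.Pair
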