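import Fermat.Agent.Patch.System
import Fermat.Agent.DefRing.PowerSeriesLocal
import Fermat.Agent.Patching.FreeOfRegular
import Fermat.Agent.Patching.PowerSeriesRegular
import Mathlib.RingTheory.TensorProduct.Basic
import Mathlib.RingTheory.DiscreteValuationRing.Basic

/-!
# Limit actions of patching systems

The almost homomorphisms of a system of levels, their limit action on the patched module, and
finite flat complete intersections.
-/

set_option autoImplicit false

open IsLocalRing Filter

namespace Fermat.Agent.TwoAdic

/-- A finite flat complete intersection over `O`. -/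
def IsFiniteCI (O R : Type) [CommRing O] [CommRing R] [Algebra O R] : Prop :=
  Module.Finite O R ∧ Module.Free O R ∧
    ∃ (r : ℕ) (F : Fin r → MvPowerSeries (Fin r) O) (ψ : MvPowerSeries (Fin r) O →ₐ[O] R),
      Function.Surjective ψ ∧ RingHom.ker ψ = Ideal.span (Set.range F)

section System

variable {P : Type} [CommRing P] [IsLocalRing P] [IsNoetherianRing P] [Finite (ResidueField P)]
  [IsAdicComplete (maximalIdeal P) P]
  {R : Type} [CommRing R] [IsLocalRing R] [IsNoetherianRing R] [Finite (ResidueField R)]
  [IsAdicComplete (maximalIdeal R) R] {d : ℕ} {I : ℕ → Ideal P}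
  {M : ℕ → Type} [∀ n, AddCommGroup (M n)] [∀ n, Module P (M n)]
  {e : ∀ n, Fin d → M n} (he : ∀ n, Patch.IsModBasis (I n) (e n))
  (ρ : ∀ n, R →+* Module.End P (M n))

/-- The matrix of `x` at level `n`. -/
noncomputable def levelMatrix (n : ℕ) (x : R) : Matrix (Fin d) (Fin d) P :=
  fun i j => ((he n).exists_coeff (ρ n x (e n j))).choose i

omit [IsLocalRing P] [IsNoetherianRing P] [Finite (ResidueField P)]
  [IsAdicComplete (maximalIdeal P) P] [IsLocalRing R] [IsNoetherianRing R]
  [Finite (ResidueField R)] [IsAdicComplete (maximalIdeal R) R] in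
theorem levelMatrix_spec (n : ℕ) (x : R) (j : Fin d) :
    ∑ i, levelMatrix he ρ n x i j • e n i = ρ n x (e n j) :=
  ((he n).exists_coeff (ρ n x (e n j))).choose_spec

omit [IsLocalRing P] [IsNoetherianRing P] [Finite (ResidueField P)]
  [IsAdicComplete (maximalIdeal P) P] [IsLocalRing R] [IsNoetherianRing R]
  [Finite (ResidueField R)] [IsAdicComplete (maximalIdeal R) R] in
theorem levelMatrix_unique {n : ℕ} {x : R} {A : Matrix (Fin d) (Fin d) P}
    (h : ∀ j, ∑ i, A i j • e n i = ρ n x (e n j)) :
    Patch.MatCong (I n) (levelMatrix he ρ n x) A := fun i j =>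
  (he n).congr_coeff (c := fun i => levelMatrix he ρ n x i j) (c' := fun i => A i j)
    (by rw [levelMatrix_spec, h]) i

/-- The almost homomorphisms of the system. -/
noncomputable def levelHoms : Patch.AlmostHoms R P d where
  I := I
  A := levelMatrix he ρ
  one n := levelMatrix_unique he ρ fun j => by
    simp [Matrix.one_apply, ite_smul]
  add n x y := levelMatrix_unique he ρ fun j => by
    simp [add_smul, Finset.sum_add_distrib, levelMatrix_spec]
  mul n x y := levelMatrix_unique he ρ fun j => by
    rw [map_mul, Module.End.mul_apply, ← levelMatrix_spec he ρ n y j, map_sum]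
    simp only [Matrix.mul_apply, Finset.sum_smul]
    rw [Finset.sum_comm]
    refine Finset.sum_congr rfl fun l _ => ?_
    rw [map_smul, ← levelMatrix_spec he ρ n x l, Finset.smul_sum]
    exact Finset.sum_congr rfl fun i _ => by rw [mul_comm, mul_smul]

/-- The limit action. -/
noncomputable def limitAction (hI : Patch.TendsToZero I) :
    R →+* Matrix (Fin d) (Fin d) P :=
  (levelHoms he ρ).limit hI

/-- The limit action commutes with limits of elements. -/
theorem limitAction_ulim (hI : Patch.TendsToZero I) (x : ℕ → R) :
    limitAction he ρ hI (Patch.ulim x) =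
      Patch.ulimMat fun n => levelMatrix he ρ n (x n) := by
  refine Matrix.ext fun i j => Eq.symm (Patch.ulim_unique fun k => ?_)
  have := Patch.finite_quot (Λ := P) k
  have : Finite (Matrix (Fin d) (Fin d) (P ⧸ maximalIdeal P ^ k)) := Finite.of_equiv _ Matrix.of
  filter_upwards [hI k, Patch.ulim_spec x
      (Nat.card (Set (Matrix (Fin d) (Fin d) (P ⧸ maximalIdeal P ^ k)))),
    Patch.ulimMat_spec (fun n => levelMatrix he ρ n (Patch.ulim x)) k] with n hn hxn hlim
  let f : R →+* Matrix (Fin d) (Fin d) (P ⧸ maximalIdeal P ^ k) := RingHom.mk'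
    { toFun := fun y => (Ideal.Quotient.mk _).mapMatrix (levelMatrix he ρ n y)
      map_one' := (Patch.matCong_iff.1 (((levelHoms he ρ).one n).mono hn)).trans (map_one _)
      map_mul' := fun y z =>
        (Patch.matCong_iff.1 (((levelHoms he ρ).mul n y z).mono hn)).trans (map_mul _ _ _) }
    fun y z => (Patch.matCong_iff.1 (((levelHoms he ρ).add n y z).mono hn)).trans (map_add _ _ _)
  have h2 : Patch.MatCong (maximalIdeal P ^ k) (levelMatrix he ρ n (x n))
      (levelMatrix he ρ n (Patch.ulim x)) := by
    rw [Patch.matCong_iff]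
    show f (x n) = f (Patch.ulim x)
    rw [← sub_eq_zero, ← map_sub]
    exact Patch.map_pow_maximalIdeal_eq_zero f hxn
  exact h2.trans hlim i j

end System

variable {O : Type} [CommRing O] [IsDomain O] [IsDiscreteValuationRing O]
  [IsAdicComplete (maximalIdeal O) O] [Finite (ResidueField O)]

omit [IsDomain O] [IsDiscreteValuationRing O] [IsAdicComplete (maximalIdeal O) O]
  [Finite (ResidueField O)] in
/-- The residue field of a power series ring. -/
theorem finite_residueField_mvPowerSeries [IsLocalRing O] [Finite (ResidueField O)] (r : ℕ) :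
    Finite (ResidueField (MvPowerSeries (Fin r) O)) := by
  refine Finite.of_surjective
    (fun z : ResidueField O => residue (MvPowerSeries (Fin r) O)
      (MvPowerSeries.C (Function.surjInv residue_surjective z))) fun z => ?_
  obtain ⟨f, rfl⟩ := residue_surjective z
  refine ⟨residue O (MvPowerSeries.constantCoeff f), ?_⟩
  dsimp only
  rw [← sub_eq_zero, ← map_sub, residue_eq_zero_iff,
    DefRing.mem_maximalIdeal_iff_constantCoeff, map_sub, MvPowerSeries.constantCoeff_C,
    ← residue_eq_zero_iff, map_sub, Function.surjInv_eq residue_surjective, sub_self]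

section Patched

/-- The patched module, as a module over the acting ring only. -/
def ActedOn {R Λ : Type} [CommRing R] [CommRing Λ] {d : ℕ}
    (_act : R →+* Matrix (Fin d) (Fin d) Λ) : Type := Fin d → Λ

variable {R Λ : Type} [CommRing R] [CommRing Λ] {d : ℕ} (act : R →+* Matrix (Fin d) (Fin d) Λ)

instance : AddCommGroup (ActedOn act) := inferInstanceAs (AddCommGroup (Fin d → Λ))

/-- A vector as an element of the patched module. -/
def ActedOn.mk (v : Fin d → Λ) : ActedOn act := v

variable {act} in
/-- The vector of an element. -/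
def ActedOn.vec (v : ActedOn act) : Fin d → Λ := v

noncomputable instance : Module R (ActedOn act) where
  smul r v := ActedOn.mk act ((act r).mulVec v.vec)
  one_smul v := by show (act 1).mulVec v.vec = v.vec; simp
  mul_smul r s v := by
    show (act (r * s)).mulVec v.vec = (act r).mulVec ((act s).mulVec v.vec)
    simp [Matrix.mulVec_mulVec]
  smul_zero r := by show (act r).mulVec (0 : Fin d → Λ) = 0; simp
  smul_add r v w := by
    show (act r).mulVec (v.vec + w.vec) = (act r).mulVec v.vec + (act r).mulVec w.vec
    simp [Matrix.mulVec_add]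
  add_smul r s v := by
    show (act (r + s)).mulVec v.vec = (act r).mulVec v.vec + (act s).mulVec v.vec
    simp [Matrix.add_mulVec]
  zero_smul v := by show (act 0).mulVec v.vec = 0; simp

theorem ActedOn.smul_vec (r : R) (v : ActedOn act) : (r • v).vec = (act r).mulVec v.vec := rfl

variable {act} in
theorem ActedOn.scalar_smul {r : R} {l : Λ} (h : act r = l • (1 : Matrix (Fin d) (Fin d) Λ))
    (v : ActedOn act) : (r • v).vec = l • v.vec := by
  rw [ActedOn.smul_vec, h, Matrix.smul_mulVec, Matrix.one_mulVec]

end Patched

end Fermat.Agent.TwoAdic
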