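import Fermat.Agent.TwoAdic.Patching
import Fermat.Agent.TwoAdic.Criterion.Chain
import Fermat.Agent.TwoAdic.Criterion.Length
import Fermat.Agent.Deform.Relative
import Mathlib.RingTheory.IntegralClosure.IsIntegralClosure.Basic
import Mathlib.RingTheory.Ideal.GoingUp

/-!
# Wiles's numerical criterion over a complete discrete valuation ring

For an augmented finite free `O`-algebra `T` the congruence length bounds the cotangent length
from below, with equality for complete intersections; equality at the level of a quotient map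
`R → T` makes the map bijective and both rings complete intersections.

The proof does not pass to the special fibre: the socle of a complete intersection modulo `ϖ` is
spanned by the determinant of the coefficient matrix of the relations.
-/

set_option autoImplicit false

open IsLocalRing MvPowerSeries Matrix

namespace Fermat.Agent.TwoAdic

/-- The congruence ideal of an augmentation. -/
def congIdeal {O T : Type} [CommRing O] [CommRing T] [Algebra O T] (θ : T →ₐ[O] O) : Ideal O :=
  (Submodule.annihilator (RingHom.ker θ)).map (θ : T →+* O)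

open Criterion

variable {O : Type} [CommRing O] [IsDomain O] [IsDiscreteValuationRing O]

theorem isUnit_of_augmentation {T : Type} [CommRing T] [IsLocalRing T] [Algebra O T]
    (θ : T →ₐ[O] O) {t : T} (ht : IsUnit (θ t)) : IsUnit t := by
  by_contra h
  have h1 : IsUnit (algebraMap O T (θ t)) := ht.map _
  have h2 : algebraMap O T (θ t) - t ∈ RingHom.ker θ := by simp [RingHom.mem_ker]
  have h3 : algebraMap O T (θ t) - t ∈ maximalIdeal T :=
    IsLocalRing.le_maximalIdeal (RingHom.ker_ne_top _) h2
  have h4 := add_mem h3 (show t ∈ maximalIdeal T from h)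
  rw [sub_add_cancel] at h4
  exact h4 h1

theorem apply_mem_maximalIdeal {T : Type} [CommRing T] [IsLocalRing T] [Algebra O T]
    (θ : T →ₐ[O] O) {t : T} (ht : t ∈ maximalIdeal T) : θ t ∈ maximalIdeal O :=
  fun hu => ht (isUnit_of_augmentation θ hu)

omit [IsDomain O] [IsDiscreteValuationRing O] in
theorem mem_congIdeal {T : Type} [CommRing T] [Algebra O T] {θ : T →ₐ[O] O} {o : O} :
    o ∈ congIdeal θ ↔ ∃ t : T, (∀ y ∈ RingHom.ker θ, t * y = 0) ∧ θ t = o := by
  rw [congIdeal, Ideal.mem_map_iff_of_surjective (θ : T →+* O)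
    (fun o => ⟨algebraMap O T o, θ.commutes o⟩)]
  simp only [Submodule.mem_annihilator, smul_eq_mul, RingHom.coe_coe]

omit [IsDomain O] [IsDiscreteValuationRing O] in
theorem mul_eq_apply_smul {T : Type} [CommRing T] [Algebra O T] {θ : T →ₐ[O] O} {t : T}
    (ht : ∀ y ∈ RingHom.ker θ, t * y = 0) (x : T) : t * x = θ x • t := by
  have h : t * (x - algebraMap O T (θ x)) = 0 := ht _ (by simp [RingHom.mem_ker])
  rw [mul_sub, sub_eq_zero] at h
  rw [h, Algebra.smul_def, mul_comm]

section PowerSeries

variable {r : ℕ}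

omit [IsDomain O] [IsDiscreteValuationRing O] in
theorem apply_eq_constantCoeff {S : Type} [CommRing S] [Algebra O S]
    (π : MvPowerSeries (Fin r) O →ₐ[O] S) (θ : S →ₐ[O] O) (hX : ∀ j, θ (π (X j)) = 0)
    (f : MvPowerSeries (Fin r) O) : θ (π f) = constantCoeff f := by
  obtain ⟨a, ha⟩ := exists_row (f := f - C (constantCoeff f)) (by simp)
  have hf : f = C (constantCoeff f) + a ⬝ᵥ varVec O r := by rw [← ha]; ring
  conv_lhs => rw [hf]
  rw [map_add, map_add]
  have hC : π (C (constantCoeff f)) = algebraMap O S (constantCoeff f) := π.commutes _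
  rw [hC, θ.commutes, Algebra.algebraMap_self, RingHom.id_apply, add_eq_left, dotProduct,
    map_sum, map_sum]
  exact Finset.sum_eq_zero fun j _ => by simp [varVec, hX]

omit [IsDomain O] [IsDiscreteValuationRing O] in
theorem span_range_mulVec_le {n : Type*} [Fintype n] (M : Matrix n n (MvPowerSeries (Fin r) O))
    (v : n → MvPowerSeries (Fin r) O) :
    Ideal.span (Set.range (M *ᵥ v)) ≤ Ideal.span (Set.range v) :=
  Ideal.span_le.2 (Set.range_subset_iff.2 fun _ => sum_mem fun j _ =>
    Ideal.mul_mem_left _ _ (Ideal.subset_span ⟨j, rfl⟩))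

omit [IsDomain O] [IsDiscreteValuationRing O] in
theorem span_range_mulVec_eq {n : Type*} [Fintype n] [DecidableEq n]
    {M : Matrix n n (MvPowerSeries (Fin r) O)} (hM : IsUnit M.det)
    (v : n → MvPowerSeries (Fin r) O) :
    Ideal.span (Set.range (M *ᵥ v)) = Ideal.span (Set.range v) := by
  refine le_antisymm (span_range_mulVec_le M v) ?_
  have h : v = M⁻¹ *ᵥ (M *ᵥ v) := by
    rw [Matrix.mulVec_mulVec, Matrix.nonsing_inv_mul _ hM, Matrix.one_mulVec]
  conv_lhs => rw [h]
  exact span_range_mulVec_le _ _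

omit [IsDomain O] [IsDiscreteValuationRing O] in
/-- The determinant of the coefficients annihilates the kernel of the augmentation. -/
theorem det_mul_ker {S : Type} [CommRing S] [Algebra O S]
    (π : MvPowerSeries (Fin r) O →ₐ[O] S) (θ : S →ₐ[O] O)
    (hπ : Function.Surjective π) (hε : ∀ f, θ (π f) = constantCoeff f)
    (a : Matrix (Fin r) (Fin r) (MvPowerSeries (Fin r) O))
    (ha : ∀ i, π ((a *ᵥ varVec O r) i) = 0) :
    ∀ y ∈ RingHom.ker θ, π a.det * y = 0 := by
  intro y hy
  obtain ⟨f, rfl⟩ := hπ y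
  obtain ⟨c, rfl⟩ := exists_row (f := f) ((hε f).symm.trans hy)
  rw [← map_mul, ← smul_eq_mul, ← dotProduct_smul, dotProduct, map_sum]
  refine Finset.sum_eq_zero fun j _ => ?_
  rw [map_mul]
  have hj : (a.det • varVec O r) j = ∑ l, a.adjugate j l * (a *ᵥ varVec O r) l := by
    have h2 := congrFun (Matrix.mulVec_mulVec (varVec O r) a.adjugate a) j
    rw [Matrix.adjugate_mul, Matrix.smul_mulVec, Matrix.one_mulVec] at h2
    exact h2.symm
  rw [hj, map_sum, Finset.mul_sum]
  exact Finset.sum_eq_zero fun l _ => by rw [map_mul, ha l, mul_zero, mul_zero]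

variable {T : Type} [CommRing T] [IsLocalRing T] [Algebra O T] [Module.Finite O T]
  (π : MvPowerSeries (Fin r) O →ₐ[O] T) (hπ : Function.Surjective π)

include hπ in
omit [IsLocalRing T] in
/-- A prime containing `ϖ` and the relations of a finite `O`-algebra is the maximal ideal. -/
theorem eq_maximalIdeal_of_ker_le {ϖ : O} (hϖ : Irreducible ϖ)
    {p : Ideal (MvPowerSeries (Fin r) O)} (hp : p.IsPrime) (hC : C ϖ ∈ p)
    (hK : RingHom.ker π ≤ p) : p = maximalIdeal (MvPowerSeries (Fin r) O) := by
  have hm := (IsDiscreteValuationRing.irreducible_iff_uniformizer ϖ).1 hϖ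
  have hq : (p.map π).IsPrime := Ideal.map_isPrime_of_surjective hπ hK
  have h1 : maximalIdeal O ≤ (p.map π).comap (algebraMap O T) := by
    rw [hm, Ideal.span_singleton_le_iff_mem, Ideal.mem_comap,
      show algebraMap O T ϖ = π (C ϖ) from (π.commutes ϖ).symm]
    exact Ideal.mem_map_of_mem π hC
  have h2 : ((p.map π).comap (algebraMap O T)).IsMaximal :=
    ((maximalIdeal.isMaximal O).eq_of_le (Ideal.IsPrime.comap _).ne_top h1) ▸
      maximalIdeal.isMaximal O
  have : Algebra.IsIntegral O T := Algebra.IsIntegral.of_finite O T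
  have h3 : (p.map π).IsMaximal := Ideal.isMaximal_of_isIntegral_of_isMaximal_comap _ h2
  have h4 : ((p.map π).comap π).IsMaximal := Ideal.comap_isMaximal_of_surjective _ hπ
  have h5 : (p.map π).comap π = p := by
    rw [Ideal.comap_map_of_surjective _ hπ, sup_eq_left]
    exact hK
  exact IsLocalRing.eq_maximalIdeal (h5 ▸ h4)

omit [IsLocalRing T] [Module.Finite O T] in
include hπ in
omit [IsDomain O] [IsDiscreteValuationRing O] in
/-- If `ϖ`-torsion is absent and the socle element is nonzero modulo `ϖ`, its value is not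
divisible by `ϖ`. -/
theorem apply_det_ne_smul {ϖ : O} (D : MvPowerSeries (Fin r) O)
    (hD : D ∉ Ideal.span {C ϖ} ⊔ RingHom.ker π) (t : T) : π D ≠ ϖ • t := by
  intro h
  obtain ⟨q, rfl⟩ := hπ t
  refine hD (Submodule.mem_sup.2 ⟨C ϖ * q, Ideal.mul_mem_right _ _
    (Ideal.mem_span_singleton_self _), D - C ϖ * q, ?_, add_sub_cancel _ _⟩)
  rw [RingHom.mem_ker, map_sub, h, ← map_smul, ← map_sub, MvPowerSeries.smul_eq_C_mul, sub_self,
    map_zero]

variable [Module.Free O T]

include hπ in
/-- A complete intersection presented at the augmentation: the cotangent length is the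
congruence length. -/
theorem length_cotangent_eq_of_presentation (θ : T →ₐ[O] O)
    (hε : ∀ f, θ (π f) = constantCoeff f) (F : Fin r → MvPowerSeries (Fin r) O)
    (hker : RingHom.ker π = Ideal.span (Set.range F)) (hθ : congIdeal θ ≠ ⊥) :
    Module.length T (RingHom.ker θ).Cotangent = Module.length O (O ⧸ congIdeal θ) := by
  classical
  obtain ⟨ϖ, hϖ⟩ := IsDiscreteValuationRing.exists_irreducible O
  have hFK : ∀ i, F i ∈ RingHom.ker π := fun i => hker ▸ Ideal.subset_span ⟨i, rfl⟩
  have hF0 : ∀ i, constantCoeff (F i) = 0 := fun i =>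
    constantCoeff_eq_zero_of_mem_ker π θ hε (hFK i)
  choose A hA using fun i => exists_row (hF0 i)
  let W : Fin r → Submodule (MvPowerSeries (Fin r) O) (Fin r → MvPowerSeries (Fin r) O) :=
    fun i => Submodule.span _ (A '' {j | i < j})
  let dot : (Fin r → MvPowerSeries (Fin r) O) →ₗ[MvPowerSeries (Fin r) O]
      MvPowerSeries (Fin r) O :=
    { toFun := fun w => w ⬝ᵥ varVec O r
      map_add' := fun v w => add_dotProduct v w _
      map_smul' := fun c w => smul_dotProduct c w _ }
  have hW : ∀ (i : Fin r) (a : Fin r → Fin r → MvPowerSeries (Fin r) O),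
      (∀ j < i, a j - A j ∈ W j) → ∀ p : Ideal (MvPowerSeries (Fin r) O), p.IsPrime → C ϖ ∈ p →
      (∀ j < i, a j ⬝ᵥ varVec O r ∈ p) → A i ⬝ᵥ varVec O r ∈ p →
      (∀ w ∈ W i, w ⬝ᵥ varVec O r ∈ p) → p = maximalIdeal _ := by
    intro i a ha p hp hC hlt hi hgt
    refine eq_maximalIdeal_of_ker_le π hπ hϖ hp hC ?_
    rw [hker, Ideal.span_le, Set.range_subset_iff]
    suffices key : ∀ (d : ℕ) (j : Fin r), r ≤ j + d → F j ∈ p from fun j => key r j (by omega)
    intro d
    induction d with
    | zero => exact fun j hj => absurd j.isLt (by omega)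
    | succ d ih =>
      intro j hj
      rw [hA j]
      rcases lt_trichotomy i j with h | h | h
      · exact hgt _ (Submodule.subset_span ⟨j, h, rfl⟩)
      · exact h ▸ hi
      · have h1 : dot (a j - A j) ∈ p := by
          have h2 : Submodule.map dot (W j) ≤ p := by
            rw [Submodule.map_span, Submodule.span_le]
            rintro _ ⟨_, ⟨k, hk, rfl⟩, rfl⟩
            show A k ⬝ᵥ varVec O r ∈ p
            rw [← hA k]
            exact ih k (by have : (j : ℕ) < k := hk; omega)
          exact h2 ⟨_, ha j h, rfl⟩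
        have h3 := sub_mem (hlt j h) h1
        rw [map_sub] at h3
        show dot (A j) ∈ p
        have h4 : dot (a j) - (dot (a j) - dot (A j)) ∈ p := h3
        rwa [sub_sub_cancel] at h4
  obtain ⟨a, haW, hsoc, -⟩ := exists_rows_socle hϖ A W hW
  have hU : ∀ i, ∃ l : Fin r → MvPowerSeries (Fin r) O,
      (∀ k, ¬i < k → l k = 0) ∧ a i - A i = ∑ k, l k • A k := by
    intro i
    obtain ⟨l, hl, hl'⟩ := (Finsupp.mem_span_image_iff_linearCombination _).1 (haW i)
    refine ⟨l, fun k hk => ?_, ?_⟩
    · exact Finsupp.notMem_support_iff.1 fun h => hk (hl h)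
    · rw [← hl', Finsupp.linearCombination_apply, Finsupp.sum_fintype _ _ (by simp)]
  choose l hl0 hl using hU
  let U : Matrix (Fin r) (Fin r) (MvPowerSeries (Fin r) O) := 1 + Matrix.of l
  have haU : Matrix.of a = U * Matrix.of A := by
    refine Matrix.ext fun i j => ?_
    have := congrFun (hl i) j
    simp only [Pi.sub_apply, Finset.sum_apply, Pi.smul_apply, smul_eq_mul] at this
    rw [show U = 1 + Matrix.of l from rfl, Matrix.add_mul, Matrix.one_mul, Matrix.add_apply,
      Matrix.mul_apply]
    simp only [Matrix.of_apply, ← this]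
    ring
  have hUdet : U.det = 1 := by
    rw [Matrix.det_of_isUpperTriangular]
    · refine Finset.prod_eq_one fun i _ => ?_
      simp [U, hl0 i i (lt_irrefl i)]
    · intro i j hij
      have hji : j < i := hij
      simp [U, Matrix.one_apply_ne (ne_of_gt hji), hl0 i j (lt_asymm hji)]
  have hFA : Matrix.of A *ᵥ varVec O r = F := funext fun i => (hA i).symm
  have hdet : (Matrix.of a).det = (Matrix.of A).det := by
    rw [haU, Matrix.det_mul, hUdet, one_mul]
  have hspan : Ideal.span (insert (C ϖ) (Set.range (Matrix.of a *ᵥ varVec O r))) =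
      Ideal.span {C ϖ} ⊔ RingHom.ker π := by
    rw [Ideal.span_insert, haU, ← Matrix.mulVec_mulVec, hFA,
      span_range_mulVec_eq (by simp [hUdet]), hker]
  rw [hspan, hdet] at hsoc
  have hne : ∀ t, π (Matrix.of A).det ≠ ϖ • t := apply_det_ne_smul π hπ _ hsoc.1
  have hd : ∀ y ∈ RingHom.ker θ, π (Matrix.of A).det * y = 0 :=
    det_mul_ker π θ hπ hε _ fun i => RingHom.mem_ker.1 (by rw [hFA]; exact hFK i)
  set A₀ : Matrix (Fin r) (Fin r) O := (Matrix.of A).map constantCoeff
  have hA₀ : θ (π (Matrix.of A).det) = A₀.det := by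
    rw [hε]; exact (MvPowerSeries.constantCoeff (R := O)).map_det _
  have hA₀ne : A₀.det ≠ 0 := by
    intro h0
    obtain ⟨o, ho, ho0⟩ := (Submodule.ne_bot_iff _).1 hθ
    obtain ⟨t, ht, rfl⟩ := mem_congIdeal.1 ho
    have h1 := mul_eq_apply_smul hd t
    rw [mul_comm, mul_eq_apply_smul ht, hA₀, h0, zero_smul, eq_comm,
      smul_eq_zero] at h1
    exact hne 0 (by rw [smul_zero]; exact h1.resolve_left ho0)
  have hη : congIdeal θ = Ideal.span {A₀.det} := by
    refine le_antisymm (fun o ho => ?_) ?_
    · obtain ⟨t, ht, rfl⟩ := mem_congIdeal.1 ho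
      rw [Ideal.mem_span_singleton]
      rcases eq_or_ne (θ t) 0 with h0 | h0
      · simp [h0]
      rcases ValuationRing.dvd_total A₀.det (θ t) with h | ⟨e, he⟩
      · exact h
      by_cases hu : IsUnit e
      · exact ⟨↑hu.unit⁻¹, by rw [he, mul_assoc, hu.mul_val_inv, mul_one]⟩
      · have hem : e ∈ maximalIdeal O := hu
        rw [(IsDiscreteValuationRing.irreducible_iff_uniformizer ϖ).1 hϖ,
          Ideal.mem_span_singleton] at hem
        obtain ⟨e', rfl⟩ := hem
        have h1 := mul_eq_apply_smul hd t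
        rw [mul_comm, mul_eq_apply_smul ht, hA₀, he, mul_smul] at h1
        exact absurd ((smul_right_injective T h0) h1.symm)
          (fun h => hne (e' • t) (by rw [h, mul_smul]))
    · rw [Ideal.span_singleton_le_iff_mem, ← hA₀]
      exact mem_congIdeal.2 ⟨_, hd, rfl⟩
  rw [length_cotangent_eq_linParts π θ hπ hε, hker, linParts_span F hF0, hη]
  have hlin : (fun i => linPart (F i)) = A₀.row := funext fun i => by
    rw [hA i, linPart_dotProduct]; rfl
  rw [hlin, length_quotient_span_rows A₀ hA₀ne]
  rfl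

end PowerSeries

variable [IsAdicComplete (maximalIdeal O) O]

/-- A presentation can be translated so that the variables lie in the kernel of the
augmentation. -/
theorem exists_translate {r : ℕ} {T : Type} [CommRing T] [IsLocalRing T] [Algebra O T]
    (ψ : MvPowerSeries (Fin r) O →ₐ[O] T) (hψ : Function.Surjective ψ) (θ : T →ₐ[O] O) :
    ∃ τ : MvPowerSeries (Fin r) O →ₐ[O] MvPowerSeries (Fin r) O, Function.Bijective τ ∧
      ∀ f, θ (ψ (τ f)) = constantCoeff f := by
  have : IsAdicComplete (maximalIdeal (MvPowerSeries (Fin r) O)) (MvPowerSeries (Fin r) O) :=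
    DefRing.isAdicComplete_mvPowerSeries
  have : IsLocalHom (algebraMap O (MvPowerSeries (Fin r) O)) := ⟨fun a ha => by
    rw [MvPowerSeries.algebraMap_apply, MvPowerSeries.isUnit_iff_constantCoeff,
      constantCoeff_C] at ha
    simpa using ha⟩
  have hc : ∀ i, θ (ψ (X i)) ∈ maximalIdeal O := fun i => apply_mem_maximalIdeal θ fun hu => by
    obtain ⟨y, hy⟩ := hψ ↑hu.unit⁻¹
    have h1 : IsUnit (1 - (X i : MvPowerSeries (Fin r) O) * y) :=
      IsLocalRing.isUnit_one_sub_self_of_mem_nonunits _
        (Ideal.mul_mem_right y _ (DefRing.X_mem_maximalIdeal i))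
    have h2 := h1.map ψ
    rw [map_sub, map_one, map_mul, hy, hu.mul_val_inv, sub_self] at h2
    exact not_isUnit_zero h2
  obtain ⟨τ, hτ, hτX⟩ := Deform.exists_algHom_powerSeries (B := O) (σ := Fin r)
    (fun i => X i - algebraMap O (MvPowerSeries (Fin r) O) (θ (ψ (X i)))) (fun i => by
      rw [DefRing.mem_maximalIdeal_iff_constantCoeff]
      simpa [MvPowerSeries.algebraMap_apply] using neg_mem (hc i))
  have hCm : ∀ o : O, constantCoeff
      ((τ : MvPowerSeries (Fin r) O →+* MvPowerSeries (Fin r) O) (C o)) = o := fun o => by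
    show constantCoeff (τ (C o)) = o
    rw [show τ (C o) = C o from τ.commutes o, constantCoeff_C]
  have hsurj : Function.Surjective τ := by
    have hm := (IsDiscreteValuationRing.irreducible_iff_uniformizer _).1
      (IsDiscreteValuationRing.exists_irreducible O).choose_spec
    refine @Deform.surjective_of_cotangent (MvPowerSeries (Fin r) O) (MvPowerSeries (Fin r) O)
      _ _ _ _ _ _ _ (τ : MvPowerSeries (Fin r) O →+* MvPowerSeries (Fin r) O) hτ (fun z => ?_) ?_
    · obtain ⟨f, rfl⟩ := residue_surjective z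
      refine ⟨C (constantCoeff f), ?_⟩
      rw [Function.comp_apply, ← sub_eq_zero, ← map_sub, residue_eq_zero_iff,
        DefRing.mem_maximalIdeal_iff_constantCoeff, map_sub, hCm, sub_self]
      exact zero_mem _
    · refine le_sup_of_le_left ((maximalIdeal_le_span hm).trans (Ideal.span_le.2 ?_))
      rintro x (rfl | ⟨i, rfl⟩)
      · have h1 := Ideal.mem_map_of_mem (τ : MvPowerSeries (Fin r) O →+* MvPowerSeries (Fin r) O)
          (span_le_maximalIdeal hm (Ideal.subset_span (Set.mem_insert _ (Set.range (varVec O r)))))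
        rwa [RingHom.coe_coe, show τ (C _) = C _ from τ.commutes _] at h1
      · have h1 : (varVec O r i : MvPowerSeries (Fin r) O) =
            τ (X i + algebraMap O _ (θ (ψ (X i)))) := by
          rw [map_add, hτX, τ.commutes, sub_add_cancel]; rfl
        rw [h1]
        refine Ideal.mem_map_of_mem _ ?_
        rw [DefRing.mem_maximalIdeal_iff_constantCoeff]
        simpa [MvPowerSeries.algebraMap_apply] using hc i
  refine ⟨τ, ⟨?_, hsurj⟩, fun f => apply_eq_constantCoeff (ψ.comp τ) θ (fun j => ?_) f⟩
  · have key : ∀ n : ℕ, Function.Surjective (τ : _ → _)^[n] := fun n => hsurj.iterate n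
    let K : ℕ → Ideal (MvPowerSeries (Fin r) O) := fun n =>
      RingHom.ker ((τ : MvPowerSeries (Fin r) O →+* MvPowerSeries (Fin r) O) ^ n)
    have hK : ∀ n x, x ∈ K n ↔ (τ : _ → _)^[n] x = 0 := fun n x => by
      rw [RingHom.mem_ker, RingHom.coe_pow]; rfl
    have hmono : Monotone K := monotone_nat_of_le_succ fun n x hx => by
      rw [hK] at hx ⊢
      rw [Function.iterate_succ_apply', hx, map_zero]
    obtain ⟨N, hN⟩ := monotone_stabilizes_iff_noetherian.2 inferInstance ⟨K, hmono⟩
    rw [injective_iff_map_eq_zero]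
    intro x hx
    obtain ⟨y, rfl⟩ := key N x
    rw [← hK]
    have h1 : K N = K (N + 1) := hN (N + 1) (Nat.le_succ N)
    rw [h1, hK, Function.iterate_succ_apply']
    exact hx
  · rw [AlgHom.comp_apply, hτX, map_sub, map_sub, AlgHom.commutes, AlgHom.commutes,
      Algebra.algebraMap_self, RingHom.id_apply, sub_self]

/-- For a complete intersection the cotangent length equals the congruence length. -/
theorem length_cotangent_eq {T : Type} [CommRing T] [IsLocalRing T] [Algebra O T]
    (hT : IsFiniteCI O T) (θ : T →ₐ[O] O) (hθ : congIdeal θ ≠ ⊥) :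
    Module.length T (RingHom.ker θ).Cotangent = Module.length O (O ⧸ congIdeal θ) := by
  obtain ⟨hfin, hfree, r, F, ψ, hψ, hker⟩ := hT
  obtain ⟨τ, hτ, hε⟩ := exists_translate ψ hψ θ
  choose F' hF' using fun i => hτ.2 (F i)
  refine length_cotangent_eq_of_presentation (ψ.comp τ) (hψ.comp hτ.2) θ hε F' ?_ hθ
  have h1 : RingHom.ker (ψ.comp τ) = (RingHom.ker ψ).comap τ := rfl
  have h2 : Ideal.span (Set.range F) = (Ideal.span (Set.range F')).map τ := by
    rw [Ideal.map_span, ← Set.range_comp]
    congr 2
    exact funext fun i => (hF' i).symm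
  rw [h1, hker, h2, Ideal.comap_map_of_bijective _ hτ]

/-- Wiles's numerical criterion, in the form used for scalar primes. -/
theorem bijective_of_cotangent_le {R T : Type} [CommRing R] [IsLocalRing R] [IsNoetherianRing R]
    [IsAdicComplete (maximalIdeal R) R] [Algebra O R] [CommRing T] [Algebra O T]
    [Module.Finite O T] [Module.Free O T] (φ : R →ₐ[O] T) (hφ : Function.Surjective φ)
    (θ : T →ₐ[O] O) (hθ : congIdeal θ ≠ ⊥)
    (hle : Module.length R (RingHom.ker (θ.comp φ)).Cotangent ≤
      Module.length O (O ⧸ congIdeal θ)) :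
    Function.Bijective φ ∧ IsFiniteCI O R := by
  classical
  obtain ⟨ϖ, hϖ⟩ := IsDiscreteValuationRing.exists_irreducible O
  have hm := (IsDiscreteValuationRing.irreducible_iff_uniformizer ϖ).1 hϖ
  have : Nontrivial T := ⟨0, 1, fun h => zero_ne_one (α := O) (by simpa using congrArg θ h)⟩
  have : IsLocalRing T := .of_surjective' (φ : R →+* T) hφ
  have : IsLocalHom (algebraMap O R) := ⟨fun a ha => by simpa using ha.map (θ.comp φ)⟩
  set θ' := θ.comp φ with hθ'
  obtain ⟨r, v, hv⟩ := Submodule.fg_iff_exists_fin_generating_family.1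
    (IsNoetherian.noetherian (RingHom.ker θ'))
  have hvmem : ∀ i, v i ∈ RingHom.ker θ' := fun i => hv ▸ Submodule.subset_span ⟨i, rfl⟩
  have hkm : RingHom.ker θ' ≤ maximalIdeal R := IsLocalRing.le_maximalIdeal (RingHom.ker_ne_top _)
  have : IsAdicComplete (maximalIdeal (MvPowerSeries (Fin r) O)) (MvPowerSeries (Fin r) O) :=
    DefRing.isAdicComplete_mvPowerSeries
  obtain ⟨πR, hπRloc, hπX⟩ := Deform.exists_algHom_powerSeries (B := O) v fun i => hkm (hvmem i)
  have hπR : Function.Surjective πR := by
    refine @Deform.surjective_of_cotangent (MvPowerSeries (Fin r) O) R _ _ _ _ _ _ _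
      (πR : MvPowerSeries (Fin r) O →+* R) hπRloc (fun z => ?_)
      (le_sup_of_le_left fun z hz => ?_)
    · obtain ⟨x, rfl⟩ := residue_surjective z
      refine ⟨C (θ' x), ?_⟩
      rw [Function.comp_apply, ← sub_eq_zero, ← map_sub, residue_eq_zero_iff]
      refine hkm ?_
      rw [RingHom.mem_ker, map_sub]
      show θ' (πR (C (θ' x))) - θ' x = 0
      rw [show πR (C (θ' x)) = algebraMap O R (θ' x) from πR.commutes _, θ'.commutes]
      simp
    · have h1 : z - algebraMap O R (θ' z) ∈ (maximalIdeal _).map (πR : MvPowerSeries (Fin r) O →+* R) := by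
        have h2 : z - algebraMap O R (θ' z) ∈ RingHom.ker θ' := by simp [RingHom.mem_ker]
        rw [← hv] at h2
        refine Submodule.span_le.2 ?_ h2
        rintro _ ⟨i, rfl⟩
        exact hπX i ▸ Ideal.mem_map_of_mem _ (DefRing.X_mem_maximalIdeal i)
      have h3 : algebraMap O R (θ' z) ∈ (maximalIdeal _).map (πR : MvPowerSeries (Fin r) O →+* R) := by
        rw [← πR.commutes]
        refine Ideal.mem_map_of_mem _ ?_
        rw [DefRing.mem_maximalIdeal_iff_constantCoeff]
        simpa [MvPowerSeries.algebraMap_apply] using apply_mem_maximalIdeal θ' hz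
      simpa using add_mem h1 h3
  have hεR : ∀ f, θ' (πR f) = constantCoeff f := apply_eq_constantCoeff πR θ' fun j => by
    rw [hπX]; exact hvmem j
  set πT := φ.comp πR with hπTdef
  have hπT : Function.Surjective πT := hφ.comp hπR
  have hεT : ∀ f, θ (πT f) = constantCoeff f := hεR
  set K := RingHom.ker πT
  have hKle : RingHom.ker πR ≤ K := fun f hf => by
    rw [RingHom.mem_ker] at hf
    show φ (πR f) = 0
    rw [hf, map_zero]
  -- the congruence length
  set η₀ := Submodule.IsPrincipal.generator (congIdeal θ)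
  have hη : congIdeal θ = Ideal.span {η₀} := (Ideal.span_singleton_generator _).symm
  have hη₀ : η₀ ≠ 0 := fun h => hθ ((Submodule.IsPrincipal.eq_bot_iff_generator_eq_zero _).2 h)
  have hηlen : Module.length O (O ⧸ congIdeal θ) = Ring.ord O η₀ := by rw [hη]; rfl
  have htop : Ring.ord O η₀ ≠ ⊤ := Ring.ord_ne_top (mem_nonZeroDivisors_of_ne_zero hη₀)
  have hO : Module.length O O = ⊤ := by
    rw [← Ring.ord_zero, Ring.ord_eq_addVal, IsDiscreteValuationRing.addVal_zero]
  rw [length_cotangent_eq_linParts πR θ' hπR hεR, hηlen] at hle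
  have hsub := linParts_mono hKle
  have hleT : Module.length O ((Fin r → O) ⧸ linParts K) ≤
      Module.length O ((Fin r → O) ⧸ linParts (RingHom.ker πR)) :=
    Module.length_le_of_surjective (Submodule.factor hsub) (Submodule.factor_surjective hsub)
  obtain ⟨A₀, hA₀, hspan₀⟩ := exists_rows_of_length_ne_top hO (linParts K)
    (ne_top_of_le_ne_top htop (hleT.trans hle))
  have hrow : ∀ i, A₀.row i ∈ linParts K := fun i => hspan₀ ▸ Submodule.subset_span ⟨i, rfl⟩
  choose F hFK hFlin using hrow
  have hF0 : ∀ i, constantCoeff (F i) = 0 := fun i =>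
    constantCoeff_eq_zero_of_mem_ker πT θ hεT (hFK i)
  choose A hA using fun i => exists_row (hF0 i)
  let dot : (Fin r → MvPowerSeries (Fin r) O) →ₗ[MvPowerSeries (Fin r) O]
      MvPowerSeries (Fin r) O :=
    { toFun := fun w => w ⬝ᵥ varVec O r
      map_add' := fun v w => add_dotProduct v w _
      map_smul' := fun c w => smul_dotProduct c w _ }
  let W : Fin r → Submodule (MvPowerSeries (Fin r) O) (Fin r → MvPowerSeries (Fin r) O) :=
    fun _ => Submodule.comap dot K ⊓ Submodule.pi Set.univ fun _ => varIdeal O r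
  have hW : ∀ (i : Fin r) (a : Fin r → Fin r → MvPowerSeries (Fin r) O),
      (∀ j < i, a j - A j ∈ W j) → ∀ p : Ideal (MvPowerSeries (Fin r) O), p.IsPrime → C ϖ ∈ p →
      (∀ j < i, a j ⬝ᵥ varVec O r ∈ p) → A i ⬝ᵥ varVec O r ∈ p →
      (∀ w ∈ W i, w ⬝ᵥ varVec O r ∈ p) → p = maximalIdeal _ := by
    intro i a _ p hp hC _ _ hgt
    by_cases hX : ∀ j, varVec O r j ∈ p
    · refine ((maximalIdeal.isMaximal _).eq_of_le hp.ne_top ?_).symm
      exact (maximalIdeal_le_span hm).trans
        (Ideal.span_le.2 (Set.insert_subset hC (Set.range_subset_iff.2 hX)))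
    · push Not at hX
      obtain ⟨j, hj⟩ := hX
      refine eq_maximalIdeal_of_ker_le πT hπT hϖ hp hC fun k hk => ?_
      have hw := hgt (Pi.single j (k * varVec O r j)) ⟨?_, ?_⟩
      · rw [single_dotProduct, mul_assoc] at hw
        exact (hp.mem_or_mem hw).resolve_right fun h => hj ((hp.mem_or_mem h).elim id id)
      · show Pi.single j (k * varVec O r j) ⬝ᵥ varVec O r ∈ K
        rw [single_dotProduct, mul_assoc]
        exact Ideal.mul_mem_right _ _ hk
      · intro l _
        rcases eq_or_ne l j with rfl | hl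
        · rw [Pi.single_eq_same]
          exact Ideal.mul_mem_left _ _ (Ideal.subset_span ⟨l, rfl⟩)
        · rw [Pi.single_eq_of_ne hl]; exact zero_mem _
  obtain ⟨a, haW, hsoc, hprime⟩ := exists_rows_socle hϖ A W hW
  set G := Matrix.of a *ᵥ varVec O r with hGdef
  have hGK : ∀ i, G i ∈ K := fun i => by
    have h1 : dot (a i - A i) ∈ K := (haW i).1
    rw [map_sub] at h1
    have h2 : dot (A i) ∈ K := by
      show A i ⬝ᵥ varVec O r ∈ K
      rw [← hA i]; exact hFK i
    have h3 := add_mem h1 h2
    rw [sub_add_cancel] at h3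
    exact h3
  have hlinG : ∀ i, linPart (G i) = A₀.row i := fun i => by
    rw [← hFlin i, hA i, hGdef]
    show linPart (a i ⬝ᵥ varVec O r) = _
    rw [linPart_dotProduct, linPart_dotProduct]
    funext j
    have h1 := mem_varIdeal_iff.1 ((haW i).2 j (Set.mem_univ _))
    rw [Pi.sub_apply, map_sub, sub_eq_zero] at h1
    exact h1
  have hdet0 : constantCoeff (Matrix.of a).det = A₀.det := by
    rw [RingHom.map_det]
    congr 1
    ext i j
    have h1 := congrFun (hlinG i) j
    rw [hGdef] at h1
    change linPart (a i ⬝ᵥ varVec O r) j = _ at h1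
    rw [linPart_dotProduct] at h1
    exact h1
  have hd : ∀ y ∈ RingHom.ker θ, πT (Matrix.of a).det * y = 0 :=
    det_mul_ker πT θ hπT hεT _ fun i => RingHom.mem_ker.1 (hGK i)
  have hlenT : Module.length O ((Fin r → O) ⧸ linParts K) = Ring.ord O A₀.det := by
    rw [← hspan₀, length_quotient_span_rows A₀ hA₀]
  have hdvd : η₀ ∣ A₀.det := by
    rw [← Ideal.mem_span_singleton, ← hη, ← hdet0, ← hεT]
    exact mem_congIdeal.2 ⟨_, hd, rfl⟩
  have hord : Ring.ord O A₀.det = Ring.ord O η₀ :=
    le_antisymm (hlenT ▸ hleT.trans hle) (Ring.ord_le_ord_of_dvd hdvd)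
  have hassoc : Associated A₀.det η₀ := (Ring.ord_eq_iff_associated _ _).1 hord
  -- the socle element survives in the fibre
  have hDK : (Matrix.of a).det ∉ Ideal.span {C ϖ} ⊔ K := by
    intro hD
    rw [sup_comm, mem_sup_span_singleton] at hD
    obtain ⟨q, hq⟩ := hD
    have hqann : ∀ y ∈ RingHom.ker θ, πT q * y = 0 := fun y hy => by
      have h1 : πT (Matrix.of a).det = ϖ • πT q := by
        rw [← map_smul, ← sub_eq_zero, ← map_sub, MvPowerSeries.smul_eq_C_mul]
        exact hq
      have h2 := hd y hy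
      rw [h1, smul_mul_assoc, smul_eq_zero] at h2
      exact h2.resolve_left hϖ.ne_zero
    have h1 : constantCoeff q ∈ congIdeal θ := mem_congIdeal.2 ⟨_, hqann, hεT q⟩
    rw [hη, Ideal.mem_span_singleton] at h1
    obtain ⟨b, hb⟩ := hassoc.dvd.trans h1
    have h2 := constantCoeff_eq_zero_of_mem_ker πT θ hεT hq
    rw [map_sub, map_mul, constantCoeff_C, hdet0, hb, sub_eq_zero] at h2
    refine hϖ.not_isUnit (IsUnit.of_mul_eq_one b (mul_left_cancel₀ hA₀ ?_))
    rw [mul_one]
    exact (h2.trans (mul_left_comm _ _ _)).symm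
  have hIle : Ideal.span (insert (C ϖ) (Set.range G)) ≤ Ideal.span {C ϖ} ⊔ K := by
    rw [Ideal.span_insert]
    exact sup_le_sup_left (Ideal.span_le.2 (Set.range_subset_iff.2 hGK)) _
  have hKI : K ≤ Ideal.span (insert (C ϖ) (Set.range G)) := by
    by_contra hn
    have hprim : maximalIdeal _ ≤ (Ideal.span (insert (C ϖ) (Set.range G))).radical := by
      rw [Ideal.radical_eq_sInf]
      refine le_sInf fun q hq => ?_
      exact (hprime q hq.2 hq.1).ge
    obtain ⟨n, hn'⟩ := Ideal.exists_pow_le_of_le_radical_of_fg hprim (IsNoetherian.noetherian _)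
    refine hDK (hsoc.mem_of_lt hn' (lt_of_le_of_ne hIle fun h => hn ?_))
    exact h.symm ▸ le_sup_right
  have hK : K = Ideal.span (Set.range G) := by
    refine le_antisymm ?_ (Ideal.span_le.2 (Set.range_subset_iff.2 hGK))
    refine Submodule.le_of_le_smul_of_le_jacobson_bot (I := Ideal.span {C ϖ})
      (IsNoetherian.noetherian _) ?_ fun k hk => ?_
    · rw [Ideal.span_singleton_le_iff_mem]
      exact IsLocalRing.maximalIdeal_le_jacobson _
        (span_le_maximalIdeal hm (Ideal.subset_span (Set.mem_insert _ _)))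
    · obtain ⟨z, hz, g, hg, rfl⟩ := Submodule.mem_sup.1 (Ideal.span_insert (C ϖ) _ ▸ hKI hk)
      obtain ⟨q, rfl⟩ := Ideal.mem_span_singleton.1 hz
      refine Submodule.mem_sup.2 ⟨g, hg, C ϖ * q, ?_, add_comm _ _⟩
      rw [smul_eq_mul]
      refine Ideal.mul_mem_mul (Ideal.mem_span_singleton_self _) ?_
      have h1 := sub_mem hk ((Ideal.span_le.2 (Set.range_subset_iff.2 hGK)) hg)
      rw [add_sub_cancel_right, RingHom.mem_ker, ← MvPowerSeries.smul_eq_C_mul, map_smul,
        smul_eq_zero] at h1
      exact h1.resolve_left hϖ.ne_zero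
  -- the relations lift to `R`
  have heq : linParts K ≤ linParts (RingHom.ker πR) := by
    have h1 : Module.length O ((Fin r → O) ⧸ linParts (RingHom.ker πR)) =
        Module.length O ((Fin r → O) ⧸ linParts K) :=
      le_antisymm (hlenT ▸ hord ▸ hle) hleT
    set g := Submodule.factor hsub
    have h2 := Module.length_eq_add_of_exact (LinearMap.ker g).subtype g
      (Submodule.subtype_injective _) (Submodule.factor_surjective hsub)
      (LinearMap.exact_subtype_ker_map g)
    rw [h1] at h2
    have h3 : Module.length O (LinearMap.ker g) = 0 :=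
      (WithTop.add_right_cancel (ne_top_of_le_ne_top htop (hleT.trans hle))
        (h2.symm.trans (zero_add _).symm))
    rw [Module.length_eq_zero_iff, Submodule.subsingleton_iff_eq_bot] at h3
    intro c hc
    have h4 : (Submodule.Quotient.mk c : (Fin r → O) ⧸ linParts (RingHom.ker πR)) ∈
        LinearMap.ker g := by
      show g (Submodule.Quotient.mk c) = 0
      exact (Submodule.Quotient.mk_eq_zero _).2 hc
    rw [h3, Submodule.mem_bot, Submodule.Quotient.mk_eq_zero] at h4
    exact h4
  choose H hHR hHlin using fun i => heq (hspan₀ ▸ Submodule.subset_span ⟨i, rfl⟩ :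
    A₀.row i ∈ linParts K)
  have hHspan : ∀ i, ∃ u : Fin r → MvPowerSeries (Fin r) O, ∑ j, u j * G j = H i := fun i =>
    (Submodule.mem_span_range_iff_exists_fun _).1
      (show H i ∈ Ideal.span (Set.range G) from hK ▸ hKle (hHR i))
  choose U hU using hHspan
  have hU0 : (Matrix.of U).map constantCoeff = 1 := by
    have h1 : (Matrix.of U).map constantCoeff * A₀ = A₀ := by
      ext i j
      have h2 := congrFun (hHlin i) j
      rw [← hU i, map_sum, Finset.sum_apply] at h2
      rw [Matrix.mul_apply]
      refine Eq.trans (Finset.sum_congr rfl fun k _ => ?_) h2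
      rw [linPart_mul _ (constantCoeff_eq_zero_of_mem_ker πT θ hεT (hGK k)), hlinG]
      rfl
    have h2 := congrArg (· * A₀.adjugate) h1
    simp only [Matrix.mul_assoc, Matrix.mul_adjugate] at h2
    rw [Matrix.mul_smul, Matrix.mul_one] at h2
    exact smul_right_injective _ hA₀ h2
  have hUdet : IsUnit (Matrix.of U).det := by
    rw [MvPowerSeries.isUnit_iff_constantCoeff, RingHom.map_det, RingHom.mapMatrix_apply, hU0,
      Matrix.det_one]
    exact isUnit_one
  have hKR : RingHom.ker πR = K := by
    refine le_antisymm hKle ?_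
    rw [hK, ← span_range_mulVec_eq hUdet G, Ideal.span_le, Set.range_subset_iff]
    intro i
    rw [show (Matrix.of U *ᵥ G) i = H i from hU i]
    exact hHR i
  have hbij : Function.Bijective φ := by
    refine ⟨(injective_iff_map_eq_zero φ).2 fun x hx => ?_, hφ⟩
    obtain ⟨f, rfl⟩ := hπR x
    have : f ∈ K := hx
    rw [← hKR] at this
    exact this
  let e := AlgEquiv.ofBijective φ hbij
  exact ⟨hbij, Module.Finite.equiv e.symm.toLinearEquiv, Module.Free.of_equiv e.symm.toLinearEquiv,
    r, G, πR, hπR, hKR.trans hK⟩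

end Fermat.Agent.TwoAdic
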