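import Fermat.Agent.Patch.Ultralimit
import Fermat.Agent.Patching.FreeOfRegular
import Mathlib.RingTheory.Depth.Rees
import Mathlib.RingTheory.Ideal.AssociatedPrime.Finiteness
import Mathlib.RingTheory.Ideal.GoingUp
import Mathlib.RingTheory.KrullDimension.Regular
import Mathlib.RingTheory.KrullDimension.Module

/-!
# Regular sequences along finite extensions

Regular sequences descend along finite extensions, and a finite module over a regular ring with a
long regular sequence over a finite extension is free.
-/

set_option autoImplicit false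

open IsLocalRing RingTheory.Sequence CategoryTheory CategoryTheory.Abelian Pointwise

namespace Fermat.Agent.TwoAdic

section Exchange

variable {R : Type} [CommRing R] [IsLocalRing R] [IsNoetherianRing R]

omit [IsLocalRing R] [IsNoetherianRing R] in
/-- Vanishing of `Ext` for the quotient by a regular element. -/
theorem subsingleton_ext_quotSMulTop (M N : ModuleCat.{0} R) {n : ℕ}
    (h : ∀ i < n + 1, Subsingleton (Ext N M i)) {w : R} (hwM : IsSMulRegular M w) :
    ∀ i < n, Subsingleton (Ext N (ModuleCat.of R (QuotSMulTop w M)) i) := by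
  intro i hi
  have zero1 := AddCommGrpCat.isZero_of_iff_subsingleton.mpr (h i (by omega))
  have zero2 := AddCommGrpCat.isZero_of_iff_subsingleton.mpr (h (i + 1) (by omega))
  exact AddCommGrpCat.subsingleton_of_isZero <| ShortComplex.Exact.isZero_of_both_zeros
    ((Ext.covariant_sequence_exact₃' N hwM.smulShortComplex_shortExact) i (i + 1) rfl)
    (zero1.eq_zero_of_src _) (zero2.eq_zero_of_tgt _)

variable {M : Type} [AddCommGroup M] [Module R M] [Module.Finite R M]

/-- The quotient by any regular element has a regular sequence shorter by one. -/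
theorem exists_isRegular_quotSMulTop {a : R} {rs : List R} (reg : IsRegular M (a :: rs))
    (mem : ∀ x ∈ a :: rs, x ∈ maximalIdeal R) {w : R} (hw : w ∈ maximalIdeal R)
    (hwM : IsSMulRegular M w) :
    ∃ ss : List R, ss.length = rs.length ∧ (∀ x ∈ ss, x ∈ maximalIdeal R) ∧
      IsRegular (QuotSMulTop w M) ss := by
  have : Nontrivial M := reg.nontrivial
  let N := ModuleCat.of R (R ⧸ maximalIdeal R)
  have hsupp : Module.support R N = PrimeSpectrum.zeroLocus (maximalIdeal R : Set R) := by
    rw [Module.support_eq_zeroLocus, Ideal.annihilator_quotient]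
  have hlt : maximalIdeal R • (⊤ : Submodule R M) < ⊤ :=
    (Submodule.top_ne_ideal_smul_of_le_jacobson_annihilator
      (maximalIdeal_le_jacobson _)).symm.lt_top
  have hExt := ModuleCat.subsingleton_ext_of_exists_isRegular (maximalIdeal R) N hsupp.subset
    (ModuleCat.of R M) hlt (a :: rs) mem reg
  have : Nontrivial (QuotSMulTop w M) :=
    nontrivial_quotSMulTop_of_mem_maximalIdeal M hw
  have hlt' : maximalIdeal R • (⊤ : Submodule R (QuotSMulTop w M)) < ⊤ :=
    (Submodule.top_ne_ideal_smul_of_le_jacobson_annihilator
      (maximalIdeal_le_jacobson _)).symm.lt_top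
  exact ModuleCat.exists_isRegular_of_exists_subsingleton_ext (maximalIdeal R) rs.length
    (ModuleCat.of R (QuotSMulTop w M)) hlt' N hsupp
    (subsingleton_ext_quotSMulTop (ModuleCat.of R M) N (by simpa using hExt) hwM)

end Exchange

section Descent

variable {B : Type} [CommRing B] [IsLocalRing B] [IsNoetherianRing B]
  {T : Type} [CommRing T] [IsLocalRing T] [Algebra B T] [Module.Finite B T]

/-- A regular sequence over a finite extension gives one of the same length in the base. -/
theorem exists_isRegular_base (rs : List T) :
    ∀ {M : Type} [AddCommGroup M] [Module T M] [Module B M] [IsScalarTower B T M]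
      [Module.Finite T M], IsRegular M rs → (∀ x ∈ rs, x ∈ maximalIdeal T) →
      ∃ ws : List B, ws.length = rs.length ∧ (∀ x ∈ ws, x ∈ maximalIdeal B) ∧ IsRegular M ws := by
  have : IsNoetherianRing T := IsNoetherianRing.of_finite B T
  obtain ⟨n, hn⟩ : ∃ n, rs.length = n := ⟨_, rfl⟩
  induction n generalizing rs with
  | zero =>
    intro M _ _ _ _ _ reg _
    have : Nontrivial M := reg.nontrivial
    exact ⟨[], by simp [hn], by simp, IsRegular.nil B M⟩
  | succ n ih =>
    intro M _ _ _ _ _ reg mem
    obtain ⟨a, rs', rfl⟩ : ∃ a rs', rs = a :: rs' := by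
      cases rs with
      | nil => simp at hn
      | cons a rs' => exact ⟨a, rs', rfl⟩
    have ha : IsSMulRegular M a := ((isRegular_cons_iff M a rs').1 reg).1
    -- avoid the associated primes
    obtain ⟨w, hwB, hw⟩ : ∃ w ∈ maximalIdeal B, ∀ P ∈ associatedPrimes T M,
        algebraMap B T w ∉ P := by
      by_contra hcon
      push Not at hcon
      let s := (associatedPrimes.finite T M).toFinset
      have hsub : ((maximalIdeal B : Ideal B) : Set B) ⊆
          ⋃ P ∈ (s : Set (Ideal T)), ((P.comap (algebraMap B T) : Ideal B) : Set B) := by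
        intro x hx
        obtain ⟨P, hP, hxP⟩ := hcon x hx
        exact Set.mem_biUnion (by simpa [s] using hP) (by simpa using hxP)
      obtain ⟨P, hP, hle⟩ := (Ideal.subset_union_prime (f := fun P : Ideal T =>
          P.comap (algebraMap B T)) ⊥ ⊥ fun P hP _ _ => by
        have hP' : P ∈ associatedPrimes T M := by simpa [s] using hP
        have : P.IsPrime := IsAssociatedPrime.isPrime hP' 
        exact Ideal.comap_isPrime _ _).1 hsub
      have hPass : P ∈ associatedPrimes T M := by simpa [s] using hP
      have : P.IsPrime := IsAssociatedPrime.isPrime hPass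
      have hmax : (P.comap (algebraMap B T)).IsMaximal := by
        rw [← (maximalIdeal.isMaximal B).eq_of_le (Ideal.comap_ne_top _ this.ne_top) hle]
        infer_instance
      have : Algebra.IsIntegral B T := Algebra.IsIntegral.of_finite B T
      have hPm : P = maximalIdeal T :=
        IsLocalRing.eq_maximalIdeal (Ideal.isMaximal_of_isIntegral_of_isMaximal_comap P hmax)
      have haP : a ∈ P := hPm ▸ mem a List.mem_cons_self
      have hz : a ∈ ⋃ P ∈ associatedPrimes T M, (P : Set T) := Set.mem_biUnion hPass haP
      rw [biUnion_associatedPrimes_eq_zero_divisors] at hz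
      obtain ⟨x, hx0, hx⟩ := hz
      exact hx0 (ha (by simpa using hx))
    have hwT : IsSMulRegular M (algebraMap B T w) := by
      refine fun x y hxy => ?_
      by_contra hne
      have hz : algebraMap B T w ∈ ⋃ P ∈ associatedPrimes T M, (P : Set T) := by
        rw [biUnion_associatedPrimes_eq_zero_divisors]
        exact ⟨x - y, sub_ne_zero.2 hne, by rw [smul_sub]; exact sub_eq_zero.2 hxy⟩
      obtain ⟨P, hP, hwP⟩ := Set.mem_iUnion₂.1 hz
      exact hw P hP hwP
    have hwm : algebraMap B T w ∈ maximalIdeal T := by
      have : Algebra.IsIntegral B T := Algebra.IsIntegral.of_finite B T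
      have h1 : (maximalIdeal T).comap (algebraMap B T) = maximalIdeal B :=
        IsLocalRing.eq_maximalIdeal (Ideal.isMaximal_comap_of_isIntegral_of_isMaximal _)
      rw [← Ideal.mem_comap, h1]
      exact hwB
    obtain ⟨ss, hlen, hmem, hreg⟩ := exists_isRegular_quotSMulTop reg mem hwm hwT
    obtain ⟨ws, hwlen, hwmem, hwreg⟩ := ih ss (by
      rw [List.length_cons] at hn; omega) (M := QuotSMulTop (algebraMap B T w) M) hreg hmem
    refine ⟨w :: ws, by simp [hwlen, hlen], ?_, (isRegular_cons_iff M w ws).2 ⟨?_, ?_⟩⟩
    · simp only [List.mem_cons, forall_eq_or_imp]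
      exact ⟨hwB, hwmem⟩
    · exact fun x y hxy => hwT (by simpa [algebraMap_smul] using hxy)
    · refine (LinearEquiv.isRegular_congr ?_ ws).1 hwreg
      refine LinearEquiv.symm ((Submodule.quotEquivOfEq _ _ ?_) ≪≫ₗ
        (Submodule.Quotient.restrictScalarsEquiv B
          (algebraMap B T w • (⊤ : Submodule T M))))
      ext x
      simp [Submodule.mem_smul_pointwise_iff_exists]

end Descent

section Free

variable {B : Type} [CommRing B] [IsLocalRing B] [IsNoetherianRing B] [Finite (ResidueField B)]

/-- A finite module over a regular ring with a regular sequence over a finite extension as long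
as a system of regular parameters is free. -/
theorem free_of_isRegular_extension (xs : List B) (hxs : IsRegular B xs)
    (hmax : Ideal.ofList xs = maximalIdeal B)
    {T : Type} [CommRing T] [IsLocalRing T] [Algebra B T] [Module.Finite B T]
    {M : Type} [AddCommGroup M] [Module T M] [Module B M] [IsScalarTower B T M]
    [Module.Finite B M] (rs : List T) (hrs : IsRegular M rs)
    (mem : ∀ x ∈ rs, x ∈ maximalIdeal T) (hlen : rs.length = xs.length) :
    Module.Free B M := by
  have : Module.Finite T M := Module.Finite.of_restrictScalars_finite B T M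
  have : Nontrivial M := hrs.nontrivial
  obtain ⟨ws, hwlen, hwmem, hws⟩ := exists_isRegular_base (B := B) rs hrs mem
  refine Patching.free_of_isWeaklyRegular xs hxs hmax ws hws.toIsWeaklyRegular hwmem
    (hwlen.trans hlen) ?_
  let Q := M ⧸ Ideal.ofList ws • (⊤ : Submodule B M)
  have hQnt : Nontrivial Q := Submodule.Quotient.nontrivial_iff.2 fun h => hws.top_ne_smul h.symm
  have h1 := Module.supportDim_add_length_eq_supportDim_of_isRegular ws hws
  have hB : ringKrullDim B = xs.length := by
    have h := ringKrullDim_add_length_eq_ringKrullDim_of_isRegular xs hxs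
    rw [ringKrullDim_eq_of_ringEquiv (Ideal.quotEquivOfEq hmax),
      ringKrullDim_eq_zero_of_isField ((Ideal.Quotient.maximal_ideal_iff_isField_quotient _).1
        inferInstance), zero_add] at h
    exact h.symm
  have hQ : Module.supportDim B Q = 0 := by
    refine le_antisymm ?_ ?_
    · have h2 : Module.supportDim B Q + ws.length ≤ xs.length := by
        rw [h1, ← hB]
        exact Module.supportDim_le_ringKrullDim B M
      rw [hwlen, hlen] at h2
      nth_rw 2 [← zero_add ((xs.length : ℕ) : WithBot ℕ∞)] at h2
      exact (ENat.WithBot.add_le_add_natCast_right_iff).1 h2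
    · exact Order.krullDim_nonneg_iff.2 (Module.nonempty_support_of_nontrivial (R := B) (M := Q)).to_subtype
  have hrad : maximalIdeal B ≤ (Module.annihilator B Q).radical := by
    have h2 := _root_.support_of_supportDim_eq_zero B Q hQ
    rw [Module.support_eq_zeroLocus, PrimeSpectrum.zeroLocus_eq_iff] at h2
    rw [h2]
    exact Ideal.le_radical
  obtain ⟨k, hk⟩ := Ideal.exists_pow_le_of_le_radical_of_fg hrad (IsNoetherian.noetherian _)
  have := Patch.finite_quot (Λ := B) k
  have : Finite (B ⧸ Module.annihilator B Q) :=
    Finite.of_surjective _ (Ideal.Quotient.factor_surjective hk)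
  let : Module (B ⧸ Module.annihilator B Q) Q :=
    Module.IsTorsionBySet.module fun x a => Module.mem_annihilator.1 a.2 x
  have : Module.Finite (B ⧸ Module.annihilator B Q) Q :=
    Module.Finite.of_restrictScalars_finite B _ _
  have : Finite Q := Module.finite_of_finite (B ⧸ Module.annihilator B Q)
  exact isFiniteLength_iff_isNoetherian_isArtinian.2 ⟨inferInstance, inferInstance⟩

end Free

end Fermat.Agent.TwoAdic
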