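import Mathlib.RingTheory.Nakayama
import Fermat.Agent.TwoAdic.Patching
import Fermat.Agent.Deform.Relative
import Fermat.Agent.Engine.TRep.TwistAlgebra
import Mathlib.RingTheory.MvPowerSeries.Rename
import Mathlib.RingTheory.AdicCompletion.Noetherian

/-!
# One descent step

One descent step: from a complete intersection with a free module of rank two at the bigger level
to the same at the level with one auxiliary prime removed.
-/

set_option autoImplicit false

open IsLocalRing
open scoped Pointwise

namespace Fermat.Agent.TwoAdic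

variable {O : Type} [CommRing O] [IsDomain O] [IsDiscreteValuationRing O]
  [IsAdicComplete (maximalIdeal O) O] [Finite (ResidueField O)]

omit [IsDomain O] [IsDiscreteValuationRing O] [IsAdicComplete (maximalIdeal O) O]
  [Finite (ResidueField O)] in
/-- Two maps from a power series ring to a separated local algebra agree if they agree on the
variables. -/
theorem algHom_ext_of_hausdorff [IsLocalRing O] {σ : Type} [Finite σ] {A : Type} [CommRing A]
    [IsLocalRing A] [Algebra O A] [IsHausdorff (maximalIdeal A) A]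
    {φ ψ : MvPowerSeries σ O →ₐ[O] A}
    (hX : ∀ i, φ (MvPowerSeries.X i) ∈ maximalIdeal A)
    (h : ∀ i, φ (MvPowerSeries.X i) = ψ (MvPowerSeries.X i)) : φ = ψ := by
  refine AlgHom.ext fun f => ?_
  rw [← sub_eq_zero]
  refine IsHausdorff.haus (I := maximalIdeal A) inferInstance _ fun n => ?_
  rw [SModEq.zero, smul_eq_mul, Ideal.mul_top, ← Ideal.Quotient.eq_zero_iff_mem, map_sub,
    sub_eq_zero]
  have hnil : IsNilpotent ((maximalIdeal A).map (Ideal.Quotient.mkₐ O (maximalIdeal A ^ n))) := by
    refine ⟨n, ?_⟩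
    rw [← Ideal.map_pow, Ideal.zero_eq_bot]
    exact Ideal.map_quotient_self _
  have h' := DefRing.algHom_ext_of_X (O := O) (φ := (Ideal.Quotient.mkₐ O _).comp φ)
    (ψ := (Ideal.Quotient.mkₐ O (maximalIdeal A ^ n)).comp ψ) hnil
    (fun i => Ideal.mem_map_of_mem _ (hX i)) (fun i => by simp [h i])
  exact DFunLike.congr_fun h' f

variable {R R' : Type} [CommRing R] [IsLocalRing R] [Algebra O R] [IsLocalHom (algebraMap O R)]
  [CommRing R'] [IsLocalRing R'] [Algebra O R']

omit [IsLocalRing R'] in
/-- A regular lift of a quotient of a complete intersection by one element is one. -/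
theorem isFiniteCI_of_quotient [Module.Finite O R] [Module.Free O R] (hR' : IsFiniteCI O R')
    {u : R} (hu : u ∈ maximalIdeal R) (hreg : ∀ x : R, u * x = 0 → x = 0) (b : R')
    (e : (R' ⧸ Ideal.span {b}) ≃ₐ[O] (R ⧸ Ideal.span {u})) : IsFiniteCI O R := by
  classical
  obtain ⟨-, -, r, F, π, hπ, hker⟩ := hR'
  have : IsNoetherianRing R := IsNoetherianRing.of_finite O R
  have : IsAdicComplete (maximalIdeal R) R := by
    exact Engine.TRep.isAdicComplete_maximalIdeal_of_finite O R
  have hne : Nontrivial (R ⧸ Ideal.span {u}) := Ideal.Quotient.nontrivial_iff.2 fun h =>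
    (maximalIdeal.isMaximal R).ne_top
      (top_le_iff.1 (h ▸ (Ideal.span_singleton_le_iff_mem _).2 hu))
  have : IsLocalRing (R ⧸ Ideal.span {u}) :=
    IsLocalRing.of_surjective' (Ideal.Quotient.mk _) Ideal.Quotient.mk_surjective
  have : IsNoetherianRing (R ⧸ Ideal.span {u}) :=
    isNoetherianRing_of_surjective R _ (Ideal.Quotient.mk _) Ideal.Quotient.mk_surjective
  let ψ : MvPowerSeries (Fin r) O →ₐ[O] R ⧸ Ideal.span {u} :=
    e.toAlgHom.comp ((Ideal.Quotient.mkₐ O _).comp π)
  have hψ : Function.Surjective ψ := e.surjective.comp (Ideal.Quotient.mk_surjective.comp hπ)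
  have hψX : ∀ i, ψ (MvPowerSeries.X i) ∈ maximalIdeal (R ⧸ Ideal.span {u}) := fun i => by
    rw [← IsLocalRing.map_maximalIdeal_of_surjective (ψ : MvPowerSeries (Fin r) O →+* _) hψ]
    exact Ideal.mem_map_of_mem _ (DefRing.X_mem_maximalIdeal i)
  choose y hy using fun i => Ideal.Quotient.mk_surjective (ψ (MvPowerSeries.X i))
  have hym : ∀ i, y i ∈ maximalIdeal R := fun i hunit => by
    have h1 := hψX i
    rw [← hy i] at h1
    exact h1 (hunit.map _)
  obtain ⟨φ, -, hφ⟩ := Deform.exists_algHom_powerSeries (B := O) (Fin.snoc y u : Fin (r + 1) → R)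
    (fun i => Fin.lastCases (by simpa using hu) (fun j => by simpa using hym j) i)
  let ι : MvPowerSeries (Fin r) O →ₐ[O] MvPowerSeries (Fin (r + 1)) O :=
    MvPowerSeries.rename Fin.castSucc
  have hcomp : ∀ g, Ideal.Quotient.mk (Ideal.span {u}) (φ (ι g)) = ψ g := by
    have : (Ideal.Quotient.mkₐ O (Ideal.span {u})).comp (φ.comp ι) = ψ := by
      refine algHom_ext_of_hausdorff (fun i => ?_) fun i => ?_
      · simp only [AlgHom.comp_apply, ι, MvPowerSeries.rename_X, hφ, Fin.snoc_castSucc,
          Ideal.Quotient.mkₐ_eq_mk, hy]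
        exact hψX i
      · simp only [AlgHom.comp_apply, ι, MvPowerSeries.rename_X, hφ, Fin.snoc_castSucc,
          Ideal.Quotient.mkₐ_eq_mk, hy]
    exact DFunLike.congr_fun this
  -- surjectivity
  have hz : φ (MvPowerSeries.X (Fin.last r)) = u := by rw [hφ, Fin.snoc_last]
  have hstep : ∀ x : R, ∃ g q, x = φ g + u * q := fun x => by
    obtain ⟨g, hg⟩ := hψ (Ideal.Quotient.mk _ x)
    rw [← hcomp, Ideal.Quotient.eq] at hg
    obtain ⟨q, hq⟩ := Ideal.mem_span_singleton'.1 hg
    exact ⟨ι g, -q, by linear_combination hq⟩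
  have hpow : ∀ (k : ℕ) (x : R), ∃ g q, x = φ g + u ^ k * q := by
    intro k
    induction k with
    | zero => exact fun x => ⟨0, x, by simp⟩
    | succ k ih =>
      intro x
      obtain ⟨g, q, rfl⟩ := ih x
      obtain ⟨g', q', rfl⟩ := hstep q
      exact ⟨g + MvPowerSeries.X (Fin.last r) ^ k * g', q', by
        rw [map_add, map_mul, map_pow, hz]; ring⟩
  have hφs : Function.Surjective φ := by
    have hfin : IsArtinianRing (R ⧸ (maximalIdeal O).map (algebraMap O R)) := by
      have : Module.Finite (O ⧸ maximalIdeal O) (R ⧸ (maximalIdeal O).map (algebraMap O R)) :=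
        Module.Finite.of_restrictScalars_finite O _ _
      have : Finite (O ⧸ maximalIdeal O) := ‹Finite (ResidueField O)›
      have : Finite (R ⧸ (maximalIdeal O).map (algebraMap O R)) :=
        Module.finite_of_finite (O ⧸ maximalIdeal O)
      infer_instance
    obtain ⟨k, hk⟩ : ∃ k, u ^ k ∈ (maximalIdeal O).map (algebraMap O R) := by
      have hle : (maximalIdeal O).map (algebraMap O R) ≤ maximalIdeal R :=
        Ideal.map_le_iff_le_comap.2 fun a ha => map_nonunit (algebraMap O R) a ha
      have : Nontrivial (R ⧸ (maximalIdeal O).map (algebraMap O R)) :=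
        Ideal.Quotient.nontrivial_iff.2 fun h =>
          (maximalIdeal.isMaximal R).ne_top (top_le_iff.1 (h ▸ hle))
      have : IsLocalRing (R ⧸ (maximalIdeal O).map (algebraMap O R)) :=
        IsLocalRing.of_surjective' (Ideal.Quotient.mk _) Ideal.Quotient.mk_surjective
      have hnil := IsArtinianRing.isNilpotent_jacobson_bot
        (R := R ⧸ (maximalIdeal O).map (algebraMap O R))
      rw [IsLocalRing.jacobson_eq_maximalIdeal _ bot_ne_top] at hnil
      obtain ⟨k, hk⟩ := hnil
      refine ⟨k, Ideal.Quotient.eq_zero_iff_mem.1 ?_⟩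
      rw [map_pow, ← Submodule.mem_bot (R := R ⧸ (maximalIdeal O).map (algebraMap O R)),
        ← Ideal.zero_eq_bot, ← hk]
      refine Ideal.pow_mem_pow ?_ k
      rw [← IsLocalRing.map_maximalIdeal_of_surjective (Ideal.Quotient.mk
        ((maximalIdeal O).map (algebraMap O R))) Ideal.Quotient.mk_surjective]
      exact Ideal.mem_map_of_mem _ hu
    rw [← AlgHom.coe_toLinearMap, ← LinearMap.range_eq_top]
    refine top_le_iff.1 (Submodule.le_of_le_smul_of_le_jacobson_bot (I := maximalIdeal O)
      Module.Finite.fg_top (IsLocalRing.maximalIdeal_le_jacobson ⊥) fun x _ => ?_)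
    obtain ⟨g, q, rfl⟩ := hpow k x
    refine Submodule.mem_sup.2 ⟨φ g, ⟨g, rfl⟩, u ^ k * q, ?_, rfl⟩
    rw [Ideal.smul_top_eq_map, Submodule.restrictScalars_mem]
    exact Ideal.mul_mem_right _ _ hk
  -- relations
  obtain ⟨b', hb'⟩ := hπ b
  let G : Fin (r + 1) → MvPowerSeries (Fin r) O := Fin.snoc F b'
  have hGψ : ∀ i, ψ (G i) = 0 := fun i => by
    refine Fin.lastCases ?_ (fun j => ?_) i
    · simp only [G, Fin.snoc_last, ψ, AlgHom.comp_apply, hb', Ideal.Quotient.mkₐ_eq_mk]
      rw [Ideal.Quotient.eq_zero_iff_mem.2 (Ideal.mem_span_singleton_self b), map_zero]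
    · have : π (F j) = 0 := RingHom.mem_ker.1 (hker.ge (Ideal.subset_span ⟨j, rfl⟩))
      simp only [G, Fin.snoc_castSucc, ψ, AlgHom.comp_apply, this, map_zero]
  have hlift : ∀ i, ∃ h, φ (ι (G i) - MvPowerSeries.X (Fin.last r) * h) = 0 := fun i => by
    have h1 := hcomp (G i)
    rw [hGψ, Ideal.Quotient.eq_zero_iff_mem, Ideal.mem_span_singleton'] at h1
    obtain ⟨q, hq⟩ := h1
    obtain ⟨h, rfl⟩ := hφs q
    exact ⟨h, by rw [map_sub, map_mul, hz, ← hq, mul_comm, sub_self]⟩
  choose h hh using hlift
  let kk : Fin (r + 1) → MvPowerSeries (Fin (r + 1)) O :=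
    fun i => ι (G i) - MvPowerSeries.X (Fin.last r) * h i
  have hsplit : ∀ f : MvPowerSeries (Fin (r + 1)) O, ∃ g q,
      f = ι g + MvPowerSeries.X (Fin.last r) * q := fun f => by
    let g : MvPowerSeries (Fin r) O := fun m =>
      MvPowerSeries.coeff (Finsupp.embDomain Fin.castSuccEmb m) f
    have hdvd : (MvPowerSeries.X (Fin.last r) : MvPowerSeries (Fin (r + 1)) O) ∣ f - ι g := by
      rw [MvPowerSeries.X_dvd_iff]
      intro m hm
      have hm' : m = Finsupp.embDomain Fin.castSuccEmb
          (Finsupp.comapDomain Fin.castSucc m (Fin.castSucc_injective r).injOn) := by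
        ext i
        refine Fin.lastCases ?_ (fun j => ?_) i
        · rw [hm, Finsupp.embDomain_of_notMem_range _ _ _ fun ⟨j, hj⟩ => (Fin.castSucc_lt_last j).ne hj]
        · exact ((Finsupp.embDomain_apply_self _ _ _).trans (Finsupp.comapDomain_apply ..)).symm
      rw [map_sub, hm']
      have := MvPowerSeries.coeff_embDomain_rename (R := O) Fin.castSuccEmb g
        (Finsupp.comapDomain Fin.castSucc m (Fin.castSucc_injective r).injOn)
      rw [show (MvPowerSeries.rename ⇑(Fin.castSuccEmb (n := r)) g) = ι g from rfl] at this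
      rw [this]
      exact sub_self _
    obtain ⟨q, hq⟩ := hdvd
    exact ⟨g, q, by linear_combination hq⟩
  have hψker : ∀ g, ψ g = 0 → g ∈ Ideal.span (Set.range G) := by
    intro g hg
    have h1 : π g ∈ Ideal.span {b} := Ideal.Quotient.eq_zero_iff_mem.1 (e.injective (by
      rw [map_zero]; exact hg))
    obtain ⟨c, hc⟩ := Ideal.mem_span_singleton'.1 h1
    obtain ⟨c', rfl⟩ := hπ c
    have h2 : g - c' * b' ∈ RingHom.ker π := by
      rw [RingHom.mem_ker, map_sub, map_mul, hb', hc, sub_self]
    rw [hker] at h2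
    have hFG : Ideal.span (Set.range F) ≤ Ideal.span (Set.range G) :=
      Ideal.span_mono (Set.range_subset_iff.2 fun j => ⟨j.castSucc, Fin.snoc_castSucc ..⟩)
    have hbG : b' ∈ Ideal.span (Set.range G) :=
      Ideal.subset_span ⟨Fin.last r, Fin.snoc_last ..⟩
    simpa using add_mem (hFG h2) (Ideal.mul_mem_left _ c' hbG)
  have hkerφ : RingHom.ker φ = Ideal.span (Set.range kk) := by
    refine le_antisymm ?_ (Ideal.span_le.2 (Set.range_subset_iff.2 fun i =>
      RingHom.mem_ker.2 (hh i)))
    refine Submodule.le_of_le_smul_of_le_jacobson_bot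
      (I := Ideal.span {(MvPowerSeries.X (Fin.last r) : MvPowerSeries (Fin (r + 1)) O)})
      (IsNoetherian.noetherian _) ?_ fun f hf => ?_
    · rw [IsLocalRing.jacobson_eq_maximalIdeal _ bot_ne_top, Ideal.span_singleton_le_iff_mem]
      exact DefRing.X_mem_maximalIdeal _
    obtain ⟨g, q, rfl⟩ := hsplit f
    rw [RingHom.mem_ker, map_add, map_mul, hz] at hf
    have hg : ψ g = 0 := by
      rw [← hcomp, Ideal.Quotient.eq_zero_iff_mem, Ideal.mem_span_singleton']
      exact ⟨-φ q, by linear_combination -hf⟩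
    obtain ⟨a, ha⟩ := (Submodule.mem_span_range_iff_exists_fun _).1 (hψker g hg)
    have hsum : ι g + MvPowerSeries.X (Fin.last r) * q = ∑ i, ι (a i) * kk i +
        MvPowerSeries.X (Fin.last r) * (q + ∑ i, ι (a i) * h i) := by
      simp only [kk, mul_sub, Finset.sum_sub_distrib, mul_add, Finset.mul_sum]
      rw [← ha, map_sum]
      simp only [smul_eq_mul, map_mul, mul_left_comm (ι (a _))]
      abel
    rw [hsum]
    refine Submodule.mem_sup.2 ⟨_, sum_mem fun i _ => Ideal.mul_mem_left _ _
      (Ideal.subset_span ⟨i, rfl⟩), _, ?_, rfl⟩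
    refine Submodule.smul_mem_smul (Ideal.mem_span_singleton_self _) ?_
    rw [RingHom.mem_ker]
    refine hreg _ ?_
    have h3 : φ (∑ i, ι (a i) * kk i) = 0 := by
      rw [map_sum]
      exact Finset.sum_eq_zero fun i _ => by rw [map_mul, hh, mul_zero]
    have h4 : φ (ι g + MvPowerSeries.X (Fin.last r) * q) = 0 := by
      rw [map_add, map_mul, hz]; exact hf
    rwa [hsum, map_add, h3, zero_add, map_mul, hz] at h4
  exact ⟨inferInstance, inferInstance, r + 1, kk, φ, hφs, hkerφ⟩

/-- **Descent step.**  `e : R'/(b) ≅ R/(u)`, the module `C'` is free of rank two over the complete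
intersection `R'`, and `C' → C/uC` is surjective with kernel in `bC'`: then `C` is free of rank
two over `R`, which is a complete intersection. -/
theorem descent_step [IsNoetherianRing R] (hR' : IsFiniteCI O R')
    {u : R} (hu : u ∈ maximalIdeal R) (b : R')
    (e : (R' ⧸ Ideal.span {b}) ≃ₐ[O] (R ⧸ Ideal.span {u}))
    {C' : Type} [AddCommGroup C'] [Module R' C'] (β : Module.Basis (Fin 2) R' C')
    {C : Type} [AddCommGroup C] [Module R C] [Module O C] [IsScalarTower O R C]
    [Module.Finite O C] [Module.Free O C] (hureg : ∀ x : C, u • x = 0 → x = 0)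
    (p : C' →+ C ⧸ u • (⊤ : Submodule R C)) (hp : Function.Surjective p)
    (hcompat : ∀ (x : R') (y : R), e (Ideal.Quotient.mk _ x) = Ideal.Quotient.mk _ y →
      ∀ m, p (x • m) = y • p m)
    (hpker : ∀ m, p m = 0 → m ∈ b • (⊤ : Submodule R' C')) :
    IsFiniteCI O R ∧ Nonempty (Module.Basis (Fin 2) R C) := by
  classical
  have : Module.Finite R C := Module.Finite.of_restrictScalars_finite O R C
  choose w hw using fun j => Submodule.mkQ_surjective (u • (⊤ : Submodule R C)) (p (β j))
  let f : (Fin 2 → R) →ₗ[R] C := Fintype.linearCombination R w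
  have hcol : ∀ (c : Fin 2 → R) (a : Fin 2 → R'),
      (∀ j, e (Ideal.Quotient.mk _ (a j)) = Ideal.Quotient.mk _ (c j)) →
      Submodule.mkQ (u • (⊤ : Submodule R C)) (f c) = p (∑ j, a j • β j) := by
    intro c a hac
    simp only [f, Fintype.linearCombination_apply, map_sum, map_smul, hw]
    exact Finset.sum_congr rfl fun j _ => (hcompat _ _ (hac j) _).symm
  have hf : Function.Surjective f := by
    rw [← LinearMap.range_eq_top]
    refine top_le_iff.1 (Submodule.le_of_le_smul_of_le_jacobson_bot (I := maximalIdeal R)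
      Module.Finite.fg_top (IsLocalRing.maximalIdeal_le_jacobson ⊥) fun x _ => ?_)
    obtain ⟨m, hm⟩ := hp (Submodule.mkQ _ x)
    choose c hc using fun j => Ideal.Quotient.mk_surjective
      (e (Ideal.Quotient.mk (Ideal.span {b}) (β.repr m j)))
    have h1 := hcol c (fun j => β.repr m j) fun j => (hc j).symm
    rw [β.sum_repr, hm, Submodule.mkQ_apply, Submodule.mkQ_apply, Submodule.Quotient.eq] at h1
    obtain ⟨z, -, hz⟩ := (Submodule.mem_smul_pointwise_iff_exists _ _ _).1 h1
    refine Submodule.mem_sup.2 ⟨f c, ⟨c, rfl⟩, -(u • z),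
      neg_mem (Submodule.smul_mem_smul hu Submodule.mem_top), ?_⟩
    rw [hz]; abel
  have hfi : LinearMap.ker f = ⊥ := by
    refine Submodule.eq_bot_of_le_smul_of_le_jacobson_bot (maximalIdeal R) _
      (IsNoetherian.noetherian _) ?_ (IsLocalRing.maximalIdeal_le_jacobson ⊥)
    intro c hc
    choose a ha using fun j => Ideal.Quotient.mk_surjective
      (e.symm (Ideal.Quotient.mk (Ideal.span {u}) (c j)))
    have h1 := hcol c a fun j => by rw [ha, AlgEquiv.apply_symm_apply]
    rw [LinearMap.mem_ker.1 hc, map_zero] at h1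
    obtain ⟨z, -, hz⟩ := (Submodule.mem_smul_pointwise_iff_exists _ _ _).1 (hpker _ h1.symm)
    have hcu : ∀ j, c j ∈ Ideal.span {u} := fun j => by
      have h2 : a j = b * β.repr z j := by
        have h3 := congrArg (fun m => β.repr m j) hz
        rw [map_smul, Finsupp.smul_apply, smul_eq_mul, β.repr_sum_self] at h3
        exact h3.symm
      rw [← Ideal.Quotient.eq_zero_iff_mem]
      refine e.symm.injective ?_
      rw [map_zero, ← ha j, Ideal.Quotient.eq_zero_iff_mem]
      exact Ideal.mem_span_singleton'.2 ⟨β.repr z j, by rw [h2, mul_comm]⟩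
    choose d hd using fun j => Ideal.mem_span_singleton'.1 (hcu j)
    have hcd : c = u • d := funext fun j => by rw [Pi.smul_apply, smul_eq_mul, mul_comm, hd]
    have hd' : d ∈ LinearMap.ker f := LinearMap.mem_ker.2 (hureg _ (by
      rw [← map_smul, ← hcd]; exact LinearMap.mem_ker.1 hc))
    rw [hcd]
    exact Submodule.smul_mem_smul hu hd'
  let β₀ : Module.Basis (Fin 2) R C := Module.Basis.ofEquivFun
    (LinearEquiv.ofBijective f ⟨LinearMap.ker_eq_bot.1 hfi, hf⟩).symm
  let incl : R →ₗ[O] C := (LinearMap.toSpanSingleton R C (β₀ 0)).restrictScalars O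
  have hincl : Function.Injective incl := by
    intro x y hxy
    simpa [incl] using congrArg (fun m => β₀.repr m 0) hxy
  have : Module.Finite O R := Module.Finite.of_injective incl hincl
  have : Module.IsTorsionFree O R := hincl.moduleIsTorsionFree incl (map_smul incl)
  refine ⟨isFiniteCI_of_quotient hR' hu (fun x hx => hincl ?_) b e, ⟨β₀⟩⟩
  rw [map_zero]
  refine hureg _ ?_
  rw [← map_zero incl, ← hx]
  simp [incl, mul_smul]

end Fermat.Agent.TwoAdic
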