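import Mathlib.RingTheory.Regular.RegularSequence
import Mathlib.SetTheory.Cardinal.Finite

/-!
# Regular sequences and unit multiples of squares

Replacing the members of a regular sequence by unit multiples of their squares: regularity is
unchanged and the cardinality of the quotient is raised to a power of two.
-/

set_option autoImplicit false

namespace Fermat.Agent.TwoAdic

open RingTheory.Sequence IsLocalRing Pointwise

variable {R : Type*} [CommRing R] {M : Type*} [AddCommGroup M] [Module R M]

theorem isSMulRegular_unit_mul_sq_iff {a u : R} (hu : IsUnit u) :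
    IsSMulRegular M (u * a * a) ↔ IsSMulRegular M a := by
  constructor
  · intro h
    exact IsSMulRegular.of_mul h
  · intro h
    exact ((hu.isSMulRegular M).mul h).mul h

theorem isWeaklyRegular_snoc_sq_iff (L : List R) {a u : R} (hu : IsUnit u) :
    IsWeaklyRegular M (L ++ [u * a * a]) ↔ IsWeaklyRegular M (L ++ [a]) := by
  simp only [isWeaklyRegular_append_iff, isWeaklyRegular_singleton_iff,
    isSMulRegular_unit_mul_sq_iff hu]

theorem ofList_perm {L L' : List R} (h : L.Perm L') : Ideal.ofList L = Ideal.ofList L' :=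
  congrArg Ideal.span (Set.ext fun _ => h.mem_iff)

theorem mem_ofList_snoc_smul_top {L : List R} {a : R} {m : M} :
    m ∈ Ideal.ofList (L ++ [a]) • (⊤ : Submodule R M) ↔
      ∃ s ∈ Ideal.ofList L • (⊤ : Submodule R M), ∃ y, s + a • y = m := by
  rw [Ideal.ofList_append, Ideal.ofList_singleton, Submodule.sup_smul, Submodule.mem_sup]
  constructor
  · rintro ⟨s, hs, t, ht, rfl⟩
    rw [Submodule.ideal_span_singleton_smul, Submodule.mem_smul_pointwise_iff_exists] at ht
    obtain ⟨y, -, rfl⟩ := ht
    exact ⟨s, hs, y, rfl⟩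
  · rintro ⟨s, hs, y, rfl⟩
    exact ⟨s, hs, a • y, Submodule.smul_mem_smul (Ideal.mem_span_singleton_self a)
      Submodule.mem_top, rfl⟩

theorem card_quotient_snoc_sq (L : List R) {a u : R} (hu : IsUnit u)
    (hreg : IsSMulRegular (M ⧸ Ideal.ofList L • (⊤ : Submodule R M)) a) :
    Nat.card (M ⧸ Ideal.ofList (L ++ [u * a * a]) • (⊤ : Submodule R M)) =
      Nat.card (M ⧸ Ideal.ofList (L ++ [a]) • (⊤ : Submodule R M)) ^ 2 := by
  set Ta := Ideal.ofList (L ++ [a]) • (⊤ : Submodule R M) with hTa
  set Tb := Ideal.ofList (L ++ [u * a * a]) • (⊤ : Submodule R M) with hTb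
  have hle : Tb ≤ Ta := fun m hm => by
    obtain ⟨s, hs, y, rfl⟩ := mem_ofList_snoc_smul_top.1 hm
    exact mem_ofList_snoc_smul_top.2 ⟨s, hs, (u * a) • y, by rw [smul_smul]; ring_nf⟩
  let mu : (M ⧸ Ta) →ₗ[R] M ⧸ Tb := Submodule.mapQ Ta Tb (LinearMap.lsmul R M a) fun m hm => by
    obtain ⟨s, hs, y, rfl⟩ := mem_ofList_snoc_smul_top.1 hm
    refine mem_ofList_snoc_smul_top.2 ⟨a • s, Submodule.smul_mem _ _ hs,
      ((hu.unit⁻¹ : Rˣ) : R) • y, ?_⟩
    simp only [LinearMap.lsmul_apply, smul_add, smul_smul]
    congr 2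
    rw [mul_assoc u a a, mul_comm u, mul_assoc, IsUnit.mul_val_inv, mul_one]
  have hmu : Function.Injective mu := by
    rw [← LinearMap.ker_eq_bot, eq_bot_iff]
    intro z hz
    obtain ⟨m, rfl⟩ := Submodule.Quotient.mk_surjective _ z
    rw [LinearMap.mem_ker] at hz
    change Submodule.Quotient.mk (a • m) = 0 at hz
    rw [Submodule.Quotient.mk_eq_zero] at hz
    obtain ⟨s, hs, y, hy⟩ := mem_ofList_snoc_smul_top.1 hz
    have h1 : a • (m - (u * a) • y) = s := by
      rw [smul_sub, ← hy, smul_smul, show a * (u * a) = u * a * a by ring, add_sub_cancel_right]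
    have h2 : m - (u * a) • y ∈ Ideal.ofList L • (⊤ : Submodule R M) := by
      rw [← Submodule.Quotient.mk_eq_zero]
      apply hreg
      dsimp only
      rw [smul_zero, ← Submodule.Quotient.mk_smul, h1, Submodule.Quotient.mk_eq_zero]
      exact hs
    rw [Submodule.mem_bot, Submodule.Quotient.mk_eq_zero]
    exact mem_ofList_snoc_smul_top.2 ⟨_, h2, u • y, by rw [smul_smul, mul_comm u a]; abel⟩
  let q : (M ⧸ Tb) →ₗ[R] M ⧸ Ta := Submodule.factor hle
  have hq : LinearMap.ker q = LinearMap.range mu := by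
    refine le_antisymm (fun z hz => ?_) (fun z hz => ?_)
    · obtain ⟨m, rfl⟩ := Submodule.Quotient.mk_surjective _ z
      rw [LinearMap.mem_ker] at hz
      change Submodule.Quotient.mk m = 0 at hz
      rw [Submodule.Quotient.mk_eq_zero] at hz
      obtain ⟨s, hs, y, rfl⟩ := mem_ofList_snoc_smul_top.1 hz
      refine ⟨Submodule.Quotient.mk y, ?_⟩
      change Submodule.Quotient.mk (a • y) = Submodule.Quotient.mk (s + a • y)
      rw [Submodule.Quotient.eq]
      exact mem_ofList_snoc_smul_top.2 ⟨-s, neg_mem hs, 0, by rw [smul_zero]; abel⟩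
    · obtain ⟨w, rfl⟩ := hz
      obtain ⟨m, rfl⟩ := Submodule.Quotient.mk_surjective _ w
      rw [LinearMap.mem_ker]
      change Submodule.Quotient.mk (a • m) = 0
      rw [Submodule.Quotient.mk_eq_zero]
      exact mem_ofList_snoc_smul_top.2 ⟨0, zero_mem _, m, zero_add _⟩
  have h1 : Nat.card (LinearMap.ker q) = Nat.card (M ⧸ Ta) :=
    hq ▸ (Nat.card_congr (LinearEquiv.ofInjective mu hmu).toEquiv).symm
  have h2 : Nat.card ((M ⧸ Tb) ⧸ LinearMap.ker q) = Nat.card (M ⧸ Ta) :=
    Nat.card_congr
      (q.quotKerEquivOfSurjective (Submodule.factor_surjective hle)).toEquiv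
  rw [Submodule.card_eq_card_quotient_mul_card (LinearMap.ker q), h1, h2, sq]

variable [IsLocalRing R] [IsNoetherian R M]

/-- Regularity of a sequence does not depend on squaring some of its members. -/
theorem isWeaklyRegular_squares_iff (ps : List (R × R)) (post : List R)
    (hx : ∀ p ∈ ps, p.1 ∈ maximalIdeal R) (hu : ∀ p ∈ ps, IsUnit p.2)
    (hpost : ∀ c ∈ post, c ∈ maximalIdeal R) :
    IsWeaklyRegular M (ps.map (fun p => p.2 * p.1 * p.1) ++ post) ↔
      IsWeaklyRegular M (ps.map Prod.fst ++ post) := by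
  induction ps generalizing post with
  | nil => simp
  | cons p ps ih =>
    simp only [List.mem_cons, forall_eq_or_imp] at hx hu
    have hperm : ∀ (y : R) (l : List R), y ∈ maximalIdeal R →
        (∀ c ∈ l, c ∈ maximalIdeal R) →
        (IsWeaklyRegular M (y :: l) ↔ IsWeaklyRegular M (l ++ [y])) := fun y l hy hl => by
      have hm : ∀ c ∈ y :: l, c ∈ maximalIdeal R := fun c hc =>
        (List.mem_cons.1 hc).elim (fun h => h ▸ hy) (hl c)
      exact ⟨fun h => isWeaklyRegular_of_perm_of_subset_maximalIdeal h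
          (List.perm_append_singleton y l).symm hm,
        fun h => isWeaklyRegular_of_perm_of_subset_maximalIdeal h
          (List.perm_append_singleton y l) fun c hc => hm c
            ((List.perm_append_singleton y l).mem_iff.1 hc)⟩
    set z := p.2 * p.1 * p.1 with hz
    have hzm : z ∈ maximalIdeal R := Ideal.mul_mem_left _ _ hx.1
    have hsq : ∀ c ∈ ps.map (fun p : R × R => p.2 * p.1 * p.1), c ∈ maximalIdeal R := by
      intro c hc
      obtain ⟨q, hq, rfl⟩ := List.mem_map.1 hc
      exact Ideal.mul_mem_left _ _ (hx.2 q hq)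
    have hfst : ∀ c ∈ ps.map Prod.fst, c ∈ maximalIdeal R := by
      intro c hc
      obtain ⟨q, hq, rfl⟩ := List.mem_map.1 hc
      exact hx.2 q hq
    have happ : ∀ l : List R, (∀ c ∈ l, c ∈ maximalIdeal R) →
        ∀ c ∈ l ++ post, c ∈ maximalIdeal R := fun l hl c hc =>
      (List.mem_append.1 hc).elim (hl c) (hpost c)
    simp only [List.map_cons, List.cons_append]
    rw [hperm z _ hzm (happ _ hsq), hperm p.1 _ hx.1 (happ _ hfst), List.append_assoc,
      ih (post ++ [z]) hx.2 hu.2
        (fun c hc => (List.mem_append.1 hc).elim (hpost c) fun h => List.mem_singleton.1 h ▸ hzm),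
      ← List.append_assoc, isWeaklyRegular_snoc_sq_iff _ hu.1]

/-- The size of the quotient after squaring. -/
theorem card_quotient_squares (ps : List (R × R)) (post : List R)
    (hx : ∀ p ∈ ps, p.1 ∈ maximalIdeal R) (hu : ∀ p ∈ ps, IsUnit p.2)
    (hpost : ∀ c ∈ post, c ∈ maximalIdeal R)
    (hreg : IsWeaklyRegular M (ps.map Prod.fst ++ post)) :
    Nat.card (M ⧸ Ideal.ofList (ps.map (fun p => p.2 * p.1 * p.1) ++ post) •
        (⊤ : Submodule R M)) =
      Nat.card (M ⧸ Ideal.ofList (ps.map Prod.fst ++ post) • (⊤ : Submodule R M)) ^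
        (2 ^ ps.length) := by
  induction ps generalizing post with
  | nil => simp
  | cons p ps ih =>
    simp only [List.mem_cons, forall_eq_or_imp] at hx hu
    set z := p.2 * p.1 * p.1 with hz
    have hmem : ∀ (l : List R), (∀ c ∈ l, c ∈ maximalIdeal R) → ∀ c ∈ l ++ post ++ [p.1],
        c ∈ maximalIdeal R := fun l hl c hc => by
      simp only [List.mem_append, List.mem_singleton] at hc
      rcases hc with (h | h) | rfl
      exacts [hl c h, hpost c h, hx.1]
    have hfst : ∀ c ∈ ps.map Prod.fst, c ∈ maximalIdeal R := by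
      intro c hc
      obtain ⟨q, hq, rfl⟩ := List.mem_map.1 hc
      exact hx.2 q hq
    simp only [List.map_cons, List.cons_append] at hreg ⊢
    have hreg' : IsWeaklyRegular M (ps.map Prod.fst ++ post ++ [p.1]) :=
      isWeaklyRegular_of_perm_of_subset_maximalIdeal hreg
        (List.perm_append_singleton p.1 _).symm fun c hc => hmem _ hfst c
          ((List.perm_append_singleton p.1 _).mem_iff.2 hc)
    have hreg'' : IsWeaklyRegular M (ps.map Prod.fst ++ (post ++ [z])) := by
      rwa [← List.append_assoc, isWeaklyRegular_snoc_sq_iff _ hu.1]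
    rw [ofList_perm (List.perm_append_singleton z _).symm,
      ofList_perm (List.perm_append_singleton p.1 _).symm, List.append_assoc,
      ih (post ++ [z]) hx.2 hu.2
        (fun c hc => (List.mem_append.1 hc).elim (hpost c)
          fun h => List.mem_singleton.1 h ▸ Ideal.mul_mem_left _ _ hx.1) hreg'',
      ← List.append_assoc, card_quotient_snoc_sq _ hu.1
        ((isWeaklyRegular_singleton_iff _ _).1 ((isWeaklyRegular_append_iff M _ _).1 hreg').2),
      ← pow_mul, List.length_cons, pow_succ, mul_comm]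

end Fermat.Agent.TwoAdic
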