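import Mathlib.GroupTheory.QuotientGroup.Basic
import Mathlib.GroupTheory.Index
import Mathlib.Algebra.Module.End
import Mathlib.Data.ZMod.Basic
import Mathlib.Tactic.Abel
import Mathlib.Tactic.Group

/-!
# Lifting first cohomology classes to an overgroup of index two

Right exactness of first group cohomology passes to an overgroup of index two whenever the
sign character of the extension lifts to a homomorphism to `ℤ/4`.

This replaces every torsion-freeness argument in the 2-adic lifting step: it gives exactness of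
`H¹` for the groups generated by `Γ₀(N)` and Atkin–Lehner elements, hence freeness over `O[W]`.
-/

set_option autoImplicit false

universe u

namespace Fermat.Agent.TwoAdic

variable {G : Type u} [Group G]

/-- A one-cocycle for an action by additive endomorphisms. -/
def IsOneCocycle {M : Type u} [AddCommGroup M] (σ : G →* AddMonoid.End M) (c : G → M) : Prop :=
  ∀ g h, c (g * h) = c g + σ g (c h)

/-- Every cocycle is a coboundary. -/
def CocyclesSplit {M : Type u} [AddCommGroup M] (σ : G →* AddMonoid.End M) : Prop :=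
  ∀ c : G → M, IsOneCocycle σ c → ∃ a : M, ∀ g, c g = σ g a - a

/-- Cocycles lift along surjections whose kernel is killed by a power of two. -/
def TwoLiftable (G : Type u) [Group G] : Prop :=
  ∀ (A B : Type u) [AddCommGroup A] [AddCommGroup B] (σ : G →* AddMonoid.End A)
    (τ : G →* AddMonoid.End B) (f : A →+ B),
    (∀ g a, f (σ g a) = τ g (f a)) → Function.Surjective f →
    ∀ n : ℕ, (∀ a, f a = 0 → 2 ^ n • a = 0) →
    ∀ c : G → B, IsOneCocycle τ c → ∃ d : G → A, IsOneCocycle σ d ∧ ∀ g, f (d g) = c g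

section Crux

variable {M : Type u} [AddCommGroup M] (σ : G →* AddMonoid.End M) (H : Subgroup G)

lemma sigma_mul_apply (g h : G) (x : M) : σ (g * h) x = σ g (σ h x) := by
  rw [map_mul]; rfl

lemma sigma_one_apply (x : M) : σ 1 x = x := by
  rw [map_one]; rfl

/-- The key step: splitting of cocycles passes to an overgroup of index two. -/
theorem cocyclesSplit_of_index_two (ε : G →* Multiplicative (ZMod 4))
    (hH : ∀ g, g ∈ H ↔ (ε g).toAdd = 0 ∨ (ε g).toAdd = 2) (w : G) (hw : (ε w).toAdd = 1)
    (h2 : ∀ x : M, x + x = 0) (hsplit : CocyclesSplit (σ.comp H.subtype)) :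
    CocyclesSplit σ := by
  classical
  intro c hc
  obtain ⟨a, ha⟩ := hsplit (fun h => c h) (fun g h => hc g h)
  set c' : G → M := fun g => c g - (σ g a - a) with hc'def
  have hc' : IsOneCocycle σ c' := fun g h => by
    simp only [hc'def, hc g h, sigma_mul_apply, map_sub]
    abel
  have hc'H : ∀ h ∈ H, c' h = 0 := fun h hh => by
    have h1 : c h = σ h a - a := ha ⟨h, hh⟩
    simp [hc'def, h1]
  have hneg : ∀ x : M, -x = x := fun x => neg_eq_of_add_eq_zero_left (h2 x)
  have hww : w * w ∈ H := (hH _).2 (Or.inr (by rw [map_mul, toAdd_mul, hw]; decide))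
  have hεconj : ∀ h : G, (ε (w⁻¹ * h * w)).toAdd = (ε h).toAdd := fun h => by
    simp only [map_mul, map_inv, toAdd_mul, toAdd_inv]; abel
  have hconj : ∀ h ∈ H, w⁻¹ * h * w ∈ H := fun h hh => (hH _).2 (by
    rw [hεconj]; exact (hH h).1 hh)
  set v := c' w with hv
  have hfix : ∀ h ∈ H, σ h v = v := fun h hh => by
    have h1 : c' (h * w) = σ h v := by rw [hc', hc'H h hh, zero_add]
    have h2' : c' (h * w) = v := by
      rw [show h * w = w * (w⁻¹ * h * w) by group, hc', hc'H _ (hconj h hh), map_zero, add_zero]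
    rw [← h1, h2']
  have hwv : σ w v = v := by
    have h1 := hc' w w
    rw [hc'H _ hww] at h1
    exact (eq_neg_of_add_eq_zero_right h1.symm).trans (hneg v)
  set z : H → M := fun h => if (ε (h : G)).toAdd = 2 then v else 0 with hzdef
  have hz : IsOneCocycle (σ.comp H.subtype) z := fun g h => by
    have hs : σ (g : G) (z h) = z h := by
      simp only [hzdef]; split
      · exact hfix _ g.2
      · exact map_zero _
    show z (g * h) = z g + σ (g : G) (z h)
    rw [hs]
    have e : (ε ((g * h : H) : G)).toAdd = (ε (g : G)).toAdd + (ε (h : G)).toAdd := by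
      rw [Subgroup.coe_mul, map_mul, toAdd_mul]
    simp only [hzdef, e]
    rcases (hH _).1 g.2 with hg | hg <;> rcases (hH _).1 h.2 with hh | hh <;> rw [hg, hh]
    · simp [show (0 : ZMod 4) ≠ 2 by decide]
    · simp [show (0 : ZMod 4) ≠ 2 by decide]
    · simp [show (0 : ZMod 4) ≠ 2 by decide]
    · simp [show (2 : ZMod 4) + 2 = 0 by decide, show (0 : ZMod 4) ≠ 2 by decide, h2]
  obtain ⟨u, hu⟩ := hsplit z hz
  set u' := σ w u + u with hu'
  have hu'fix : ∀ h ∈ H, σ h u' = u' := fun h hh => by
    have h1 : z ⟨h, hh⟩ = σ h u - u := hu ⟨h, hh⟩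
    have h3 : z ⟨_, hconj h hh⟩ = σ (w⁻¹ * h * w) u - u := hu ⟨_, hconj h hh⟩
    have h4 : z ⟨_, hconj h hh⟩ = z ⟨h, hh⟩ := by simp only [hzdef, hεconj]
    have h5 : σ h (σ w u) = σ w (σ (w⁻¹ * h * w) u) := by
      rw [← sigma_mul_apply, ← sigma_mul_apply]; congr 2; group
    have h6 : σ w (z ⟨h, hh⟩) = z ⟨h, hh⟩ := by
      simp only [hzdef]; split
      · exact hwv
      · exact map_zero _
    have e2 : σ (w⁻¹ * h * w) u = z ⟨h, hh⟩ + u := by rw [← h4, h3]; abel
    have e1 : σ h u = z ⟨h, hh⟩ + u := by rw [h1]; abel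
    rw [hu', map_add, h5, e2, map_add, h6, e1]
    calc z ⟨h, hh⟩ + σ w u + (z ⟨h, hh⟩ + u)
        = (z ⟨h, hh⟩ + z ⟨h, hh⟩) + (σ w u + u) := by abel
      _ = σ w u + u := by rw [h2, zero_add]
  have hwu' : σ w u' - u' = v := by
    have h1 : z ⟨w * w, hww⟩ = σ (w * w) u - u := hu ⟨_, hww⟩
    have h3 : z ⟨w * w, hww⟩ = v := by
      simp only [hzdef, map_mul, toAdd_mul, hw]; exact if_pos (by decide)
    rw [← h3, h1, sigma_mul_apply, hu', map_add]
    abel
  refine ⟨a + u', fun g => ?_⟩
  have hg : c' g = σ g u' - u' := by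
    by_cases hgH : g ∈ H
    · rw [hc'H g hgH, hu'fix g hgH, sub_self]
    · have hk : g * w⁻¹ ∈ H := (hH _).2 (by
        have key : ∀ x : ZMod 4, ¬(x = 0 ∨ x = 2) → x + -1 = 0 ∨ x + -1 = 2 := by decide
        rw [map_mul, map_inv, toAdd_mul, toAdd_inv, hw]
        exact key _ fun hx => hgH ((hH g).2 hx))
      obtain ⟨q, hq, rfl⟩ : ∃ q ∈ H, g = q * w :=
        ⟨g * w⁻¹, hk, (inv_mul_cancel_right g w).symm⟩
      rw [hc', hc'H _ hq, zero_add, sigma_mul_apply, ← hv,
        show σ w u' = v + u' by rw [← hwu']; abel, map_add, hfix _ hq, hu'fix _ hq]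
      abel
  have h7 : c g = c' g + (σ g a - a) := by simp [hc'def]
  clear_value u'
  rw [h7, hg, map_add]
  abel

end Crux

section Coinduced

variable {K : Type u} [AddCommGroup K]

/-- Right translation on functions. -/
def translateHom : G →* AddMonoid.End (G → K) where
  toFun g := AddMonoidHom.mk' (fun f x => f (x * g)) fun _ _ => rfl
  map_one' := AddMonoidHom.ext fun f => funext fun x => congrArg f (mul_one x)
  map_mul' g h := AddMonoidHom.ext fun f => funext fun x => congrArg f (mul_assoc x g h).symm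

/-- Translation modules split on every subgroup. -/
theorem cocyclesSplit_translate (H : Subgroup G) :
    CocyclesSplit ((translateHom (G := G) (K := K)).comp H.subtype) := by
  classical
  intro z hz
  have hrep : ∀ x : G, (Quotient.out (QuotientGroup.mk x : G ⧸ H))⁻¹ * x ∈ H := fun x =>
    QuotientGroup.eq.1 (Quotient.out_eq _)
  refine ⟨fun x => z ⟨_, hrep x⟩ (Quotient.out (QuotientGroup.mk x : G ⧸ H)), fun h => ?_⟩
  funext x
  set t := Quotient.out (QuotientGroup.mk x : G ⧸ H) with ht
  have hxh : (QuotientGroup.mk (x * (h : G)) : G ⧸ H) = QuotientGroup.mk x :=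
    QuotientGroup.eq.2 (by simp [mul_inv_rev, h.2])
  have e : (⟨_, hrep (x * h)⟩ : H) = ⟨_, hrep x⟩ * h := Subtype.ext (by
    show (Quotient.out (QuotientGroup.mk (x * (h : G)) : G ⧸ H))⁻¹ * (x * h) = _ * (h : G)
    rw [hxh, mul_assoc])
  show z h x = z ⟨_, hrep (x * h)⟩ (Quotient.out (QuotientGroup.mk (x * (h : G)) : G ⧸ H))
    - z ⟨_, hrep x⟩ t
  rw [e, hxh, hz]
  show z h x = z ⟨_, hrep x⟩ t + z h (t * (t⁻¹ * x)) - z ⟨_, hrep x⟩ t
  rw [mul_inv_cancel_left]
  abel

end Coinduced

/-- The action induced on a quotient. -/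
def quotAction {M : Type u} [AddCommGroup M] (σ : G →* AddMonoid.End M) (N : AddSubgroup M)
    (hN : ∀ g, ∀ x ∈ N, σ g x ∈ N) : G →* AddMonoid.End (M ⧸ N) where
  toFun g := QuotientAddGroup.map N N (σ g) fun x hx => hN g x hx
  map_one' := by
    refine AddMonoidHom.ext fun x => ?_
    induction x using QuotientAddGroup.induction_on with
    | _ x => exact congrArg _ (sigma_one_apply σ x)
  map_mul' g h := by
    refine AddMonoidHom.ext fun x => ?_
    induction x using QuotientAddGroup.induction_on with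
    | _ x => exact congrArg _ (sigma_mul_apply σ g h x)

lemma quotAction_mk {M : Type u} [AddCommGroup M] (σ : G →* AddMonoid.End M) (N : AddSubgroup M)
    (hN : ∀ g, ∀ x ∈ N, σ g x ∈ N) (g : G) (x : M) :
    quotAction σ N hN g (QuotientAddGroup.mk x) = QuotientAddGroup.mk (σ g x) := rfl

section Lift

variable (H : Subgroup G) (ε : G →* Multiplicative (ZMod 4))

/-- Lifting along a surjection whose kernel is killed by two. -/
theorem exists_lift_of_kernel_two (hH : ∀ g, g ∈ H ↔ (ε g).toAdd = 0 ∨ (ε g).toAdd = 2) (w : G)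
    (hw : (ε w).toAdd = 1) (hL : TwoLiftable H)
    {A B : Type u} [AddCommGroup A] [AddCommGroup B] (σ : G →* AddMonoid.End A)
    (τ : G →* AddMonoid.End B) (f : A →+ B) (hfeq : ∀ g a, f (σ g a) = τ g (f a))
    (hf : Function.Surjective f) (hker : ∀ a, f a = 0 → a + a = 0)
    (c : G → B) (hc : IsOneCocycle τ c) :
    ∃ d : G → A, IsOneCocycle σ d ∧ ∀ g, f (d g) = c g := by
  classical
  choose a ha using fun g => hf (c g)
  let z : G → G → A := fun g h => a g + σ g (a h) - a (g * h)
  have hzker : ∀ g h, f (z g h) = 0 := fun g h => by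
    simp only [z, map_sub, map_add, hfeq, ha, hc g h, sub_self]
  -- the kernel inside the module of functions
  let σI : G →* AddMonoid.End (G → f.ker) := translateHom
  let ι' : f.ker →+ (G → f.ker) := AddMonoidHom.mk'
    (fun k x => ⟨σ x (k : A), by rw [AddMonoidHom.mem_ker, hfeq, k.2, map_zero]⟩)
    fun k l => funext fun x => Subtype.ext (map_add (σ x) _ _)
  have hι : ∀ g, ∀ b ∈ ι'.range, σI g b ∈ ι'.range := by
    rintro g _ ⟨k, rfl⟩
    refine ⟨⟨σ g (k : A), by rw [AddMonoidHom.mem_ker, hfeq, k.2, map_zero]⟩, ?_⟩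
    funext x
    exact Subtype.ext (sigma_mul_apply σ x g (k : A)).symm
  let σM := quotAction σI ι'.range hι
  let b : G → (G → f.ker) := fun g x => ⟨z x g, hzker x g⟩
  have hb : ∀ g h, b g + σI g (b h) - b (g * h) = ι' ⟨z g h, hzker g h⟩ := fun g h => by
    funext x
    refine Subtype.ext ?_
    show z x g + z (x * g) h - z x (g * h) = σ x (z g h)
    simp only [z, map_sub, map_add, sigma_mul_apply, mul_assoc]
    abel
  let bM : G → (G → f.ker) ⧸ ι'.range := fun g => QuotientAddGroup.mk (b g)
  have hbM : IsOneCocycle σM bM := fun g h => by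
    rw [quotAction_mk, ← QuotientAddGroup.mk_add, QuotientAddGroup.eq]
    exact ⟨⟨z g h, hzker g h⟩, by rw [← hb]; abel⟩
  have htwo : ∀ x : (G → f.ker) ⧸ ι'.range, x + x = 0 := fun x => by
    induction x using QuotientAddGroup.induction_on with
    | _ x =>
      rw [← QuotientAddGroup.mk_add, show x + x = 0 from
        funext fun y => Subtype.ext (hker _ (x y).2), QuotientAddGroup.mk_zero]
  have hsplitH : CocyclesSplit (σM.comp H.subtype) := fun e he => by
    obtain ⟨e', he', hee⟩ := hL (G → f.ker) ((G → f.ker) ⧸ ι'.range) (σI.comp H.subtype)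
      (σM.comp H.subtype) (QuotientAddGroup.mk' ι'.range) (fun g x => rfl)
      (QuotientAddGroup.mk'_surjective _) 1
      (fun x _ => by
        rw [pow_one, two_nsmul]; exact funext fun y => Subtype.ext (hker _ (x y).2))
      e he
    obtain ⟨m, hm⟩ := cocyclesSplit_translate H e' he'
    refine ⟨QuotientAddGroup.mk m, fun g => ?_⟩
    rw [← hee g, hm g]
    rfl
  obtain ⟨m, hm⟩ := cocyclesSplit_of_index_two σM H ε hH w hw htwo hsplitH bM hbM
  obtain ⟨m, rfl⟩ := QuotientAddGroup.mk'_surjective _ m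
  have hk : ∀ g, ∃ k, ι' k = b g - (σI g m - m) := fun g => by
    have h1 := hm g
    rw [QuotientAddGroup.mk'_apply, quotAction_mk, ← QuotientAddGroup.mk_sub] at h1
    obtain ⟨k, hk⟩ := QuotientAddGroup.eq.1 h1.symm
    exact ⟨k, by rw [hk]; abel⟩
  choose k hk using hk
  refine ⟨fun g => a g - (k g : A), fun g h => ?_, fun g => ?_⟩
  · have e1 : ι' (k g + ⟨σ g (k h : A), by rw [AddMonoidHom.mem_ker, hfeq, (k h).2, map_zero]⟩
        - k (g * h)) = ι' ⟨z g h, hzker g h⟩ := by
      have e2 : ι' ⟨σ g (k h : A), by rw [AddMonoidHom.mem_ker, hfeq, (k h).2, map_zero]⟩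
          = σI g (ι' (k h)) := funext fun x => Subtype.ext (sigma_mul_apply σ x g _).symm
      rw [← hb, map_sub, map_add, e2, hk, hk, hk, map_sub, map_sub,
        show σI g (σI h m) = σI (g * h) m from (sigma_mul_apply σI g h m).symm]
      abel
    have e3 := congrArg (fun y : f.ker => (σ 1 (y : A)))
      (show (k g + ⟨σ g (k h : A), by rw [AddMonoidHom.mem_ker, hfeq, (k h).2, map_zero]⟩
        - k (g * h) : f.ker) = ⟨z g h, hzker g h⟩ from Subtype.ext (by
          have := congrArg Subtype.val (congrFun e1 1)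
          simpa [ι', sigma_one_apply] using this))
    simp only [sigma_one_apply, AddSubgroupClass.coe_sub, AddSubgroup.coe_add, z] at e3
    rw [map_sub, ← sub_eq_zero]
    rw [← sub_eq_zero] at e3
    rw [← e3]
    dsimp only
    abel
  · rw [map_sub, ha, (k g).2, sub_zero]

/-- **Liftability passes to an index-two overgroup with a `ℤ/4`-lift of its sign.** -/
theorem twoLiftable_of_index_two (hH : ∀ g, g ∈ H ↔ (ε g).toAdd = 0 ∨ (ε g).toAdd = 2) (w : G)
    (hw : (ε w).toAdd = 1) (hL : TwoLiftable H) : TwoLiftable G := by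
  intro A B _ _ σ τ f hfeq hf n
  induction n generalizing A with
  | zero =>
    intro hker c hc
    choose a ha using fun g => hf (c g)
    refine ⟨a, fun g h => ?_, ha⟩
    have h0 := hker (a (g * h) - (a g + σ g (a h))) (by
      rw [map_sub, map_add, hfeq, ha, ha, ha, hc g h, sub_self])
    rw [pow_zero, one_nsmul, sub_eq_zero] at h0
    exact h0
  | succ n ih =>
    intro hker c hc
    let N : AddSubgroup A := f.ker.map (DistribSMul.toAddMonoidHom A (2 ^ n : ℕ))
    have hN : ∀ g, ∀ x ∈ N, σ g x ∈ N := by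
      rintro g _ ⟨x, hx, rfl⟩
      exact ⟨σ g x, by rw [SetLike.mem_coe, AddMonoidHom.mem_ker, hfeq, hx, map_zero],
        (map_nsmul (σ g) (2 ^ n) x).symm⟩
    have hNf : N ≤ f.ker := by
      rintro _ ⟨x, hx, rfl⟩
      rw [AddMonoidHom.mem_ker]
      show f ((2 ^ n : ℕ) • x) = 0
      rw [map_nsmul, hx, smul_zero]
    obtain ⟨e, he, hec⟩ := ih (A ⧸ N) (quotAction σ N hN) (QuotientAddGroup.lift N f hNf)
      (fun g a => by
        induction a using QuotientAddGroup.induction_on with
        | _ a => exact hfeq g a)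
      (fun y => let ⟨a, ha⟩ := hf y; ⟨QuotientAddGroup.mk a, ha⟩)
      (fun a => by
        induction a using QuotientAddGroup.induction_on with
        | _ a =>
          intro h
          rw [← QuotientAddGroup.mk_nsmul, QuotientAddGroup.eq_zero_iff]
          exact ⟨a, h, rfl⟩)
      c hc
    obtain ⟨d, hd, hde⟩ := exists_lift_of_kernel_two H ε hH w hw hL σ (quotAction σ N hN)
      (QuotientAddGroup.mk' N) (fun g a => rfl) (QuotientAddGroup.mk'_surjective N)
      (fun a ha => by
        obtain ⟨x, hx, rfl⟩ := (QuotientAddGroup.eq_zero_iff a).1 ha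
        show (2 ^ n : ℕ) • x + (2 ^ n : ℕ) • x = 0
        rw [← add_nsmul, ← two_mul, ← pow_succ']
        exact hker x hx) e he
    exact ⟨d, hd, fun g => by rw [← hec g, ← hde g]; rfl⟩

end Lift

end Fermat.Agent.TwoAdic
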