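import Fermat.Agent.TwoAdic.LiftGroup
import Mathlib.Algebra.Group.Prod

/-!
# Invariant homomorphisms of an index-two subgroup are norms

Conjugation-invariant homomorphisms of an index-two subgroup are norms, when the overgroup is
liftable.  This is the statement `ker(1 + w) = im(1 + w)` giving freeness over the group algebra
of an Atkin-Lehner involution (after localisation at a non-Eisenstein ideal).
-/

set_option autoImplicit false

universe u

namespace Fermat.Agent.TwoAdic

variable {G : Type u} [Group G] {A : Type u} [AddCommGroup A]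

/-- The sum map. -/
def sumPair : A × A →+ A := AddMonoidHom.fst A A + AddMonoidHom.snd A A

/-- **Norms.** `c` a homomorphism on `H` invariant under `w`, vanishing at `w²`: it is a norm. -/
theorem exists_norm_of_conjInvariant (H : Subgroup G) (hG : TwoLiftable G) (w : G)
    (hmul : ∀ g, g ∈ H ∨ g * w⁻¹ ∈ H) (hw : w ∉ H) (hnormal : ∀ h ∈ H, w * h * w⁻¹ ∈ H)
    (hww : w * w ∈ H) (h2 : ∀ a : A, a + a = 0) (c : G → A)
    (hc : ∀ g h, g ∈ H → h ∈ H → c (g * h) = c g + c h)
    (hinv : ∀ h ∈ H, c (w * h * w⁻¹) = c h) (hc2 : c (w * w) = 0) :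
    ∃ b : G → A, (∀ g h, g ∈ H → h ∈ H → b (g * h) = b g + b h) ∧
      ∀ h ∈ H, c h = b h + b (w * h * w⁻¹) := by
  classical
  let e : G → A := fun g => if g ∈ H then c g else c (g * w⁻¹)
  have heH : ∀ h ∈ H, e h = c h := fun h hh => if_pos hh
  have hew : ∀ h ∈ H, e (h * w) = c h := fun h hh => by
    have hn : h * w ∉ H := fun h1 => hw (by simpa using H.mul_mem (H.inv_mem hh) h1)
    simp only [e, if_neg hn, mul_inv_cancel_right]
  have hdec : ∀ g, g ∈ H ∨ ∃ h ∈ H, g = h * w := fun g =>
    (hmul g).imp id fun h => ⟨_, h, (inv_mul_cancel_right g w).symm⟩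
  have he : ∀ g h, e (g * h) = e g + e h := by
    intro g h
    rcases hdec g with hg | ⟨g, hg, rfl⟩ <;> rcases hdec h with hh | ⟨h, hh, rfl⟩
    · rw [heH _ (H.mul_mem hg hh), heH _ hg, heH _ hh, hc _ _ hg hh]
    · rw [← mul_assoc, hew _ (H.mul_mem hg hh), heH _ hg, hew _ hh, hc _ _ hg hh]
    · rw [show g * w * h = g * (w * h * w⁻¹) * w by group,
        hew _ (H.mul_mem hg (hnormal h hh)), hew _ hg, heH _ hh, hc _ _ hg (hnormal h hh),
        hinv h hh]
    · rw [show g * w * (h * w) = g * (w * h * w⁻¹) * (w * w) by group,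
        heH _ (H.mul_mem (H.mul_mem hg (hnormal h hh)) hww),
        hc _ _ (H.mul_mem hg (hnormal h hh)) hww, hc _ _ hg (hnormal h hh), hinv h hh, hc2,
        add_zero, hew _ hg, hew _ hh]
  let swapHom : AddMonoid.End (A × A) := (AddMonoidHom.snd A A).prod (AddMonoidHom.fst A A)
  let σ : G →* AddMonoid.End (A × A) :=
    { toFun := fun g => if g ∈ H then (1 : AddMonoid.End (A × A)) else swapHom
      map_one' := if_pos H.one_mem
      map_mul' := fun g h => by
        rcases hdec g with hg | ⟨g, hg, rfl⟩ <;> rcases hdec h with hh | ⟨h, hh, rfl⟩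
        · rw [if_pos (H.mul_mem hg hh), if_pos hg, if_pos hh]; rfl
        · have n1 : ∀ x ∈ H, x * w ∉ H := fun x hx h1 =>
            hw (by simpa using H.mul_mem (H.inv_mem hx) h1)
          rw [← mul_assoc, if_neg (n1 _ (H.mul_mem hg hh)), if_pos hg, if_neg (n1 _ hh)]; rfl
        · have n1 : ∀ x ∈ H, x * w ∉ H := fun x hx h1 =>
            hw (by simpa using H.mul_mem (H.inv_mem hx) h1)
          rw [show g * w * h = g * (w * h * w⁻¹) * w by group,
            if_neg (n1 _ (H.mul_mem hg (hnormal h hh))), if_neg (n1 _ hg), if_pos hh]; rfl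
        · have n1 : ∀ x ∈ H, x * w ∉ H := fun x hx h1 =>
            hw (by simpa using H.mul_mem (H.inv_mem hx) h1)
          rw [show g * w * (h * w) = g * (w * h * w⁻¹) * (w * w) by group,
            if_pos (H.mul_mem (H.mul_mem hg (hnormal h hh)) hww), if_neg (n1 _ hg),
            if_neg (n1 _ hh)]
          exact AddMonoidHom.ext fun x => rfl }
  obtain ⟨d, hd, hde⟩ := hG (A × A) A σ (1 : G →* AddMonoid.End A) sumPair
    (fun g x => by
      show sumPair ((if g ∈ H then (1 : AddMonoid.End (A × A)) else swapHom) x) = sumPair x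
      split
      · rfl
      · exact add_comm _ _)
    (fun a => ⟨(a, 0), add_zero a⟩) 1
    (fun x _ => by rw [pow_one, two_nsmul]; exact Prod.ext (h2 _) (h2 _)) e (fun g h => he g h)
  have hσH : ∀ h ∈ H, ∀ x, σ h x = x := fun h hh x => by
    show (if h ∈ H then (1 : AddMonoid.End (A × A)) else swapHom) x = x
    rw [if_pos hh]; rfl
  have hσw : ∀ x, σ w x = (x.2, x.1) := fun x => by
    show (if w ∈ H then (1 : AddMonoid.End (A × A)) else swapHom) x = _
    rw [if_neg hw]; rfl
  refine ⟨fun g => (d g).1, fun g h hg hh => ?_, fun h hh => ?_⟩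
  · show (d (g * h)).1 = _
    rw [hd, hσH g hg]; rfl
  · have h1 : d (w * h * w⁻¹) + d w = d w + σ w (d h) := by
      have h3 := hd (w * h * w⁻¹) w
      rw [hσH _ (hnormal h hh), inv_mul_cancel_right, hd w h] at h3
      exact h3.symm
    rw [add_comm, hσw] at h1
    have h2' : (d (w * h * w⁻¹)).1 = (d h).2 := congrArg Prod.fst (add_left_cancel h1)
    show c h = (d h).1 + (d (w * h * w⁻¹)).1
    rw [h2', ← heH h hh, ← hde h]
    rfl

end Fermat.Agent.TwoAdic
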