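import Fermat.Agent.TwoAdic.PatchingQuadratic
import Fermat.Agent.TwoAdic.Depth
import Mathlib.RingTheory.MvPowerSeries.Rename
import Mathlib.LinearAlgebra.Dimension.StrongRankCondition

/-!
# Patching with a double cover

Patching at a prime `2` with a double cover: `R∞ = O⟦x, t⟧` acts on the patched module through
`t ^ 2 - p`, the patched module is free of rank four over `O⟦x⟧` and of rank two over the double
cover, so the base ring is a complete intersection and the base module is free of rank two over it.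
-/

set_option autoImplicit false

open IsLocalRing Filter Pointwise RingTheory.Sequence

namespace Fermat.Agent.TwoAdic

variable {O : Type} [CommRing O] [IsDomain O] [IsDiscreteValuationRing O]
  [IsAdicComplete (maximalIdeal O) O] [Finite (ResidueField O)]

section Lifts

variable {r d : ℕ} [NeZero d] {R : Type} [CommRing R] [IsLocalRing R] [IsNoetherianRing R]
  (act : R →+* Matrix (Fin d) (Fin d) (MvPowerSeries (Fin r) O))
  (ϖ : O) (hϖ : Irreducible ϖ) (cw : R) (hcw : cw ∈ maximalIdeal R)
  (hC : act cw = (MvPowerSeries.C ϖ : MvPowerSeries (Fin r) O) •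
    (1 : Matrix (Fin d) (Fin d) (MvPowerSeries (Fin r) O)))
  (xl ul : Fin r → R) (U : Fin r → MvPowerSeries (Fin r) O)
  (hxm : ∀ i, xl i ∈ maximalIdeal R) (hul : ∀ i, IsUnit (ul i)) (hU : ∀ i, IsUnit (U i))
  (hxl : ∀ i, act (ul i * xl i * xl i) =
    (U i * MvPowerSeries.X i * MvPowerSeries.X i) •
      (1 : Matrix (Fin d) (Fin d) (MvPowerSeries (Fin r) O)))

omit [NeZero d] [IsAdicComplete (maximalIdeal O) O] in
include hϖ hcw hC hxm hul hU hxl in
/-- The lifts and `ϖ` form a regular sequence on the patched module. -/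
theorem regular_lifts [Module.Finite R (ActedOn act)] :
    IsWeaklyRegular (ActedOn act) (List.ofFn xl ++ [cw]) ∧
      Nat.card (ActedOn act ⧸ Ideal.ofList (List.ofFn xl ++ [cw]) •
          (⊤ : Submodule R (ActedOn act))) =
        Nat.card (Fin d → ResidueField (MvPowerSeries (Fin r) O)) := by
  classical
  let P := MvPowerSeries (Fin r) O
  have := finite_residueField_mvPowerSeries (O := O) r
  have hcm : MvPowerSeries.C ϖ ∈ maximalIdeal P := by
    rw [DefRing.mem_maximalIdeal_iff_constantCoeff, MvPowerSeries.constantCoeff_C]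
    exact hϖ.not_isUnit
  have hXm : ∀ i, (MvPowerSeries.X i : P) ∈ maximalIdeal P := fun i => by
    rw [DefRing.mem_maximalIdeal_iff_constantCoeff, MvPowerSeries.constantCoeff_X]
    exact not_isUnit_zero
  have hpost : ∀ c ∈ [(MvPowerSeries.C ϖ : P)], c ∈ maximalIdeal P := fun c hc =>
    List.mem_singleton.1 hc ▸ hcm
  have hpostR : ∀ c ∈ [cw], c ∈ maximalIdeal R := fun c hc => List.mem_singleton.1 hc ▸ hcw
  -- the scalar side
  let psX : List (P × P) := List.ofFn fun i => ((MvPowerSeries.X i : P), U i)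
  let psx : List (R × R) := List.ofFn fun i => (xl i, ul i)
  have hX : psX.map Prod.fst = List.ofFn fun i => (MvPowerSeries.X i : P) := by
    simp [psX, List.map_ofFn, Function.comp_def]
  have hx : psx.map Prod.fst = List.ofFn xl := by simp [psx, List.map_ofFn, Function.comp_def]
  have hpsX : (∀ p ∈ psX, p.1 ∈ maximalIdeal P) ∧ ∀ p ∈ psX, IsUnit p.2 := by
    constructor <;> intro p hp <;> obtain ⟨i, rfl⟩ := List.mem_ofFn.1 hp
    exacts [hXm i, hU i]
  have hpsx : (∀ p ∈ psx, p.1 ∈ maximalIdeal R) ∧ ∀ p ∈ psx, IsUnit p.2 := by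
    constructor <;> intro p hp <;> obtain ⟨i, rfl⟩ := List.mem_ofFn.1 hp
    exacts [hxm i, hul i]
  set ws := psX.map (fun p => p.2 * p.1 * p.1) ++ [MvPowerSeries.C ϖ] with hws
  set zs := psx.map (fun p => p.2 * p.1 * p.1) ++ [cw] with hzs
  let e : (Fin d → P) ≃+ ActedOn act := AddEquiv.refl _
  have hrel : List.Forall₂ (fun (p : P) (y : R) => ∀ v : Fin d → P, e (p • v) = y • e v) ws zs := by
    have key : ∀ (p : P) (y : R), act y = p • (1 : Matrix (Fin d) (Fin d) P) →
        ∀ v, e (p • v) = y • e v := fun p y hy v => (ActedOn.scalar_smul hy (e v)).symm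
    refine List.rel_append ?_ (List.Forall₂.cons (key _ _ hC) List.Forall₂.nil)
    simp only [psX, psx, List.map_ofFn]
    rw [List.forall₂_iff_get]
    refine ⟨by simp, fun i h1 h2 => key _ _ ?_⟩
    simp [hxl]
  have hregX : IsWeaklyRegular (Fin d → P) (psX.map Prod.fst ++ [MvPowerSeries.C ϖ]) := by
    rw [hX]
    exact ((TensorProduct.rid P (Fin d → P)).isWeaklyRegular_congr _).mp
      (Patching.isWeaklyRegular_params O r ϖ hϖ.ne_zero).isWeaklyRegular_lTensor
  have hregw : IsWeaklyRegular (Fin d → P) ws :=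
    (isWeaklyRegular_squares_iff psX _ hpsX.1 hpsX.2 hpost).2 hregX
  have hregz : IsWeaklyRegular (ActedOn act) zs :=
    (AddEquiv.isWeaklyRegular_congr (e := e) hrel).mp hregw
  have hregx : IsWeaklyRegular (ActedOn act) (psx.map Prod.fst ++ [cw]) :=
    (isWeaklyRegular_squares_iff psx _ hpsx.1 hpsx.2 hpostR).1 hregz
  -- the quotients by the squares coincide
  have hmap : (Ideal.ofList ws • (⊤ : Submodule P (Fin d → P))).toAddSubgroup.map
      (e : (Fin d → P) →+ ActedOn act) =
        (Ideal.ofList zs • (⊤ : Submodule R (ActedOn act))).toAddSubgroup := by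
    refine le_antisymm ?_ ?_
    · rintro _ ⟨v, hv, rfl⟩
      change e v ∈ Ideal.ofList zs • (⊤ : Submodule R (ActedOn act))
      induction hv using Submodule.smul_induction_on' with
      | smul p hp v _ =>
        clear * - hp hrel
        induction hp using Submodule.span_induction generalizing v with
        | mem y hy =>
          obtain ⟨i, hi, rfl⟩ := List.mem_iff_getElem.1 hy
          have h2 : i < zs.length := hrel.length_eq ▸ hi
          have h3 := (List.forall₂_iff_get.1 hrel).2 i hi h2 v
          simp only [List.get_eq_getElem] at h3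
          rw [h3]
          exact Submodule.smul_mem_smul (Ideal.subset_span (List.getElem_mem h2)) Submodule.mem_top
        | zero => simp
        | add x y _ _ hx hy => rw [add_smul, map_add]; exact add_mem (hx v) (hy v)
        | smul a x _ hx => rw [smul_eq_mul, mul_comm, mul_smul]; exact hx (a • v)
      | add x _ y _ hx hy => rw [map_add]; exact add_mem hx hy
    · intro w hw
      change w ∈ Ideal.ofList zs • (⊤ : Submodule R (ActedOn act)) at hw
      refine ⟨e.symm w, ?_, e.apply_symm_apply w⟩
      change e.symm w ∈ Ideal.ofList ws • (⊤ : Submodule P (Fin d → P))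
      induction hw using Submodule.smul_induction_on' with
      | smul p hp w _ =>
        clear * - hp hrel
        induction hp using Submodule.span_induction generalizing w with
        | mem y hy =>
          obtain ⟨i, hi, rfl⟩ := List.mem_iff_getElem.1 hy
          have h2 : i < ws.length := hrel.length_eq.symm ▸ hi
          have h3 := (List.forall₂_iff_get.1 hrel).2 i h2 hi (e.symm w)
          simp only [List.get_eq_getElem, AddEquiv.apply_symm_apply] at h3
          rw [← h3, AddEquiv.symm_apply_apply]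
          exact Submodule.smul_mem_smul (Ideal.subset_span (List.getElem_mem h2)) Submodule.mem_top
        | zero => simp
        | add x y _ _ hx hy => rw [add_smul, map_add]; exact add_mem (hx w) (hy w)
        | smul a x _ hx => rw [smul_eq_mul, mul_comm, mul_smul]; exact hx (a • w)
      | add x _ y _ hx hy => rw [map_add]; exact add_mem hx hy
  have hcard : Nat.card (ActedOn act ⧸ Ideal.ofList zs • (⊤ : Submodule R (ActedOn act))) =
      Nat.card ((Fin d → P) ⧸ Ideal.ofList ws • (⊤ : Submodule P (Fin d → P))) :=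
    (Nat.card_congr (QuotientAddGroup.congr _ _ e hmap).toEquiv).symm
  rw [hzs, hws, card_quotient_squares psx _ hpsx.1 hpsx.2 hpostR hregx,
    card_quotient_squares psX _ hpsX.1 hpsX.2 hpost hregX] at hcard
  have hlen : psx.length = psX.length := by simp [psx, psX]
  rw [hlen] at hcard
  have hk : Nat.card ((Fin d → P) ⧸
      Ideal.ofList (psX.map Prod.fst ++ [MvPowerSeries.C ϖ]) • (⊤ : Submodule P (Fin d → P))) =
        Nat.card (Fin d → ResidueField P) := by
    rw [hX, show Ideal.ofList ((List.ofFn fun i => (MvPowerSeries.X i : P)) ++ [MvPowerSeries.C ϖ])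
      = maximalIdeal P from Patching.ofList_params_eq_maximalIdeal O r ϖ hϖ]
    let f : (Fin d → P) →ₗ[P] (Fin d → ResidueField P) :=
      (Algebra.linearMap P (ResidueField P)).compLeft (Fin d)
    have hf : Function.Surjective f := fun w =>
      ⟨fun i => Function.surjInv residue_surjective (w i), funext fun i =>
        Function.surjInv_eq residue_surjective (w i)⟩
    have hker : LinearMap.ker f = maximalIdeal P • (⊤ : Submodule P (Fin d → P)) := by
      ext v
      rw [LinearMap.mem_ker, mem_smul_top_pi, funext_iff]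
      exact forall_congr' fun i => residue_eq_zero_iff _
    rw [← hker]
    exact Nat.card_congr (f.quotKerEquivOfSurjective hf).toEquiv
  have hfinal := Nat.pow_left_injective (pow_ne_zero psX.length two_ne_zero) hcard
  rw [hx, hk] at hfinal
  rw [hx] at hregx
  exact ⟨hregx, hfinal⟩

omit [IsAdicComplete (maximalIdeal O) O] [Finite (ResidueField O)] [NeZero d] in
include hϖ hcw hC in
/-- With the expected cardinality, the kernel of the map to the base is generated by the lifts. -/
theorem ker_base_le [Module.Finite R (ActedOn act)] [Finite (ResidueField (MvPowerSeries (Fin r) O))]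
    {R₀ M₀ : Type} [CommRing R₀] [AddCommGroup M₀] [Module R₀ M₀] [Module O M₀]
    (b : Module.Basis (Fin d) O M₀) (π : R →+* R₀) (hxl0 : ∀ i, π (xl i) = 0)
    (G : ActedOn act →+ M₀)
    (hG : ∀ v : ActedOn act, G v = ∑ i, MvPowerSeries.constantCoeff (v.vec i) • b i)
    (hGs : ∀ (p : R) (v : ActedOn act), G (p • v) = π p • G v)
    (hcard : Nat.card (ActedOn act ⧸ Ideal.ofList (List.ofFn xl ++ [cw]) •
          (⊤ : Submodule R (ActedOn act))) =
        Nat.card (Fin d → ResidueField (MvPowerSeries (Fin r) O))) :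
    ∀ v, G v = 0 → v ∈ Ideal.span (Set.range xl) • (⊤ : Submodule R (ActedOn act)) := by
  classical
  let K : Submodule R (ActedOn act) :=
    { carrier := {v | G v = 0}
      add_mem' := fun {v w} hv hw => by simp only [Set.mem_ofPred_eq] at *; rw [map_add, hv, hw, add_zero]
      zero_mem' := map_zero G
      smul_mem' := fun p v hv => by simp only [Set.mem_ofPred_eq] at *; rw [hGs, hv, smul_zero] }
  let Y := Ideal.ofList (List.ofFn xl ++ [cw]) •
    (⊤ : Submodule R (ActedOn act))
  have hY : Y = Ideal.span (Set.range xl) • ⊤ ⊔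
      Ideal.span {cw} • ⊤ := by
    rw [← Submodule.sup_smul]
    simp only [Y, Ideal.ofList_append, Ideal.ofList_singleton]
    congr 2
    exact congrArg Ideal.span (Set.ext fun y => by simp [List.mem_ofFn])
  let red : ActedOn act →+ (Fin d → ResidueField (MvPowerSeries (Fin r) O)) :=
    { toFun := fun v i => residue _ (v.vec i)
      map_zero' := funext fun i => map_zero _
      map_add' := fun v w => funext fun i => map_add _ _ _ }
  have hGJ : ∀ a ∈ Ideal.span (Set.range xl) •
      (⊤ : Submodule R (ActedOn act)), G a = 0 := by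
    intro a ha
    induction ha using Submodule.smul_induction_on' with
    | smul p hp w _ =>
      have hp0 : π p = 0 := RingHom.mem_ker.1
        ((Ideal.span_le.2 (Set.range_subset_iff.2 fun i => RingHom.mem_ker.2 (hxl0 i))) hp)
      rw [hGs, hp0, zero_smul]
    | add y _ z _ hy hz => rw [map_add, hy, hz, add_zero]
  have hredY : ∀ v ∈ Y, red v = 0 := by
    intro v hv
    rw [hY, Submodule.mem_sup] at hv
    obtain ⟨a, ha, c, hc, rfl⟩ := hv
    have hGa : G a = 0 := hGJ a ha
    rw [Submodule.ideal_span_singleton_smul, Submodule.mem_smul_pointwise_iff_exists] at hc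
    obtain ⟨w, -, rfl⟩ := hc
    rw [map_add]
    have h1 : red a = 0 := funext fun i => by
      rw [Pi.zero_apply]
      show residue _ (a.vec i) = 0
      rw [residue_eq_zero_iff, DefRing.mem_maximalIdeal_iff_constantCoeff,
        Fintype.linearIndependent_iff.1 b.linearIndependent (fun i => MvPowerSeries.constantCoeff (a.vec i)) ((hG a).symm.trans hGa) i]
      exact not_isUnit_zero
    have h2 : red (cw • w) = 0 := funext fun i => by
      rw [Pi.zero_apply]
      show residue _ ((cw • w).vec i) = 0
      rw [ActedOn.scalar_smul hC, residue_eq_zero_iff]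
      refine Ideal.mul_mem_right _ _ ?_
      rw [DefRing.mem_maximalIdeal_iff_constantCoeff, MvPowerSeries.constantCoeff_C]
      exact hϖ.not_isUnit
    rw [h1, h2, add_zero]
  let redQ : ActedOn act ⧸ Y.toAddSubgroup →+ (Fin d → ResidueField (MvPowerSeries (Fin r) O)) :=
    QuotientAddGroup.lift _ red fun v hv => hredY v hv
  have hredQ : Function.Surjective redQ := fun w =>
    ⟨QuotientAddGroup.mk (ActedOn.mk act fun i => Function.surjInv residue_surjective (w i)),
      funext fun i => Function.surjInv_eq residue_surjective (w i)⟩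
  have hcard' : Nat.card (ActedOn act ⧸ Y.toAddSubgroup) =
      Nat.card (Fin d → ResidueField (MvPowerSeries (Fin r) O)) := hcard
  have : Finite (ActedOn act ⧸ Y.toAddSubgroup) :=
    Nat.finite_of_card_ne_zero (hcard' ▸ Nat.card_pos.ne')
  have hinj : Function.Injective redQ :=
    (hredQ.bijective_of_nat_card_le hcard'.le).1
  have hK : K ≤ Ideal.span (Set.range xl) • ⊤ ⊔
      Ideal.span {cw} • K := by
    intro v hv
    change G v = 0 at hv
    have hred : red v = 0 := funext fun i => by
      rw [Pi.zero_apply]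
      show residue _ (v.vec i) = 0
      rw [residue_eq_zero_iff, DefRing.mem_maximalIdeal_iff_constantCoeff,
        Fintype.linearIndependent_iff.1 b.linearIndependent (fun i => MvPowerSeries.constantCoeff (v.vec i)) ((hG v).symm.trans hv) i]
      exact not_isUnit_zero
    have hvY : v ∈ Y := (QuotientAddGroup.eq_zero_iff (N := Y.toAddSubgroup) v).1
      (hinj (hred.trans (map_zero redQ).symm))
    rw [hY, Submodule.mem_sup] at hvY
    obtain ⟨a, ha, c, hc, rfl⟩ := hvY
    rw [Submodule.ideal_span_singleton_smul, Submodule.mem_smul_pointwise_iff_exists] at hc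
    obtain ⟨w, -, rfl⟩ := hc
    refine Submodule.mem_sup.2 ⟨a, ha, _, Submodule.smul_mem_smul
      (Ideal.mem_span_singleton_self _) ?_, rfl⟩
    have hGa : G a = 0 := hGJ a ha
    change G w = 0
    rw [map_add, hGa, zero_add, hG, ActedOn.scalar_smul hC] at hv
    have hv0 := Fintype.linearIndependent_iff.1 b.linearIndependent _ hv
    rw [hG]
    refine Finset.sum_eq_zero fun i _ => ?_
    have h1 := hv0 i
    rw [Pi.smul_apply, smul_eq_mul, map_mul, MvPowerSeries.constantCoeff_C, mul_eq_zero,
      or_iff_right hϖ.ne_zero] at h1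
    rw [h1, zero_smul]
  intro v hv
  refine Submodule.le_of_le_smul_of_le_jacobson_bot (IsNoetherian.noetherian K) ?_ hK hv
  rw [IsLocalRing.jacobson_eq_maximalIdeal _ bot_ne_top, Ideal.span_singleton_le_iff_mem]
  exact hcw

omit [IsAdicComplete (maximalIdeal O) O] [NeZero d] [IsLocalRing R] [IsNoetherianRing R] in
include hϖ hC hU hxl in
/-- The patched module is finite over a subring through which the lifts act as non-units. -/
theorem finite_of_lifts [IsAdicComplete (maximalIdeal O) O]
    (ι : MvPowerSeries (Fin r) O →+* R)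
    (hcwι : cw ∈ (maximalIdeal (MvPowerSeries (Fin r) O)).map ι)
    (hxJ : ∀ i, xl i ∈ (maximalIdeal (MvPowerSeries (Fin r) O)).map ι) :
    Module.Finite (MvPowerSeries (Fin r) O) (ActedOn (act.comp ι)) := by
  classical
  let P := MvPowerSeries (Fin r) O
  have := finite_residueField_mvPowerSeries (O := O) r
  have := isHausdorff_actedOn (act.comp ι)
  let Q := ActedOn (act.comp ι) ⧸ maximalIdeal P • (⊤ : Submodule P (ActedOn (act.comp ι)))
  have hι : ∀ z ∈ (maximalIdeal P).map ι, ∀ v : Fin d → P,
      ActedOn.mk (act.comp ι) ((act z).mulVec v) ∈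
        maximalIdeal P • (⊤ : Submodule P (ActedOn (act.comp ι))) := by
    intro z hz
    induction hz using Submodule.span_induction with
    | mem x hx =>
      obtain ⟨p, hp, rfl⟩ := hx
      exact fun v => Submodule.smul_mem_smul hp
        (Submodule.mem_top (x := ActedOn.mk (act.comp ι) v))
    | zero => intro v; rw [map_zero, Matrix.zero_mulVec]; exact zero_mem _
    | add x y _ _ hx hy => intro v; rw [map_add, Matrix.add_mulVec]; exact add_mem (hx v) (hy v)
    | smul a x _ hx =>
      intro v
      rw [smul_eq_mul, mul_comm, map_mul, ← Matrix.mulVec_mulVec]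
      exact hx _
  let W : Fin (r + 1) → P :=
    Fin.snoc (fun i => U i * MvPowerSeries.X i * MvPowerSeries.X i) (MvPowerSeries.C ϖ)
  let J₀ : Ideal P := Ideal.span (Set.range W)
  have hrad : maximalIdeal P ≤ J₀.radical := by
    rw [← Patching.ofList_params_eq_maximalIdeal O r ϖ hϖ, Ideal.ofList, Ideal.span_le]
    intro y hy
    simp only [Patching.params, List.mem_append, List.mem_ofFn, List.mem_singleton,
      Set.mem_ofPred_eq] at hy
    rcases hy with ⟨i, rfl⟩ | rfl
    · refine ⟨2, ?_⟩
      have h1 : W (Fin.castSucc i) ∈ J₀ := Ideal.subset_span ⟨_, rfl⟩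
      rw [show W (Fin.castSucc i) = U i * MvPowerSeries.X i * MvPowerSeries.X i from
        Fin.snoc_castSucc .., mul_assoc, Ideal.unit_mul_mem_iff_mem _ (hU i)] at h1
      rwa [sq]
    · refine Ideal.le_radical (Ideal.subset_span ⟨Fin.last r, ?_⟩)
      exact Fin.snoc_last ..
  obtain ⟨k, hk⟩ := Ideal.exists_pow_le_of_le_radical_of_fg hrad (IsNoetherian.noetherian _)
  have := Patch.finite_quot (Λ := P) k
  have : Finite (P ⧸ J₀) :=
    Finite.of_surjective _ (Ideal.Quotient.factor_surjective hk)
  have hJ : ∀ p ∈ J₀, ∀ u : Fin d → P,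
      ActedOn.mk (act.comp ι) (p • u) ∈
        maximalIdeal P • (⊤ : Submodule P (ActedOn (act.comp ι))) := by
    intro p hp
    induction hp using Submodule.span_induction with
    | mem x hx =>
      obtain ⟨i, rfl⟩ := hx
      intro u
      refine Fin.lastCases ?_ (fun i => ?_) i
      · have := hι cw hcwι u
        rw [hC, Matrix.smul_mulVec, Matrix.one_mulVec] at this
        rwa [show W (Fin.last r) = MvPowerSeries.C ϖ from Fin.snoc_last ..]
      · have := hι _ (Ideal.mul_mem_left _ (ul i * xl i) (hxJ i)) u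
        rw [hxl, Matrix.smul_mulVec, Matrix.one_mulVec] at this
        rwa [show W (Fin.castSucc i) = U i * MvPowerSeries.X i * MvPowerSeries.X i from
          Fin.snoc_castSucc ..]
    | zero => intro u; rw [zero_smul]; exact zero_mem _
    | add x y _ _ hx hy => intro u; rw [add_smul]; exact add_mem (hx u) (hy u)
    | smul a x _ hx => intro u; rw [smul_eq_mul, mul_comm, mul_smul]; exact hx _
  let sec : P ⧸ J₀ → P := Function.surjInv Ideal.Quotient.mk_surjective
  have : Finite Q := by
    refine Finite.of_surjective (fun w : Fin d → P ⧸ J₀ =>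
      (Submodule.Quotient.mk (ActedOn.mk (act.comp ι) fun i => sec (w i)) : Q)) fun q => ?_
    obtain ⟨v, rfl⟩ := Submodule.mkQ_surjective _ q
    refine ⟨fun i => Ideal.Quotient.mk J₀ (v.vec i), ?_⟩
    rw [Submodule.mkQ_apply, Submodule.Quotient.eq]
    have hv : (ActedOn.mk (act.comp ι) fun i => sec (Ideal.Quotient.mk J₀ (v.vec i))) - v =
        ∑ i, ActedOn.mk (act.comp ι)
          ((sec (Ideal.Quotient.mk J₀ (v.vec i)) - v.vec i) • (Pi.single i 1 : Fin d → P)) :=
      pi_eq_sum_univ' ((fun i => sec (Ideal.Quotient.mk J₀ (v.vec i))) - v.vec)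
    rw [hv]
    refine sum_mem fun i _ => hJ _ ?_ _
    rw [← Ideal.Quotient.eq_zero_iff_mem, map_sub, sub_eq_zero]
    exact Function.surjInv_eq Ideal.Quotient.mk_surjective _
  have := Fintype.ofFinite Q
  have : IsAdicComplete (maximalIdeal P) P := DefRing.isAdicComplete_mvPowerSeries
  have := isPrecomplete_pi (maximalIdeal P) (ι := Q)
  let f : (Q → P) →ₗ[P] ActedOn (act.comp ι) :=
    Fintype.linearCombination P (Function.surjInv (Submodule.mkQ_surjective _))
  refine Module.Finite.of_surjective f
    (surjective_of_mkQ_comp_surjective (I := maximalIdeal P) fun q => ⟨Pi.single q 1, ?_⟩)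
  simp [f, Fintype.linearCombination_apply_single, Function.surjInv_eq]

end Lifts

section Residue

omit [IsAdicComplete (maximalIdeal O) O] [Finite (ResidueField O)] in
/-- The residue field of a power series ring has the size of that of `O`. -/
theorem card_residueField_mvPowerSeries (r : ℕ) :
    Nat.card (ResidueField (MvPowerSeries (Fin r) O)) = Nat.card (ResidueField O) := by
  let f : ResidueField O → ResidueField (MvPowerSeries (Fin r) O) := fun z =>
    residue _ (MvPowerSeries.C (Function.surjInv residue_surjective z))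
  refine (Nat.card_eq_of_bijective f ⟨fun a b h => ?_, fun z => ?_⟩).symm
  · simp only [f] at h
    rw [← sub_eq_zero, ← map_sub, ← map_sub, residue_eq_zero_iff,
      DefRing.mem_maximalIdeal_iff_constantCoeff, MvPowerSeries.constantCoeff_C,
      ← residue_eq_zero_iff, map_sub, Function.surjInv_eq residue_surjective,
      Function.surjInv_eq residue_surjective, sub_eq_zero] at h
    exact h
  · obtain ⟨g, rfl⟩ := residue_surjective z
    refine ⟨residue O (MvPowerSeries.constantCoeff g), ?_⟩
    simp only [f]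
    rw [← sub_eq_zero, ← map_sub, residue_eq_zero_iff,
      DefRing.mem_maximalIdeal_iff_constantCoeff, map_sub, MvPowerSeries.constantCoeff_C,
      ← residue_eq_zero_iff, map_sub, Function.surjInv_eq residue_surjective, sub_self]

end Residue

section Conclusion

variable {r d : ℕ} [NeZero d]

/-- `O⟦x⟧ → O⟦x, t⟧`. -/
noncomputable def baseHom (O : Type) [CommRing O] (r : ℕ) :
    MvPowerSeries (Fin r) O →ₐ[O] MvPowerSeries (Fin (r + 1)) O :=
  MvPowerSeries.rename Fin.castSucc

/-- The ideal `(ϖ, x)` of `O⟦x, t⟧`. -/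
noncomputable def xIdeal (O : Type) [CommRing O] [IsLocalRing O] (r : ℕ) :
    Ideal (MvPowerSeries (Fin (r + 1)) O) :=
  (maximalIdeal (MvPowerSeries (Fin r) O)).map (baseHom O r)

omit [IsDomain O] [IsDiscreteValuationRing O] [IsAdicComplete (maximalIdeal O) O]
  [Finite (ResidueField O)] in
theorem xIdeal_le [IsLocalRing O] :
    xIdeal O r ≤ maximalIdeal (MvPowerSeries (Fin (r + 1)) O) := by
  rw [xIdeal, Ideal.map_le_iff_le_comap]
  intro x hx
  rw [Ideal.mem_comap, DefRing.mem_maximalIdeal_iff_constantCoeff, baseHom,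
    MvPowerSeries.constantCoeff_rename]
  exact (DefRing.mem_maximalIdeal_iff_constantCoeff x).1 hx

omit [IsAdicComplete (maximalIdeal O) O] [Finite (ResidueField O)] in
theorem maximalIdeal_le_sup :
    maximalIdeal (MvPowerSeries (Fin (r + 1)) O) ≤
      xIdeal O r ⊔ Ideal.span {MvPowerSeries.X (Fin.last r)} := by
  obtain ⟨ϖ, hϖ⟩ := IsDiscreteValuationRing.exists_irreducible O
  rw [← Patching.ofList_params_eq_maximalIdeal O (r + 1) ϖ hϖ, Ideal.ofList, Ideal.span_le]
  intro y hy
  simp only [Patching.params, List.mem_append, List.mem_ofFn, List.mem_singleton,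
    Set.mem_ofPred_eq] at hy
  rcases hy with ⟨i, rfl⟩ | rfl
  · refine Fin.lastCases ?_ (fun j => ?_) i
    · exact Ideal.mem_sup_right (Ideal.mem_span_singleton_self _)
    · refine Ideal.mem_sup_left ?_
      rw [xIdeal, ← MvPowerSeries.rename_X (R := O) Fin.castSucc j]
      exact Ideal.mem_map_of_mem _ (DefRing.X_mem_maximalIdeal j)
  · refine Ideal.mem_sup_left ?_
    rw [xIdeal, ← MvPowerSeries.rename_C (R := O) (Fin.castSucc (n := r)) ϖ]
    refine Ideal.mem_map_of_mem _ ?_
    rw [DefRing.mem_maximalIdeal_iff_constantCoeff, MvPowerSeries.constantCoeff_C]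
    exact hϖ.not_isUnit

variable {R₀ : Type} [CommRing R₀] [IsLocalRing R₀] [Algebra O R₀]
  (π : MvPowerSeries (Fin (r + 1)) O →ₐ[O] R₀)
  (act : MvPowerSeries (Fin (r + 1)) O →+* Matrix (Fin d) (Fin d) (MvPowerSeries (Fin r) O))

/-- **The end of patching on a double cover.** -/
theorem conclusion_of_double (hπ : Function.Surjective π)
    (hC : ∀ o : O, act (MvPowerSeries.C o) = (MvPowerSeries.C o : MvPowerSeries (Fin r) O) •
      (1 : Matrix (Fin d) (Fin d) (MvPowerSeries (Fin r) O)))
    (xl ul : Fin r → MvPowerSeries (Fin (r + 1)) O) (U : Fin r → MvPowerSeries (Fin r) O)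
    (hxJ : ∀ i, xl i ∈ xIdeal O r) (hxl0 : ∀ i, π (xl i) = 0) (hul : ∀ i, IsUnit (ul i))
    (hU : ∀ i, IsUnit (U i))
    (hxl : ∀ i, act (ul i * xl i * xl i) =
      (U i * MvPowerSeries.X i * MvPowerSeries.X i) •
        (1 : Matrix (Fin d) (Fin d) (MvPowerSeries (Fin r) O)))
    (g : MvPowerSeries (Fin (r + 1)) O)
    (hg : g - MvPowerSeries.X (Fin.last r) ^ 2 ∈ xIdeal O r) (hgact : act g = 0) (hg0 : π g = 0)
    {M₀ : Type} [AddCommGroup M₀] [Module R₀ M₀] [Module O M₀] [IsScalarTower O R₀ M₀]
    (b : Module.Basis (Fin d) O M₀)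
    (hbase : ∀ x j, ∑ i, MvPowerSeries.constantCoeff (act x i j) • b i = π x • b j)
    (hgen : ∃ m : Fin 2 → M₀,
      Submodule.span R₀ (Set.range m) ⊔ maximalIdeal R₀ • (⊤ : Submodule R₀ M₀) = ⊤)
    (hdim : Nat.card (ResidueField O) ^ 4 ≤
      Nat.card (M₀ ⧸ (xIdeal O r).map π • (⊤ : Submodule R₀ M₀))) :
    IsFiniteCI O R₀ ∧ Nonempty (Module.Basis (Fin 2) R₀ M₀) ∧
      ∀ x : R₀, (∀ m : M₀, x • m = 0) → x = 0 := by
  classical
  obtain ⟨ϖ, hϖ⟩ := IsDiscreteValuationRing.exists_irreducible O
  let P := MvPowerSeries (Fin r) O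
  let R := MvPowerSeries (Fin (r + 1)) O
  have := finite_residueField_mvPowerSeries (O := O) r
  have := finite_residueField_mvPowerSeries (O := O) (r + 1)
  have hPc : IsAdicComplete (maximalIdeal P) P := DefRing.isAdicComplete_mvPowerSeries
  have hxm : ∀ i, xl i ∈ maximalIdeal R := fun i => xIdeal_le (hxJ i)
  have hgm : g ∈ maximalIdeal R := by
    have h1 : (MvPowerSeries.X (Fin.last r) : R) ^ 2 ∈ maximalIdeal R :=
      Ideal.pow_mem_of_mem _ (DefRing.X_mem_maximalIdeal _) 2 two_pos
    have h2 := add_mem (xIdeal_le hg) h1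
    rwa [sub_add_cancel] at h2
  -- the double cover
  let T := R ⧸ Ideal.span {g}
  have : Nontrivial T := Ideal.Quotient.nontrivial_iff.2 fun h =>
    (maximalIdeal.isMaximal R).ne_top
      (top_le_iff.1 (h ▸ (Ideal.span_singleton_le_iff_mem _).2 hgm))
  have hmk : Function.Surjective (Ideal.Quotient.mk (Ideal.span {g} : Ideal R)) :=
    Ideal.Quotient.mk_surjective
  have : IsLocalRing T := IsLocalRing.of_surjective' (Ideal.Quotient.mk _) hmk
  have : IsNoetherianRing T := isNoetherianRing_of_surjective R T (Ideal.Quotient.mk _) hmk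
  let actT : T →+* Matrix (Fin d) (Fin d) P := Ideal.Quotient.lift _ act fun a ha => by
    obtain ⟨c, rfl⟩ := Ideal.mem_span_singleton'.1 ha
    rw [map_mul, hgact, mul_zero]
  have hactT : ∀ x : R, actT (Ideal.Quotient.mk _ x) = act x := fun x => rfl
  let ι : P →+* T := (Ideal.Quotient.mk _).comp (baseHom O r).toRingHom
  let : Algebra P T := ι.toAlgebra
  let xT : Fin r → T := fun i => Ideal.Quotient.mk _ (xl i)
  let uT : Fin r → T := fun i => Ideal.Quotient.mk _ (ul i)
  let cT : T := Ideal.Quotient.mk _ (MvPowerSeries.C ϖ)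
  let t : T := Ideal.Quotient.mk _ (MvPowerSeries.X (Fin.last r))
  have hmapι : (maximalIdeal P).map ι = (xIdeal O r).map (Ideal.Quotient.mk (Ideal.span {g})) :=
    (Ideal.map_map (baseHom O r).toRingHom (Ideal.Quotient.mk (Ideal.span {g}))).symm
  have hJT : ∀ z ∈ xIdeal O r, Ideal.Quotient.mk _ z ∈ (maximalIdeal P).map ι := fun z hz => by
    rw [hmapι]
    exact Ideal.mem_map_of_mem _ hz
  have hcw : cT ∈ (maximalIdeal P).map ι := by
    have h1 : (MvPowerSeries.C ϖ : P) ∈ maximalIdeal P := by
      rw [DefRing.mem_maximalIdeal_iff_constantCoeff, MvPowerSeries.constantCoeff_C]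
      exact hϖ.not_isUnit
    have h2 := Ideal.mem_map_of_mem ι h1
    rwa [show ι (MvPowerSeries.C ϖ) = cT from
      congrArg (Ideal.Quotient.mk _) (MvPowerSeries.rename_C (R := O) (Fin.castSucc (n := r)) ϖ)]
      at h2
  have hJmax : (maximalIdeal P).map ι ≤ maximalIdeal T := by
    rw [hmapι, ← IsLocalRing.map_maximalIdeal_of_surjective _ hmk]
    exact Ideal.map_mono xIdeal_le
  -- the double cover is generated by `1, t`
  have : IsHausdorff (maximalIdeal P) T := ⟨fun x hx => by
    refine IsHausdorff.haus (I := maximalIdeal T) inferInstance x fun k => ?_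
    have h1 := hx k
    rw [SModEq.zero, Ideal.smul_top_eq_map, Submodule.restrictScalars_mem, Ideal.map_pow] at h1
    rw [SModEq.zero, smul_eq_mul, Ideal.mul_top]
    exact Ideal.pow_right_mono hJmax k h1⟩
  have := isPrecomplete_pi (maximalIdeal P) (ι := Fin 2)
  let oneT : (Fin 2 → P) →ₗ[P] T := Fintype.linearCombination P ![1, t]
  have honeT : ∀ c : Fin 2 → P, oneT c = ι (c 0) + ι (c 1) * t := fun c => by
    simp only [oneT, Fintype.linearCombination_apply, Fin.sum_univ_two, Algebra.smul_def,
      Matrix.cons_val_zero, Matrix.cons_val_one, mul_one]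
    rfl
  have honeT : Function.Surjective oneT := by
    refine surjective_of_mkQ_comp_surjective (I := maximalIdeal P) fun q => ?_
    obtain ⟨x, rfl⟩ := Submodule.mkQ_surjective _ q
    obtain ⟨y, rfl⟩ := hmk x
    have hdec : ∀ z : R, ∃ o : O, ∃ s, z - MvPowerSeries.C o -
        s * MvPowerSeries.X (Fin.last r) ∈ xIdeal O r := fun z => by
      have h1 : z - MvPowerSeries.C (MvPowerSeries.constantCoeff z) ∈ maximalIdeal R := by
        rw [DefRing.mem_maximalIdeal_iff_constantCoeff, map_sub, MvPowerSeries.constantCoeff_C,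
          sub_self]
        exact not_isUnit_zero
      obtain ⟨w, hw, u, hu, hwu⟩ := Submodule.mem_sup.1 (maximalIdeal_le_sup h1)
      obtain ⟨s, rfl⟩ := Ideal.mem_span_singleton'.1 hu
      exact ⟨_, s, by rwa [← hwu, add_sub_cancel_right]⟩
    obtain ⟨o, s, hs⟩ := hdec y
    obtain ⟨o', s', hs'⟩ := hdec s
    refine ⟨![MvPowerSeries.C o, MvPowerSeries.C o'], ?_⟩
    rw [LinearMap.comp_apply, Submodule.mkQ_apply, Submodule.mkQ_apply, Submodule.Quotient.eq,
      Ideal.smul_top_eq_map, Submodule.restrictScalars_mem]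
    have hιC : ∀ c : O, ι (MvPowerSeries.C c) = Ideal.Quotient.mk _ (MvPowerSeries.C c) :=
      fun c => congrArg (Ideal.Quotient.mk _) (MvPowerSeries.rename_C (R := O) (Fin.castSucc (n := r)) c)
    have hz : MvPowerSeries.C o + MvPowerSeries.C o' * MvPowerSeries.X (Fin.last r) - y -
        (-s') * g ∈ xIdeal O r := by
      have := add_mem (add_mem hs (Ideal.mul_mem_right (MvPowerSeries.X (Fin.last r)) _ hs'))
        (Ideal.mul_mem_left _ (-s') hg)
      have h3 := neg_mem this
      convert h3 using 1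
      ring
    have := hJT _ hz
    rw [map_sub, map_sub, map_add, map_mul, map_mul, Ideal.Quotient.eq_zero_iff_mem.2
      (Ideal.mem_span_singleton_self g), mul_zero, sub_zero] at this
    rw [honeT]
    simp only [Matrix.cons_val_zero, Matrix.cons_val_one, hιC]
    exact this
  have : Module.Finite P T := Module.Finite.of_surjective oneT honeT
  -- the patched module
  let M := ActedOn actT
  let : Module P M := Module.compHom M ι
  have : IsScalarTower P T M := IsScalarTower.of_algebraMap_smul fun p m => rfl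
  have hCT : actT cT = (MvPowerSeries.C ϖ : P) • (1 : Matrix (Fin d) (Fin d) P) := hC ϖ
  have hxlT : ∀ i, actT (uT i * xT i * xT i) =
      (U i * MvPowerSeries.X i * MvPowerSeries.X i) • (1 : Matrix (Fin d) (Fin d) P) := fun i => by
    simp only [uT, xT, ← map_mul]
    exact hxl i
  have : Module.Finite P (ActedOn (actT.comp ι)) :=
    finite_of_lifts actT ϖ hϖ cT hCT xT uT U hU hxlT ι hcw fun i => hJT _ (hxJ i)
  let eM : ActedOn (actT.comp ι) ≃ₗ[P] M :=
    { AddEquiv.refl (Fin d → P) with map_smul' := fun p v => rfl }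
  have : Module.Finite P M := Module.Finite.equiv eM
  have : Module.Finite T M := Module.Finite.of_restrictScalars_finite P T M
  have : Nontrivial M := inferInstanceAs (Nontrivial (Fin d → P))
  have hcwm : cT ∈ maximalIdeal T := hJmax hcw
  have hxTm : ∀ i, xT i ∈ maximalIdeal T := fun i => hJmax (hJT _ (hxJ i))
  obtain ⟨hreg, hcard⟩ := regular_lifts actT ϖ hϖ cT hcwm hCT xT uT U hxTm
    (fun i => (hul i).map _) hU hxlT
  have hmem : ∀ x ∈ List.ofFn xT ++ [cT], x ∈ maximalIdeal T := by
    intro x hx
    simp only [List.mem_append, List.mem_ofFn, List.mem_singleton] at hx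
    rcases hx with ⟨i, rfl⟩ | rfl
    exacts [hxTm i, hcwm]
  have : Module.Free P M := free_of_isRegular_extension (Patching.params O r ϖ)
    (Patching.isRegular_params O r ϖ hϖ) (Patching.ofList_params_eq_maximalIdeal O r ϖ hϖ)
    (List.ofFn xT ++ [cT]) (IsRegular.of_isWeaklyRegular_of_mem_maximalIdeal M hmem hreg) hmem
    (by simp [Patching.params])
  -- the map to the base
  let πT : T →+* R₀ := Ideal.Quotient.lift _ π.toRingHom fun a ha => by
    obtain ⟨c, rfl⟩ := Ideal.mem_span_singleton'.1 ha
    show π (c * g) = 0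
    rw [map_mul, hg0, mul_zero]
  have hπT : Function.Surjective πT := fun z => by
    obtain ⟨x, rfl⟩ := hπ z
    exact ⟨Ideal.Quotient.mk _ x, rfl⟩
  let G : M →+ M₀ :=
    AddMonoidHom.mk' (fun v => ∑ i, MvPowerSeries.constantCoeff (v.vec i) • b i) fun v w => by
      rw [← Finset.sum_add_distrib]
      refine Finset.sum_congr rfl fun i _ => ?_
      rw [← add_smul, ← map_add]; rfl
  have hG : ∀ v : M, G v = ∑ i, MvPowerSeries.constantCoeff (v.vec i) • b i := fun v => rfl
  have hbaseT : ∀ (x : T) j, ∑ i, MvPowerSeries.constantCoeff (actT x i j) • b i =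
      πT x • b j := fun x j => by
    obtain ⟨y, rfl⟩ := hmk x
    exact hbase y j
  have hGs : ∀ (p : T) (v : M), G (p • v) = πT p • G v := fun p v => by
    rw [hG, hG, ActedOn.smul_vec, Finset.smul_sum]
    simp only [Matrix.mulVec, dotProduct, map_sum, map_mul, Finset.sum_smul]
    rw [Finset.sum_comm]
    refine Finset.sum_congr rfl fun j _ => ?_
    rw [smul_comm (πT p), ← hbaseT, Finset.smul_sum]
    exact Finset.sum_congr rfl fun i _ => by rw [mul_comm, mul_smul]
  have hGsurj : Function.Surjective G := fun m =>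
    ⟨ActedOn.mk actT fun i => MvPowerSeries.C (b.repr m i), by
      rw [hG]; simp [ActedOn.vec, ActedOn.mk]⟩
  have hxT0 : ∀ i, πT (xT i) = 0 := hxl0
  have hker := ker_base_le actT ϖ hϖ cT hcwm hCT xT b πT hxT0 G hG hGs hcard
  -- two generators
  obtain ⟨m, hm⟩ := hgen
  choose v hv using fun j => hGsurj (m j)
  have hvspan : Submodule.span T (Set.range v) = ⊤ := by
    refine top_le_iff.1 (Submodule.le_of_le_smul_of_le_jacobson_bot (I := maximalIdeal T)
      (Module.Finite.fg_top) (by rw [IsLocalRing.jacobson_eq_maximalIdeal _ bot_ne_top]) ?_)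
    intro w _
    have h1 : G w ∈ Submodule.span R₀ (Set.range m) ⊔ maximalIdeal R₀ • ⊤ := by
      rw [hm]; trivial
    obtain ⟨a, ha, c, hc, hac⟩ := Submodule.mem_sup.1 h1
    have ha' : ∃ w₁ ∈ Submodule.span T (Set.range v), G w₁ = a := by
      clear hac
      induction ha using Submodule.span_induction with
      | mem x hx =>
        obtain ⟨j, rfl⟩ := hx
        exact ⟨v j, Submodule.subset_span ⟨j, rfl⟩, hv j⟩
      | zero => exact ⟨0, zero_mem _, map_zero G⟩
      | add x y _ _ hx hy =>
        obtain ⟨x', hx', rfl⟩ := hx; obtain ⟨y', hy', rfl⟩ := hy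
        exact ⟨x' + y', add_mem hx' hy', map_add G _ _⟩
      | smul c x _ hx =>
        obtain ⟨x', hx', rfl⟩ := hx
        obtain ⟨c', rfl⟩ := hπT c
        exact ⟨c' • x', Submodule.smul_mem _ _ hx', hGs _ _⟩
    have hc' : ∃ w₂ ∈ maximalIdeal T • (⊤ : Submodule T M), G w₂ = c := by
      clear hac
      induction hc using Submodule.smul_induction_on' with
      | smul p hp x _ =>
        obtain ⟨p', rfl⟩ := hπT p
        obtain ⟨x', rfl⟩ := hGsurj x
        refine ⟨p' • x', Submodule.smul_mem_smul ?_ Submodule.mem_top, hGs _ _⟩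
        intro hu
        exact (mem_maximalIdeal _).1 hp (hu.map πT)
      | add x _ y _ hx hy =>
        obtain ⟨x', hx', rfl⟩ := hx; obtain ⟨y', hy', rfl⟩ := hy
        exact ⟨x' + y', add_mem hx' hy', map_add G _ _⟩
    obtain ⟨w₁, hw₁, rfl⟩ := ha'
    obtain ⟨w₂, hw₂, rfl⟩ := hc'
    have h2 : G (w - w₁ - w₂) = 0 := by rw [map_sub, map_sub, ← hac]; abel
    have h3 : w - w₁ - w₂ ∈ maximalIdeal T • (⊤ : Submodule T M) :=
      Submodule.smul_mono_left (Ideal.span_le.2 (Set.range_subset_iff.2 hxTm)) (hker _ h2)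
    rw [show w = w₁ + (w₂ + (w - w₁ - w₂)) by abel]
    exact Submodule.mem_sup.2 ⟨w₁, hw₁, _, add_mem hw₂ h3, rfl⟩
  -- the rank
  let f₁ : (Fin 2 → T) →ₗ[T] M := Fintype.linearCombination T v
  have hf₁ : Function.Surjective f₁ := LinearMap.range_eq_top.1 <| by
    rw [Fintype.range_linearCombination]; exact hvspan
  let f₄ : (Fin 2 → Fin 2 → P) →ₗ[P] M :=
    f₁.restrictScalars P ∘ₗ oneT.compLeft (Fin 2)
  have hf₄ : Function.Surjective f₄ := hf₁.comp fun c => by
    choose c' hc' using fun j => honeT (c j)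
    exact ⟨c', funext hc'⟩
  let n := Module.finrank P M
  have hle : n ≤ 4 := by
    have h := LinearMap.finrank_le_finrank_of_surjective (f := f₄) hf₄
    rwa [Module.finrank_pi_fintype, Fin.sum_univ_two, Module.finrank_fin_fun] at h
  have hge : 4 ≤ n := by
    have hk1 : 1 < Nat.card (ResidueField O) := Finite.one_lt_card
    rw [← Nat.pow_le_pow_iff_right hk1]
    refine hdim.trans ?_
    let β := Module.finBasis P M
    let K := (xIdeal O r).map π • (⊤ : Submodule R₀ M₀)
    let h : (Fin n → ResidueField P) → M₀ ⧸ K := fun c =>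
      Submodule.Quotient.mk (G (∑ i, Function.surjInv residue_surjective (c i) • β i))
    have hh : Function.Surjective h := by
      intro q
      obtain ⟨y, rfl⟩ := Submodule.mkQ_surjective _ q
      obtain ⟨w, rfl⟩ := hGsurj y
      refine ⟨fun i => residue P (β.repr w i), ?_⟩
      rw [Submodule.mkQ_apply]
      simp only [h]
      rw [Submodule.Quotient.eq, ← map_sub]
      nth_rw 2 [← β.sum_repr w]
      rw [← Finset.sum_sub_distrib, map_sum]
      refine sum_mem fun i _ => ?_
      rw [← sub_smul, ← IsScalarTower.algebraMap_smul T, hGs]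
      refine Submodule.smul_mem_smul ?_ Submodule.mem_top
      show π (baseHom O r _) ∈ _
      refine Ideal.mem_map_of_mem _ (Ideal.mem_map_of_mem _ ?_)
      rw [← residue_eq_zero_iff, map_sub, Function.surjInv_eq residue_surjective, sub_self]
    calc Nat.card (M₀ ⧸ K) ≤ Nat.card (Fin n → ResidueField P) := Nat.card_le_card_of_surjective h hh
      _ = Nat.card (ResidueField O) ^ n := by
        rw [Nat.card_fun, Nat.card_fin, card_residueField_mvPowerSeries]
  have hf₄i : Function.Injective f₄ := by
    have h4 : Module.finrank P (Fin 2 → Fin 2 → P) = 4 := by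
      rw [Module.finrank_pi_fintype, Fin.sum_univ_two, Module.finrank_fin_fun]
    let eF : M ≃ₗ[P] (Fin 2 → Fin 2 → P) :=
      LinearEquiv.ofFinrankEq M _ (h4.symm ▸ le_antisymm hle hge)
    have h := OrzechProperty.injective_of_surjective_endomorphism (eF.toLinearMap ∘ₗ f₄)
      (eF.surjective.comp hf₄)
    exact fun x y hxy => h (congrArg eF hxy)
  have hf₁i : Function.Injective f₁ := fun x y hxy => by
    choose x' hx' using fun j => honeT (x j)
    choose y' hy' using fun j => honeT (y j)
    have : x' = y' := hf₄i (by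
      show f₁ (fun j => oneT (x' j)) = f₁ (fun j => oneT (y' j))
      simp only [hx', hy']
      exact hxy)
    funext j
    rw [← hx' j, ← hy' j, this]
  let β₂ : Module.Basis (Fin 2) T M :=
    Module.Basis.ofEquivFun (LinearEquiv.ofBijective f₁ ⟨hf₁i, hf₁⟩).symm
  -- the kernel of `π`
  let J : Ideal T := Ideal.span (Set.range xT)
  have hJiff : ∀ w ∈ J • (⊤ : Submodule T M), ∀ i, β₂.repr w i ∈ J := by
    intro w hw
    refine Submodule.smul_induction_on hw (fun x hx w _ => ?_) (fun x y hx hy => ?_)
    · intro i; simp only [map_smul, Finsupp.smul_apply]; exact J.mul_mem_right _ hx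
    · intro i; rw [map_add, Finsupp.add_apply]; exact add_mem (hx i) (hy i)
  have hann : ∀ x : T, (∀ y : M₀, πT x • y = 0) → x ∈ J := fun x hx => by
    have h1 := hJiff _ (hker _ ((hGs x (β₂ 0)).trans (hx _))) 0
    simpa using h1
  have hJker : ∀ x ∈ J, πT x = 0 := fun x hx => RingHom.mem_ker.1
    ((Ideal.span_le.2 (Set.range_subset_iff.2 fun i => RingHom.mem_ker.2 (hxT0 i))) hx)
  have hfaith : ∀ x : R₀, (∀ y : M₀, x • y = 0) → x = 0 := fun x hx => by
    obtain ⟨y, rfl⟩ := hπT x
    exact hJker y (hann y hx)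
  have hkerπ : RingHom.ker π = Ideal.span (Set.range (Fin.snoc xl g : Fin (r + 1) → R)) := by
    have hrange : Set.range (Fin.snoc xl g : Fin (r + 1) → R) = Set.range xl ∪ {g} := by
      rw [Fin.range_snoc, Set.union_comm, Set.singleton_union]
    refine le_antisymm (fun x hx => ?_) (Ideal.span_le.2 ?_)
    · have h1 : Ideal.Quotient.mk _ x ∈ J := hann _ fun y => by
        show π x • y = 0
        rw [RingHom.mem_ker.1 hx, zero_smul]
      rw [show J = (Ideal.span (Set.range xl)).map (Ideal.Quotient.mk (Ideal.span {g})) by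
        rw [Ideal.map_span, ← Set.range_comp]; rfl, Ideal.mem_quotient_iff_mem_sup] at h1
      rw [hrange, Ideal.span_union]
      exact h1
    · rw [hrange]
      rintro x (⟨i, rfl⟩ | rfl)
      exacts [RingHom.mem_ker.2 (hxl0 i), RingHom.mem_ker.2 hg0]
  have hli : LinearIndependent R₀ fun j : Fin 2 => G (β₂ j) := by
    rw [Fintype.linearIndependent_iff]
    intro c hc i
    choose c' hc' using fun i => hπT (c i)
    have h1 := hJiff _ (hker (∑ i, c' i • β₂ i) (by
      simp only [map_sum, hGs, hc']; exact hc)) i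
    rw [β₂.repr_sum_self] at h1
    rw [← hc' i]
    exact hJker _ h1
  have hsp : ⊤ ≤ Submodule.span R₀ (Set.range fun j : Fin 2 => G (β₂ j)) := by
    intro y _
    obtain ⟨w, rfl⟩ := hGsurj y
    rw [← β₂.sum_repr w, map_sum]
    exact sum_mem fun i _ => by
      rw [hGs]; exact Submodule.smul_mem _ _ (Submodule.subset_span ⟨i, rfl⟩)
  let β₀ : Module.Basis (Fin 2) R₀ M₀ := Module.Basis.mk hli hsp
  let incl : R₀ →ₗ[O] M₀ := (LinearMap.toSpanSingleton R₀ M₀ (β₀ 0)).restrictScalars O
  have hincl : Function.Injective incl := by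
    intro x y hxy
    simpa [incl] using congrArg (fun m => β₀.repr m 0) hxy
  have : Module.Finite O M₀ := Module.Finite.of_basis b
  have : Module.Free O M₀ := Module.Free.of_basis b
  have : Module.Finite O R₀ := Module.Finite.of_injective incl hincl
  have : Module.IsTorsionFree O R₀ := hincl.moduleIsTorsionFree incl (map_smul incl)
  exact ⟨⟨inferInstance, inferInstance, r + 1, _, π, hπ, hkerπ⟩, ⟨β₀⟩, hfaith⟩

end Conclusion

section System

omit [IsAdicComplete (maximalIdeal O) O] in
/-- A limit of elements of an ideal lies in it. -/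
theorem ulim_mem {Λ : Type} [CommRing Λ] [IsLocalRing Λ] [IsNoetherianRing Λ]
    [Finite (ResidueField Λ)] [IsAdicComplete (maximalIdeal Λ) Λ] (J : Ideal Λ) {f : ℕ → Λ}
    (hf : ∀ n, f n ∈ J) : Patch.ulim f ∈ J := by
  obtain ⟨k, v, hv⟩ := Submodule.fg_iff_exists_fin_generating_family.1 (IsNoetherian.noetherian J)
  choose c hc using fun n => (Submodule.mem_span_range_iff_exists_fun Λ).1 (hv.symm ▸ hf n)
  rw [show f = fun n => ∑ i, c n i * v i from funext fun n => (hc n).symm, Patch.ulim_sum]
  refine sum_mem fun i _ => ?_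
  rw [Patch.ulim_mul, Patch.ulim_const]
  exact Ideal.mul_mem_left _ _ (hv ▸ Submodule.subset_span ⟨i, rfl⟩)

omit [IsAdicComplete (maximalIdeal O) O] [Finite (ResidueField O)] in
/-- Being killed by `π` passes to the limit, for any number of variables. -/
theorem map_ulim_eq_zero' {r : ℕ} [IsAdicComplete (maximalIdeal (MvPowerSeries (Fin r) O))
      (MvPowerSeries (Fin r) O)] [Finite (ResidueField (MvPowerSeries (Fin r) O))]
    {R₀ : Type} [CommRing R₀] [Algebra O R₀] (π : MvPowerSeries (Fin r) O →ₐ[O] R₀)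
    {x : ℕ → MvPowerSeries (Fin r) O} (hx : ∀ n, π (x n) = 0) : π (Patch.ulim x) = 0 :=
  ulim_mem (RingHom.ker π) hx

omit [IsAdicComplete (maximalIdeal O) O] [Finite (ResidueField O)] in
/-- Compatibility of the limit action with the base. -/
theorem limitAction_base' {R : Type} [CommRing R] [IsLocalRing R] [IsNoetherianRing R]
    [Finite (ResidueField R)] [IsAdicComplete (maximalIdeal R) R] {R₀ : Type} [CommRing R₀]
    {r d : ℕ} [IsAdicComplete (maximalIdeal (MvPowerSeries (Fin r) O)) (MvPowerSeries (Fin r) O)]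
    [Finite (ResidueField (MvPowerSeries (Fin r) O))] (π : R → R₀) {I : ℕ → Ideal (MvPowerSeries (Fin r) O)}
    {M : ℕ → Type} [∀ n, AddCommGroup (M n)] [∀ n, Module (MvPowerSeries (Fin r) O) (M n)]
    {e : ∀ n, Fin d → M n} (he : ∀ n, Patch.IsModBasis (I n) (e n))
    (ρ : ∀ n, R →+* Module.End (MvPowerSeries (Fin r) O) (M n))
    (hI : Patch.TendsToZero I) {M₀ : Type} [AddCommGroup M₀] [Module R₀ M₀] [Module O M₀]
    (b : Module.Basis (Fin d) O M₀) (g : ∀ n, M n →+ M₀)
    (hgO : ∀ n (l : MvPowerSeries (Fin r) O) (m : M n),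
      g n (l • m) = MvPowerSeries.constantCoeff l • g n m)
    (hgR : ∀ n x (m : M n), g n (ρ n x m) = π x • g n m) (hge : ∀ n j, g n (e n j) = b j) :
    ∀ x j, ∑ i, MvPowerSeries.constantCoeff (limitAction he ρ hI x i j) • b i = π x • b j := by
  classical
  set P := MvPowerSeries (Fin r) O with hP
  set act := limitAction he ρ hI with hact
  intro x j
  have hn : ∀ n i, MvPowerSeries.constantCoeff (levelMatrix he ρ n x i j) =
      b.repr (π x • b j) i := fun n i => by
    rw [← hge n j, ← hgR, ← levelMatrix_spec he ρ n x j, map_sum]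
    simp [hgO, hge, Finsupp.single_apply]
  have hlim : ∀ i, MvPowerSeries.constantCoeff (act x i j) = b.repr (π x • b j) i := fun i => by
    rw [← sub_eq_zero]
    refine IsHausdorff.haus (I := maximalIdeal O) inferInstance _ fun k => ?_
    rw [SModEq.zero, smul_eq_mul, Ideal.mul_top]
    obtain ⟨n, hn'⟩ :=
      (Patch.ulim_spec (fun n => levelMatrix he ρ n x i j) k).exists
    have h1 : MvPowerSeries.constantCoeff (levelMatrix he ρ n x i j -
        Patch.ulim fun n => levelMatrix he ρ n x i j) ∈ maximalIdeal O ^ k := by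
      refine (show (maximalIdeal P ^ k).map MvPowerSeries.constantCoeff ≤ maximalIdeal O ^ k by
        rw [Ideal.map_pow]
        exact Ideal.pow_right_mono (Ideal.map_le_iff_le_comap.2 fun y hy =>
          Ideal.mem_comap.2 ((DefRing.mem_maximalIdeal_iff_constantCoeff (O := O) y).1 hy)) k)
        (Ideal.mem_map_of_mem _ hn')
    rw [map_sub, hn] at h1
    have h2 := neg_mem h1
    rwa [neg_sub] at h2
  simp only [hlim]
  exact b.sum_repr _

/-- **Patching on a double cover, from traces of tame inertia.** -/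
theorem free_rank_two_of_double_system {r d : ℕ} [NeZero d] {R₀ : Type} [CommRing R₀]
    [IsLocalRing R₀] [Algebra O R₀] (π : MvPowerSeries (Fin (r + 1)) O →ₐ[O] R₀)
    (hπ : Function.Surjective π)
    (I : ℕ → Ideal (MvPowerSeries (Fin r) O)) (hI : Patch.TendsToZero I)
    (M : ℕ → Type) [∀ n, AddCommGroup (M n)] [∀ n, Module (MvPowerSeries (Fin r) O) (M n)]
    (ρ : ∀ n, MvPowerSeries (Fin (r + 1)) O →+* Module.End (MvPowerSeries (Fin r) O) (M n))
    (e : ∀ n, Fin d → M n) (he : ∀ n, Patch.IsModBasis (I n) (e n))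
    (hC : ∀ n (o : O), ρ n (MvPowerSeries.C o) = (MvPowerSeries.C o : MvPowerSeries (Fin r) O) •
      (1 : Module.End (MvPowerSeries (Fin r) O) (M n)))
    (hker : ∀ n (i : Fin r), ∃ x, x ∈ xIdeal O r ∧ π x = 0 ∧
      ρ n ((1 + x) + Ring.inverse (1 + x)) =
        ((1 + MvPowerSeries.X i) + Ring.inverse (1 + MvPowerSeries.X i) :
          MvPowerSeries (Fin r) O) • (1 : Module.End (MvPowerSeries (Fin r) O) (M n)))
    (hcover : ∀ n, ∃ g, g - MvPowerSeries.X (Fin.last r) ^ 2 ∈ xIdeal O r ∧ π g = 0 ∧ ρ n g = 0)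
    {M₀ : Type} [AddCommGroup M₀] [Module R₀ M₀] [Module O M₀] [IsScalarTower O R₀ M₀]
    (b : Module.Basis (Fin d) O M₀) (g : ∀ n, M n →+ M₀)
    (hgO : ∀ n (l : MvPowerSeries (Fin r) O) (m : M n),
      g n (l • m) = MvPowerSeries.constantCoeff l • g n m)
    (hgR : ∀ n x (m : M n), g n (ρ n x m) = π x • g n m) (hge : ∀ n j, g n (e n j) = b j)
    (hgen : ∃ m : Fin 2 → M₀,
      Submodule.span R₀ (Set.range m) ⊔ maximalIdeal R₀ • (⊤ : Submodule R₀ M₀) = ⊤)
    (hdim : Nat.card (ResidueField O) ^ 4 ≤
      Nat.card (M₀ ⧸ (xIdeal O r).map π • (⊤ : Submodule R₀ M₀))) :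
    IsFiniteCI O R₀ ∧ Nonempty (Module.Basis (Fin 2) R₀ M₀) ∧
      ∀ x : R₀, (∀ m : M₀, x • m = 0) → x = 0 := by
  classical
  have := finite_residueField_mvPowerSeries (O := O) r
  have := finite_residueField_mvPowerSeries (O := O) (r + 1)
  have : IsAdicComplete (maximalIdeal (MvPowerSeries (Fin r) O)) (MvPowerSeries (Fin r) O) :=
    DefRing.isAdicComplete_mvPowerSeries
  have : IsAdicComplete (maximalIdeal (MvPowerSeries (Fin (r + 1)) O))
      (MvPowerSeries (Fin (r + 1)) O) := DefRing.isAdicComplete_mvPowerSeries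
  let act := limitAction he ρ hI
  have hscal : ∀ (x : ℕ → MvPowerSeries (Fin (r + 1)) O) (l : MvPowerSeries (Fin r) O),
      (∀ n, ρ n (x n) = l • (1 : Module.End (MvPowerSeries (Fin r) O) (M n))) →
      act (Patch.ulim x) =
        l • (1 : Matrix (Fin d) (Fin d) (MvPowerSeries (Fin r) O)) := by
    intro x l hx
    rw [limitAction_ulim,
      ← Patch.ulimMat_const (l • (1 : Matrix (Fin d) (Fin d) (MvPowerSeries (Fin r) O)))]
    exact Patch.ulimMat_congr hI fun n => levelMatrix_unique he ρ fun j => by
      simp [Matrix.smul_apply, Matrix.one_apply, ite_smul, hx]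
  have hCact : ∀ o : O, act (MvPowerSeries.C o) = (MvPowerSeries.C o : MvPowerSeries (Fin r) O) •
      (1 : Matrix (Fin d) (Fin d) (MvPowerSeries (Fin r) O)) := fun o => by
    rw [← Patch.ulim_const (MvPowerSeries.C o : MvPowerSeries (Fin (r + 1)) O)]
    exact hscal _ _ fun n => hC n o
  choose x hxJ hx0 hx using hker
  let xl : Fin r → MvPowerSeries (Fin (r + 1)) O := fun i => Patch.ulim fun n => x n i
  have hxlJ : ∀ i, xl i ∈ xIdeal O r := fun i => ulim_mem _ fun n => hxJ n i
  have hxl0 : ∀ i, π (xl i) = 0 := fun i => map_ulim_eq_zero' π fun n => hx0 n i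
  have hunit : ∀ y : MvPowerSeries (Fin (r + 1)) O, π y = 0 → IsUnit (1 + y) := fun y hy => by
    rw [← sub_neg_eq_add]
    exact IsLocalRing.isUnit_one_sub_self_of_mem_nonunits _
      fun hu => not_isUnit_zero (M₀ := R₀) (by simpa [hy] using hu.map π)
  have hXunit : ∀ i : Fin r, IsUnit (1 + MvPowerSeries.X i : MvPowerSeries (Fin r) O) := fun i => by
    rw [MvPowerSeries.isUnit_iff_constantCoeff]; simp
  let ul : Fin r → MvPowerSeries (Fin (r + 1)) O := fun i => Ring.inverse (1 + xl i)
  let U : Fin r → MvPowerSeries (Fin r) O := fun i => Ring.inverse (1 + MvPowerSeries.X i)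
  have hul : ∀ i, IsUnit (ul i) := fun i => (hunit _ (hxl0 i)).ringInverse
  have hU : ∀ i, IsUnit (U i) := fun i => (hXunit i).ringInverse
  have hxl : ∀ i, act (ul i * xl i * xl i) = (U i * MvPowerSeries.X i * MvPowerSeries.X i) •
      (1 : Matrix (Fin d) (Fin d) (MvPowerSeries (Fin r) O)) := by
    intro i
    have hinv : (Patch.ulim fun n => Ring.inverse (1 + x n i)) = Ring.inverse (1 + xl i) := by
      refine (hunit _ (hxl0 i)).mul_left_injective ?_
      dsimp only
      rw [Ring.inverse_mul_cancel _ (hunit _ (hxl0 i)),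
        show 1 + xl i = Patch.ulim fun n => 1 + x n i by rw [Patch.ulim_add, Patch.ulim_const],
        ← Patch.ulim_mul]
      simp only [fun n => Ring.inverse_mul_cancel _ (hunit _ (hx0 n i)), Patch.ulim_const]
    have h := hscal _ _ fun n => hx n i
    rw [Patch.ulim_add, Patch.ulim_add, Patch.ulim_const, hinv] at h
    rw [← add_inverse_sub_two (hunit _ (hxl0 i)), ← add_inverse_sub_two (hXunit i), map_sub, h,
      map_ofNat, sub_smul]
    congr 1
    rw [show (2 : MvPowerSeries (Fin r) O) = 1 + 1 from one_add_one_eq_two.symm, add_smul, one_smul,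
      one_add_one_eq_two]
  choose q hq hq0 hqρ using hcover
  have hgJ : Patch.ulim q - MvPowerSeries.X (Fin.last r) ^ 2 ∈ xIdeal O r := by
    have h := ulim_mem (xIdeal O r) hq
    rw [show (fun n => q n - MvPowerSeries.X (Fin.last r) ^ 2) =
      fun n => q n + -(MvPowerSeries.X (Fin.last r) ^ 2) from funext fun n => sub_eq_add_neg _ _,
      Patch.ulim_add, Patch.ulim_const, ← sub_eq_add_neg] at h
    exact h
  have hgact : act (Patch.ulim q) = 0 := by
    rw [hscal q 0 fun n => by rw [hqρ n, zero_smul], zero_smul]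
  exact conclusion_of_double π act hπ hCact xl ul U hxlJ hxl0 hul hU hxl _ hgJ hgact
    (map_ulim_eq_zero' π hq0) b
    (limitAction_base' π he ρ hI b g hgO hgR hge) hgen hdim

end System

end Fermat.Agent.TwoAdic
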