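import Fermat.Agent.TwoAdic.Patching
import Fermat.Agent.TwoAdic.Halving
import Mathlib.RingTheory.AdicCompletion.Functoriality

/-!
# Auxiliary facts for patching from traces of tame inertia

Completeness of finite products, continuity of a limit action, and the identity turning the trace
of a generator of tame inertia into a square.
-/

set_option autoImplicit false

open IsLocalRing Filter Pointwise

namespace Fermat.Agent.TwoAdic

section Precomplete

variable {P : Type} [CommRing P] (I : Ideal P) {ι : Type} [Finite ι]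

theorem mem_smul_top_pi {v : ι → P} :
    v ∈ I • (⊤ : Submodule P (ι → P)) ↔ ∀ i, v i ∈ I := by
  classical
  have := Fintype.ofFinite ι
  constructor
  · intro hv i
    induction hv using Submodule.smul_induction_on' with
    | smul a ha w _ => rw [Pi.smul_apply, smul_eq_mul]; exact I.mul_mem_right _ ha
    | add x _ y _ hx hy => rw [Pi.add_apply]; exact add_mem hx hy
  · intro h
    rw [pi_eq_sum_univ' v]
    exact sum_mem fun i _ => Submodule.smul_mem_smul (h i) Submodule.mem_top

theorem isPrecomplete_pi [IsPrecomplete I P] : IsPrecomplete I (ι → P) := by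
  refine ⟨fun f hf => ?_⟩
  have key : ∀ i, ∃ L, ∀ n, f n i ≡ L [SMOD (I ^ n • ⊤ : Submodule P P)] := fun i => by
    refine IsPrecomplete.prec inferInstance fun {m n} hmn => ?_
    have h1 := hf hmn
    rw [SModEq.sub_mem, mem_smul_top_pi] at h1
    rw [SModEq.sub_mem, smul_eq_mul, Ideal.mul_top]
    exact h1 i
  choose L hL using key
  refine ⟨L, fun n => ?_⟩
  rw [SModEq.sub_mem, mem_smul_top_pi]
  intro i
  have h1 := hL i n
  rw [SModEq.sub_mem, smul_eq_mul, Ideal.mul_top] at h1
  exact h1

end Precomplete

variable {O : Type} [CommRing O] [IsDomain O] [IsDiscreteValuationRing O]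
  [IsAdicComplete (maximalIdeal O) O] [Finite (ResidueField O)]

section Quadratic

variable {r d : ℕ}
  (act : MvPowerSeries (Fin r) O →+* Matrix (Fin d) (Fin d) (MvPowerSeries (Fin r) O))

omit [IsAdicComplete (maximalIdeal O) O] in
/-- The limit action is continuous. -/
theorem isHausdorff_actedOn :
    IsHausdorff (maximalIdeal (MvPowerSeries (Fin r) O)) (ActedOn act) := by
  classical
  have := finite_residueField_mvPowerSeries (O := O) r
  refine ⟨fun v hv => ?_⟩
  show v.vec = 0
  refine funext fun i => ?_
  refine IsHausdorff.haus (I := maximalIdeal (MvPowerSeries (Fin r) O)) inferInstance _ fun k => ?_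
  rw [SModEq.zero, smul_eq_mul, Ideal.mul_top]
  have := Patch.finite_quot (Λ := MvPowerSeries (Fin r) O) k
  have : Finite (Matrix (Fin d) (Fin d)
      (MvPowerSeries (Fin r) O ⧸ maximalIdeal (MvPowerSeries (Fin r) O) ^ k)) :=
    Finite.of_equiv _ Matrix.of
  let f := (Ideal.Quotient.mk
    (maximalIdeal (MvPowerSeries (Fin r) O) ^ k)).mapMatrix.comp act
  have key : ∀ p ∈ maximalIdeal (MvPowerSeries (Fin r) O) ^ Nat.card (Set (Matrix (Fin d) (Fin d)
      (MvPowerSeries (Fin r) O ⧸ maximalIdeal (MvPowerSeries (Fin r) O) ^ k))),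
      ∀ i j, act p i j ∈ maximalIdeal (MvPowerSeries (Fin r) O) ^ k := by
    intro p hp i j
    rw [← Ideal.Quotient.eq_zero_iff_mem]
    exact congrFun (congrFun (Patch.map_pow_maximalIdeal_eq_zero f hp) i) j
  have h1 := hv (Nat.card (Set (Matrix (Fin d) (Fin d)
      (MvPowerSeries (Fin r) O ⧸ maximalIdeal (MvPowerSeries (Fin r) O) ^ k))))
  rw [SModEq.zero] at h1
  clear hv
  induction h1 using Submodule.smul_induction_on' with
  | smul p hp w _ =>
    rw [ActedOn.smul_vec]
    simp only [Matrix.mulVec, dotProduct]
    exact sum_mem fun j _ => Ideal.mul_mem_right _ _ (key p hp i j)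
  | add x _ y _ hx hy => exact add_mem hx hy

end Quadratic

/-- The identity behind `(1 + x) + (1 + x)⁻¹ - 2 = x² / (1 + x)`. -/
theorem add_inverse_sub_two {A : Type*} [CommRing A] {x : A} (hx : IsUnit (1 + x)) :
    (1 + x) + Ring.inverse (1 + x) - 2 = Ring.inverse (1 + x) * x * x := by
  have h := Ring.inverse_mul_cancel (1 + x) hx
  linear_combination (1 - x) * h

end Fermat.Agent.TwoAdic
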