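import Fermat.Agent.TwoAdic.TopGen
import Fermat.Agent.TwoAdic.Route.FinalSetting

/-!
# The base setting as a base for the Hecke elements

A final setting has the shape used for the Hecke elements acting on the top new quotient.
-/

set_option autoImplicit false

noncomputable section

open IsLocalRing GaloisRep Fermat.Agent.DefRing Fermat.Agent.Deform
open Fermat.Agent.HeckeModule Fermat.Agent.HeckeJ0 Fermat.Agent.LevelRaising

namespace Fermat.Agent.TwoAdic.TopDown

attribute [local instance] ALSetup.isPrime

variable {O : Type} [CommRing O] [IsDomain O] [IsDiscreteValuationRing O]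
  [IsAdicComplete (maximalIdeal O) O] [CharZero O] [Finite (ResidueField O)]
  [CharP (ResidueField O) 2] {E : LiftData} {res : NormalData O} {Sm R : Finset ℕ} {t : ℕ → O}
  {T : ALSetup O}

set_option linter.unusedSectionVars false in
/-- A final setting has the shape used for the Hecke elements. -/
theorem IsBaseSetting.isBase (H : IsBaseSetting E res Sm R t T) :
    IsBase E res.rbar Sm R (Sm.erase 2 ∪ E.aux) t T where
  dihedral := H.dihedral
  cont := H.cont
  modular := H.modular
  prime := H.corePrimes.prime
  odd := fun _ hq e => H.two_notMem_R (e ▸ hq)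
  prime_dvd := fun q hq hd => (H.corePrimes.fresh q hq).2.1 (hd.mul_left 2)
  core := H.core_eq
  M_eq := H.M_eq
  χ_eq := H.χ_eq
  S_eq := H.S_eq
  two_notMem := fun h => H.two_notMem (by rw [H.S_eq]; exact Finset.mem_coe.mpr h)
  disjoint := Finset.disjoint_left.mpr fun x hx hxR => by
    rcases Finset.mem_union.mp hx with hx | hx
    · exact (H.corePrimes.fresh x hxR).1 (Finset.mem_of_mem_erase hx)
    · exact (H.corePrimes.fresh x hxR).2.2 hx
  D_mem := fun x hx => Finset.mem_union_left _ (Finset.mem_erase.mpr
    ⟨fun e => H.two_notDvd_D (e ▸ Nat.dvd_of_mem_primeFactors hx),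
      H.mem_Sm x (Nat.prime_of_mem_primeFactors hx) (Or.inr (Nat.dvd_of_mem_primeFactors hx))⟩)
  W_mem := H.baseV_subset
  eigen := H.mem_iff

end Fermat.Agent.TwoAdic.TopDown

end
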