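import Mathlib.Algebra.Group.Subgroup.Ker
import Mathlib.Algebra.Group.Subgroup.Basic
import Mathlib.Algebra.Group.Subgroup.Lattice
import Mathlib.Tactic.Abel
import Mathlib.Algebra.Group.Prod
import Mathlib.Data.Finset.Lattice.Fold

/-!
# Injective faces of a cube of levels from its rows

Rows at the primes of a cube of levels make all faces of the cube injective.

At each prime `a` the module of a level has inertia invariants `ker (N a)`, toric part
`range (N a)` and reductions to two copies of the level without `a`.  If these rows are exact and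
functorial in the other faces, the pairs of degeneracy maps are injective on all new quotients,
as soon as no non-zero stable subgroup has the twisted Frobenius `V a` in the commutant.
-/

set_option autoImplicit false

universe uι uE uG

namespace Fermat.Agent.TwoAdic

variable (ι : Type uι) [DecidableEq ι] (W : Finset ι)

/-- Modules of a cube of levels with their rows at every prime. The maps are total; the laws only
concern a level `U ⊆ W` and the levels of its faces. -/
structure RowCube (G : Type uG) (E : Finset ι → Type uE) [∀ U, AddCommGroup (E U)] where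
  /-- the pair of degeneracy maps at a prime -/
  up : ι → ∀ S U : Finset ι, E S × E S →+ E U
  /-- the monodromy at a prime -/
  N : ι → ∀ U : Finset ι, E U →+ E U
  /-- the reductions at a prime, on the invariants -/
  red : ∀ (a : ι) (S U : Finset ι), (N a U).ker →+ E S × E S
  /-- the Galois action -/
  act : G → ∀ U : Finset ι, E U →+ E U
  /-- the twisted Frobenius at a prime, outside its level -/
  V : ι → ∀ S : Finset ι, E S →+ E S
  up_comm : ∀ (U : Finset ι), U ⊆ W → ∀ b ∈ U, ∀ c ∈ U, b ≠ c →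
    ∀ p : E ((U.erase b).erase c) × E ((U.erase b).erase c),
    ∀ q : E ((U.erase b).erase c) × E ((U.erase b).erase c),
      up b (U.erase b) U (up c ((U.erase b).erase c) (U.erase b) p,
          up c ((U.erase b).erase c) (U.erase b) q) =
        up c (U.erase c) U (up b ((U.erase b).erase c) (U.erase c) (p.1, q.1),
          up b ((U.erase b).erase c) (U.erase c) (p.2, q.2))
  N_up : ∀ (U : Finset ι), U ⊆ W → ∀ a ∈ U, ∀ b ∈ U, a ≠ b → ∀ v : E (U.erase b) × E (U.erase b),
    N a U (up b (U.erase b) U v) =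
      up b (U.erase b) U (N a (U.erase b) v.1, N a (U.erase b) v.2)
  N_sq : ∀ (U : Finset ι), U ⊆ W → ∀ a ∈ U, ∀ x : E U, N a U (N a U x) = 0
  red_surjective : ∀ (U : Finset ι), U ⊆ W → ∀ a ∈ U, Function.Surjective (red a (U.erase a) U)
  red_eq_zero : ∀ (U : Finset ι), U ⊆ W → ∀ a ∈ U, ∀ x : (N a U).ker,
    red a (U.erase a) U x = 0 ↔ ∃ e : E U, N a U e = x
  red_up : ∀ (U : Finset ι), U ⊆ W → ∀ a ∈ U, ∀ b ∈ U, a ≠ b →
    ∀ (x y : (N a (U.erase b)).ker) (z : (N a U).ker),
      (z : E U) = up b (U.erase b) U ((x : E (U.erase b)), (y : E (U.erase b))) →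
        red a (U.erase a) U z =
          (up b ((U.erase b).erase a) (U.erase a)
              ((red a ((U.erase b).erase a) (U.erase b) x).1,
                (red a ((U.erase b).erase a) (U.erase b) y).1),
            up b ((U.erase b).erase a) (U.erase a)
              ((red a ((U.erase b).erase a) (U.erase b) x).2,
                (red a ((U.erase b).erase a) (U.erase b) y).2))
  N_up_self : ∀ (U : Finset ι), U ⊆ W → ∀ a ∈ U, ∀ v, N a U (up a (U.erase a) U v) = 0
  red_up_self : ∀ (U : Finset ι), U ⊆ W → ∀ a ∈ U, ∀ (v : E (U.erase a) × E (U.erase a))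
    (z : (N a U).ker), (z : E U) = up a (U.erase a) U v →
      red a (U.erase a) U z = (v.1 + V a (U.erase a) v.2, V a (U.erase a) v.1 + v.2)
  V_up : ∀ (U : Finset ι), U ⊆ W → ∀ a ∈ W, a ∉ U → ∀ b ∈ U, ∀ v : E (U.erase b) × E (U.erase b),
    V a U (up b (U.erase b) U v) =
      up b (U.erase b) U (V a (U.erase b) v.1, V a (U.erase b) v.2)
  act_up : ∀ (g : G) (U : Finset ι), U ⊆ W → ∀ b ∈ U, ∀ v : E (U.erase b) × E (U.erase b),
    act g U (up b (U.erase b) U v) =
      up b (U.erase b) U (act g (U.erase b) v.1, act g (U.erase b) v.2)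

namespace RowCube

variable {ι W} {G : Type uG} {E : Finset ι → Type uE} [∀ U, AddCommGroup (E U)]
  (C : RowCube ι W G E)

/-- The old part at the primes of `B`. -/
def old (B U : Finset ι) : AddSubgroup (E U) :=
  B.sup fun b => (C.up b (U.erase b) U).range

/-- The old part coming from invariants at `a`. -/
def oldInv (a : ι) (B U : Finset ι) : AddSubgroup (E U) :=
  B.sup fun b => ((C.N a (U.erase b)).ker.prod (C.N a (U.erase b)).ker).map (C.up b (U.erase b) U)

theorem old_le_iff {B U : Finset ι} {P : AddSubgroup (E U)} :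
    C.old B U ≤ P ↔ ∀ b ∈ B, ∀ v, C.up b (U.erase b) U v ∈ P := by
  rw [old, Finset.sup_le_iff]
  exact forall₂_congr fun b _ => ⟨fun h v => h ⟨v, rfl⟩, fun h => by rintro _ ⟨v, rfl⟩; exact h v⟩

theorem oldInv_le_iff {a : ι} {B U : Finset ι} {P : AddSubgroup (E U)} :
    C.oldInv a B U ≤ P ↔ ∀ b ∈ B, ∀ (x y : (C.N a (U.erase b)).ker),
      C.up b (U.erase b) U ((x : E (U.erase b)), (y : E (U.erase b))) ∈ P := by
  simp only [oldInv, Finset.sup_le_iff, AddSubgroup.map_le_iff_le_comap]
  exact forall₂_congr fun b _ =>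
    ⟨fun h x y => h ⟨x.2, y.2⟩, fun h v hv => h ⟨v.1, hv.1⟩ ⟨v.2, hv.2⟩⟩

theorem up_mem_old {B U : Finset ι} {b : ι} (hb : b ∈ B) (v : E (U.erase b) × E (U.erase b)) :
    C.up b (U.erase b) U v ∈ C.old B U :=
  (C.old_le_iff.mp le_rfl) b hb v

theorem up_mem_oldInv {a : ι} {B U : Finset ι} {b : ι} (hb : b ∈ B)
    (x y : (C.N a (U.erase b)).ker) :
    C.up b (U.erase b) U ((x : E (U.erase b)), (y : E (U.erase b))) ∈ C.oldInv a B U :=
  (C.oldInv_le_iff.mp le_rfl) b hb x y

theorem old_mono {B B' U : Finset ι} (h : B ⊆ B') : C.old B U ≤ C.old B' U :=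
  Finset.sup_mono h

theorem oldInv_mono {a : ι} {B B' U : Finset ι} (h : B ⊆ B') :
    C.oldInv a B U ≤ C.oldInv a B' U := Finset.sup_mono h

theorem oldInv_le_old {a : ι} {B U : Finset ι} : C.oldInv a B U ≤ C.old B U :=
  C.oldInv_le_iff.mpr fun _ hb _ _ => C.up_mem_old hb _

theorem oldInv_le_ker {a : ι} {B U : Finset ι} (hU : U ⊆ W) (hB : B ⊆ U) (ha : a ∈ U)
    (haB : a ∉ B) : C.oldInv a B U ≤ (C.N a U).ker :=
  C.oldInv_le_iff.mpr fun b hb x y => by
    rw [AddMonoidHom.mem_ker, C.N_up U hU a ha b (hB hb) fun h => haB (h ▸ hb),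
      show C.N a (U.erase b) x = 0 from x.2, show C.N a (U.erase b) y = 0 from y.2, ← Prod.zero_eq_mk,
      map_zero]

/-- The pair at `b` respects the old parts. -/
theorem up_old {B U : Finset ι} (hU : U ⊆ W) (hB : B ⊆ U) {b : ι} (hb : b ∈ U) (hbB : b ∉ B)
    {x y : E (U.erase b)} (hx : x ∈ C.old B (U.erase b)) (hy : y ∈ C.old B (U.erase b)) :
    C.up b (U.erase b) U (x, y) ∈ C.old B U := by
  have key : ∀ z ∈ C.old B (U.erase b),
      C.up b (U.erase b) U (z, 0) ∈ C.old B U ∧ C.up b (U.erase b) U (0, z) ∈ C.old B U := by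
    suffices h : C.old B (U.erase b) ≤
        (C.old B U).comap ((C.up b (U.erase b) U).comp (AddMonoidHom.inl _ _)) ⊓
          (C.old B U).comap ((C.up b (U.erase b) U).comp (AddMonoidHom.inr _ _)) from
      fun z hz => h hz
    refine C.old_le_iff.mpr fun c hc v => ?_
    have hbc : b ≠ c := fun h => hbB (h ▸ hc)
    have h1 := C.up_comm U hU b hb c (hB hc) hbc v 0
    have h2 := C.up_comm U hU b hb c (hB hc) hbc 0 v
    rw [map_zero] at h1 h2
    exact ⟨show C.up b (U.erase b) U (_, 0) ∈ _ from h1 ▸ C.up_mem_old hc _,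
      show C.up b (U.erase b) U (0, _) ∈ _ from h2 ▸ C.up_mem_old hc _⟩
  rw [show ((x, y) : E (U.erase b) × E (U.erase b)) = (x, 0) + (0, y) by simp, map_add]
  exact add_mem (key x hx).1 (key y hy).2

theorem V_old {B U : Finset ι} (hU : U ⊆ W) (hB : B ⊆ U) {a : ι} (haW : a ∈ W) (ha : a ∉ U)
    {x : E U} (hx : x ∈ C.old B U) : C.V a U x ∈ C.old B U := by
  suffices h : C.old B U ≤ (C.old B U).comap (C.V a U) from h hx
  refine C.old_le_iff.mpr fun b hb v => ?_
  rw [AddSubgroup.mem_comap, C.V_up U hU a haW ha b (hB hb)]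
  exact C.up_mem_old hb _

theorem act_old {B U : Finset ι} (hU : U ⊆ W) (hB : B ⊆ U) (g : G) {x : E U}
    (hx : x ∈ C.old B U) : C.act g U x ∈ C.old B U := by
  suffices h : C.old B U ≤ (C.old B U).comap (C.act g U) from h hx
  refine C.old_le_iff.mpr fun b hb v => ?_
  rw [AddSubgroup.mem_comap, C.act_up g U hU b (hB hb)]
  exact C.up_mem_old hb _

theorem N_old {B U : Finset ι} (hU : U ⊆ W) (hB : B ⊆ U) {a : ι} (ha : a ∈ U) (haB : a ∉ B)
    {x : E U} (hx : x ∈ C.old B U) : C.N a U x ∈ C.old B U := by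
  suffices h : C.old B U ≤ (C.old B U).comap (C.N a U) from h hx
  refine C.old_le_iff.mpr fun b hb v => ?_
  rw [AddSubgroup.mem_comap, C.N_up U hU a ha b (hB hb) fun h => haB (h ▸ hb)]
  exact C.up_mem_old hb _

/-- The pairs at `b` are injective on the new quotients at `B`. -/
def InjAt (B : Finset ι) : Prop :=
  ∀ U ⊆ W, B ⊆ U → ∀ b ∈ U, b ∉ B → ∀ v : E (U.erase b) × E (U.erase b),
    C.up b (U.erase b) U v ∈ C.old B U →
      v.1 ∈ C.old B (U.erase b) ∧ v.2 ∈ C.old B (U.erase b)

/-- Reductions of old invariants are old. -/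
theorem red_oldInv {a : ι} {B U : Finset ι} (hU : U ⊆ W) (hB : B ⊆ U) (ha : a ∈ U) (haB : a ∉ B)
    (z : (C.N a U).ker) (hz : (z : E U) ∈ C.oldInv a B U) :
    (C.red a (U.erase a) U z).1 ∈ C.old B (U.erase a) ∧
      (C.red a (U.erase a) U z).2 ∈ C.old B (U.erase a) := by
  suffices h : C.oldInv a B U ≤ (((C.old B (U.erase a)).prod (C.old B (U.erase a))).comap
      (C.red a (U.erase a) U)).map (C.N a U).ker.subtype by
    obtain ⟨z', hz', he⟩ := h hz
    rw [show z' = z from Subtype.ext he] at hz'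
    exact hz'
  refine C.oldInv_le_iff.mpr fun b hb x y => ?_
  have hab : a ≠ b := fun h => haB (h ▸ hb)
  refine ⟨⟨_, C.oldInv_le_ker hU hB ha haB (C.up_mem_oldInv hb x y)⟩, ?_, rfl⟩
  rw [SetLike.mem_coe, AddSubgroup.mem_comap, C.red_up U hU a ha b (hB hb) hab x y _ rfl,
    Finset.erase_right_comm]
  exact ⟨C.up_mem_old hb _, C.up_mem_old hb _⟩

/-- Old pairs lift to old invariants. -/
theorem exists_red_oldInv {a : ι} {B U : Finset ι} (hU : U ⊆ W) (hB : B ⊆ U) (ha : a ∈ U)
    (haB : a ∉ B) {m : E (U.erase a) × E (U.erase a)} (h1 : m.1 ∈ C.old B (U.erase a))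
    (h2 : m.2 ∈ C.old B (U.erase a)) :
    ∃ z : (C.N a U).ker, (z : E U) ∈ C.oldInv a B U ∧ C.red a (U.erase a) U z = m := by
  let P : AddSubgroup (E (U.erase a) × E (U.erase a)) :=
    ((C.oldInv a B U).comap (C.N a U).ker.subtype).map (C.red a (U.erase a) U)
  suffices h : C.old B (U.erase a) ≤
      P.comap (AddMonoidHom.inl _ _) ⊓ P.comap (AddMonoidHom.inr _ _) by
    have h' : m ∈ P := by
      rw [show m = (m.1, 0) + (0, m.2) by simp]
      exact add_mem (h h1).1 (h h2).2
    obtain ⟨z, hz, hzm⟩ := h'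
    exact ⟨z, hz, hzm⟩
  refine C.old_le_iff.mpr fun b hb => ?_
  rw [Finset.erase_right_comm]
  intro v
  have hbU : b ∈ U := hB hb
  have hab : a ≠ b := fun h => haB (h ▸ hb)
  have hab' : a ∈ U.erase b := Finset.mem_erase.mpr ⟨hab, ha⟩
  have key : ∀ p q : E ((U.erase b).erase a) × E ((U.erase b).erase a),
      (C.up b ((U.erase b).erase a) (U.erase a) (p.1, q.1),
        C.up b ((U.erase b).erase a) (U.erase a) (p.2, q.2)) ∈ P := by
    intro p q
    obtain ⟨x, hx⟩ := C.red_surjective (U.erase b) ((U.erase_subset b).trans hU) a hab' p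
    obtain ⟨y, hy⟩ := C.red_surjective (U.erase b) ((U.erase_subset b).trans hU) a hab' q
    refine ⟨⟨_, C.oldInv_le_ker hU hB ha haB (C.up_mem_oldInv hb x y)⟩,
      C.up_mem_oldInv hb x y, ?_⟩
    rw [C.red_up U hU a ha b hbU hab x y _ rfl, hx, hy]
  constructor
  · have h := key (v.1, 0) (v.2, 0)
    rwa [← Prod.zero_eq_mk, map_zero] at h
  · have h := key (0, v.1) (0, v.2)
    rwa [← Prod.zero_eq_mk, map_zero] at h

/-- Invariants and toric classes among the old ones come from old invariants and old classes. -/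
theorem inv_and_toric_old {a : ι} : ∀ (B U : Finset ι), U ⊆ W → B ⊆ U → a ∈ U → a ∉ B →
    (∀ B' : Finset ι, B' ⊂ B → C.InjAt B') →
    (∀ z ∈ C.old B U, C.N a U z = 0 → z ∈ C.oldInv a B U) ∧
      ∀ e : E U, C.N a U e ∈ C.old B U → ∃ o ∈ C.old B U, C.N a U o = C.N a U e := by
  intro B
  induction B using Finset.induction_on with
  | empty =>
    intro U _ _ _ _ _
    exact ⟨fun z hz _ => by simpa [old, oldInv] using hz,
      fun e he => ⟨0, zero_mem _, by rw [map_zero]; simpa [old, eq_comm] using he⟩⟩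
  | insert b B hbB ih =>
    intro U hU hB ha haB hinj
    rw [Finset.insert_subset_iff] at hB
    rw [Finset.mem_insert, not_or] at haB
    have hab : a ≠ b := haB.1
    have hbU : b ∈ U := hB.1
    have hUb : U.erase b ⊆ W := (U.erase_subset b).trans hU
    have hBb : B ⊆ U.erase b := fun c hc => Finset.mem_erase.mpr ⟨fun h => hbB (h ▸ hc), hB.2 hc⟩
    have hinjB : C.InjAt B := hinj B (Finset.ssubset_insert hbB)
    have hinj' : ∀ B', B' ⊂ B → C.InjAt B' := fun B' h =>
      hinj B' (h.trans (Finset.ssubset_insert hbB))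
    obtain ⟨ihI, ihT⟩ := ih U hU hB.2 ha haB.2 hinj'
    obtain ⟨ihI', ihT'⟩ := ih (U.erase b) hUb hBb (Finset.mem_erase.mpr ⟨hab, ha⟩) haB.2 hinj'
    have hsup : ∀ S : Finset ι, C.old (insert b B) S =
        (C.up b (S.erase b) S).range ⊔ C.old B S := fun S => Finset.sup_insert
    have hI : ∀ z ∈ C.old (insert b B) U, C.N a U z = 0 → z ∈ C.oldInv a (insert b B) U := by
      intro z hz hNz
      rw [hsup, AddSubgroup.mem_sup] at hz
      obtain ⟨_, ⟨v, rfl⟩, o, ho, rfl⟩ := hz
      rw [map_add, C.N_up U hU a ha b hbU hab] at hNz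
      have hmem : C.up b (U.erase b) U (C.N a _ v.1, C.N a _ v.2) ∈ C.old B U := by
        rw [eq_neg_of_add_eq_zero_left hNz]
        exact neg_mem (C.N_old hU hB.2 ha haB.2 ho)
      obtain ⟨h1, h2⟩ := hinjB U hU hB.2 b hbU hbB _ hmem
      obtain ⟨e1, he1, hv1⟩ := ihT' v.1 h1
      obtain ⟨e2, he2, hv2⟩ := ihT' v.2 h2
      have hk1 : v.1 - e1 ∈ (C.N a (U.erase b)).ker := by
        rw [AddMonoidHom.mem_ker, map_sub, hv1, sub_self]
      have hk2 : v.2 - e2 ∈ (C.N a (U.erase b)).ker := by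
        rw [AddMonoidHom.mem_ker, map_sub, hv2, sub_self]
      have hsplit : C.up b (U.erase b) U v + o =
          C.up b (U.erase b) U (v.1 - e1, v.2 - e2) +
            (C.up b (U.erase b) U (e1, e2) + o) := by
        rw [← add_assoc, ← map_add]
        congr 2
        exact Prod.ext (sub_add_cancel _ _).symm (sub_add_cancel _ _).symm
      have ho' : C.up b (U.erase b) U (e1, e2) + o ∈ C.oldInv a B U := by
        refine ihI _ (add_mem (C.up_old hU hB.2 hbU hbB he1 he2) ho) ?_
        rw [map_add, C.N_up U hU a ha b hbU hab]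
        dsimp only
        rw [hv1, hv2]
        exact hNz
      rw [hsplit]
      exact add_mem (C.up_mem_oldInv (Finset.mem_insert_self b B) ⟨_, hk1⟩ ⟨_, hk2⟩)
        (C.oldInv_mono (Finset.subset_insert b B) ho')
    refine ⟨hI, fun e he => ?_⟩
    have h0 := hI _ he (C.N_sq U hU a ha e)
    rw [oldInv, Finset.sup_insert, AddSubgroup.mem_sup] at h0
    obtain ⟨_, ⟨i, hi, rfl⟩, oI, hoI, hsum⟩ := h0
    change oI ∈ C.oldInv a B U at hoI
    -- the reduction of the toric class vanishes
    let x : (C.N a (U.erase b)).ker := ⟨i.1, hi.1⟩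
    let y : (C.N a (U.erase b)).ker := ⟨i.2, hi.2⟩
    have hup : C.up b (U.erase b) U i ∈ (C.N a U).ker := by
      rw [AddMonoidHom.mem_ker, C.N_up U hU a ha b hbU hab,
        show C.N a _ i.1 = 0 from hi.1, show C.N a _ i.2 = 0 from hi.2, ← Prod.zero_eq_mk, map_zero]
    let zu : (C.N a U).ker := ⟨_, hup⟩
    let zo : (C.N a U).ker := ⟨oI, C.oldInv_le_ker hU hB.2 ha haB.2 hoI⟩
    have hzero : C.red a (U.erase a) U zu + C.red a (U.erase a) U zo = 0 := by
      rw [← map_add]
      exact (C.red_eq_zero U hU a ha _).mpr ⟨e, hsum.symm⟩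
    obtain ⟨ho1, ho2⟩ := C.red_oldInv hU hB.2 ha haB.2 zo hoI
    rw [C.red_up U hU a ha b hbU hab x y zu rfl] at hzero
    have hbUa : b ∈ U.erase a := Finset.mem_erase.mpr ⟨Ne.symm hab, hbU⟩
    have hBa : B ⊆ U.erase a := fun c hc => Finset.mem_erase.mpr ⟨fun h => haB.2 (h ▸ hc), hB.2 hc⟩
    rw [Finset.erase_right_comm (s := U) (a := b) (b := a)] at hzero
    have hz1 := eq_neg_of_add_eq_zero_left (congrArg Prod.fst hzero)
    have hz2 := eq_neg_of_add_eq_zero_left (congrArg Prod.snd hzero)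
    dsimp only at hz1 hz2
    have m1 := hinjB (U.erase a) ((U.erase_subset a).trans hU) hBa b hbUa hbB
      ((C.red a _ (U.erase b) x).1, (C.red a _ (U.erase b) y).1)
      (by rw [hz1]; exact neg_mem ho1)
    have m2 := hinjB (U.erase a) ((U.erase_subset a).trans hU) hBa b hbUa hbB
      ((C.red a _ (U.erase b) x).2, (C.red a _ (U.erase b) y).2)
      (by rw [hz2]; exact neg_mem ho2)
    rw [Finset.erase_right_comm (s := U) (a := a) (b := b)] at m1 m2
    have hab' : a ∈ U.erase b := Finset.mem_erase.mpr ⟨hab, ha⟩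
    obtain ⟨x', hx', hxx⟩ := C.exists_red_oldInv hUb hBb hab' haB.2
      (m := C.red a _ (U.erase b) x) m1.1 m2.1
    obtain ⟨y', hy', hyy⟩ := C.exists_red_oldInv hUb hBb hab' haB.2
      (m := C.red a _ (U.erase b) y) m1.2 m2.2
    obtain ⟨e1, he1⟩ := (C.red_eq_zero _ hUb a hab' (x - x')).mp (by
      rw [map_sub, hxx]; exact sub_self _)
    obtain ⟨e2, he2⟩ := (C.red_eq_zero _ hUb a hab' (y - y')).mp (by
      rw [map_sub, hyy]; exact sub_self _)
    have hrest : C.N a U (e - C.up b (U.erase b) U (e1, e2)) =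
        C.up b (U.erase b) U ((x' : E (U.erase b)), (y' : E (U.erase b))) + oI := by
      rw [map_sub, C.N_up U hU a ha b hbU hab]
      dsimp only
      rw [he1, he2, ← hsum, sub_eq_iff_eq_add, add_right_comm, ← map_add]
      congr 2
      exact Prod.ext (add_sub_cancel _ _).symm (add_sub_cancel _ _).symm
    obtain ⟨o, ho, hNo⟩ := ihT (e - C.up b (U.erase b) U (e1, e2)) (by
      rw [hrest]
      exact add_mem (C.up_old hU hB.2 hbU hbB (C.oldInv_le_old hx') (C.oldInv_le_old hy'))
        (C.oldInv_le_old hoI))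
    refine ⟨C.up b (U.erase b) U (e1, e2) + o, add_mem (C.up_mem_old (Finset.mem_insert_self b B) _)
      (C.old_mono (Finset.subset_insert b B) ho), ?_⟩
    rw [map_add, hNo, map_sub, add_sub_cancel]

/-- **The socle condition**: no stable subgroup above the old part in which the twisted Frobenius
commutes with the action modulo the old part, except the old part. -/
def SocleHyp : Prop :=
  ∀ B U : Finset ι, U ⊆ W → B ⊆ U → ∀ a ∈ U, a ∉ B → ∀ K : AddSubgroup (E (U.erase a)),
    C.old B (U.erase a) ≤ K → (∀ g, ∀ x ∈ K, C.act g (U.erase a) x ∈ K) →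
      (∀ g, ∀ x ∈ K, C.act g (U.erase a) (C.V a (U.erase a) x) -
        C.V a (U.erase a) (C.act g (U.erase a) x) ∈ C.old B (U.erase a)) →
        K ≤ C.old B (U.erase a)

/-- **The faces are injective.** -/
theorem injAt (hsoc : C.SocleHyp) : ∀ B : Finset ι, C.InjAt B := by
  intro B
  induction B using Finset.strongInduction with
  | _ B ih =>
    intro U hU hB a ha haB v hv
    have haW : a ∈ W := hU ha
    have hUa : U.erase a ⊆ W := (U.erase_subset a).trans hU
    have hBa : B ⊆ U.erase a := fun c hc => Finset.mem_erase.mpr ⟨fun h => haB (h ▸ hc), hB hc⟩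
    have hnot : a ∉ U.erase a := Finset.notMem_erase a U
    -- the two congruences given by the reductions
    have hgraph : ∀ w, C.up a (U.erase a) U w ∈ C.old B U →
        w.1 + C.V a (U.erase a) w.2 ∈ C.old B (U.erase a) := by
      intro w hw
      have hk := C.N_up_self U hU a ha w
      obtain ⟨hI, -⟩ := C.inv_and_toric_old (a := a) B U hU hB ha haB ih
      have := (C.red_oldInv hU hB ha haB ⟨_, hk⟩ (hI _ hw hk)).1
      rwa [C.red_up_self U hU a ha w ⟨_, hk⟩ rfl] at this
    let K : AddSubgroup (E (U.erase a)) :=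
      ((C.old B U).comap (C.up a (U.erase a) U)).map (AddMonoidHom.snd _ _)
    have hKold : C.old B (U.erase a) ≤ K := fun y hy =>
      ⟨(0, y), C.up_old hU hB ha haB (zero_mem _) hy, rfl⟩
    have hstab : ∀ g w, C.up a (U.erase a) U w ∈ C.old B U →
        C.up a (U.erase a) U (C.act g _ w.1, C.act g _ w.2) ∈ C.old B U := fun g w hw => by
      rw [← C.act_up g U hU a ha w]
      exact C.act_old hU hB g hw
    have hle := hsoc B U hU hB a ha haB K hKold
      (fun g => by
        rintro _ ⟨w, hw, rfl⟩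
        exact ⟨_, hstab g w hw, rfl⟩)
      (fun g => by
        rintro _ ⟨w, hw, rfl⟩
        have h1 := C.act_old hUa hBa g (hgraph w hw)
        have h2 := hgraph _ (hstab g w hw)
        rw [map_add] at h1
        simpa using sub_mem h1 h2)
    have h2 : v.2 ∈ C.old B (U.erase a) := hle ⟨v, hv, rfl⟩
    exact ⟨by simpa using sub_mem (hgraph v hv) (C.V_old hUa hBa haW hnot h2), h2⟩

end RowCube

end Fermat.Agent.TwoAdic
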