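import Mathlib.RingTheory.Nilpotent.Lemmas
import Mathlib.Algebra.Ring.Subring.Basic
import Mathlib.Tactic.LinearCombination
import Mathlib.Tactic.NoncommRing

/-!
# The socle lemma at a transposition

No non-zero ring has commuting elements which are, up to nilpotents, of order three and a
transposition.
-/

set_option autoImplicit false

universe uR

namespace Fermat.Agent.TwoAdic

/-- No non-zero ring contains commuting `h`, `F` behaving, up to nilpotents, like an element of
order three and a transposition. -/
theorem subsingleton_of_transposition {R : Type uR} [Ring R] {h F : R} (hc : Commute h F)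
    (h2 : IsNilpotent (2 : R)) (hh : IsNilpotent (h * h + h + 1)) (hF : IsNilpotent (F * F - 1))
    (hhF : IsNilpotent (h * F * (h * F) - 1)) : Subsingleton R := by
  have : IsMulCommutative ↥(Subring.closure ({h, F} : Set R)) :=
    Subring.isMulCommutative_closure (by
    rintro x (rfl | rfl) y (rfl | rfl)
    exacts [rfl, hc.eq, hc.eq.symm, rfl])
  let P := Subring.closure ({h, F} : Set R)
  let _ : CommRing P := { (inferInstance : Ring P) with mul_comm := fun a b => mul_comm' a b }
  let h' : P := ⟨h, Subring.subset_closure (Set.mem_insert h _)⟩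
  let F' : P := ⟨F, Subring.subset_closure (Set.mem_insert_of_mem h rfl)⟩
  have inj : Function.Injective P.subtype := Subtype.val_injective
  have a2 : IsNilpotent (2 : P) := (IsNilpotent.map_iff inj).mp (by rwa [map_ofNat])
  have ah : IsNilpotent (h' * h' + h' + 1) := (IsNilpotent.map_iff inj).mp (by simpa [h'] using hh)
  have aF : IsNilpotent (F' * F' - 1) := (IsNilpotent.map_iff inj).mp (by simpa [F'] using hF)
  have ahF : IsNilpotent (h' * F' * (h' * F') - 1) :=
    (IsNilpotent.map_iff inj).mp (by simpa [h', F'] using hhF)
  have a : h' * h' - 1 ∈ nilradical P := by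
    rw [show h' * h' - 1 = (h' * F' * (h' * F') - 1) - h' * h' * (F' * F' - 1) by ring]
    exact sub_mem ahF (Ideal.mul_mem_left _ _ aF)
  have b : h' ∈ nilradical P := by
    rw [show h' = (h' * h' + h' + 1) - (h' * h' - 1) - 2 by ring]
    exact sub_mem (sub_mem ah a) a2
  have c : (1 : P) ∈ nilradical P := by
    rw [show (1 : P) = (h' * h' + h' + 1) - (h' + 1) * h' by ring]
    exact sub_mem ah (Ideal.mul_mem_left _ _ b)
  obtain ⟨k, hk⟩ := c
  rw [one_pow] at hk
  exact subsingleton_of_zero_eq_one (congrArg P.subtype hk).symm

end Fermat.Agent.TwoAdic
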