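import Fermat.Agent.TwoAdic.RowCube

/-!
# From the full cube to its signed part

From the full cube to its signed part.

In characteristic two, if the involutions are exact on every level then, given injective faces,
they are exact on every new quotient, so the faces of the signed cube are injective as well.
-/

set_option autoImplicit false

universe uι uE uG uX

namespace Fermat.Agent.TwoAdic

section Exact

variable {ι : Type uι} {E : Type uE} [AddCommGroup E] (w : ι → E →+ E)

/-- Fixed modulo `P` by the members of `V`. -/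
def FixedMod (P : AddSubgroup E) (V : Finset ι) (x : E) : Prop := ∀ e ∈ V, w e x - x ∈ P

/-- Every class fixed modulo `P` by a subfamily of `V` is a norm for each of its members. -/
def NormExact (P : AddSubgroup E) (V : Finset ι) : Prop :=
  ∀ V' ⊆ V, ∀ e ∈ V', ∀ x : E, FixedMod w P V' x →
    ∃ v : E, (∀ e' ∈ V', e' ≠ e → w e' v - v ∈ P) ∧ x - (v + w e v) ∈ P

/-- Exactness passes to the cokernel of an equivariant map injective modulo the given parts, and
fixed classes lift. -/
theorem normExact_sup [DecidableEq ι] {X : Type uX} [AddCommGroup X] (wX : ι → X →+ X)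
    (f : X →+ E) {P : AddSubgroup E} {PX : AddSubgroup X} {V : Finset ι}
    (h2 : ∀ x : E, x + x = 0) (hw : ∀ e ∈ V, ∀ x, w e (w e x) = x)
    (hcomm : ∀ e ∈ V, ∀ e' ∈ V, ∀ x, w e (w e' x) = w e' (w e x))
    (hP : ∀ e ∈ V, ∀ x ∈ P, w e x ∈ P) (hf : ∀ e ∈ V, ∀ x, w e (f x) = f (wX e x))
    (hfP : ∀ x, f x ∈ P ↔ x ∈ PX) (hE : NormExact w P V) (hX : NormExact wX PX V) :
    NormExact w (P ⊔ f.range) V ∧
      ∀ V' ⊆ V, ∀ x, FixedMod w (P ⊔ f.range) V' x →
        ∃ x', FixedMod w P V' x' ∧ x - x' ∈ P ⊔ f.range := by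
  have hneg : ∀ y : E, -y = y := fun y => neg_eq_of_add_eq_zero_right (h2 y)
  have lift : ∀ V' ⊆ V, ∀ x, FixedMod w (P ⊔ f.range) V' x →
      ∃ x', FixedMod w P V' x' ∧ x - x' ∈ P ⊔ f.range := by
    intro V'
    induction V' using Finset.induction_on with
    | empty => exact fun _ x _ => ⟨x, fun e he => absurd he (Finset.notMem_empty e),
        by rw [sub_self]; exact zero_mem _⟩
    | insert e V' he ih =>
      intro hV x hx
      rw [Finset.insert_subset_iff] at hV
      obtain ⟨x₁, hx₁, hxx⟩ := ih hV.2 x fun e' he' => hx e' (Finset.mem_insert_of_mem he')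
      have hsub : w e x₁ - x₁ ∈ P ⊔ f.range := by
        have h1 : w e (x - x₁) ∈ P ⊔ f.range := by
          obtain ⟨p, hp, _, ⟨z, rfl⟩, hpz⟩ := AddSubgroup.mem_sup.mp hxx
          rw [← hpz, map_add, hf e hV.1]
          exact AddSubgroup.add_mem_sup (hP e hV.1 p hp) ⟨_, rfl⟩
        have h3 := sub_mem (hx e (Finset.mem_insert_self e V')) (sub_mem h1 hxx)
        rwa [map_sub, show w e x - x - (w e x - w e x₁ - (x - x₁)) = w e x₁ - x₁ by abel] at h3
      obtain ⟨p, hp, _, ⟨y, rfl⟩, hpy⟩ := AddSubgroup.mem_sup.mp hsub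
      have hy : FixedMod wX PX (insert e V') y := by
        intro e' he'
        rw [← hfP, map_sub, ← hf e' (Finset.insert_subset hV.1 hV.2 he'),
          show f y = (w e x₁ - x₁) - p by rw [← hpy, add_sub_cancel_left], map_sub]
        rcases Finset.mem_insert.mp he' with rfl | he''
        · rw [show w e' (w e' x₁ - x₁) - w e' p - (w e' x₁ - x₁ - p) =
              -((w e' x₁ - x₁) + (w e' x₁ - x₁)) + (p - w e' p) by
            rw [map_sub, hw e' hV.1]; abel, h2, neg_zero, zero_add]
          exact sub_mem hp (hP e' hV.1 p hp)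
        · have h4 := hP e hV.1 _ (hx₁ e' he'')
          rw [map_sub] at h4
          rw [show w e' (w e x₁ - x₁) - w e' p - (w e x₁ - x₁ - p) =
              (w e (w e' x₁) - w e x₁) - (w e' x₁ - x₁) + (p - w e' p) by
            rw [map_sub, hcomm e hV.1 e' (hV.2 he'')]; abel]
          exact add_mem (sub_mem h4 (hx₁ e' he'')) (sub_mem hp (hP e' (hV.2 he'') p hp))
      obtain ⟨v, hv, hyv⟩ := hX (insert e V') (Finset.insert_subset hV.1 hV.2) e
        (Finset.mem_insert_self e V') y hy
      refine ⟨x₁ + f v, fun e' he' => ?_, ?_⟩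
      · rw [map_add]
        rcases Finset.mem_insert.mp he' with rfl | he''
        · have h5 := (hfP _).mpr hyv
          rw [map_sub, map_add, ← hf e' hV.1] at h5
          have h6 := add_mem hp h5
          rwa [show p + (f y - (f v + w e' (f v))) = w e' x₁ + w e' (f v) - (x₁ + f v) by
            rw [← add_sub_assoc, hpy, sub_eq_add_neg, neg_add, hneg (f v), hneg (w e' (f v))]
            conv_rhs => rw [sub_eq_add_neg, neg_add, hneg (f v)]
            abel] at h6
        · rw [show w e' x₁ + w e' (f v) - (x₁ + f v) =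
            (w e' x₁ - x₁) + (w e' (f v) - f v) by abel]
          refine add_mem (hx₁ e' he'') ?_
          rw [hf e' (hV.2 he''), ← map_sub, hfP]
          exact hv e' (Finset.mem_insert_of_mem he'') fun h => he (h ▸ he'')
      · rw [show x - (x₁ + f v) = (x - x₁) - f v by abel]
        exact sub_mem hxx (AddSubgroup.mem_sup_right ⟨v, rfl⟩)
  refine ⟨fun V' hV' e he x hx => ?_, lift⟩
  obtain ⟨x', hx', hxx⟩ := lift V' hV' x hx
  obtain ⟨v, hv, hxv⟩ := hE V' hV' e he x' hx'
  refine ⟨v, fun e' he' hne => AddSubgroup.mem_sup_left (hv e' he' hne), ?_⟩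
  rw [show x - (v + w e v) = (x - x') + (x' - (v + w e v)) by abel]
  exact add_mem hxx (AddSubgroup.mem_sup_left hxv)

end Exact

/-- Involutions on a cube with rows. -/
structure RowInvol {ι : Type uι} [DecidableEq ι] {W : Finset ι} {G : Type uG}
    {E : Finset ι → Type uE} [∀ U, AddCommGroup (E U)] (C : RowCube ι W G E) where
  /-- the involution at a prime -/
  w : ι → ∀ U : Finset ι, E U →+ E U
  char_two : ∀ U ⊆ W, ∀ x : E U, x + x = 0
  w_w : ∀ U ⊆ W, ∀ e ∈ U, ∀ x, w e U (w e U x) = x
  w_comm : ∀ U ⊆ W, ∀ e ∈ U, ∀ e' ∈ U, ∀ x, w e U (w e' U x) = w e' U (w e U x)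
  w_up : ∀ U ⊆ W, ∀ b ∈ U, ∀ e ∈ U, e ≠ b → ∀ v : E (U.erase b) × E (U.erase b),
    w e U (C.up b (U.erase b) U v) =
      C.up b (U.erase b) U (w e (U.erase b) v.1, w e (U.erase b) v.2)
  w_up_self : ∀ U ⊆ W, ∀ b ∈ U, ∀ v : E (U.erase b) × E (U.erase b),
    w b U (C.up b (U.erase b) U v) = C.up b (U.erase b) U (v.2, v.1)
  exact : ∀ U ⊆ W, NormExact (fun e => w e U) ⊥ U

namespace RowInvol

variable {ι : Type uι} [DecidableEq ι] {W : Finset ι} {G : Type uG}
  {E : Finset ι → Type uE} [∀ U, AddCommGroup (E U)] {C : RowCube ι W G E} (J : RowInvol C)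

/-- Fixed by all the involutions of the level. -/
def fixed (U : Finset ι) : AddSubgroup (E U) :=
  ⨅ e ∈ U, (J.w e U - AddMonoidHom.id (E U)).ker

theorem mem_fixed {U : Finset ι} {x : E U} : x ∈ J.fixed U ↔ ∀ e ∈ U, J.w e U x = x := by
  simp [fixed, AddSubgroup.mem_iInf, sub_eq_zero]

/-- The signed old part at the primes of `B`. -/
def signedOld (B U : Finset ι) : AddSubgroup (E U) :=
  B.sup fun b => (J.fixed (U.erase b)).map
    ((C.up b (U.erase b) U).comp ((AddMonoidHom.id _).prod (AddMonoidHom.id _)))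

theorem w_old {B U : Finset ι} (hU : U ⊆ W) (hB : B ⊆ U) {e : ι} (he : e ∈ U) {x : E U}
    (hx : x ∈ C.old B U) : J.w e U x ∈ C.old B U := by
  suffices h : C.old B U ≤ (C.old B U).comap (J.w e U) from h hx
  refine C.old_le_iff.mpr fun b hb v => ?_
  rw [AddSubgroup.mem_comap]
  rcases eq_or_ne e b with rfl | hne
  · rw [J.w_up_self U hU e he]
    exact C.up_mem_old hb _
  · rw [J.w_up U hU b (hB hb) e he hne]
    exact C.up_mem_old hb _

/-- The involutions on the pairs at `b`. -/
def pairInvol (b : ι) (U : Finset ι) (e : ι) :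
    E (U.erase b) × E (U.erase b) →+ E (U.erase b) × E (U.erase b) :=
  if e = b then (AddMonoidHom.snd _ _).prod (AddMonoidHom.fst _ _)
  else (J.w e (U.erase b)).prodMap (J.w e (U.erase b))

theorem pairInvol_self (b : ι) (U : Finset ι) (v : E (U.erase b) × E (U.erase b)) :
    J.pairInvol b U b v = (v.2, v.1) := by simp [pairInvol]

theorem pairInvol_of_ne {b e : ι} (h : e ≠ b) (U : Finset ι)
    (v : E (U.erase b) × E (U.erase b)) :
    J.pairInvol b U e v = (J.w e (U.erase b) v.1, J.w e (U.erase b) v.2) := by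
  simp [pairInvol, h, Prod.map]

/-- New quotients are exact and their fixed classes lift. -/
theorem normExact_old (hinj : ∀ B, C.InjAt B) : ∀ B U : Finset ι, U ⊆ W → B ⊆ U →
    NormExact (fun e => J.w e U) (C.old B U) U ∧
      ∀ x, FixedMod (fun e => J.w e U) (C.old B U) U x →
        ∃ x' ∈ J.fixed U, x - x' ∈ C.old B U := by
  intro B
  induction B using Finset.induction_on with
  | empty =>
    intro U hU _
    refine ⟨by simpa [RowCube.old] using J.exact U hU, fun x hx => ⟨x, ?_, by simp⟩⟩
    exact J.mem_fixed.mpr fun e he => sub_eq_zero.mp (by simpa [RowCube.old] using hx e he)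
  | insert b B hbB ih =>
    intro U hU hB
    rw [Finset.insert_subset_iff] at hB
    obtain ⟨hbU, hB⟩ := hB
    obtain ⟨hE, hElift⟩ := ih U hU hB
    have hUb : U.erase b ⊆ W := (U.erase_subset b).trans hU
    have hBb : B ⊆ U.erase b := fun c hc => Finset.mem_erase.mpr ⟨fun h => hbB (h ▸ hc), hB hc⟩
    obtain ⟨hS, -⟩ := ih (U.erase b) hUb hBb
    set PX := (C.old B (U.erase b)).prod (C.old B (U.erase b))
    have hX : NormExact (J.pairInvol b U) PX U := by
      intro V' hV' e he v hv
      have hsub : V'.erase b ⊆ U.erase b := Finset.erase_subset_erase b hV'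
      have hfix : ∀ e' ∈ V'.erase b,
          J.w e' (U.erase b) v.1 - v.1 ∈ C.old B (U.erase b) ∧
            J.w e' (U.erase b) v.2 - v.2 ∈ C.old B (U.erase b) := fun e' he' => by
        have h := hv e' (Finset.mem_of_mem_erase he')
        rw [J.pairInvol_of_ne (Finset.ne_of_mem_erase he')] at h
        exact h
      rcases eq_or_ne e b with rfl | hne
      · refine ⟨(v.1, 0), fun e' he' hne' => ?_, ?_⟩
        · rw [J.pairInvol_of_ne hne']
          exact ⟨(hfix e' (Finset.mem_erase.mpr ⟨hne', he'⟩)).1, by simp⟩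
        · rw [J.pairInvol_self]
          have h := hv e he
          rw [J.pairInvol_self] at h
          refine ⟨?_, ?_⟩
          · simp
          · simpa using h.1
      · obtain ⟨u₁, hu₁, hx₁⟩ := hS (V'.erase b) hsub e (Finset.mem_erase.mpr ⟨hne, he⟩) v.1
          fun e' he' => (hfix e' he').1
        by_cases hbV : b ∈ V'
        · refine ⟨(u₁, u₁), fun e' he' hne' => ?_, ?_⟩
          · rcases eq_or_ne e' b with rfl | hne''
            · rw [J.pairInvol_self, sub_self]; exact zero_mem _
            · rw [J.pairInvol_of_ne hne'']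
              exact ⟨hu₁ e' (Finset.mem_erase.mpr ⟨hne'', he'⟩) hne',
                hu₁ e' (Finset.mem_erase.mpr ⟨hne'', he'⟩) hne'⟩
          · rw [J.pairInvol_of_ne hne]
            refine ⟨hx₁, ?_⟩
            have h := hv b hbV
            rw [J.pairInvol_self] at h
            have := sub_mem hx₁ h.2
            simpa using this
        · rw [Finset.erase_eq_of_notMem hbV] at hfix hsub hu₁
          obtain ⟨u₂, hu₂, hx₂⟩ := hS V' hsub e he v.2 fun e' he' => (hfix e' he').2
          refine ⟨(u₁, u₂), fun e' he' hne' => ?_, ?_⟩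
          · rw [J.pairInvol_of_ne (show e' ≠ b from fun h => hbV (h ▸ he'))]
            exact ⟨hu₁ e' he' hne', hu₂ e' he' hne'⟩
          · rw [J.pairInvol_of_ne hne]
            exact ⟨hx₁, hx₂⟩
    have hold : C.old (insert b B) U = C.old B U ⊔ (C.up b (U.erase b) U).range := by
      rw [RowCube.old, Finset.sup_insert, sup_comm]; rfl
    obtain ⟨h1, h2⟩ := normExact_sup (fun e => J.w e U) (J.pairInvol b U)
      (C.up b (U.erase b) U) (PX := PX) (J.char_two U hU) (J.w_w U hU) (J.w_comm U hU)
      (fun e he x hx => J.w_old hU hB he hx)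
      (fun e he x => by
        rcases eq_or_ne e b with rfl | hne
        · rw [J.w_up_self U hU e he, J.pairInvol_self]
        · rw [J.w_up U hU b hbU e he hne, J.pairInvol_of_ne hne])
      (fun x => ⟨fun h => hinj B U hU hB b hbU hbB x h,
        fun h => C.up_old hU hB hbU hbB h.1 h.2⟩) hE hX
    rw [hold]
    refine ⟨h1, fun x hx => ?_⟩
    obtain ⟨x₁, hx₁, hxx⟩ := h2 U subset_rfl x hx
    obtain ⟨x', hx', hxx'⟩ := hElift x₁ hx₁
    refine ⟨x', hx', ?_⟩
    rw [show x - x' = (x - x₁) + (x₁ - x') by abel]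
    exact add_mem hxx (AddSubgroup.mem_sup_left hxx')

/-- A fixed old class is old in the signed cube. -/
theorem fixed_old_le (hinj : ∀ B, C.InjAt B) : ∀ B U : Finset ι, U ⊆ W → B ⊆ U →
    ∀ z ∈ C.old B U, z ∈ J.fixed U → z ∈ J.signedOld B U := by
  intro B
  induction B using Finset.induction_on with
  | empty => exact fun U _ _ z hz _ => by simpa [RowCube.old, signedOld] using hz
  | insert b B hbB ih =>
    intro U hU hB z hz hzfix
    rw [Finset.insert_subset_iff] at hB
    obtain ⟨hbU, hB⟩ := hB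
    have hUb : U.erase b ⊆ W := (U.erase_subset b).trans hU
    have hBb : B ⊆ U.erase b := fun c hc => Finset.mem_erase.mpr ⟨fun h => hbB (h ▸ hc), hB hc⟩
    rw [RowCube.old, Finset.sup_insert, AddSubgroup.mem_sup] at hz
    obtain ⟨_, ⟨v, rfl⟩, o, ho, rfl⟩ := hz
    change o ∈ C.old B U at ho
    have hv : ∀ e ∈ U, J.pairInvol b U e v - v ∈
        (C.old B (U.erase b)).prod (C.old B (U.erase b)) := by
      intro e he
      refine hinj B U hU hB b hbU hbB _ ?_
      have h := J.mem_fixed.mp hzfix e he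
      rw [map_add] at h
      have h' : C.up b (U.erase b) U (J.pairInvol b U e v) = J.w e U (C.up b (U.erase b) U v) := by
        rcases eq_or_ne e b with rfl | hne
        · rw [J.w_up_self U hU e he, J.pairInvol_self]
        · rw [J.w_up U hU b hbU e he hne, J.pairInvol_of_ne hne]
      rw [map_sub, h', show J.w e U (C.up b (U.erase b) U v) - C.up b (U.erase b) U v =
        o - J.w e U o by rw [sub_eq_sub_iff_add_eq_add, h, add_comm]]
      exact sub_mem ho (J.w_old hU hB he ho)
    obtain ⟨-, hlift⟩ := J.normExact_old hinj B (U.erase b) hUb hBb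
    obtain ⟨x, hx, hvx⟩ := hlift v.1 fun e he => by
      have h := hv e (Finset.mem_of_mem_erase he)
      rw [J.pairInvol_of_ne (Finset.ne_of_mem_erase he)] at h
      exact h.1
    have hvx2 : v.2 - x ∈ C.old B (U.erase b) := by
      have h := hv b hbU
      rw [J.pairInvol_self] at h
      rw [show v.2 - x = (v.2 - v.1) + (v.1 - x) by abel]
      exact add_mem h.1 hvx
    have hxx : C.up b (U.erase b) U (x, x) ∈ J.signedOld (insert b B) U := by
      rw [signedOld, Finset.sup_insert]
      exact AddSubgroup.mem_sup_left ⟨x, hx, rfl⟩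
    have hxfix : C.up b (U.erase b) U (x, x) ∈ J.fixed U := J.mem_fixed.mpr fun e he => by
      rcases eq_or_ne e b with rfl | hne
      · rw [J.w_up_self U hU e he]
      · rw [J.w_up U hU b hbU e he hne, J.mem_fixed.mp hx e (Finset.mem_erase.mpr ⟨hne, he⟩)]
    have hrest : C.up b (U.erase b) U v + o - C.up b (U.erase b) U (x, x) ∈ J.signedOld B U := by
      refine ih U hU hB _ ?_ (sub_mem hzfix hxfix)
      rw [add_sub_right_comm, ← map_sub]
      exact add_mem (C.up_old hU hB hbU hbB hvx hvx2) ho
    rw [← sub_add_cancel (C.up b (U.erase b) U v + o) (C.up b (U.erase b) U (x, x))]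
    exact add_mem ((Finset.sup_mono (Finset.subset_insert b B) :
      J.signedOld B U ≤ J.signedOld (insert b B) U) hrest) hxx

/-- **The faces of the signed cube are injective.** -/
theorem signed_injective (hsoc : C.SocleHyp) {B U : Finset ι} (hU : U ⊆ W) (hB : B ⊆ U) {a : ι}
    (ha : a ∈ U) (haB : a ∉ B) {x : E (U.erase a)} (hx : x ∈ J.fixed (U.erase a))
    (h : C.up a (U.erase a) U (x, x) ∈ J.signedOld B U) : x ∈ J.signedOld B (U.erase a) := by
  have hle : J.signedOld B U ≤ C.old B U :=
    Finset.sup_le fun b hb => by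
      rintro _ ⟨y, -, rfl⟩
      exact C.up_mem_old hb _
  exact J.fixed_old_le (C.injAt hsoc) B (U.erase a) ((U.erase_subset a).trans hU)
    (fun c hc => Finset.mem_erase.mpr ⟨fun h => haB (h ▸ hc), hB hc⟩) x
    ((C.injAt hsoc) B U hU hB a ha haB _ (hle h)).1 hx

end RowInvol

end Fermat.Agent.TwoAdic
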