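import Fermat.Agent.TwoAdic.Blueprint.Local
import Fermat.Agent.SemistableRed.Interface
import Fermat.Agent.SemistableRed.AtkinLehner
import Fermat.Agent.Chebotarev.Trace

/-!
# The signed new condition from one line relation

Matrix algebra turning a signed Frobenius trace, unipotent inertia and the relation
`(ρ φ - s q) (ρ τ - 1) = 0` into `IsSignedNewAt`.
-/

set_option autoImplicit false

open GaloisRep Fermat.Agent.DefRing Fermat.Agent.Deform

namespace Fermat.Agent.TwoAdic

/-- `(τ - 1) (φ - s) = 0` follows from `(φ - s q) (τ - 1) = 0` and the two traces. -/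
theorem line_of_line_matrix {A : Type} [CommRing A] (F T : Matrix (Fin 2) (Fin 2) A) (s c : A)
    (hF : F.trace = c + s) (hT : T.trace = 2) (h : (F - c • 1) * (T - 1) = 0) :
    (T - 1) * (F - s • 1) = 0 := by
  have e1 : (T - 1) * (F - s • 1) = ((F - c • 1) * (T - 1)).adjugate := by
    rw [Matrix.adjugate_mul_distrib, Matrix.adjugate_fin_two, Matrix.adjugate_fin_two]
    rw [Matrix.trace_fin_two] at hF hT
    have h1 : F 1 1 - c = s - F 0 0 := by linear_combination hF
    have h2 : T 1 1 - 1 = 1 - T 0 0 := by linear_combination hT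
    ext i j
    fin_cases i <;> fin_cases j <;>
      simp [Matrix.mul_apply, Fin.sum_univ_two, Matrix.sub_apply, h1, h2] <;> grind
  rw [e1, h, Matrix.adjugate_zero]

variable {A : Type} [CommRing A] [IsLocalRing A]

/-- `IsSignedNewAt` from the signed trace, unipotent inertia and one line relation. -/
theorem isSignedNewAt_of (ρ : GaloisRepAdic A) (q : ℕ) (s : ℤ)
    (htr : ∀ P : ValuationSubring (AlgebraicClosure ℚ), P.LiesOverPrime q →
      ∀ φ : GQ, P.IsFrobeniusAt φ q → ρ.trace φ = (s : A) * ((q : A) + 1))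
    (huni : ρ.IsUnipotentOnInertiaAt q)
    (hline : ∀ P : ValuationSubring (AlgebraicClosure ℚ), P.LiesOverPrime q →
      ∀ φ : GQ, P.IsFrobeniusAt φ q → ∀ τ ∈ P.inertiaSubgroupIn ℚ,
        (ρ.ρ φ - ((s : A) * (q : A)) • 1) * (ρ.ρ τ - 1) = 0) :
    IsSignedNewAt ρ q s := by
  intro P hP φ hφ
  refine ⟨htr P hP φ hφ, fun τ hτ => ?_⟩
  have h2 : ρ.trace τ = 2 := Chebotarev.trace_eq_of_charpoly ρ.finrank_eq (a := 2) (d := 1)
    ((huni P hP τ hτ).trans (by rw [Polynomial.C_1, map_ofNat]; ring))
  refine ⟨h2, hline P hP φ hφ τ hτ, ?_⟩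
  set b := Fermat.Agent.DefRing.repBasis ρ
  refine (LinearMap.toMatrixAlgEquiv b).injective ?_
  have h := congrArg (LinearMap.toMatrixAlgEquiv b) (hline P hP φ hφ τ hτ)
  simp only [map_mul, map_sub, map_smul, map_one, map_zero] at h ⊢
  refine line_of_line_matrix _ _ _ _ ?_ ?_ h
  · exact ((LinearMap.trace_eq_matrix_trace A b _).symm.trans (htr P hP φ hφ)).trans (by ring)
  · exact (LinearMap.trace_eq_matrix_trace A b _).symm.trans h2

end Fermat.Agent.TwoAdic
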