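import Fermat.Agent.TwoAdic.C0.BaseGenerators
import Fermat.Agent.TwoAdic.Pairing.NewQuotGen

/-!
# Generators of the signed new quotient

Two generators of the signed new quotient over a local ring containing elements which act as the
Hecke operators with the residual values of the base setup.
-/

set_option autoImplicit false

noncomputable section

open IsLocalRing GaloisRep Fermat.Agent.DefRing
open Fermat.Agent.HeckeModule Fermat.Agent.HeckeJ0 Fermat.Agent.LevelRaising

namespace Fermat.Agent.TwoAdic.TopDown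

attribute [local instance] ALSetup.isPrime Ideal.Quotient.field

variable {O : Type} [CommRing O] [IsDomain O] [IsDiscreteValuationRing O]
  [IsAdicComplete (maximalIdeal O) O] [CharZero O] [Finite (ResidueField O)]
  [CharP (ResidueField O) 2] {E : LiftData} {r : MRep (ResidueField O)} {Sm R Sx : Finset ℕ}
  {t : ℕ → O} {T : ALSetup O}

omit [IsAdicComplete (maximalIdeal O) O] [CharZero O] [Finite (ResidueField O)]
  [CharP (ResidueField O) 2] in
/-- A square root of one is one modulo the maximal ideal in residue characteristic two. -/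
theorem mk_neg_eq_one_of_mul_self (h2 : (2 : O) ∈ maximalIdeal O) {c : O}
    (hc : c * c = 1) : Ideal.Quotient.mk (maximalIdeal O) (-c) = 1 := by
  have hsq : (c + 1) * (c + 1) ∈ maximalIdeal O := by
    rw [show (c + 1) * (c + 1) = c * c + 2 * c + 1 by ring, hc,
      show 1 + 2 * c + 1 = 2 * (c + 1) by ring]
    exact Ideal.mul_mem_right _ _ h2
  have h1 : c + 1 ∈ maximalIdeal O := ((maximalIdeal.isMaximal O).isPrime.mem_or_mem hsq).elim id id
  rw [← map_one (Ideal.Quotient.mk (maximalIdeal O)), Ideal.Quotient.eq,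
    show -c - 1 = -(c + 1) by ring]
  exact neg_mem h1

/-- **Two generators from elements acting as the operators.** -/
theorem exists_gen_of_elements (h : IsBase E r Sm R Sx t T) {V B : Finset ℕ} (hV : V ⊆ T.W)
    {Rg : Type} [CommRing Rg] [IsLocalRing Rg] [Algebra O Rg] [IsLocalHom (algebraMap O Rg)]
    [Module Rg (T.NewQuot O hV B)] [IsScalarTower O Rg (T.NewQuot O hV B)]
    (hD : ∀ l : Nat.Primes, ((l : ℕ) ∈ E.D.primeFactors ∨ (l : ℕ) ∈ V) → ∃ u : Rg,
      (∀ x : T.H V O, T.toNew hV B ((MvPolynomial.X l : HeckePoly O) • x) = u • T.toNew hV B x) ∧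
        u - 1 ∈ maximalIdeal Rg)
    (hgood : ∀ l : Nat.Primes, (l : ℕ) ∈ Sx → (l : ℕ) ∉ E.D.primeFactors → (l : ℕ) ∉ V →
      ∀ A : ValuationSubring (AlgebraicClosure ℚ), A.LiesOverPrime (l : ℕ) →
        ∀ σ : GQ, A.IsFrobeniusAt σ (l : ℕ) → ∃ u : Rg,
          (∀ x : T.H V O, T.toNew hV B ((MvPolynomial.X l : HeckePoly O) • x) =
            u • T.toNew hV B x) ∧
          ∀ o : O, residue O o = (r σ).trace → u - algebraMap O Rg o ∈ maximalIdeal Rg)
    (haway : ∀ l : Nat.Primes, (l : ℕ) ∉ Sx → ∃ u : Rg,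
      (∀ x : T.H V O, T.toNew hV B ((MvPolynomial.X l : HeckePoly O) • x) = u • T.toNew hV B x) ∧
        ∀ o : O, residue O o = baseEigen r R t l → u - algebraMap O Rg o ∈ maximalIdeal Rg) :
    ∃ g : Fin 2 → T.NewQuot O hV B, Submodule.span Rg (Set.range g) = ⊤ := by
  classical
  have hD8 := E.mod_eight
  have : Fact (Nat.Prime 2) := ⟨Nat.prime_two⟩
  have : NeZero (T.level V) := ⟨T.level_ne_zero hV⟩
  have hVS : V ⊆ Sx := fun v hv => by
    have := T.mem_S v (hV hv)
    rw [h.S_eq] at this
    exact Finset.mem_coe.mp this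
  have hnotR : ∀ l : ℕ, l ∈ Sx → l ∉ R := fun l hl => Finset.disjoint_left.mp h.disjoint hl
  -- the residual values
  choose P σ hP hσ using fun l : Nat.Primes =>
    Frobenius.exists_liesOverPrime_and_isFrobeniusAt_qbar (q := (l : ℕ)) l.2
  let e : Nat.Primes → O ⧸ maximalIdeal O := fun l =>
    if (l : ℕ) ∈ E.D.primeFactors ∪ V then 1
    else if (l : ℕ) ∈ Sx then (r (σ l)).trace else baseEigen r R t l
  let ψ : HeckePoly (O ⧸ maximalIdeal O) →ₐ[O ⧸ maximalIdeal O] O ⧸ maximalIdeal O :=
    MvPolynomial.aeval e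
  have hψX : ∀ l, ψ (MvPolynomial.X l) = e l := fun l => MvPolynomial.aeval_X e l
  have heD : ∀ l : Nat.Primes, (l : ℕ) ∈ E.D.primeFactors ∪ V → e l = 1 := fun l hl => if_pos hl
  have heS : ∀ l : Nat.Primes, (l : ℕ) ∉ Sx → e l = baseEigen r R t l := fun l hl =>
    (if_neg fun hm => hl ((Finset.union_subset h.D_mem hVS) hm)).trans (if_neg hl)
  -- elements with these residual values
  have hex : ∀ l : Nat.Primes, ∃ u : Rg,
      (∀ x : T.H V O, T.toNew hV B ((MvPolynomial.X l : HeckePoly O) • x) = u • T.toNew hV B x) ∧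
        ∀ o : O, Ideal.Quotient.mk (maximalIdeal O) o = e l →
          u - algebraMap O Rg o ∈ maximalIdeal Rg := by
    intro l
    by_cases hlD : (l : ℕ) ∈ E.D.primeFactors ∪ V
    · obtain ⟨u, hu, hu1⟩ := hD l (Finset.mem_union.mp hlD)
      refine ⟨u, hu, fun o ho => ?_⟩
      rw [heD l hlD, ← map_one (Ideal.Quotient.mk (maximalIdeal O)), Ideal.Quotient.eq] at ho
      have h1 := sub_mem hu1 (map_nonunit (algebraMap O Rg) _ ho)
      rwa [map_sub, map_one, sub_sub_sub_cancel_right] at h1
    by_cases hlS : (l : ℕ) ∈ Sx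
    · simp only [Finset.mem_union, not_or] at hlD
      obtain ⟨u, hu, hu1⟩ := hgood l hlS hlD.1 hlD.2 (P l) (hP l) (σ l) (hσ l)
      refine ⟨u, hu, fun o ho => hu1 o (ho.trans ?_)⟩
      exact (if_neg fun hm => (Finset.mem_union.mp hm).elim hlD.1 hlD.2).trans (if_pos hlS)
    · obtain ⟨u, hu, hu1⟩ := haway l hlS
      exact ⟨u, hu, fun o ho => hu1 o (ho.trans (heS l hlS))⟩
  choose u hu hur using hex
  -- the prime of the setup is residual
  have hm : ∀ a : AwayPoly O T.S, a ∉ T.m →
      ψ (MvPolynomial.map (Ideal.Quotient.mk (maximalIdeal O)) (awayIncl O T.S a)) ≠ 0 := by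
    intro a ha h0
    have key : ∀ b : AwayPoly O T.S, ∀ o : O, Ideal.Quotient.mk (maximalIdeal O) o =
        ψ (MvPolynomial.map (Ideal.Quotient.mk (maximalIdeal O)) (awayIncl O T.S b)) →
          b - MvPolynomial.C o ∈ T.m := by
      intro b
      induction b using MvPolynomial.induction_on with
      | C c =>
        intro o ho
        rw [← MvPolynomial.algebraMap_eq, AlgHom.commutes, MvPolynomial.algebraMap_eq,
          MvPolynomial.map_C, ← MvPolynomial.algebraMap_eq, AlgHom.commutes,
          Algebra.algebraMap_self, RingHom.id_apply] at ho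
        rw [← map_sub]
        exact T.le (Ideal.mem_map_of_mem _ (Ideal.Quotient.eq.mp ho.symm))
      | add b c hb hc =>
        intro o ho
        obtain ⟨ob, hob⟩ := Ideal.Quotient.mk_surjective
          (ψ (MvPolynomial.map (Ideal.Quotient.mk (maximalIdeal O)) (awayIncl O T.S b)))
        have h' := add_mem (hb ob hob) (hc (o - ob)
          (by rw [map_sub, ho, hob, map_add, map_add, map_add, add_sub_cancel_left]))
        rw [map_sub] at h'
        convert h' using 1
        ring
      | mul_X b l hb =>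
        intro o ho
        obtain ⟨ob, hob⟩ := Ideal.Quotient.mk_surjective
          (ψ (MvPolynomial.map (Ideal.Quotient.mk (maximalIdeal O)) (awayIncl O T.S b)))
        obtain ⟨ol, hol⟩ := Ideal.Quotient.mk_surjective (e (l : Nat.Primes))
        have hlS : ((l : Nat.Primes) : ℕ) ∉ Sx := fun hm =>
          l.2 ((Set.ext_iff.mp h.S_eq _).mpr (Finset.mem_coe.mpr hm))
        have hl' : MvPolynomial.X l - MvPolynomial.C ol ∈ T.m :=
          (h.eigen l ol).mpr ((hol.trans (heS l hlS)).symm)
        have h0 : ob * ol - o ∈ maximalIdeal O := Ideal.Quotient.eq.mp (by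
          rw [ho, map_mul, map_mul, map_mul, awayIncl_X, MvPolynomial.map_X, map_mul, hψX, ← hob,
            ← hol])
        have h' := add_mem (add_mem (Ideal.mul_mem_right (MvPolynomial.X l) _ (hb ob hob))
          (Ideal.mul_mem_left _ (MvPolynomial.C ob) hl')) (T.le (Ideal.mem_map_of_mem _ h0))
        rw [MvPolynomial.algebraMap_eq, map_sub, map_mul] at h'
        convert h' using 1
        ring
    exact ha (by simpa using key a 0 (by rw [map_zero]; exact h0.symm))
  -- multiplicity one
  obtain ⟨ℓ₁, hℓ₁, h11, hE⟩ := T.nonEisenstein hV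
  have : Fact ℓ₁.Prime := ⟨hℓ₁⟩
  have : CharP (O ⧸ maximalIdeal O) 2 := inferInstanceAs (CharP (ResidueField O) 2)
  have hψE : ψ (eisen (O ⧸ maximalIdeal O) ℓ₁) ≠ 0 := by
    obtain ⟨a, ha, hae⟩ := hE
    have := hm a ha
    rwa [show awayIncl O T.S a = eisen O ℓ₁ from hae, Engine.TRep.eisen_map] at this
  have hcast : ∀ f : ∀ {n : ℕ}, ZMod n → ZMod n, (∀ {a b : ℕ} (hd : a ∣ b) (z : ZMod b),
      ZMod.castHom hd (ZMod a) (f z) = f (ZMod.castHom hd (ZMod a) z)) →
      (∀ z : ZMod T.core, f z ≠ 0) → ∀ z : ZMod (T.level V), f z ≠ 0 := fun f hf hc z hz => by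
    have := congrArg (ZMod.castHom (dvd_mul_right T.core (prodOf V)) (ZMod T.core)) hz
    rw [hf, map_zero] at this
    exact hc _ this
  have h2D : 2 ∉ E.D.primeFactors ∪ V := fun hm => by
    rcases Finset.mem_union.mp hm with hm | hm
    · have := Nat.dvd_of_mem_primeFactors hm
      omega
    · exact h.two_notMem (hVS hm)
  have h2M : ¬ 2 ∣ T.level V := fun hd => by
    rw [ALSetup.level] at hd
    rcases Nat.prime_two.dvd_mul.mp hd with hd | hd
    · have hd' : 2 ∣ T.level ∅ := hd.mul_right _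
      exact (h.dvd_level (Finset.empty_subset _) Nat.prime_two hd').elim
        (fun hm => h2D (Finset.mem_union_left _ hm)) fun hm => h.odd 2 hm rfl
    · obtain ⟨q, hq, hpq⟩ := ((Nat.prime_iff.mp Nat.prime_two).dvd_finsetProd_iff _).mp hd
      exact h2D (Finset.mem_union_right _
        ((Nat.prime_dvd_prime_iff_eq Nat.prime_two (T.prime q (hV hq))).mp hpq ▸ hq))
  have hψ2 := Pairing.finrank_cotangent_le_two_dihedral (k := O ⧸ maximalIdeal O) h2M
    (hcast (fun z => z ^ 2 + 1) (fun _ _ => by simp only [map_add, map_pow, map_one]) T.elliptic₄)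
    (hcast (fun z => z ^ 2 + z + 1) (fun _ _ => by simp only [map_add, map_pow, map_one])
      T.elliptic₃) h11 ψ hψE h.dihedral h.cont hD8 (Sm ∪ R ∪ Sx)
    ((hψX _).trans ((heS ⟨2, Nat.prime_two⟩ h.two_notMem).trans
      ((if_neg fun hm => h.odd 2 hm rfl).trans (if_pos rfl))))
    (fun l hl hlS hld A hA φ hφ => by
      simp only [Finset.mem_union, not_or] at hlS
      exact (hψX _).trans ((heS ⟨l, hl⟩ hlS.2).trans ((if_neg hlS.1.2).trans
        ((residualEigen_of_ne r fun he => hld
          (Dvd.intro _ (congrArg (· * T.level V) (show l = 2 from he)))).trans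
          (residualTrace_eq h.modular hl hlS.1.1 hA hφ)))))
  have := (T.free_H hV).1
  have : Module.Finite O (T.NewQuot O hV B) :=
    Module.Finite.of_surjective _ (T.toNew_surjective hV B)
  have : Module.Finite Rg (T.NewQuot O hV B) := Module.Finite.of_restrictScalars_finite O _ _
  refine T.exists_two_generators_newQuot hV B ψ hψ2 hm u (fun l hlV y z hz => ?_)
    (fun l _ _ => hu l) (fun l _ o ho => hur l o (ho.trans (hψX l))) fun l hlV _ => ?_
  · obtain ⟨x, rfl⟩ := T.normSigned_surjective hV y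
    have : Fact (l : ℕ).Prime := ⟨l.2⟩
    refine (hu l x).symm.trans (congrArg Submodule.Quotient.mk (Subtype.ext ?_))
    rw [hz, T.coe_normSigned, T.coe_normSigned]
    exact (Pairing.map_normEnd (T.w_comm' hV) (T.w_comm' hV)
      (DistribMulAction.toModuleEnd O (T.H V O) (MvPolynomial.X l : HeckePoly O)) V subset_rfl
      subset_rfl (fun a ha y => T.X_smul_w (l := (l : ℕ)) hV ha (fun hh => hlV (hh ▸ ha)) y) x).symm
  · rw [hψX, heD l (Finset.mem_union_right _ hlV)]
    refine (mk_neg_eq_one_of_mul_self T.two ?_).symm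
    rw [T.sq _ (hV hlV) (T.coprime_M (hV hlV)), h.χ_eq]
    rfl

end Fermat.Agent.TwoAdic.TopDown

end
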