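import Fermat.Agent.TwoAdic.TopGenOps
import Fermat.Agent.TwoAdic.TopGenAssembly
import Fermat.Agent.TwoAdic.Pair.Cond
import Fermat.Agent.TameInertia.Presentation

/-!
# Two generators of the top new quotient

Two generators of the top new quotient over the ring of pairs: the hypothesis `hgen` of the top
step, from the base action (good traces, the root equation at `2`) and the shape of the base setup.
-/

set_option autoImplicit false

noncomputable section

open IsLocalRing GaloisRep Fermat.Agent.DefRing Fermat.Agent.Deform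
open Fermat.Agent.HeckeModule Fermat.Agent.HeckeJ0 Fermat.Agent.LevelRaising

namespace Fermat.Agent.TwoAdic.TopGen

open Engine.TRep Engine.Lifting EigenRep TopDown

attribute [local instance] ALSetup.isPrime

local notation "Qbar" => AlgebraicClosure ℚ

/-- A non-trivial element is detected by the traces of its products. -/
theorem exists_trace_ne {k : Type} [Field k] {r : MRep k}
    (hspan : Submodule.span k (Set.range r) = ⊤) {τ : GQ} (hτ : r τ ≠ 1) :
    ∃ g, (r (τ * g)).trace ≠ (r g).trace := by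
  by_contra h
  push Not at h
  refine hτ (sub_eq_zero.mp ?_)
  have key : ∀ Y, ((r τ - 1) * Y).trace = 0 := fun Y => by
    have hY : Y ∈ Submodule.span k (Set.range r) := hspan ▸ Submodule.mem_top
    induction hY using Submodule.span_induction with
    | mem Y hY =>
      obtain ⟨g, rfl⟩ := hY
      rw [sub_mul, one_mul, Matrix.trace_sub, ← map_mul, h g, sub_self]
    | zero => simp
    | add Y Z _ _ hY hZ => rw [mul_add, Matrix.trace_add, hY, hZ, add_zero]
    | smul c Y _ hY => rw [mul_smul_comm, Matrix.trace_smul, hY, smul_zero]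
  exact Matrix.ext fun i j => by
    simpa [Matrix.trace_mul_single] using key (Matrix.single j i 1)

variable {O : Type} [CommRing O] [IsDomain O] [IsDiscreteValuationRing O]
  [IsAdicComplete (maximalIdeal O) O] [CharZero O] [Finite (ResidueField O)]
  [CharP (ResidueField O) 2]

open Pair in
/-- **Two generators of the top new quotient over the ring of pairs.** -/
theorem exists_gen_top {D : NormalData O} {E : LiftData} {C : Set (GQ × GQ)}
    {h0 : IsResidualPair D E ∅ C} (Vp : (pairFunctor h0).UniversalPoint)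
    (hspan : Submodule.span (ResidueField O) (Set.range D.rbar) = ⊤)
    {Sm R Sx : Finset ℕ} {t : ℕ → O} {T : ALSetup O} (h : IsBase E D.rbar Sm R Sx t T)
    (hroot : ∀ q ∈ R, residue O (t q) * residue O (t q) + residue O (t q) + 1 = 0)
    {V B : Finset ℕ} (hV : V ⊆ T.W) (hDV : E.D.primeFactors.erase E.ℓ₀ ⊆ V)
    (hVB : ∀ e ∈ V, e ∈ B ∨ e ∈ E.D.primeFactors)
    (S₀ : Finset ℕ) (hS₀ : T.S ⊆ ↑S₀) (h2S : 2 ∉ T.S)
    (hmres : ∀ (l : AwayIndex T.S), ((l : Nat.Primes) : ℕ) ∉ S₀ →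
      ∀ P : ValuationSubring Qbar, P.LiesOverPrime ((l : Nat.Primes) : ℕ) →
        ∀ φ : GQ, P.IsFrobeniusAt φ ((l : Nat.Primes) : ℕ) → ∀ o : O,
          residue O o = (D.rbar φ).trace → MvPolynomial.X l - MvPolynomial.C o ∈ T.m)
    [Module Vp.R (T.NewQuot O hV B)] [IsScalarTower O Vp.R (T.NewQuot O hV B)]
    [Nontrivial (T.NewQuot O hV B)]
    (hMtr : ∀ (l : ℕ) (hl : l.Prime) (hlS : l ∉ T.S), l ∉ S₀ →
      ∀ A : ValuationSubring Qbar, A.LiesOverPrime l → ∀ σ : GQ,
        A.IsFrobeniusAt σ l → ∀ y : T.NewQuot O hV B,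
          Matrix.trace (uRep Vp σ) • y = T.newAct O hV B (awayX O hl hlS) y)
    (hMα : ∀ y : T.NewQuot O hV B, uRoot Vp • uRoot Vp • y + (2 : O) • y =
      T.newAct O hV B (awayX O Nat.prime_two h2S) (uRoot Vp • y)) :
    ∃ m : Fin 2 → T.NewQuot O hV B, Submodule.span Vp.R (Set.range m) ⊔
      maximalIdeal Vp.R • (⊤ : Submodule Vp.R (T.NewQuot O hV B)) = ⊤ := by
  classical
  suffices hg : ∃ m : Fin 2 → T.NewQuot O hV B, Submodule.span Vp.R (Set.range m) = ⊤ by
    obtain ⟨m, hm⟩ := hg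
    exact ⟨m, by rw [hm, top_sup_eq]⟩
  have hfact : Fact (Nat.Prime 2) := ⟨Nat.prime_two⟩
  have hNZ : NeZero (T.level V) := ⟨T.level_ne_zero hV⟩
  have h2O : ((2 : ℕ) : O) ∈ maximalIdeal O := by exact_mod_cast T.two
  have hD8 := E.mod_eight
  have hD0 : E.D ≠ 0 := by omega
  let ι := padicHom 2 h2O
  let hes := eichlerShimuraRelations (N := T.level V) (p := 2)
  have := (T.free_H hV).1
  have hHens : HenselianRing Vp.R (maximalIdeal Vp.R) := inferInstance
  -- the finite set and the data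
  set S₁ : Finset ℕ := S₀ ∪ Sx ∪ R ∪ {2} ∪ (T.level V * 2).primeFactors with hS₁
  have hTS : T.S ⊆ ↑S₁ := fun x hx => by
    simp only [hS₁, Finset.mem_coe, Finset.mem_union]
    exact Or.inl (Or.inl (Or.inl (Or.inl (Finset.mem_coe.mp (hS₀ hx)))))
  have hnotS₁ : ∀ l : ℕ, l ∉ S₁ → l ∉ T.S ∧ l ∉ S₀ := fun l hl => by
    refine ⟨fun hx => hl (Finset.mem_coe.mp (hTS hx)), fun hx => hl ?_⟩
    simp only [hS₁, Finset.mem_union]
    exact Or.inl (Or.inl (Or.inl (Or.inl hx)))
  have hD' : TraceData T hV B S₁ fun σ => Matrix.trace (uRep Vp σ) :=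
    ⟨hTS, fun l hl hlS A hA σ hσ x => by
      rw [hMtr l hl (hnotS₁ l hlS).1 (hnotS₁ l hlS).2 A hA σ hσ]
      have e := T.toNew_levelOp hV B (T.awayOp O hV (awayX O hl (hnotS₁ l hlS).1)) x
      rw [show (T.awayOp O hV (awayX O hl (hnotS₁ l hlS).1)).op V x =
        awayIncl O T.S (awayX O hl (hnotS₁ l hlS).1) • x from rfl, awayX, awayIncl_X] at e
      exact e⟩
  have hmres₁ : ∀ (l : AwayIndex T.S), ((l : Nat.Primes) : ℕ) ∉ S₁ →
      ∀ P : ValuationSubring Qbar, P.LiesOverPrime ((l : Nat.Primes) : ℕ) →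
        ∀ φ : GQ, P.IsFrobeniusAt φ ((l : Nat.Primes) : ℕ) → ∀ o : O,
          residue O o = (D.rbar φ).trace → MvPolynomial.X l - MvPolynomial.C o ∈ T.m :=
    fun l hl => hmres l (hnotS₁ _ hl).2
  choose P hP using fun g : GQ => exists_poly_tMat (p := 2) (fun _ : Unit => T.level V)
    (fun _ => stdInputs hes) S₁ g
  -- the level
  have hVS : V ⊆ Sx := fun v hv => by
    have := T.mem_S v (hV hv)
    rw [h.S_eq] at this
    exact Finset.mem_coe.mp this
  have hℓD : E.ℓ₀ ∈ E.D.primeFactors := Nat.mem_primeFactors.mpr ⟨E.prime_ℓ₀, E.dvd_ℓ₀, hD0⟩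
  have hℓV : E.ℓ₀ ∉ V := fun hm => T.notDvd _ (hV hm) (by rw [h.core]; exact dvd_mul_right _ _)
  have hprimes : ∀ {p : ℕ}, p.Prime → p ∣ T.level V → p = E.ℓ₀ ∨ p ∈ R ∨ p ∈ V := fun {p} hp hd => by
    rw [ALSetup.level, h.core] at hd
    rcases hp.dvd_mul.mp hd with hd | hd
    · rcases hp.dvd_mul.mp hd with hd | hd
      · exact Or.inl ((Nat.prime_dvd_prime_iff_eq hp E.prime_ℓ₀).mp hd)
      · obtain ⟨q, hq, hpq⟩ := ((Nat.prime_iff.mp hp).dvd_finsetProd_iff _).mp hd
        exact Or.inr (Or.inl ((Nat.prime_dvd_prime_iff_eq hp (h.prime q hq)).mp hpq ▸ hq))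
    · obtain ⟨q, hq, hpq⟩ := ((Nat.prime_iff.mp hp).dvd_finsetProd_iff _).mp hd
      exact Or.inr (Or.inr ((Nat.prime_dvd_prime_iff_eq hp (T.prime q (hV hq))).mp hpq ▸ hq))
  -- good primes
  have hgoodAll : ∀ l : Nat.Primes, (l : ℕ) ≠ 2 → (l : ℕ) ≠ E.ℓ₀ → (l : ℕ) ∉ R → (l : ℕ) ∉ V →
      ∀ A : ValuationSubring Qbar, A.LiesOverPrime (l : ℕ) → ∀ σ : GQ,
        A.IsFrobeniusAt σ (l : ℕ) → (¬ (l : ℕ) ∣ T.level V * 2) ∧
          ∃ u : Vp.R, Acts T hV B u (MvPolynomial.X l) := fun l h2 h0l hR hlV A hA σ hσ => by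
    have hd : ¬ (l : ℕ) ∣ T.level V * 2 := fun hd => by
      rcases l.2.dvd_mul.mp hd with hd | hd
      · rcases hprimes l.2 hd with hd | hd | hd
        exacts [h0l hd, hR hd, hlV hd]
      · exact h2 ((Nat.prime_dvd_prime_iff_eq l.2 Nat.prime_two).mp hd)
    have : Fact (l : ℕ).Prime := ⟨l.2⟩
    exact ⟨hd, hD'.exists_acts_good h.χ_eq ι hes P (fun g => hP g ()) hd hA hσ⟩
  -- residual values outside `Sx`
  have hnilAway : ∀ (l : Nat.Primes) (hl : (l : ℕ) ∉ Sx) (o : O),
      residue O o = baseEigen D.rbar R t l →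
        (MvPolynomial.X l : HeckePoly O) - MvPolynomial.C o ∈ nilModIdeal (T.H V O) := by
    intro l hl o ho
    have hlS : (l : ℕ) ∉ T.S := by rw [h.S_eq]; exact fun hm => hl (Finset.mem_coe.mp hm)
    have h' := awayIncl_mem_nilModIdeal (ρ := scalarRep (T.char V) O) T.m
      ((h.eigen ⟨l, hlS⟩ o).mpr ho.symm)
    rwa [map_sub, awayIncl_X, ← MvPolynomial.algebraMap_eq, AlgHom.commutes,
      MvPolynomial.algebraMap_eq] at h'
  refine exists_gen_of_elements h hV (fun l hl => ?_) (fun l hlS hlD hlV A hA σ hσ => ?_)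
    (fun l hl => ?_)
  · -- signs and `ℓ₀`
    have : Fact (l : ℕ).Prime := ⟨l.2⟩
    obtain ⟨l, hlp⟩ := l
    change l ∈ E.D.primeFactors ∨ l ∈ V at hl
    change Fact l.Prime at this
    by_cases hlV : l ∈ V
    · refine ⟨algebraMap O Vp.R (-T.c l), acts_of_face hlV ((hVB l hlV).imp_right fun hD =>
        h.subsingleton hD (T.not_dvd_level ((V.erase_subset l).trans hV) (hV hlV)
          (Finset.notMem_erase _ _)) (T.dvd_level _) T.χ h.χ_eq), ?_⟩
      have hc1 : Ideal.Quotient.mk (maximalIdeal O) (-T.c l) = 1 := by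
        refine mk_neg_eq_one_of_mul_self T.two ?_
        rw [T.sq _ (hV hlV) (T.coprime_M (hV hlV)), h.χ_eq]
        rfl
      rw [← map_one (Ideal.Quotient.mk (maximalIdeal O)), Ideal.Quotient.eq] at hc1
      rw [← map_one (algebraMap O Vp.R), ← map_sub]
      exact map_nonunit _ _ hc1
    · have hlD : l ∈ E.D.primeFactors := hl.resolve_right hlV
      obtain rfl : l = E.ℓ₀ := by
        by_contra hne
        exact hlV (hDV (Finset.mem_erase.mpr ⟨hne, hlD⟩))
      have hℓ2 : E.ℓ₀ ≠ 2 := fun he => by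
        have := E.dvd_ℓ₀
        rw [he] at this
        omega
      set N := prodOf R * prodOf V with hN
      have hL : T.level V = E.ℓ₀ * N := by rw [ALSetup.level, h.core, hN, mul_assoc]
      have hqN : ¬ E.ℓ₀ ∣ N := fun hd => by
        rcases hlp.dvd_mul.mp hd with hd | hd
        · obtain ⟨q, hq, hpq⟩ := ((Nat.prime_iff.mp hlp).dvd_finsetProd_iff _).mp hd
          exact h.prime_dvd q hq
            ((Nat.prime_dvd_prime_iff_eq hlp (h.prime q hq)).mp hpq ▸ E.dvd_ℓ₀)
        · obtain ⟨q, hq, hpq⟩ := ((Nat.prime_iff.mp hlp).dvd_finsetProd_iff _).mp hd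
          exact hℓV ((Nat.prime_dvd_prime_iff_eq hlp (T.prime q (hV hq))).mp hpq ▸ hq)
      have : NeZero N := ⟨fun e => hqN (e ▸ dvd_zero _)⟩
      have hMN : T.M ∣ N := by rw [h.M_eq]; exact one_dvd N
      have hqM : E.ℓ₀.Coprime T.M := by rw [h.M_eq]; exact Nat.coprime_one_right _
      have hqS : E.ℓ₀ ∈ T.S := by rw [h.S_eq]; exact Finset.mem_coe.mpr (h.D_mem hℓD)
      have hsub := h.subsingleton hℓD hqN hMN T.χ h.χ_eq
      obtain ⟨A, φ, hA, hφ⟩ :=
        Frobenius.exists_liesOverPrime_and_isFrobeniusAt_qbar (q := E.ℓ₀) hlp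
      obtain ⟨τ, hτ⟩ := TameInertia.exists_tameGenerator Nat.prime_two hlp (Ne.symm hℓ2) hA
      have hτ1 : D.rbar τ ≠ 1 := (Selmer.inertia_image h.dihedral E.squarefree
        (Nat.odd_iff.mpr (by omega)) hlp E.dvd_ℓ₀ hA hτ).1.2
      obtain ⟨g, hg⟩ := exists_trace_ne hspan hτ1
      obtain ⟨u, hu⟩ := hD'.exists_acts_core_face h.χ_eq ι hes P (fun g => hP g ()) h.cont hmres₁
        (q := E.ℓ₀) hqS hℓ2 hqN hL hMN hsub hA hφ hτ.1 g hg
      refine ⟨u, hu, ?_⟩
      have hnil := sub_one_mem_nilModIdeal_of_lower T.two T.m (q := E.ℓ₀) (L := T.level V) hqS hqN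
        hL hMN (T.dvd_level V) h.χ_eq hqM hsub
      have h1 := hu.sub_mem (o := 1) (by rw [map_one]; exact hnil)
      rwa [map_one] at h1
  · -- good primes in the set
    have h2 : (l : ℕ) ≠ 2 := fun e => h.two_notMem (e ▸ hlS)
    have h0l : (l : ℕ) ≠ E.ℓ₀ := fun e => hlD (e ▸ hℓD)
    have hR : (l : ℕ) ∉ R := Finset.disjoint_left.mp h.disjoint hlS
    have : Fact (l : ℕ).Prime := ⟨l.2⟩
    obtain ⟨hd, u, hu⟩ := hgoodAll l h2 h0l hR hlV A hA σ hσ
    refine ⟨u, hu, fun o ho => hu.sub_mem ?_⟩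
    exact X_sub_C_mem_nilModIdeal_of_good h.cont T h.χ_eq (h.S_eq ▸ Sx.finite_toSet) S₀ hmres hV
      l hd hA hσ ho
  · -- outside the set
    have : Fact (l : ℕ).Prime := ⟨l.2⟩
    suffices hel : ∃ u : Vp.R, Acts T hV B u (MvPolynomial.X l) by
      obtain ⟨u, hu⟩ := hel
      exact ⟨u, hu, fun o ho => hu.sub_mem (hnilAway l hl o ho)⟩
    by_cases h2 : (l : ℕ) = 2
    · obtain ⟨l, hlp⟩ := l
      change l = 2 at h2
      subst h2
      have hα : IsUnit (uRoot Vp) := notMem_maximalIdeal.mp fun hm => by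
        have h1 := (isPair_universal Vp).residue_eq
        rw [(toResidue_eq_zero_iff _ _).mpr hm] at h1
        exact zero_ne_one h1
      obtain ⟨β, hβ⟩ := hα.exists_left_inv
      refine ⟨uRoot Vp + algebraMap O Vp.R 2 * β, fun x => ?_⟩
      have e := T.toNew_levelOp hV B (T.awayOp O hV (awayX O Nat.prime_two h2S)) x
      rw [show (T.awayOp O hV (awayX O Nat.prime_two h2S)).op V x =
        awayIncl O T.S (awayX O Nat.prime_two h2S) • x from rfl, awayX, awayIncl_X] at e
      refine e.trans (Eq.trans ?_ (?_ : uRoot Vp • uRoot Vp • (β • T.toNew hV B x) +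
        (2 : O) • (β • T.toNew hV B x) = _))
      · rw [hMα]
        rw [smul_smul (uRoot Vp) β, mul_comm, hβ, one_smul]
        rfl
      · rw [smul_smul, smul_smul, mul_assoc, mul_comm (uRoot Vp) β, hβ, mul_one, add_smul,
          ← algebraMap_smul Vp.R (2 : O), smul_smul]
    by_cases hR : (l : ℕ) ∈ R
    · obtain ⟨l, hlp⟩ := l
      change l ∉ Sx at hl
      change l ≠ 2 at h2
      change l ∈ R at hR
      change Fact l.Prime at this
      set N := E.ℓ₀ * prodOf (R.erase l) * prodOf V with hN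
      have hL : T.level V = l * N := by
        rw [ALSetup.level, h.core, hN, show prodOf R = l * prodOf (R.erase l) from
          (Finset.mul_prod_erase R id hR).symm]
        ring
      have hqN : ¬ l ∣ N := fun hd => by
        rcases hlp.dvd_mul.mp hd with hd | hd
        · rcases hlp.dvd_mul.mp hd with hd | hd
          · exact h.prime_dvd l hR (((Nat.prime_dvd_prime_iff_eq hlp E.prime_ℓ₀).mp hd) ▸ E.dvd_ℓ₀)
          · obtain ⟨q, hq, hpq⟩ := ((Nat.prime_iff.mp hlp).dvd_finsetProd_iff _).mp hd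
            exact (Finset.mem_erase.mp hq).1
              ((Nat.prime_dvd_prime_iff_eq hlp (h.prime q (Finset.mem_of_mem_erase hq))).mp hpq).symm
        · obtain ⟨q, hq, hpq⟩ := ((Nat.prime_iff.mp hlp).dvd_finsetProd_iff _).mp hd
          exact hl ((Nat.prime_dvd_prime_iff_eq hlp (T.prime q (hV hq))).mp hpq ▸ hVS hq)
      have : NeZero N := ⟨fun e => hqN (e ▸ dvd_zero _)⟩
      let Ns : Bool → ℕ := fun b => cond b (T.level V) N
      have : ∀ b, NeZero (Ns b) := fun b => by cases b <;> assumption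
      choose P₂ hP₂ using fun g : GQ => exists_poly_tMat (p := 2) Ns
        (fun b => stdInputs (eichlerShimuraRelations (N := Ns b) (p := 2))) S₁ g
      obtain ⟨A, φ, hA, hφ⟩ := Frobenius.exists_liesOverPrime_and_isFrobeniusAt_qbar (q := l) hlp
      have hres : residue O (t l) = baseEigen D.rbar R t l := (if_pos hR).symm
      have ho1 : residue O (t l) ≠ 1 := fun e => by
        have h3 := hroot l hR
        rw [e, one_mul, CharTwo.add_self_eq_zero, zero_add] at h3
        exact one_ne_zero h3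
      refine hD'.exists_acts_core_root h.χ_eq ι hes P₂ (fun g => hP₂ g true) (q := l) ?_ h2 hqN hL
        (by rw [h.M_eq]; exact one_dvd N) _ hA hφ (hP₂ φ false) (o := t l)
        (hnilAway ⟨l, hlp⟩ hl _ hres) ho1
      simp only [hS₁, Finset.mem_union]
      exact Or.inl (Or.inl (Or.inr hR))
    · obtain ⟨A, σ, hA, hσ⟩ :=
        Frobenius.exists_liesOverPrime_and_isFrobeniusAt_qbar (q := (l : ℕ)) l.2
      exact (hgoodAll l h2 (fun e => hl (e ▸ h.D_mem hℓD)) hR (fun hm => hl (hVS hm)) A hA σ hσ).2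

end Fermat.Agent.TwoAdic.TopGen

end
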