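import Fermat.Agent.TwoAdic.TopGenLattice

/-!
# The quadratic relation at a prime exactly dividing the level

At a prime `q` exactly dividing the level, with trivial character: `(U² - T_φ U + q) (U² - 1) = 0`
after an Eisenstein element, `T_φ` the trace polynomial of a Frobenius at `q`.
-/

set_option autoImplicit false

noncomputable section

open CongruenceSubgroup Matrix

namespace Fermat.Agent.TwoAdic.TopGen

open EigenRep HeckeModule Engine.TRep Engine.Lifting HeckeJ0 LevelRaising

local notation "Qbar" => AlgebraicClosure ℚ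
local notation "GQ" => (AlgebraicClosure ℚ) ≃ₐ[ℚ] (AlgebraicClosure ℚ)

variable {O : Type} [CommRing O] [IsDomain O] [CharZero O] {N q : ℕ} [NeZero N]
  [hq : Fact q.Prime] [NeZero (q * N)] {p : ℕ} [Fact p.Prime] (hqN : ¬ q ∣ N) (hqp : q ≠ p)
  {r : ℕ} [hr : Fact r.Prime] (hr1 : (r : ZMod (q * N)) = 1)
  {M : ℕ} (hM : M ∣ N) (hMq : M ∣ q * N) (χ : (ZMod M)ˣ →* O) (hχ : χ = 1)
  (ι : ℤ_[p] →+* O) {S : Finset ℕ} (hqS : q ∈ S)
include hqN hqp hr1 hχ hqS hM

/-- **`(U² - T U + q) (U² - 1)` kills the Eisenstein multiples.** -/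
theorem eisen_smul_core (hes' : EichlerShimuraRelations N p)
    {A : ValuationSubring Qbar} (hA : A.LiesOverPrime q) {φ : GQ} (hφ : A.IsFrobeniusAt φ q)
    {P : AwayPoly ℤ_[p] (↑S : Set ℕ)}
    (hP : (latHom (stdInputs hes') (RingHom.id ℤ_[p]) S P :
      Module.End ℤ_[p] (Lat (stdInputs hes') ℤ_[p])) =
      matEnd (stdInputs hes') (RingHom.id ℤ_[p]) (tMat (stdInputs hes') φ))
    (u : Coh1 (scalarRep (levelChar hMq χ) O)) :
    (eisen O r *
      (((MvPolynomial.X (⟨q, hq.out⟩ : Nat.Primes) : HeckePoly O) ^ 2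
        - awayIncl O (↑S : Set ℕ) (MvPolynomial.map ι P) * MvPolynomial.X (⟨q, hq.out⟩ : Nat.Primes)
        + MvPolynomial.C (q : O)) *
      ((MvPolynomial.X (⟨q, hq.out⟩ : Nat.Primes) : HeckePoly O) ^ 2 - 1))) • u = 0 := by
  have hrN : (r : ZMod N) = 1 := by
    have h := congrArg (ZMod.castHom (dvd_mul_left N q) (ZMod N)) hr1
    rwa [map_natCast, map_one] at h
  have hrq : r ≠ q := by
    rintro rfl
    have h := congrArg (ZMod.castHom (dvd_mul_right r N) (ZMod r)) hr1
    rw [map_natCast, map_one, ZMod.natCast_self] at h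
    exact zero_ne_one h
  set Q : HeckePoly O := awayIncl O (↑S : Set ℕ) (MvPolynomial.map ι P) with hQ
  set U : HeckePoly O := MvPolynomial.X (⟨q, hq.out⟩ : Nat.Primes) with hU
  let res := resSelf O hM hMq χ (q := q) (N := N)
  let w := wSelf O hqN hM hMq χ (q := q)
  have hres : ∀ (a : Coh1 (scalarRep (levelChar hM χ) O)) (ℓ : ℕ) [Fact ℓ.Prime], ℓ ≠ q →
      res (heckeOp _ ℓ a) = heckeOp _ ℓ (res a) := fun a ℓ hℓ hne =>
    charDegen_heckeOp hM χ hMq one_ne_zero one_mul_dvd_self hℓ.out.not_dvd_one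
      (fun hd => (hℓ.out.dvd_mul.mp hd).resolve_left fun h =>
        hne ((Nat.prime_dvd_prime_iff_eq hℓ.out hq.out).mp h)) a
  have hresP : ∀ (R : AwayPoly O (↑S : Set ℕ)) (a : Coh1 (scalarRep (levelChar hM χ) O)),
      res (awayIncl O (↑S : Set ℕ) R • a) = awayIncl O (↑S : Set ℕ) R • res a := by
    intro R
    induction R using MvPolynomial.induction_on with
    | C c =>
      intro a
      rw [← MvPolynomial.algebraMap_eq, AlgHom.commutes, algebraMap_smul, algebraMap_smul, map_smul]
    | add R R' hR hR' => intro a; rw [map_add, add_smul, add_smul, map_add, hR, hR']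
    | mul_X R l hR =>
      intro a
      rw [map_mul, mul_smul, hR, mul_smul, awayIncl_X]
      have : Fact ((l : Nat.Primes) : ℕ).Prime := ⟨(l : Nat.Primes).2⟩
      refine congrArg _ ?_
      exact ((congrArg res (X_smul _ _ a)).trans (hres a ((l : Nat.Primes) : ℕ) fun h => l.2 (Finset.mem_coe.mpr (by rw [h]; exact hqS)))).trans
        (X_smul _ _ (res a)).symm
  have hresE : ∀ a : Coh1 (scalarRep (levelChar hM χ) O),
      res (eisen O r • a) = eisen O r • res a := fun a => by
    rw [eisen_smul, eisen_smul, map_sub, map_smul, hres a r hrq]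
  have hUsmul : ∀ (x : Coh1 (scalarRep (levelChar hMq χ) O)), U • x = heckeOp _ q x := fun x =>
    X_smul _ q x
  -- the relation on old classes
  have hold : ∀ a : Coh1 (scalarRep (levelChar hM χ) O),
      eisen O r • ((U ^ 2 - Q * U + MvPolynomial.C (q : O)) • res a) = 0 := by
    intro a
    have hlow := eisen_smul_sub_good hM χ hχ hrN hes' ι S (ℓ := q)
      (fun hd => (hq.out.dvd_mul.mp hd).elim hqN
        fun h => hqp ((Nat.prime_dvd_prime_iff_eq hq.out Fact.out).mp h)) hA hφ hP a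
    rw [mul_smul, sub_smul, X_smul] at hlow
    have hUU : (U ^ 2 - Q * U + MvPolynomial.C (q : O)) • res a
        = U • res (heckeOp _ q a - awayIncl O (↑S : Set ℕ) (MvPolynomial.map ι P) • a) := by
      rw [add_smul, sub_smul, ← MvPolynomial.algebraMap_eq, algebraMap_smul, pow_two, mul_smul,
        mul_comm Q U, mul_smul, map_sub, smul_sub, hresP, ← hQ]
      have h1 : U • res a = res (heckeOp _ q a) - w (res a) :=
        (hUsmul _).trans (heckeOp_resSelf hqN hM hMq χ hχ a)
      have h2 : U • w (res a) = (q : O) • res a :=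
        (hUsmul _).trans (heckeOp_wSelf_resSelf hqN hM hMq χ hχ a)
      conv_lhs => enter [1, 1]; rw [h1, smul_sub, h2]
      abel
    rw [hUU, smul_comm, ← hresE, hlow, map_zero, smul_zero]
  -- `U² - 1` lands in old classes
  obtain ⟨b, c, hbc⟩ : ∃ b c : Coh1 (scalarRep (levelChar hM χ) O),
      (U ^ 2 - 1) • u = U • res b - res c := ⟨_, _, by
    rw [sub_smul, one_smul, pow_two, mul_smul, hUsmul, hUsmul, hUsmul]
    exact heckeOp_sq_sub hqN hM hMq χ hχ u⟩
  show (eisen O r * ((U ^ 2 - Q * U + MvPolynomial.C (q : O)) * (U ^ 2 - 1))) • u = 0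
  rw [mul_smul, mul_smul, hbc, smul_sub, smul_sub, hold c, smul_comm _ U, smul_comm _ U,
    hold b, smul_zero, sub_zero]

end Fermat.Agent.TwoAdic.TopGen

end
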