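import Fermat.Agent.TwoAdic.TSide.SignClass
import Fermat.Agent.TwoAdic.TSide.FieldLattice
import Fermat.Agent.TwoAdic.Modules.TWRelations
import Fermat.Agent.SemistableRed.Swap
import Fermat.Agent.SemistableRed.AllFacts
import Fermat.Agent.TwoAdic.Modules.AtkinLoc
import Fermat.Agent.Engine.TRep.Tame
import Fermat.Agent.Engine.Lifting.CommonPoly

/-!
# Hecke identities read on the lattice

Identities of Hecke operators on integral classes read on the lattice: congruent Galois elements
give congruent trace polynomials, the monodromy relation at a prime exactly dividing the level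
gives `T(φτg) - T(φg) + q w (T(τg) - T(g)) = 0`, and at such a prime
`(U² - T_φ U + q) (U² - 1) = 0`, all after one Eisenstein element.
-/

set_option autoImplicit false
set_option linter.unusedSectionVars false

noncomputable section

open CongruenceSubgroup Matrix

namespace Fermat.Agent.TwoAdic.TopGen

open EigenRep HeckeModule Engine.TRep Engine.Lifting EigenSystems HeckeJ0 LevelRaising SemistableRed

local notation "Qbar" => AlgebraicClosure ℚ
local notation "GQ" => (AlgebraicClosure ℚ) ≃ₐ[ℚ] (AlgebraicClosure ℚ)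

variable {O : Type} [CommRing O] [IsDomain O] [CharZero O]

section Lat

variable {N p : ℕ} [NeZero N] [Fact p.Prime] {r : ℕ} [hr : Fact r.Prime]

omit hr in
/-- The class with given coordinates. -/
def latClass (a : Fin (rk N) → O) : Coh1 (trivRep N O O) :=
  toCoh (trivRep N O O) ⟨fun γ => ofCoords N a (Additive.ofMul γ), fun g h => by
    show ofCoords N a (Additive.ofMul (g * h)) =
      ofCoords N a (Additive.ofMul g) + ofCoords N a (Additive.ofMul h)
    rw [ofMul_mul, map_add],
  fun k hk => by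
    rw [Set.mem_singleton_iff] at hk
    subst hk
    exact isGoodHom_ofCoords N a _ (by simp [smallTrace, negOne, Matrix.trace_fin_two])⟩

omit hr in
theorem classHom_latClass (a : Fin (rk N) → O) : classHom (latClass (N := N) a) = ofCoords N a := by
  rw [latClass]
  refine (classHom_toCoh _).trans ?_
  exact AddMonoidHom.ext fun _ => rfl

omit hr in
theorem classCoords_latClass (a : Fin (rk N) → O) : classCoords (latClass (N := N) a) = a := by
  show coords N (classHom (latClass (N := N) a)) = a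
  rw [classHom_latClass, coords_ofCoords]

omit hr in
theorem onLattice_latClass (a : Fin (rk N) → O) : OnLattice (latClass (N := N) a) := by
  show ofCoords N _ = _
  rw [classCoords_latClass, classHom_latClass]

omit hr in
/-- Classes on the lattice with equal coordinates are equal. -/
theorem ext_of_classCoords {u v : Coh1 (trivRep N O O)} (hu : OnLattice u) (hv : OnLattice v)
    (h : classCoords u = classCoords v) : u = v := by
  refine classHom_injective ?_
  rw [← hu, ← hv, h]

omit hr in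
theorem onLattice_smul (c : O) {u : Coh1 (trivRep N O O)} (hu : OnLattice u) :
    OnLattice (c • u) := by
  obtain ⟨z, rfl⟩ := toCoh_surjective _ u
  unfold OnLattice at *
  refine AddMonoidHom.ext fun g => ?_
  have h := DFunLike.congr_fun hu g
  rw [classHom_toCoh] at h
  rw [map_smul, ← map_smul (toCoh _), classHom_toCoh]
  show _ = c * z.1 (Additive.toMul g)
  rw [show z.1 (Additive.toMul g) = homOf (fun _ => rfl) z g from rfl, ← h]
  simp [ofCoords_apply, Finset.mul_sum, mul_left_comm]

omit [IsDomain O] [CharZero O] hr in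
theorem intAct_eq_matEnd (hes : EichlerShimuraRelations N p) (ι : ℤ_[p] →+* O) (l : Nat.Primes)
    (a : Fin (rk N) → O) :
    intAct (heckeMatAt N l) a =
      matEnd (stdInputs hes) ι (heckeMat (stdInputs hes).model l) a := by
  refine Eq.trans ?_ (matEnd_apply (stdInputs hes) ι _ _).symm
  funext i
  show ∑ k, heckeMatAt N l i k • a k = ∑ k, ι (((stdInputs hes).model.T l i k : ℤ) : ℤ_[p]) * a k
  exact Finset.sum_congr rfl fun k _ => by rw [map_intCast, zsmul_eq_mul, stdInputs_T]

variable (hr1 : (r : ZMod N) = 1) (hes : EichlerShimuraRelations N p) (ι : ℤ_[p] →+* O)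
  (S : Finset ℕ)
include hr1

/-- A single operator on the coordinates of an Eisenstein multiple. -/
theorem classCoords_heckeGen (l : Nat.Primes) (u : Coh1 (trivRep N O O)) :
    classCoords (heckeGen (trivRep N O O) l (eisen O r • u)) =
      matEnd (stdInputs hes) ι (heckeMat (stdInputs hes).model l) (classCoords (eisen O r • u)) :=
  (classCoords_heckeOp l (TSide.onLattice_eisen_torsionFree hr1 u)).trans
    (intAct_eq_matEnd hes ι l _)

/-- A variable on the coordinates of an Eisenstein multiple. -/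
theorem classCoords_X_smul {ℓ : ℕ} (hℓ : ℓ.Prime) (u : Coh1 (trivRep N O O)) :
    classCoords ((MvPolynomial.X (⟨ℓ, hℓ⟩ : Nat.Primes) : HeckePoly O) • eisen O r • u) =
      matEnd (stdInputs hes) ι (heckeMat (stdInputs hes).model ⟨ℓ, hℓ⟩)
        (classCoords (eisen O r • u)) := by
  refine Eq.trans ?_ (classCoords_heckeGen hr1 hes ι ⟨ℓ, hℓ⟩ u)
  exact congrArg classCoords (LinearMap.congr_fun (heckeHom_X _ ⟨ℓ, hℓ⟩) _)

/-- Polynomials on the coordinates of Eisenstein multiples. -/
theorem classCoords_eisen_smul (P : AwayPoly O (↑S : Set ℕ)) (u : Coh1 (trivRep N O O)) :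
    classCoords (awayIncl O (↑S : Set ℕ) P • eisen O r • u) =
      (latHom (stdInputs hes) ι S P : Module.End O (Lat (stdInputs hes) O))
        (classCoords (eisen O r • u)) := by
  induction P using MvPolynomial.induction_on generalizing u with
  | C c =>
    rw [← MvPolynomial.algebraMap_eq, AlgHom.commutes, AlgHom.commutes, algebraMap_smul, map_smul]
    rfl
  | add P Q hP hQ =>
    rw [map_add, add_smul, map_add, hP, hQ, map_add, Subalgebra.coe_add]
    rfl
  | mul_X P l hP =>
    have e : (eisen O r) • (awayIncl O (↑S : Set ℕ) (MvPolynomial.X l) • u) =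
        awayIncl O (↑S : Set ℕ) (MvPolynomial.X l) • eisen O r • u := smul_comm _ _ _
    rw [map_mul, mul_smul, ← e, hP, e, awayIncl_X, heckePoly_smul_def _ (MvPolynomial.X _),
      heckeHom_X, classCoords_heckeGen hr1 hes ι, map_mul, Subalgebra.coe_mul, latHom_X]
    rfl

end Lat

section Mat

variable {M q p : ℕ} [NeZero M] [NeZero q] [Fact p.Prime] [hq : Fact q.Prime] [NeZero (M * q)]
  (hqM : ¬ q ∣ M) (hqp : q ≠ p) (J : RepInputs (M * q) p)
  {A : ValuationSubring Qbar} (hA : A.LiesOverPrime q)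

include hqM hqp hA in
/-- The tame relation on the lattice. -/
theorem galMat_tame {φ σ : GQ} (hφ : A.IsFrobeniusAt φ q) (hσ : σ ∈ A.inertiaSubgroupIn ℚ) :
    galMat J.model φ * (galMat J.model σ - 1)
      = (q : ℤ_[p]) • ((galMat J.model σ - 1) * galMat J.model φ) := by
  have hu : ∀ τ ∈ A.inertiaSubgroupIn ℚ, (galMat J.model τ - 1) * (galMat J.model τ - 1) = 0 :=
    fun τ hτ => galMat_unipotent_of_exact_dvd hqM hqp J hA hτ
  refine matMod_ext fun n => ?_
  let ρ : GQ →* (Matrix (Fin J.model.d) (Fin J.model.d) (ZMod (p ^ n)))ˣ :=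
    ((matMod p J.model.d n).toMonoidHom.comp (galMat J.model)).toHomUnits
  have hopen : ∃ F₀ : IntermediateField ℚ Qbar, FiniteDimensional ℚ F₀ ∧
      F₀.fixingSubgroup ≤ ρ.ker := by
    obtain ⟨L, hL, H⟩ := exists_level_galMat J.model J.smooth n
    refine ⟨L, hL, fun τ hτ => Units.ext (H τ fun a ha => ?_)⟩
    exact (IntermediateField.mem_fixingSubgroup_iff L τ).mp hτ a ha
  have hexp : ∀ τ ∈ A.inertiaSubgroupIn ℚ, ρ τ ^ p ^ n = 1 := fun τ hτ =>
    Units.ext (by rw [Units.val_pow_eq_pow_val]; exact matMod_pow_eq_one (hu τ hτ) n)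
  obtain ⟨-, hconj⟩ := TameInertia.map_tame_inertia hopen hq.out hA
    (((Nat.coprime_primes Fact.out hq.out).mpr hqp.symm).pow_left n) hexp
  have h := congrArg (fun u : (Matrix (Fin J.model.d) (Fin J.model.d) (ZMod (p ^ n)))ˣ =>
    ((u * ρ φ : (Matrix (Fin J.model.d) (Fin J.model.d) (ZMod (p ^ n)))ˣ) :
      Matrix (Fin J.model.d) (Fin J.model.d) (ZMod (p ^ n)))) (hconj φ hφ σ hσ)
  simp only [inv_mul_cancel_right, Units.val_mul, Units.val_pow_eq_pow_val] at h
  have hpow : ∀ k : ℕ, galMat J.model σ ^ k = 1 + k • (galMat J.model σ - 1) := by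
    intro k
    induction k with
    | zero => simp
    | succ k ih =>
      have : (galMat J.model σ - 1) * galMat J.model σ = galMat J.model σ - 1 := by
        rw [← sub_eq_zero, ← hu σ hσ]; noncomm_ring
      rw [pow_succ, ih, add_mul, one_mul, smul_mul_assoc, this, succ_nsmul]
      abel
  have h' : matMod p J.model.d n (galMat J.model φ * galMat J.model σ) =
      matMod p J.model.d n (galMat J.model σ ^ q * galMat J.model φ) := by
    rw [map_mul, map_mul, map_pow]
    exact h
  rw [hpow] at h'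
  rw [mul_sub, mul_one, map_sub, h', ← map_sub, add_mul, one_mul, add_sub_cancel_left,
    smul_mul_assoc, Nat.cast_smul_eq_nsmul]

include hqM in
/-- The matrix of `w_q` is an involution. -/
theorem wMatPadic_mul_self (T : TorsionHeckeModel (M * q) p) :
    wMatPadic hqM T * wMatPadic hqM T = 1 := by
  refine matMod_ext fun n => mat_ext T fun x => ?_
  rw [map_mul, map_one, one_mulVec, ← mulVec_mulVec, matMod_wMatPadic_mulVec,
    matMod_wMatPadic_mulVec, smul_smul]
  refine congrArg (T.e n) ?_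
  have e : wq hq.out hqM * wq hq.out hqM = 1 := AlgEquiv.ext fun y => wq_wq hq.out hqM y
  rw [← map_mul, e, map_one, one_smul]

include hqM hqp hA in
/-- **The monodromy relation on trace operators.** -/
theorem tMat_monodromy {φ τ : GQ} (hφ : A.IsFrobeniusAt φ q) (hτ : τ ∈ A.inertiaSubgroupIn ℚ)
    (g : GQ) :
    tMat J (φ * τ * g) - tMat J (φ * g)
      + (q : ℤ_[p]) • (wMatPadic hqM J.model * (tMat J (τ * g) - tMat J g)) = 0 := by
  set W := wMatPadic hqM J.model
  set G := galMat J.model with hG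
  have hm := mat_monodromy hqM SemistableRed.goodReductionFacts hqp J.model hA hφ hτ
  have ht := galMat_tame hqM hqp J hA hφ hτ
  have hqu : (q : ℤ_[p]) ≠ 0 := Nat.cast_ne_zero.mpr hq.out.ne_zero
  -- `(τ - 1) φ = -w (τ - 1)`
  have h1 : (G τ - 1) * G φ = -(W * (G τ - 1)) := by
    refine smul_right_injective _ hqu (?_ : (q : ℤ_[p]) • _ = (q : ℤ_[p]) • _)
    rw [← ht, smul_neg, ← smul_mul_assoc, ← add_eq_zero_iff_eq_neg, ← add_mul]
    exact hm
  have hWG : ∀ σ, W * G σ = G σ * W := fun σ => (wMatPadic_commute hqM J.model σ).eq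
  have hWW : W * W = 1 := wMatPadic_mul_self hqM J.model
  -- `(τ - 1) φ⁻¹ = -w (τ - 1)`
  have h2 : (G τ - 1) * G φ⁻¹ = -(W * (G τ - 1)) := by
    have h := congrArg (fun X => -(W * (X * G φ⁻¹))) h1
    simp only [mul_assoc (G τ - 1), ← map_mul G, mul_inv_cancel, map_one, mul_one, neg_mul,
      mul_neg, neg_neg] at h
    rw [← mul_assoc W, ← mul_assoc W, hWW, one_mul] at h
    exact h.symm
  have hq1 : (epsilonPadic p φ : ℤ_[p]) = q := epsilon_frobenius hq.out hqp hA hφ
  have hτ1 : (epsilonPadic p τ : ℤ_[p]) = 1 := by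
    rw [epsilon_inertia hq.out hqp hA hτ, Units.val_one]
  have hu := galMat_unipotent_of_exact_dvd hqM hqp J hA hτ
  have hinv : G τ⁻¹ = 1 - (G τ - 1) := by
    have h : G τ⁻¹ * (G τ * (1 - (G τ - 1))) = G τ⁻¹ * 1 := by
      congr 1
      rw [← sub_eq_zero, ← neg_eq_zero, ← hu]
      noncomm_ring
    rwa [← mul_assoc, ← map_mul, inv_mul_cancel, map_one, one_mul, mul_one, eq_comm] at h
  simp only [tMat, _root_.mul_inv_rev, map_mul (epsilonPadic p), Units.val_mul, hq1, hτ1,
    mul_one, one_mul]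
  simp only [← hG, map_mul G, hinv]
  set a := G τ - 1 with ha
  have hT : G τ = 1 + a := by rw [ha]; abel
  rw [hT]
  have e1 : G φ * a = -((q : ℤ_[p]) • (W * a)) := by
    rw [ht, h1, smul_neg]
  have e3 : W * (G g⁻¹ * a) = G g⁻¹ * (W * a) := by
    rw [← mul_assoc, hWG, mul_assoc]
  calc _ = (G φ * a) * G g + (q : ℤ_[p]) • ((W * a) * G g)
        + ((epsilonPadic p g : ℤ_[p]) * q) •
          (-(G g⁻¹ * (a * G φ⁻¹)) - W * (G g⁻¹ * a)) := by
        simp only [add_mul, mul_add, sub_mul, mul_sub, one_mul, mul_one, smul_sub, smul_add,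
          mul_smul_comm, smul_neg, smul_smul, mul_assoc]
        match_scalars <;> ring
    _ = 0 := by
      rw [e1, h2, e3, neg_mul, smul_mul_assoc, mul_neg, neg_neg, sub_self, smul_zero, add_zero,
        neg_add_cancel]

end Mat

section Poly

variable {N p : ℕ} [NeZero N] [Fact p.Prime] {r : ℕ} [hr : Fact r.Prime]
  {M₀ : ℕ} (hM : M₀ ∣ N) (χ : (ZMod M₀)ˣ →* O) (hχ : χ = 1)

omit hr in
lemma castCoh_polySmul {τ τ' : Representation O (ZMod N)ˣ O} (h : τ = τ') (P : HeckePoly O)
    (u : Coh1 τ) : castCoh h (P • u) = P • castCoh h u := by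
  subst h; rfl

variable (hr1 : (r : ZMod N) = 1) (hes : EichlerShimuraRelations N p) (ι : ℤ_[p] →+* O)
  (S : Finset ℕ)
include hr1 hχ

/-- At a good prime the trace polynomial of a Frobenius is the Hecke operator. -/
theorem eisen_smul_sub_good {ℓ : ℕ} [hℓ : Fact ℓ.Prime] (hd : ¬ ℓ ∣ N * p)
    {A : ValuationSubring Qbar} (hA : A.LiesOverPrime ℓ) {σ : GQ} (hσ : A.IsFrobeniusAt σ ℓ)
    {P : AwayPoly ℤ_[p] (↑S : Set ℕ)}
    (hP : (latHom (stdInputs hes) (RingHom.id ℤ_[p]) S P :
      Module.End ℤ_[p] (Lat (stdInputs hes) ℤ_[p])) =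
      matEnd (stdInputs hes) (RingHom.id ℤ_[p]) (tMat (stdInputs hes) σ))
    (u : Coh1 (scalarRep (levelChar hM χ) O)) :
    (eisen O r * ((MvPolynomial.X (⟨ℓ, hℓ.out⟩ : Nat.Primes) : HeckePoly O) -
      awayIncl O (↑S : Set ℕ) (MvPolynomial.map ι P))) • u = 0 := by
  refine (castCoh (TSide.levelRep_eq hM χ hχ)).injective ?_
  rw [map_zero, castCoh_polySmul, mul_comm, mul_smul, sub_smul, sub_eq_zero]
  refine ext_of_classCoords
    (by rw [smul_comm]; exact TSide.onLattice_eisen_torsionFree hr1 _)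
    (by rw [smul_comm]; exact TSide.onLattice_eisen_torsionFree hr1 _) ?_
  rw [classCoords_X_smul hr1 hes ι,
    classCoords_eisen_smul hr1 hes ι S, latHom_tMat (stdInputs hes) ι S hP,
    tMat_frobenius (stdInputs hes) hℓ.out hd hA hσ]

/-- A trace polynomial congruent to a Frobenius gives its operator modulo `p`. -/
theorem exists_smul_sub_congr {ℓ : ℕ} [hℓ : Fact ℓ.Prime] (hd : ¬ ℓ ∣ N * p)
    {A : ValuationSubring Qbar} (hA : A.LiesOverPrime ℓ) {σ g : GQ} (hσ : A.IsFrobeniusAt σ ℓ)
    (h₁ : matMod p (stdInputs hes).model.d 1 (galMat (stdInputs hes).model g) =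
      matMod p (stdInputs hes).model.d 1 (galMat (stdInputs hes).model σ))
    (h₂ : PadicInt.toZModPow 1 (epsilonPadic p g : ℤ_[p]) =
      PadicInt.toZModPow 1 (epsilonPadic p σ : ℤ_[p]))
    {P : AwayPoly ℤ_[p] (↑S : Set ℕ)}
    (hP : (latHom (stdInputs hes) (RingHom.id ℤ_[p]) S P :
      Module.End ℤ_[p] (Lat (stdInputs hes) ℤ_[p])) =
      matEnd (stdInputs hes) (RingHom.id ℤ_[p]) (tMat (stdInputs hes) g))
    (u : Coh1 (scalarRep (levelChar hM χ) O)) :
    ∃ v, (eisen O r * ((MvPolynomial.X (⟨ℓ, hℓ.out⟩ : Nat.Primes) : HeckePoly O) -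
      awayIncl O (↑S : Set ℕ) (MvPolynomial.map ι P))) • u = (p : O) • v := by
  have hm := matMod_tMat_eq (stdInputs hes) h₁ h₂
  rw [tMat_frobenius (stdInputs hes) hℓ.out hd hA hσ] at hm
  have hdvd : ∀ i j, ∃ c, heckeMat (stdInputs hes).model ⟨ℓ, hℓ.out⟩ i j -
      tMat (stdInputs hes) g i j = (p : ℤ_[p]) * c := fun i j => by
    have h' := congr($hm i j)
    rw [matMod_apply, matMod_apply, eq_comm, ← sub_eq_zero, ← map_sub, ← RingHom.mem_ker,
      PadicInt.ker_toZModPow, Ideal.mem_span_singleton, pow_one] at h'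
    exact h'
  choose c hc using hdvd
  have e : heckeMat (stdInputs hes).model ⟨ℓ, hℓ.out⟩ - tMat (stdInputs hes) g =
      (p : ℤ_[p]) • Matrix.of c := by
    ext i j
    simp [hc]
  let z := classCoords (eisen O r • castCoh (TSide.levelRep_eq hM χ hχ) u)
  refine ⟨(castCoh (TSide.levelRep_eq hM χ hχ)).symm
    (latClass (matEnd (stdInputs hes) ι (Matrix.of c) z)), ?_⟩
  refine (castCoh (TSide.levelRep_eq hM χ hχ)).injective ?_
  rw [castCoh_polySmul, map_smul, LinearEquiv.apply_symm_apply, mul_smul]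
  refine ext_of_classCoords (TSide.onLattice_eisen_torsionFree hr1 _)
    (onLattice_smul _ (onLattice_latClass _)) ?_
  rw [smul_comm, sub_smul, map_sub, classCoords_X_smul hr1 hes ι, classCoords_eisen_smul hr1 hes ι S,
    latHom_tMat (stdInputs hes) ι S hP]
  refine Eq.trans ?_ ((map_smul classCoords (p : O) _).trans
    (congrArg ((p : O) • ·) (classCoords_latClass _))).symm
  refine (LinearMap.sub_apply _ _ z).symm.trans ?_
  have h := congrArg (fun X => matEnd (stdInputs hes) ι X z) e
  simp only [map_sub, matEnd_smul, map_natCast] at h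
  exact h

end Poly

section Monodromy

variable {M q p : ℕ} [NeZero M] [NeZero q] [Fact p.Prime] [hq : Fact q.Prime] [NeZero (M * q)]
  {r : ℕ} [hr : Fact r.Prime] {M₀ : ℕ} (hM : M₀ ∣ M * q) (χ : (ZMod M₀)ˣ →* O) (hχ : χ = 1)
  (hqM : ¬ q ∣ M) (hqp : q ≠ p) (hr1 : (r : ZMod (M * q)) = 1)
  (hes : EichlerShimuraRelations (M * q) p) {W : Finset ℕ} (hW : IsALPrimes (M * q) W) (he : q ∈ W)
  (heM : q.Coprime M₀) (ι : ℤ_[p] →+* O) (S : Finset ℕ)
include hχ hqM hqp hr1

/-- **`T(φτg) - T(φg) + q w (T(τg) - T(g))` kills the Eisenstein multiples.** -/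
theorem eisen_smul_monodromy {A : ValuationSubring Qbar} (hA : A.LiesOverPrime q) {φ τ : GQ}
    (hφ : A.IsFrobeniusAt φ q) (hτ : τ ∈ A.inertiaSubgroupIn ℚ) (g : GQ)
    {P : Fin 4 → AwayPoly ℤ_[p] (↑S : Set ℕ)}
    (hP : ∀ i, (latHom (stdInputs hes) (RingHom.id ℤ_[p]) S (P i) :
      Module.End ℤ_[p] (Lat (stdInputs hes) ℤ_[p])) =
      matEnd (stdInputs hes) (RingHom.id ℤ_[p])
        (tMat (stdInputs hes) (![φ * τ * g, φ * g, τ * g, g] i)))
    (u : Coh1 (scalarRep (levelChar hM χ) O)) :
    eisen O r • ((awayIncl O (↑S : Set ℕ) (MvPolynomial.map ι (P 0 - P 1))) • u +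
      (q : O) • alOp O hW he hM χ heM 1
        (awayIncl O (↑S : Set ℕ) (MvPolynomial.map ι (P 2 - P 3)) • u)) = 0 := by
  have hrq : r ≠ q := by
    rintro rfl
    have h := congrArg (ZMod.castHom (dvd_mul_left r M) (ZMod r)) hr1
    rw [map_natCast, map_one, ZMod.natCast_self] at h
    exact zero_ne_one h
  have hc : ∀ x : Coh1 (scalarRep (levelChar hM χ) O),
      eisen O r • alOp O hW he hM χ heM 1 x = alOp O hW he hM χ heM 1 (eisen O r • x) := fun x => by
    rw [eisen_smul, eisen_smul, map_sub, map_smul, alOp_heckeOp_ne hW he hM χ heM 1 hrq]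
  rw [smul_add, smul_comm (eisen O r) (q : O), hc]
  refine (castCoh (TSide.levelRep_eq hM χ hχ)).injective ?_
  rw [map_zero, map_add, map_smul (castCoh (TSide.levelRep_eq hM χ hχ)) (q : O)]
  set v := awayIncl O (↑S : Set ℕ) (MvPolynomial.map ι (P 2 - P 3)) • u
  have hlv : OnLattice (castCoh (TSide.levelRep_eq hM χ hχ) (eisen O r • v)) := by
    rw [castCoh_polySmul]
    exact TSide.onLattice_eisen_torsionFree hr1 _
  refine ext_of_classCoords (onLattice_add ?_ (onLattice_smul _
    (TSide.onLattice_alOp hM hW he heM χ hχ 1 hlv))) ?_ ?_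
  · rw [castCoh_polySmul]
    exact TSide.onLattice_eisen_torsionFree hr1 _
  · rw [show (0 : Coh1 (trivRep (M * q) O O)) = latClass (N := M * q) (0 : Fin _ → O) from ?_]
    · exact onLattice_latClass _
    · refine (classHom_injective ?_).symm
      rw [classHom_latClass, ← map_zero (toCoh (trivRep (M * q) O O)), classHom_toCoh]
      exact AddMonoidHom.ext fun g => by simp [ofCoords_apply]; rfl
  have hz : ∀ a b : Fin 4, classCoords (castCoh (TSide.levelRep_eq hM χ hχ)
      (eisen O r • awayIncl O (↑S : Set ℕ) (MvPolynomial.map ι (P a - P b)) • u)) =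
      matEnd (stdInputs hes) ι (tMat (stdInputs hes) (![φ * τ * g, φ * g, τ * g, g] a) -
        tMat (stdInputs hes) (![φ * τ * g, φ * g, τ * g, g] b))
        (classCoords (eisen O r • castCoh (TSide.levelRep_eq hM χ hχ) u)) := fun a b => by
    rw [castCoh_polySmul, castCoh_polySmul, smul_comm, classCoords_eisen_smul hr1 hes ι S,
      map_sub, map_sub, map_sub, Subalgebra.coe_sub, latHom_tMat (stdInputs hes) ι S (hP a),
      latHom_tMat (stdInputs hes) ι S (hP b)]
  rw [map_add, map_smul classCoords,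
    ← TSide.wMatPadic_classCoords hqM hes hW he ι hM heM χ hχ hlv, hz 0 1, hz 2 3,
    map_zero classCoords, ← map_natCast ι q]
  set z := classCoords (eisen O r • castCoh (TSide.levelRep_eq hM χ hχ) u)
  have h := congrArg (fun X => matEnd (stdInputs hes) ι X z)
    (tMat_monodromy hqM hqp (stdInputs hes) hA hφ hτ g)
  simp only [map_zero] at h
  rw [map_add, matEnd_smul, map_mul] at h
  exact h

end Monodromy

end Fermat.Agent.TwoAdic.TopGen

end
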