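import Fermat.Agent.TwoAdic.TopGenCore
import Fermat.Agent.TwoAdic.Pairing.NewQuotMap
import Fermat.Agent.TwoAdic.Modules.RelaxIso
import Fermat.Agent.TwoAdic.C0.LowerUnit
import Fermat.Agent.Engine.TRep.Ext
import Fermat.Agent.Chebotarev.Main

/-!
# Ring elements acting as Hecke operators on the new quotient

Elements of a ring acting on the new quotient as given Hecke operators: the trace polynomials at
good primes, the root of the Hecke polynomial at a core prime outside the set, the sign at a prime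
with vanishing face, the ratio of trace polynomials at a relaxed core prime.
-/

set_option autoImplicit false
set_option linter.unusedSectionVars false

noncomputable section

open IsLocalRing CongruenceSubgroup

universe uT

namespace Fermat.Agent.TwoAdic.TopGen

open EigenRep HeckeModule Engine.TRep Engine.Lifting HeckeJ0 LevelRaising DefRing Deform Engine

attribute [local instance] ALSetup.isPrime

local notation "Qbar" => AlgebraicClosure ℚ
local notation "GQ" => (AlgebraicClosure ℚ) ≃ₐ[ℚ] (AlgebraicClosure ℚ)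

/-- The monodromy identity at a level written as `L = N q`. -/
theorem eisen_smul_monodromy_of_eq {O : Type} [CommRing O] [IsDomain O] [CharZero O]
    {L N q : ℕ} [NeZero L] [NeZero N] [hq : Fact q.Prime] [Fact (Nat.Prime 2)] (hL : L = N * q)
    {r : ℕ} [Fact r.Prime] {M₀ : ℕ} (hM : M₀ ∣ L) (χ : (ZMod M₀)ˣ →* O) (hχ : χ = 1)
    (hqN : ¬ q ∣ N) (hq2 : q ≠ 2) (hr1 : (r : ZMod L) = 1) (hes : EichlerShimuraRelations L 2)
    {W : Finset ℕ} (hW : IsALPrimes L W) (he : q ∈ W) (heM : q.Coprime M₀) (ι : ℤ_[2] →+* O)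
    (S : Finset ℕ) {A : ValuationSubring Qbar} (hA : A.LiesOverPrime q) {φ τ : GQ}
    (hφ : A.IsFrobeniusAt φ q) (hτ : τ ∈ A.inertiaSubgroupIn ℚ) (g : GQ)
    (P : GQ → AwayPoly ℤ_[2] (↑S : Set ℕ))
    (hP : ∀ g, (latHom (stdInputs hes) (RingHom.id ℤ_[2]) S (P g) :
      Module.End ℤ_[2] (Lat (stdInputs hes) ℤ_[2])) =
      matEnd (stdInputs hes) (RingHom.id ℤ_[2]) (tMat (stdInputs hes) g))
    (u : Coh1 (scalarRep (levelChar hM χ) O)) :
    eisen O r • ((awayIncl O (↑S : Set ℕ) (MvPolynomial.map ι (P (φ * τ * g))) -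
          awayIncl O (↑S : Set ℕ) (MvPolynomial.map ι (P (φ * g)))) • u +
      (q : O) • alOp O hW he hM χ heM 1
        ((awayIncl O (↑S : Set ℕ) (MvPolynomial.map ι (P (τ * g))) -
          awayIncl O (↑S : Set ℕ) (MvPolynomial.map ι (P g))) • u)) = 0 := by
  have : NeZero q := ⟨hq.out.ne_zero⟩
  subst hL
  have h := eisen_smul_monodromy (M := N) (q := q) (r := r) hM χ hχ hqN hq2 hr1 hes hW he heM ι S
    hA hφ hτ g (P := ![P (φ * τ * g), P (φ * g), P (τ * g), P g])
    (fun i => by fin_cases i <;> exact hP _) u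
  simpa [map_sub] using h

/-- The core identity at a level written as `L = q N`. -/
theorem eisen_smul_core_of_eq {O : Type} [CommRing O] [IsDomain O] [CharZero O]
    {L N q : ℕ} [NeZero N] [hq : Fact q.Prime] [Fact (Nat.Prime 2)] (hL : L = q * N) (hqN : ¬ q ∣ N)
    (hq2 : q ≠ 2) {r : ℕ} [Fact r.Prime] (hr1 : (r : ZMod L) = 1) {M : ℕ} (hM : M ∣ N)
    (hML : M ∣ L) (χ : (ZMod M)ˣ →* O) (hχ : χ = 1) (ι : ℤ_[2] →+* O) {S : Finset ℕ} (hqS : q ∈ S)
    (hes' : EichlerShimuraRelations N 2) {A : ValuationSubring Qbar} (hA : A.LiesOverPrime q)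
    {φ : GQ} (hφ : A.IsFrobeniusAt φ q) {P : AwayPoly ℤ_[2] (↑S : Set ℕ)}
    (hP : (latHom (stdInputs hes') (RingHom.id ℤ_[2]) S P :
      Module.End ℤ_[2] (Lat (stdInputs hes') ℤ_[2])) =
      matEnd (stdInputs hes') (RingHom.id ℤ_[2]) (tMat (stdInputs hes') φ))
    (u : Coh1 (scalarRep (levelChar hML χ) O)) :
    (eisen O r *
      (((MvPolynomial.X (⟨q, hq.out⟩ : Nat.Primes) : HeckePoly O) ^ 2
        - awayIncl O (↑S : Set ℕ) (MvPolynomial.map ι P) * MvPolynomial.X (⟨q, hq.out⟩ : Nat.Primes)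
        + MvPolynomial.C (q : O)) *
      ((MvPolynomial.X (⟨q, hq.out⟩ : Nat.Primes) : HeckePoly O) ^ 2 - 1))) • u = 0 := by
  have : NeZero (q * N) := ⟨mul_ne_zero hq.out.ne_zero (NeZero.ne N)⟩
  subst hL
  exact eisen_smul_core hqN hq2 hr1 hM hML χ hχ ι hqS hes' hA hφ hP u

section Basic

variable {O : Type} [CommRing O] [IsLocalRing O] [IsNoetherianRing O]
  [IsAdicComplete (maximalIdeal O) O] (T : ALSetup O) {V : Finset ℕ} (hV : V ⊆ T.W) (B : Finset ℕ)
  {R : Type uT} [CommRing R] [IsLocalRing R] [Algebra O R]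
  [Module R (T.NewQuot O hV B)] [IsScalarTower O R (T.NewQuot O hV B)]

/-- `u` acts on the new quotient as the operator `a`. -/
def Acts (u : R) (a : HeckePoly O) : Prop :=
  ∀ x : T.H V O, T.toNew hV B (a • x) = u • T.toNew hV B x

variable {T hV B}

lemma Acts.add {u v : R} {a b : HeckePoly O} (h : Acts T hV B u a) (h' : Acts T hV B v b) :
    Acts T hV B (u + v) (a + b) := fun x => by rw [add_smul, map_add, h x, h' x, add_smul]

lemma Acts.sub {u v : R} {a b : HeckePoly O} (h : Acts T hV B u a) (h' : Acts T hV B v b) :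
    Acts T hV B (u - v) (a - b) := fun x => by rw [sub_smul, map_sub, h x, h' x, sub_smul]

lemma Acts.mul {u v : R} {a b : HeckePoly O} (h : Acts T hV B u a) (h' : Acts T hV B v b) :
    Acts T hV B (u * v) (a * b) := fun x => by rw [mul_smul, h, h', mul_smul]

variable (T hV B) in
lemma Acts.const (c : O) : Acts T hV B (algebraMap O R c) (MvPolynomial.C c) := fun x => by
  rw [← MvPolynomial.algebraMap_eq, algebraMap_smul, algebraMap_smul, map_smul]

lemma Acts.congr {u : R} {a b : HeckePoly O} (h : Acts T hV B u a)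
    (hab : ∀ x : T.H V O, b • x = a • x) : Acts T hV B u b := fun x => by rw [hab x, h x]

/-- The new quotient is finite over the coefficients. -/
lemma finite_newQuot (T : ALSetup O) (hV : V ⊆ T.W) (B : Finset ℕ) :
    Module.Finite O (T.NewQuot O hV B) :=
  have := (T.free_H hV).1
  Module.Finite.of_surjective (T.toNew hV B) (T.toNew_surjective hV B)

/-- An element acting as an operator nilpotent modulo the maximal ideal is not a unit. -/
theorem Acts.mem_maximalIdeal [Nontrivial (T.NewQuot O hV B)] {u : R} {a : HeckePoly O}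
    (h : Acts T hV B u a) (ha : a ∈ nilModIdeal (T.H V O)) : u ∈ maximalIdeal R := by
  refine (IsLocalRing.mem_maximalIdeal u).mpr fun hu => ?_
  obtain ⟨n, hn⟩ := (mem_nilModIdeal _).mp ha
  have hpow : ∀ k, Acts T hV B (u ^ k) (a ^ k) := fun k => by
    induction k with
    | zero => exact fun x => by rw [pow_zero, pow_zero, one_smul, one_smul]
    | succ k ih => rw [pow_succ, pow_succ]; exact ih.mul h
  have := finite_newQuot T hV B
  have htop : (⊤ : Submodule O (T.NewQuot O hV B)) ≤ maximalIdeal O • ⊤ := fun y _ => by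
    obtain ⟨v, hv⟩ := hu.pow n
    obtain ⟨x, hx⟩ := T.toNew_surjective hV B (((v⁻¹ : Rˣ) : R) • y)
    have h1 := hpow n x
    rw [hx, ← hv, smul_smul, Units.mul_inv, one_smul] at h1
    rw [← h1]
    have h2 := Submodule.mem_map_of_mem (f := T.toNew hV B) (hn x)
    rw [Submodule.map_smul''] at h2
    exact Submodule.smul_mono le_rfl le_top h2
  exact top_ne_bot (Submodule.eq_bot_of_le_smul_of_le_jacobson_bot (maximalIdeal O)
    (⊤ : Submodule O (T.NewQuot O hV B)) Module.Finite.fg_top htop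
    (IsLocalRing.maximalIdeal_le_jacobson ⊥))

/-- The residual value of an element acting as an operator of known residual value. -/
theorem Acts.sub_mem [Nontrivial (T.NewQuot O hV B)] {u : R} {a : HeckePoly O} {o : O}
    (h : Acts T hV B u a) (ha : a - MvPolynomial.C o ∈ nilModIdeal (T.H V O)) :
    u - algebraMap O R o ∈ maximalIdeal R :=
  (h.sub (Acts.const T hV B o)).mem_maximalIdeal ha

/-- What an Eisenstein element kills, kills the localisation. -/
theorem smul_eq_zero_of_eisen {r : ℕ} [Fact r.Prime] (hE : eisen O r ∈ awayMonoid T.m)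
    {b : HeckePoly O} (h : ∀ u : Coh1 (scalarRep (T.char V) O), (eisen O r * b) • u = 0)
    (x : T.H V O) : b • x = 0 := by
  induction x using LocalizedModule.induction_on with
  | _ u s =>
    rw [LocalizedModule.smul'_mk, ← LocalizedModule.zero_mk s, LocalizedModule.mk_eq]
    refine ⟨⟨_, hE⟩, ?_⟩
    rw [smul_zero, smul_zero, Submonoid.smul_def, Submonoid.smul_def, smul_comm]
    show (s : HeckePoly O) • eisen O r • b • u = 0
    rw [← mul_smul (eisen O r) b, h, smul_zero]

/-- A sign at a prime whose face vanishes on the new quotient. -/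
theorem acts_of_face {e : ℕ} [he : Fact e.Prime] (heV : e ∈ V)
    (h : e ∈ B ∨ Subsingleton (T.H (V.erase e) O)) :
    Acts T hV B (algebraMap O R (-T.c e)) (MvPolynomial.X (⟨e, he.out⟩ : Nat.Primes)) := fun x => by
  rw [algebraMap_smul]
  rcases h with h | h
  · exact T.toNew_X hV heV h x
  · obtain ⟨z, hz⟩ := T.exists_res_eq hV heV x
    rw [Subsingleton.elim z 0, map_zero, eq_comm, add_eq_zero_iff_eq_neg] at hz
    rw [hz, map_neg, map_smul, T.toNew_w hV B heV, neg_smul]

end Basic

section Arith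

variable {O : Type} [CommRing O] [IsDomain O] [IsDiscreteValuationRing O] [CharZero O]
  [IsAdicComplete (maximalIdeal O) O] [Fact (Nat.Prime 2)] (T : ALSetup O) (hχ : T.χ = 1)
  {V : Finset ℕ} (hV : V ⊆ T.W) (B : Finset ℕ)
  {R : Type uT} [CommRing R] [IsLocalRing R] [Algebra O R]
  [Module R (T.NewQuot O hV B)] [IsScalarTower O R (T.NewQuot O hV B)]

/-- The data of the trace polynomials: a finite set containing the set of the setup and the
exceptional primes, and elements acting as the good operators. -/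
structure TraceData (S₁ : Finset ℕ) (τr : GQ → R) : Prop where
  sub : T.S ⊆ ↑S₁
  acts : ∀ (l : ℕ) (hl : l.Prime), l ∉ S₁ → ∀ A : ValuationSubring Qbar, A.LiesOverPrime l →
    ∀ σ : GQ, A.IsFrobeniusAt σ l → Acts T hV B (τr σ) (MvPolynomial.X (⟨l, hl⟩ : Nat.Primes))

variable {T hV B} {S₁ : Finset ℕ} {τr : GQ → R} (hD : TraceData T hV B S₁ τr) (ι : ℤ_[2] →+* O)
include hD

/-- Every polynomial away from the finite set is the action of an element. -/
theorem TraceData.exists_acts (a : AwayPoly O (↑S₁ : Set ℕ)) :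
    ∃ u : R, Acts T hV B u (awayIncl O (↑S₁ : Set ℕ) a) := by
  induction a using MvPolynomial.induction_on with
  | C c =>
    refine ⟨algebraMap O R c, ?_⟩
    rw [← MvPolynomial.algebraMap_eq, AlgHom.commutes, MvPolynomial.algebraMap_eq]
    exact Acts.const T hV B c
  | add a b ha hb =>
    obtain ⟨u, hu⟩ := ha
    obtain ⟨v, hv⟩ := hb
    exact ⟨u + v, by rw [map_add]; exact hu.add hv⟩
  | mul_X a l ha =>
    obtain ⟨u, hu⟩ := ha
    obtain ⟨A, σ, hA, hσ⟩ :=
      Frobenius.exists_liesOverPrime_and_isFrobeniusAt_qbar (q := ((l : Nat.Primes) : ℕ))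
        (l : Nat.Primes).2
    refine ⟨u * τr σ, ?_⟩
    rw [map_mul, awayIncl_X]
    exact hu.mul (hD.acts _ (l : Nat.Primes).2 (fun h => l.2 (Finset.mem_coe.mpr h)) A hA σ hσ)

include hχ ι

variable [NeZero (T.level V)] (hes : EichlerShimuraRelations (T.level V) 2)
  (P : GQ → AwayPoly ℤ_[2] (↑S₁ : Set ℕ))
  (hP : ∀ g, (latHom (stdInputs hes) (RingHom.id ℤ_[2]) S₁ (P g) :
    Module.End ℤ_[2] (Lat (stdInputs hes) ℤ_[2])) =
    matEnd (stdInputs hes) (RingHom.id ℤ_[2]) (tMat (stdInputs hes) g))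
include hP

/-- At a good prime the operator is a trace polynomial. -/
theorem TraceData.exists_acts_good {ℓ : ℕ} [hℓ : Fact ℓ.Prime] (hd : ¬ ℓ ∣ T.level V * 2)
    {A : ValuationSubring Qbar} (hA : A.LiesOverPrime ℓ) {σ : GQ} (hσ : A.IsFrobeniusAt σ ℓ) :
    ∃ u : R, Acts T hV B u (MvPolynomial.X (⟨ℓ, hℓ.out⟩ : Nat.Primes)) := by
  obtain ⟨u, hu⟩ := hD.exists_acts (MvPolynomial.map ι (P σ))
  obtain ⟨r, hr, hr1, hE⟩ := T.nonEisenstein hV
  have : Fact r.Prime := ⟨hr⟩
  refine ⟨u, hu.congr fun x => sub_eq_zero.mp ?_⟩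
  rw [← sub_smul]
  exact smul_eq_zero_of_eisen hE
    (fun v => eisen_smul_sub_good (T.dvd_level V) T.χ hχ hr1 hes ι S₁ hd hA hσ (hP σ) v) x

variable [Finite (ResidueField O)] {rbar : MRep (ResidueField O)} (hc : IsCont rbar)
  (hmres : ∀ (l : AwayIndex T.S), ((l : Nat.Primes) : ℕ) ∉ S₁ →
    ∀ A : ValuationSubring Qbar, A.LiesOverPrime ((l : Nat.Primes) : ℕ) →
      ∀ φ : GQ, A.IsFrobeniusAt φ ((l : Nat.Primes) : ℕ) → ∀ o : O,
        residue O o = (rbar φ).trace → MvPolynomial.X l - MvPolynomial.C o ∈ T.m)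
include hc hmres

/-- The residual value of a trace polynomial is the residual trace. -/
theorem TraceData.sub_C_mem_nilModIdeal (g : GQ) {o : O} (ho : residue O o = (rbar g).trace) :
    awayIncl O (↑S₁ : Set ℕ) (MvPolynomial.map ι (P g)) - MvPolynomial.C o ∈
      nilModIdeal (T.H V O) := by
  obtain ⟨L₁, hL₁, H₁⟩ := EigenRep.exists_level (stdInputs hes) 1
  obtain ⟨L₂, hL₂, H₂⟩ := hc 1
  have := hL₁
  have := hL₂
  have : FiniteDimensional ℚ ↥(L₁ ⊔ L₂) := IntermediateField.finiteDimensional_sup L₁ L₂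
  obtain ⟨ℓ, hℓ, hℓX, A, hA, σ, hσ, hσL⟩ := Fermat.Agent.Chebotarev.exists_isFrobeniusAt_eqOn
    (L₁ ⊔ L₂) g (S₁ ∪ (T.level V * 2).primeFactors)
  have : Fact ℓ.Prime := ⟨hℓ⟩
  simp only [Finset.mem_union, not_or] at hℓX
  have hd : ¬ ℓ ∣ T.level V * 2 := fun h => hℓX.2
    (Nat.mem_primeFactors.mpr ⟨hℓ, h, mul_ne_zero (NeZero.ne _) two_ne_zero⟩)
  have hg : g = σ * (σ⁻¹ * g) := (mul_inv_cancel_left σ g).symm
  obtain ⟨h₁, h₂⟩ := H₁ (σ⁻¹ * g) (inv_mul_fixes fun x hx =>
    (hσL x ((le_sup_left : L₁ ≤ L₁ ⊔ L₂) hx)))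
  have e₁ : matMod 2 (stdInputs hes).model.d 1 (galMat (stdInputs hes).model g) =
      matMod 2 (stdInputs hes).model.d 1 (galMat (stdInputs hes).model σ) := by
    rw [hg, map_mul, map_mul, h₁, mul_one]
  have e₂ : PadicInt.toZModPow 1 (epsilonPadic 2 g : ℤ_[2]) =
      PadicInt.toZModPow 1 (epsilonPadic 2 σ : ℤ_[2]) := by
    rw [hg, map_mul, Units.val_mul, map_mul, h₂, mul_one]
  have etr : (rbar σ).trace = (rbar g).trace := by
    have h := trace_sub_mem_of_eqOn H₂ (σ := g) (τ := σ)
      fun x hx => hσL x ((le_sup_right : L₂ ≤ L₁ ⊔ L₂) hx)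
    rw [pow_one, IsLocalRing.maximalIdeal_eq_bot, Ideal.mem_bot, sub_eq_zero] at h
    exact h
  have hlS : ℓ ∉ T.S := fun h => hℓX.1 (Finset.mem_coe.mp (hD.sub h))
  have := (T.free_H hV).1
  have h0 : (MvPolynomial.X (⟨ℓ, hℓ⟩ : Nat.Primes) : HeckePoly O) - MvPolynomial.C o ∈
      nilModIdeal (T.H V O) := by
    have h := awayIncl_mem_nilModIdeal (ρ := scalarRep (T.char V) O) T.m
      (hmres ⟨⟨ℓ, hℓ⟩, hlS⟩ hℓX.1 A hA σ hσ o (ho.trans etr.symm))
    rwa [map_sub, awayIncl_X, ← MvPolynomial.algebraMap_eq, AlgHom.commutes,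
      MvPolynomial.algebraMap_eq] at h
  obtain ⟨r, hr, hr1, hE⟩ := T.nonEisenstein hV
  have : Fact r.Prime := ⟨hr⟩
  have h1 : (MvPolynomial.X (⟨ℓ, hℓ⟩ : Nat.Primes) : HeckePoly O) -
      awayIncl O (↑S₁ : Set ℕ) (MvPolynomial.map ι (P g)) ∈ nilModIdeal (T.H V O) := by
    refine (mem_nilModIdeal _).mpr ⟨1, fun x => ?_⟩
    rw [pow_one]
    induction x using LocalizedModule.induction_on with
    | _ u s =>
      obtain ⟨v, hv⟩ := exists_smul_sub_congr (T.dvd_level V) T.χ hχ hr1 hes ι S₁ hd hA hσ e₁ e₂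
        (hP g) u
      have h2 : eisen O r • ((MvPolynomial.X (⟨ℓ, hℓ⟩ : Nat.Primes) : HeckePoly O) -
          awayIncl O (↑S₁ : Set ℕ) (MvPolynomial.map ι (P g))) •
            (LocalizedModule.mk u s : T.H V O) = ((2 : ℕ) : O) • LocalizedModule.mk v s := by
        rw [smul_smul, LocalizedModule.smul'_mk, hv, LocalizedModule.smul'_mk]
      obtain ⟨y, hy⟩ := (bijective_smul_of_mem (ρ := scalarRep (T.char V) O) hE).2
        (LocalizedModule.mk v s : T.H V O)
      have h3 : ((2 : ℕ) : O) • y = ((MvPolynomial.X (⟨ℓ, hℓ⟩ : Nat.Primes) : HeckePoly O) -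
          awayIncl O (↑S₁ : Set ℕ) (MvPolynomial.map ι (P g))) •
            (LocalizedModule.mk u s : T.H V O) :=
        (bijective_smul_of_mem (ρ := scalarRep (T.char V) O) hE).1
          (((smul_comm (eisen O r) ((2 : ℕ) : O) y).trans (congrArg _ hy)).trans h2.symm)
      rw [← h3]
      exact Submodule.smul_mem_smul (by exact_mod_cast T.two) Submodule.mem_top
  have h := sub_mem h0 h1
  rwa [sub_sub_sub_cancel_left] at h

/-- A trace polynomial is the action of an element with the residual trace as residue. -/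
theorem TraceData.exists_trace [Nontrivial (T.NewQuot O hV B)] (g : GQ) :
    ∃ u : R, Acts T hV B u (awayIncl O (↑S₁ : Set ℕ) (MvPolynomial.map ι (P g))) ∧
      ∀ o : O, residue O o = (rbar g).trace → u - algebraMap O R o ∈ maximalIdeal R := by
  obtain ⟨u, hu⟩ := hD.exists_acts (MvPolynomial.map ι (P g))
  exact ⟨u, hu, fun o ho => hu.sub_mem (hD.sub_C_mem_nilModIdeal hχ ι hes P hP hc hmres g ho)⟩

/-- The operator at a core prime with vanishing face is a ratio of trace polynomials. -/
theorem TraceData.exists_acts_core_face [Nontrivial (T.NewQuot O hV B)]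
    [IsLocalHom (algebraMap O R)] {q : ℕ} [hq : Fact q.Prime] (hqS : q ∈ T.S) (hq2 : q ≠ 2)
    {N : ℕ} [NeZero N] (hqN : ¬ q ∣ N) (hL : T.level V = q * N) (hMN : T.M ∣ N)
    (hsub : Subsingleton (CohLoc (awayMonoid T.m) (scalarRep (levelChar hMN T.χ) O)))
    {A : ValuationSubring Qbar} (hA : A.LiesOverPrime q) {φ τ : GQ} (hφ : A.IsFrobeniusAt φ q)
    (hτ : τ ∈ A.inertiaSubgroupIn ℚ) (g : GQ) (hg : (rbar (τ * g)).trace ≠ (rbar g).trace) :
    ∃ u : R, Acts T hV B u (MvPolynomial.X (⟨q, hq.out⟩ : Nat.Primes)) := by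
  obtain ⟨r, hr, hr1, hE⟩ := T.nonEisenstein hV
  have : Fact r.Prime := ⟨hr⟩
  have : NeZero q := ⟨hq.out.ne_zero⟩
  choose v hv hvres using fun g => hD.exists_trace hχ ι hes P hP hc hmres g
  set U : HeckePoly O := MvPolynomial.X (⟨q, hq.out⟩ : Nat.Primes) with hU
  let a : GQ → HeckePoly O := fun g => awayIncl O (↑S₁ : Set ℕ) (MvPolynomial.map ι (P g))
  have hqM : q.Coprime T.M :=
    (Nat.Prime.coprime_iff_not_dvd hq.out).mpr fun h => hqN (h.trans hMN)
  have hW : IsALPrimes (T.level V) {q} := fun e he => by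
    rw [Finset.mem_singleton] at he
    subst he
    refine ⟨hq.out, hL ▸ dvd_mul_right _ _, fun h => hqN ?_⟩
    rw [hL] at h
    exact (Nat.mul_dvd_mul_iff_left hq.out.pos).mp h
  -- the relation on localised classes
  have hw : ∀ (u : Coh1 (scalarRep (T.char V) O)) (s : awayMonoid T.m),
      U • (LocalizedModule.mk u s : T.H V O) = -LocalizedModule.mk
        (alOp O hW (Finset.mem_singleton_self q) (T.dvd_level V) T.χ hqM 1 u) s := by
    intro u s
    have hdeg : 1 * N ∣ T.level V := by rw [one_mul, hL]; exact dvd_mul_left _ _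
    obtain ⟨w, hw⟩ := exists_heckeOp_add_alOp hqN hL hMN (T.dvd_level V) T.χ hχ hW
      (Finset.mem_singleton_self q) hqM hdeg u
    rw [hU, LocalizedModule.smul'_mk, X_smul]
    refine eq_neg_of_add_eq_zero_left ?_
    let res := locLift (awayMonoid T.m) (charDegen O hMN T.χ (T.dvd_level V) one_ne_zero hdeg)
      ((isAway_awayMonoid T.m).commute _ fun ℓ hℓ hℓS u =>
        charDegen_heckeOp hMN T.χ (T.dvd_level V) one_ne_zero hdeg hℓ.out.not_dvd_one (fun hd => by
          rw [hL] at hd
          refine (hℓ.out.dvd_mul.mp hd).resolve_left fun h => hℓS ?_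
          rwa [(Nat.prime_dvd_prime_iff_eq hℓ.out hq.out).mp h]) u)
    have h0 : res (LocalizedModule.mk w s) = 0 := by
      rw [Subsingleton.elim (LocalizedModule.mk w s : CohLoc (awayMonoid T.m) _) 0, map_zero]
    rw [mk_add_mk_same, hw]
    exact (locLift_mk _ _ _ _).symm.trans h0
  have hrel : ∀ x : T.H V O, (a (φ * τ * g) - a (φ * g)) • x
      = (q : O) • U • (a (τ * g) - a g) • x := by
    intro x
    have hmul : T.level V = N * q := hL.trans (mul_comm _ _)
    induction x using LocalizedModule.induction_on with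
    | _ u s =>
      have key : eisen O r • ((a (φ * τ * g) - a (φ * g)) • u + (q : O) •
          alOp O hW (Finset.mem_singleton_self q) (T.dvd_level V) T.χ hqM 1
            ((a (τ * g) - a g) • u)) = 0 := by
        exact eisen_smul_monodromy_of_eq hmul (T.dvd_level V) T.χ hχ hqN hq2 hr1 hes hW
          (Finset.mem_singleton_self q) hqM ι S₁ hA hφ hτ g P hP u
      obtain ⟨y, hy⟩ : ∃ y : Coh1 (scalarRep (T.char V) O),
          y = (a (φ * τ * g) - a (φ * g)) • u + (q : O) •
            alOp O hW (Finset.mem_singleton_self q) (T.dvd_level V) T.χ hqM 1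
              ((a (τ * g) - a g) • u) := ⟨_, rfl⟩
      rw [← hy] at key
      have hy0 : (LocalizedModule.mk y s : T.H V O) = 0 := by
        rw [← LocalizedModule.zero_mk s, LocalizedModule.mk_eq]
        refine ⟨⟨_, hE⟩, ?_⟩
        rw [smul_zero, smul_zero, Submonoid.smul_def, Submonoid.smul_def, smul_comm, key,
          smul_zero]
      have h5 : (LocalizedModule.mk ((a (φ * τ * g) - a (φ * g)) • u) s : T.H V O) + (q : O) •
          (LocalizedModule.mk (alOp O hW (Finset.mem_singleton_self q) (T.dvd_level V) T.χ hqM 1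
            ((a (τ * g) - a g) • u)) s : T.H V O) = 0 := by
        rw [LocalizedModule.smul'_mk, mk_add_mk_same, ← hy]
        exact hy0
      rw [LocalizedModule.smul'_mk, LocalizedModule.smul'_mk, hw, smul_neg]
      exact eq_neg_of_add_eq_zero_left h5
  -- the unit
  obtain ⟨o₁, ho₁⟩ := residue_surjective ((rbar (τ * g)).trace)
  obtain ⟨o₂, ho₂⟩ := residue_surjective ((rbar g).trace)
  have hu : IsUnit (v (τ * g) - v g) := notMem_maximalIdeal.mp fun hm => hg (by
    have h0 := sub_mem hm (sub_mem (hvres (τ * g) o₁ ho₁) (hvres g o₂ ho₂))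
    have h : algebraMap O R (o₁ - o₂) ∈ maximalIdeal R := by
      rw [map_sub, show algebraMap O R o₁ - algebraMap O R o₂ = (v (τ * g) - v g) -
        ((v (τ * g) - algebraMap O R o₁) - (v g - algebraMap O R o₂)) by ring]
      exact h0
    rw [← ho₁, ← ho₂, ← sub_eq_zero, ← map_sub, residue_eq_zero_iff]
    exact (mem_maximalIdeal _).mpr fun hn => (mem_maximalIdeal _).mp h (hn.map _))
  have hqu : IsUnit ((q : O)) := by
    refine notMem_maximalIdeal.mp fun hm => ?_
    obtain ⟨k, hk⟩ : ∃ k, q = 2 * k + 1 := hq.out.odd_of_ne_two hq2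
    have h := Ideal.sub_mem _ hm ((maximalIdeal O).mul_mem_right (k : O) T.two)
    rw [hk] at h
    push_cast at h
    rw [add_sub_cancel_left] at h
    exact (maximalIdeal.isMaximal O).ne_top ((Ideal.eq_top_iff_one _).mpr h)
  obtain ⟨w, hw'⟩ : ∃ w : R, w * (algebraMap O R (q : O) * (v (τ * g) - v g)) = 1 :=
    ((hqu.map (algebraMap O R)).mul hu).exists_left_inv
  refine ⟨w * (v (φ * τ * g) - v (φ * g)), fun x => ?_⟩
  have h1 : T.toNew hV B ((a (φ * τ * g) - a (φ * g)) • x)
      = (v (φ * τ * g) - v (φ * g)) • T.toNew hV B x := ((hv _).sub (hv _)) x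
  rw [hrel x, map_smul, smul_comm U, ((hv _).sub (hv _)) (U • x), ← algebraMap_smul R (q : O),
    smul_smul] at h1
  rw [mul_smul, ← h1, smul_smul, hw', one_smul]

omit hc hmres in
/-- The operator at a core prime with residual value prime to `1` is a root of its Hecke
polynomial. -/
theorem TraceData.exists_acts_core_root [Nontrivial (T.NewQuot O hV B)]
    [HenselianRing R (maximalIdeal R)] [IsLocalHom (algebraMap O R)]
    {q : ℕ} [hq : Fact q.Prime] (hqS : q ∈ S₁) (hq2 : q ≠ 2) {N : ℕ} [NeZero N] (hqN : ¬ q ∣ N)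
    (hL : T.level V = q * N) (hMN : T.M ∣ N) (hes' : EichlerShimuraRelations N 2)
    {A : ValuationSubring Qbar} (hA : A.LiesOverPrime q) {φ : GQ} (hφ : A.IsFrobeniusAt φ q)
    (hP' : (latHom (stdInputs hes') (RingHom.id ℤ_[2]) S₁ (P φ) :
      Module.End ℤ_[2] (Lat (stdInputs hes') ℤ_[2])) =
      matEnd (stdInputs hes') (RingHom.id ℤ_[2]) (tMat (stdInputs hes') φ))
    {o : O} (hnil : (MvPolynomial.X (⟨q, hq.out⟩ : Nat.Primes) : HeckePoly O) - MvPolynomial.C o ∈
      nilModIdeal (T.H V O))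
    (ho1 : residue O o ≠ 1) :
    ∃ u : R, Acts T hV B u (MvPolynomial.X (⟨q, hq.out⟩ : Nat.Primes)) := by
  obtain ⟨r, hr, hr1, hE⟩ := T.nonEisenstein hV
  have : Fact r.Prime := ⟨hr⟩
  have := (T.free_H hV).1
  have h2R : algebraMap O R 2 ∈ maximalIdeal R := map_nonunit _ _ T.two
  set U : HeckePoly O := MvPolynomial.X (⟨q, hq.out⟩ : Nat.Primes) with hU
  set Q : HeckePoly O := awayIncl O (↑S₁ : Set ℕ) (MvPolynomial.map ι (P φ)) with hQ
  have hres2 : residue O (2 : O) = 0 := (residue_eq_zero_iff _).mpr T.two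
  have hneg : (-1 : ResidueField O) = 1 := by
    rw [neg_eq_iff_add_eq_zero, one_add_one_eq_two, ← map_ofNat (residue O) 2]
    exact hres2
  -- `(U² - 1)` is invertible, so the quadratic relation holds
  have hq1 : residue O (q : O) = 1 := by
    obtain ⟨k, hk⟩ : ∃ k, q = 2 * k + 1 := hq.out.odd_of_ne_two hq2
    rw [hk, Nat.cast_add, Nat.cast_mul, Nat.cast_ofNat, Nat.cast_one, map_add, map_mul, hres2,
      zero_mul, zero_add, map_one]
  have hunit : IsUnit (o ^ 2 - 1) := notMem_maximalIdeal.mp fun hm => ho1 (by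
    have h := (residue_eq_zero_iff _).mpr hm
    rw [map_sub, map_pow, map_one, sub_eq_zero, sq_eq_one_iff] at h
    rcases h with h | h
    · exact h
    · rw [h, hneg])
  have hF : ∀ x : T.H V O, (U ^ 2 - Q * U + MvPolynomial.C (q : O)) • x = 0 := by
    have hb : Function.Bijective fun x : T.H V O => (U ^ 2 - 1) • x := by
      refine bijective_smul_of_congr _ (b := MvPolynomial.C (o ^ 2 - 1)) ?_ ?_
      · have h := (Module.End.isUnit_iff _).mp (hunit.map (algebraMap O (Module.End O (T.H V O))))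
        convert h using 1
        funext x
        rw [← MvPolynomial.algebraMap_eq, algebraMap_smul, Module.algebraMap_end_apply]
      · have h := Ideal.mul_mem_left _ (U + MvPolynomial.C o) hnil
        convert h using 1
        rw [map_sub, map_pow, map_one]
        ring
    intro x
    obtain ⟨y, rfl⟩ := hb.2 x
    rw [smul_smul]
    refine smul_eq_zero_of_eisen (b := (U ^ 2 - Q * U + MvPolynomial.C (q : O)) * (U ^ 2 - 1)) hE
      (fun u => ?_) y
    exact eisen_smul_core_of_eq hL hqN hq2 hr1 hMN (T.dvd_level V) T.χ hχ ι hqS hes' hA hφ hP' u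
  -- the root
  obtain ⟨v, hv⟩ := hD.exists_acts (MvPolynomial.map ι (P φ))
  set c := algebraMap O R o with hc'
  have hFc : c ^ 2 - v * c + algebraMap O R (q : O) ∈ maximalIdeal R := by
    have hC := Acts.const (R := R) T hV B
    have h1 : Acts T hV B (c ^ 2 - v * c + algebraMap O R (q : O))
        (MvPolynomial.C o ^ 2 - Q * MvPolynomial.C o + MvPolynomial.C (q : O)) := by
      rw [pow_two, pow_two]
      exact (((hC o).mul (hC o)).sub (hv.mul (hC o))).add (hC _)
    refine h1.mem_maximalIdeal ?_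
    have h2 : U ^ 2 - Q * U + MvPolynomial.C (q : O) ∈ nilModIdeal (T.H V O) :=
      (mem_nilModIdeal _).mpr ⟨1, fun x => by rw [pow_one, hF x]; exact zero_mem _⟩
    have h3 := sub_mem h2 (Ideal.mul_mem_left _ (U + MvPolynomial.C o - Q) hnil)
    convert h3 using 1
    ring
  have hv0 : IsUnit v := notMem_maximalIdeal.mp fun hm => ho1 (by
    have h := sub_mem hFc (neg_mem (Ideal.mul_mem_right c _ hm))
    rw [sub_neg_eq_add, show c ^ 2 - v * c + algebraMap O R (q : O) + v * c
      = algebraMap O R (o ^ 2 + (q : O)) by rw [map_add, map_pow]; ring] at h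
    have h' : o ^ 2 + (q : O) ∈ maximalIdeal O :=
      (mem_maximalIdeal _).mpr fun hn => (mem_maximalIdeal _).mp h (hn.map _)
    have h'' := (residue_eq_zero_iff _).mpr h'
    rw [map_add, map_pow, hq1, ← eq_neg_iff_add_eq_zero] at h''
    rw [hneg, sq_eq_one_iff, hneg, or_self] at h''
    exact h'')
  obtain ⟨t, ht, htc⟩ := HenselianRing.is_henselian (I := maximalIdeal R)
    (Polynomial.X ^ 2 - Polynomial.C v * Polynomial.X + Polynomial.C (algebraMap O R (q : O)))
    (by monicity!) c (by simpa using hFc) (by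
      have hu : IsUnit (2 * c - v) := notMem_maximalIdeal.mp fun hm => by
        refine (mem_maximalIdeal _).mp ?_ hv0
        have h := sub_mem ((maximalIdeal R).mul_mem_right c h2R) hm
        rwa [map_ofNat, sub_sub_cancel] at h
      refine (Ideal.Quotient.mk _).isUnit_map (a := _) ?_
      simpa [Polynomial.derivative_pow] using hu)
  have ht' : t ^ 2 - v * t + algebraMap O R (q : O) = 0 := by simpa [Polynomial.IsRoot] using ht
  refine ⟨t, ?_⟩
  let w : T.H V O →ₗ[O] T.NewQuot O hV B :=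
    T.toNew hV B ∘ₗ DistribMulAction.toModuleEnd O (T.H V O) U -
      DistribMulAction.toModuleEnd O (T.NewQuot O hV B) t ∘ₗ T.toNew hV B
  have hwx : ∀ x, w x = T.toNew hV B (U • x) - t • T.toNew hV B x := fun x => rfl
  have hwU : ∀ x, w (U • x) = (v - t) • w x := by
    intro x
    have h := congrArg (T.toNew hV B) (hF x)
    rw [add_smul, sub_smul, map_add, map_sub, map_zero, pow_two, mul_smul U U, mul_smul Q U, hv,
      ← MvPolynomial.algebraMap_eq, algebraMap_smul, map_smul (T.toNew hV B) (q : O),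
      ← algebraMap_smul R (q : O) (T.toNew hV B x)] at h
    rw [hwx, hwx]
    linear_combination (norm := module) h - (congrArg (· • T.toNew hV B x) ht')
  obtain ⟨n, hn⟩ := (mem_nilModIdeal _).mp hnil
  have hd : IsUnit (v - t - c) := notMem_maximalIdeal.mp fun hm => by
    refine (mem_maximalIdeal _).mp ?_ hv0
    have h := add_mem (add_mem hm htc) ((maximalIdeal R).mul_mem_right c h2R)
    rwa [map_ofNat, show v - t - c + (t - c) + 2 * c = v by ring] at h
  have hwn : ∀ (k : ℕ) x, w ((U - MvPolynomial.C o) ^ k • x) = (v - t - c) ^ k • w x := by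
    intro k
    induction k with
    | zero => intro x; rw [pow_zero, pow_zero, one_smul, one_smul]
    | succ k ih =>
      intro x
      rw [pow_succ, mul_smul, ih, sub_smul, map_sub, hwU, ← MvPolynomial.algebraMap_eq,
        algebraMap_smul, map_smul, ← algebraMap_smul R o (w x), ← sub_smul, smul_smul, ← pow_succ]
  let W : Submodule O (T.NewQuot O hV B) :=
    (Submodule.span R (Set.range w)).restrictScalars O
  have hstab : ∀ (s : R) (z : T.NewQuot O hV B), z ∈ maximalIdeal O • W →
      s • z ∈ maximalIdeal O • W := fun s z hz => by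
    refine Submodule.smul_induction_on hz (fun a ha b hb => ?_) (fun a b ha hb => ?_)
    · rw [smul_comm]
      exact Submodule.smul_mem_smul ha (Submodule.smul_mem (Submodule.span R _) s hb)
    · rw [smul_add]; exact add_mem ha hb
  have hle : W ≤ maximalIdeal O • W := fun z hz => by
    induction (hz : z ∈ Submodule.span R (Set.range w)) using Submodule.span_induction with
    | mem z hz =>
      obtain ⟨x, rfl⟩ := hz
      obtain ⟨e, he⟩ := hd.pow n
      have h := Submodule.mem_map_of_mem (f := w) (hn x)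
      rw [Submodule.map_smul'', Submodule.map_top, hwn, ← he] at h
      have hWr : LinearMap.range w ≤ W := fun _ hy => Submodule.subset_span hy
      have h' := hstab ((e⁻¹ : Rˣ) : R) _ (Submodule.smul_mono le_rfl hWr h)
      rwa [smul_smul, Units.inv_mul, one_smul] at h'
    | zero => exact zero_mem _
    | add a b _ _ ha hb => exact add_mem ha hb
    | smul c a _ ha => exact hstab c a ha
  have := finite_newQuot T hV B
  have h0 : W = ⊥ := Submodule.eq_bot_of_le_smul_of_le_jacobson_bot (maximalIdeal O)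
    W (IsNoetherian.noetherian _) hle (IsLocalRing.maximalIdeal_le_jacobson ⊥)
  intro x
  have hx : w x = 0 := (Submodule.mem_bot O).mp (h0 ▸ (Submodule.subset_span ⟨x, rfl⟩ : w x ∈ W))
  exact sub_eq_zero.mp hx

end Arith

end Fermat.Agent.TwoAdic.TopGen

end
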