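import Fermat.Agent.TwoAdic.TopLevel
import Fermat.Agent.TwoAdic.TSide.Surjection
import Fermat.Agent.Engine.TwRing

/-!
# Modules of the Taylor–Wiles levels

Modules of the Taylor–Wiles levels as `LevelModule`s: compatibility of the action of a ring of
pairs with the base only needs Frobenius traces and the unit root, and the unit root only needs
its quadratic equation.
-/

set_option autoImplicit false

open IsLocalRing GaloisRep Fermat.Agent.DefRing Fermat.Agent.Deform

namespace Fermat.Agent.TwoAdic.Pair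

variable {O : Type} [CommRing O] [IsDomain O] [IsDiscreteValuationRing O]
  [IsAdicComplete (maximalIdeal O) O] [Finite (ResidueField O)]

omit [IsAdicComplete (maximalIdeal O) O] in
/-- High powers of the maximal ideal act small on a lattice. -/
theorem exists_pow_smul_le {R : Type} [CommRing R] [IsLocalRing R] [IsNoetherianRing R]
    [Algebra O R] [IsLocalHom (algebraMap O R)] {X : Type} [AddCommGroup X] [Module R X]
    [Module O X] [IsScalarTower O R X] [Module.Finite O X] (j : ℕ) :
    ∃ k, maximalIdeal R ^ k • (⊤ : Submodule R X) ≤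
      (maximalIdeal O ^ j).map (algebraMap O R) • (⊤ : Submodule R X) := by
  set J := (maximalIdeal O ^ j).map (algebraMap O R)
  set W : Submodule R X := J • ⊤
  have : Finite (O ⧸ maximalIdeal O ^ j) := by
    have : Finite (O ⧸ maximalIdeal O) := ‹Finite (ResidueField O)›
    exact Ideal.finite_quotient_pow (IsNoetherian.noetherian _) j
  have hfin : Finite (X ⧸ W) := by
    obtain ⟨d, b, hb⟩ := Module.Finite.exists_fin (R := O) (M := X)
    refine Finite.of_surjective (fun c : Fin d → O ⧸ maximalIdeal O ^ j =>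
      (W.mkQ (∑ i, Function.surjInv Ideal.Quotient.mk_surjective (c i) • b i))) fun y => ?_
    obtain ⟨x, rfl⟩ := Submodule.mkQ_surjective _ y
    obtain ⟨a, rfl⟩ := (Submodule.mem_span_range_iff_exists_fun O).mp
      (hb ▸ (Submodule.mem_top : x ∈ ⊤))
    refine ⟨fun i => Ideal.Quotient.mk _ (a i), (Submodule.Quotient.eq _).mpr ?_⟩
    rw [← Finset.sum_sub_distrib]
    refine sum_mem fun i _ => ?_
    rw [← sub_smul]
    have hz : ∀ z ∈ maximalIdeal O ^ j, z • b i ∈ W := fun z hz => by
      rw [← algebraMap_smul (A := R) z (b i)]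
      exact Submodule.smul_mem_smul (Ideal.mem_map_of_mem _ hz) Submodule.mem_top
    refine hz _ ?_
    rw [← Ideal.Quotient.eq_zero_iff_mem, map_sub,
      Function.surjInv_eq Ideal.Quotient.mk_surjective, sub_self]
  let c : ℕ → Submodule R (X ⧸ W) := fun k => maximalIdeal R ^ k • ⊤
  have : Finite (Submodule R (X ⧸ W)) :=
    Finite.of_injective (fun V => (V : Set (X ⧸ W))) SetLike.coe_injective
  obtain ⟨k, l, hkl, he⟩ : ∃ k l, k < l ∧ c k = c l := by
    obtain ⟨x, y, hne, he⟩ := Finite.exists_ne_map_eq_of_infinite c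
    rcases hne.lt_or_gt with h | h
    exacts [⟨x, y, h, he⟩, ⟨y, x, h, he.symm⟩]
  have hbot : c k = ⊥ := by
    have : Module.Finite R (X ⧸ W) := Module.Finite.of_finite
    refine Submodule.eq_bot_of_le_smul_of_le_jacobson_bot (maximalIdeal R) _
      (IsNoetherian.noetherian _) ?_ (IsLocalRing.maximalIdeal_le_jacobson _)
    show c k ≤ maximalIdeal R • c k
    calc c k = c l := he
      _ ≤ maximalIdeal R • c k := by
        show maximalIdeal R ^ l • (⊤ : Submodule R (X ⧸ W)) ≤
          maximalIdeal R • (maximalIdeal R ^ k • ⊤)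
        rw [← mul_smul, ← pow_succ']
        exact Submodule.smul_mono_left (Ideal.pow_le_pow_right hkl)
  refine ⟨k, Submodule.smul_le.mpr fun a ha x _ => ?_⟩
  rw [← Submodule.Quotient.mk_eq_zero (p := W), Submodule.Quotient.mk_smul]
  have h1 : a • (Submodule.Quotient.mk x : X ⧸ W) ∈ c k :=
    Submodule.smul_mem_smul ha Submodule.mem_top
  rw [hbot, Submodule.mem_bot] at h1
  exact h1

omit [IsAdicComplete (maximalIdeal O) O] in
/-- **Compatibility from generators**: two actions intertwined by `g` on a dense subalgebra are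
intertwined. -/
theorem intertwine_of_dense {R : Type} [CommRing R] [IsLocalRing R] [IsNoetherianRing R]
    [Algebra O R] [IsLocalHom (algebraMap O R)] (G : Set R)
    (hdense : ∀ (x : R) (k : ℕ), ∃ s ∈ Algebra.adjoin O G, x - s ∈ maximalIdeal R ^ k)
    {X Y : Type} [AddCommGroup X] [Module O X] [Module.Finite O X] [AddCommGroup Y] [Module O Y]
    [Module.Finite O Y] (ρ : R →ₐ[O] Module.End O X) (ρ' : R →ₐ[O] Module.End O Y)
    (g : X →ₗ[O] Y) (hG : ∀ s ∈ G, ∀ x, g (ρ s x) = ρ' s (g x)) :
    ∀ r x, g (ρ r x) = ρ' r (g x) := by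
  let : Module R X := Module.compHom X ρ.toRingHom
  let : Module R Y := Module.compHom Y ρ'.toRingHom
  have : IsScalarTower O R X := IsScalarTower.of_algebraMap_smul fun o x => by
    show ρ (algebraMap O R o) x = o • x
    rw [AlgHom.commutes, Module.algebraMap_end_apply]
  have : IsScalarTower O R Y := IsScalarTower.of_algebraMap_smul fun o x => by
    show ρ' (algebraMap O R o) x = o • x
    rw [AlgHom.commutes, Module.algebraMap_end_apply]
  have hadj : ∀ s ∈ Algebra.adjoin O G, ∀ x, g (ρ s x) = ρ' s (g x) := by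
    intro s hs
    induction hs using Algebra.adjoin_induction with
    | mem x hx => exact hG x hx
    | algebraMap o => intro x; simp [AlgHom.commutes]
    | add a b _ _ ha hb => intro x; simp [ha, hb]
    | mul a b _ _ ha hb => intro x; simp [ha, hb]
  intro r x
  refine sub_eq_zero.mp (IsHausdorff.haus (I := maximalIdeal O) (M := Y) inferInstance _ fun j => ?_)
  obtain ⟨k₁, hk₁⟩ := exists_pow_smul_le (O := O) (R := R) (X := X) j
  obtain ⟨k₂, hk₂⟩ := exists_pow_smul_le (O := O) (R := R) (X := Y) j
  obtain ⟨s, hs, hrs⟩ := hdense r (k₁ + k₂)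
  set e := r - s with he
  have hX : ρ e x ∈ (maximalIdeal O ^ j) • (⊤ : Submodule O X) := by
    have h1 := hk₁ (Submodule.smul_mem_smul (Ideal.pow_le_pow_right (Nat.le_add_right _ _) hrs)
      (Submodule.mem_top (x := x)))
    rw [← Submodule.restrictScalars_top O R X, ← Ideal.smul_restrictScalars,
      Submodule.restrictScalars_mem]
    exact h1
  have hY : ρ' e (g x) ∈ (maximalIdeal O ^ j) • (⊤ : Submodule O Y) := by
    have h1 := hk₂ (Submodule.smul_mem_smul (Ideal.pow_le_pow_right (Nat.le_add_left _ _) hrs)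
      (Submodule.mem_top (x := g x)))
    rw [← Submodule.restrictScalars_top O R Y, ← Ideal.smul_restrictScalars,
      Submodule.restrictScalars_mem]
    exact h1
  have hgX : g (ρ e x) ∈ (maximalIdeal O ^ j) • (⊤ : Submodule O Y) :=
    map_mem_smul_top g _ hX
  rw [SModEq.zero, show g (ρ r x) - ρ' r (g x) = g (ρ e x) - ρ' e (g x) by
    rw [he, map_sub, map_sub, LinearMap.sub_apply, LinearMap.sub_apply, map_sub, hadj s hs]; abel]
  exact sub_mem hgX hY

omit [IsAdicComplete (maximalIdeal O) O] [Finite (ResidueField O)] in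
/-- **The unit root commutes with maps commuting with `T`.** -/
theorem intertwine_root {X Y : Type} [AddCommGroup X] [Module O X] [AddCommGroup Y] [Module O Y]
    [Module.Finite O Y] (h2 : (2 : O) ∈ maximalIdeal O) (g : X →ₗ[O] Y)
    (T a : Module.End O X) (T' b : Module.End O Y) (ha : IsUnit a) (hb : IsUnit b)
    (hT : ∀ x, g (T x) = T' (g x)) (hqa : ∀ x, a (a x) + (2 : O) • x = T (a x))
    (hqb : ∀ y, b (b y) + (2 : O) • y = T' (b y)) : ∀ x, g (a x) = b (g x) := by
  set D : X → Y := fun x => g (a x) - b (g x) with hD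
  obtain ⟨ua, rfl⟩ := ha
  obtain ⟨ub, rfl⟩ := hb
  have hua : ∀ x, (ua : Module.End O X) ((ua⁻¹ : (Module.End O X)ˣ).1 x) = x := fun x =>
    LinearMap.congr_fun ua.mul_inv x
  have hub : ∀ y, (ub : Module.End O Y) ((ub⁻¹ : (Module.End O Y)ˣ).1 y) = y := fun y =>
    LinearMap.congr_fun ub.mul_inv y
  have hstep : ∀ x, ∃ y, D x = (2 : O) • y ∧ ∀ I : Ideal O,
      D ((ua⁻¹ : (Module.End O X)ˣ).1 x) ∈ I • (⊤ : Submodule O Y) →
        y ∈ I • (⊤ : Submodule O Y) := by
    intro x
    set x' := (ua⁻¹ : (Module.End O X)ˣ).1 x with hx'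
    have h1 : D x + (ub : Module.End O Y) (D x') = T' (D x') := by
      have e1 := congrArg g (hqa x')
      have e2 := hqb (g x')
      rw [map_add, map_smul, hT] at e1
      simp only [hD]
      rw [show x = (ua : Module.End O X) x' from (hua x).symm]
      rw [map_sub, map_sub, ← e1, ← e2]
      abel
    refine ⟨(ub⁻¹ : (Module.End O Y)ˣ).1 (D x'), ?_, fun I hI => map_mem_smul_top _ _ hI⟩
    have h2' := hqb ((ub⁻¹ : (Module.End O Y)ˣ).1 (D x'))
    rw [hub] at h2'
    rw [← h2'] at h1
    exact add_right_cancel (h1.trans (add_comm _ _))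
  have hmem : ∀ k x, D x ∈ (maximalIdeal O ^ k) • (⊤ : Submodule O Y) := by
    intro k
    induction k with
    | zero => intro x; simp
    | succ k ih =>
      intro x
      obtain ⟨y, hy, hI⟩ := hstep x
      rw [hy, pow_succ', mul_smul]
      exact Submodule.smul_mem_smul h2 (hI _ (ih _))
  intro x
  refine sub_eq_zero.mp (IsHausdorff.haus (I := maximalIdeal O) (M := Y) inferInstance _ fun k => ?_)
  rw [SModEq.zero]
  exact hmem k x

variable [CharP (ResidueField O) 2] {D : NormalData O} {E : LiftData} {C : Set (GQ × GQ)}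
  {Q : Finset ℕ} {h0 : IsResidualPair D E ∅ C} {h : IsResidualPair D E Q C}

/-- **A level module from an action on which Frobenius traces and the unit root are known.** -/
theorem nonempty_levelModule (V : (pairFunctor h0).UniversalPoint)
    (U : (pairFunctor h).UniversalPoint)
    (hspan : Submodule.span (ResidueField O) (Set.range D.rbar) = ⊤)
    (ψ : U.R →ₐ[O] V.R) (hψN : mapRep (ψ : U.R →+* V.R) (uRep U) = uRep V)
    (hψα : ψ (uRoot U) = uRoot V)
    {r : ℕ} (w : Fin r → U.R) {d : ℕ} {M₀ : Type} [AddCommGroup M₀] [Module V.R M₀] [Module O M₀]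
    [IsScalarTower O V.R M₀] (b₀ : Module.Basis (Fin d) O M₀) (n : ℕ)
    {N : Type} [AddCommGroup N] [Module (Engine.TwQuot O 2 r n) N]
    (g : N →ₛₗ[Engine.twAug O 2 r n] M₀) (e : Module.Basis (Fin d) (Engine.TwQuot O 2 r n) N)
    (he : ∀ j, g (e j) = b₀ j) (ρ : U.R →+* Module.End (Engine.TwQuot O 2 r n) N)
    (hρO : ∀ (o : O) (m : N), ρ (algebraMap O U.R o) m = Engine.twConst O 2 r n o • m)
    (S : Finset ℕ)
    (htr : ∀ σ ∈ frobeniusSet S, ∀ m,
      g (ρ (Matrix.trace (uRep U σ)) m) = Matrix.trace (uRep V σ) • g m)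
    (TN : Module.End (Engine.TwQuot O 2 r n) N) (TM : Module.End O M₀)
    (hT : ∀ m, g (TN m) = TM (g m))
    (hαN : ∀ m, ρ (uRoot U) (ρ (uRoot U) m) + (2 : Engine.TwQuot O 2 r n) • m =
      TN (ρ (uRoot U) m))
    (hαM : ∀ y : M₀, uRoot V • uRoot V • y + (2 : O) • y = TM (uRoot V • y))
    (htame : ∀ i m, ρ (w i) m = Ideal.Quotient.mk (Engine.twIdeal O 2 r n)
      ((1 + MvPowerSeries.X i) + Ring.inverse (1 + MvPowerSeries.X i)) • m) :
    Nonempty (LevelModule r ψ w b₀ n) := by
  classical
  have h2 : (2 : O) ∈ maximalIdeal O := by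
    rw [← residue_eq_zero_iff, map_ofNat]
    exact CharTwo.two_eq_zero
  let : Module O N := Module.compHom N (Engine.twConst O 2 r n)
  have hsmulO : ∀ (o : O) (m : N), o • m = Engine.twConst O 2 r n o • m := fun _ _ => rfl
  have : Module.Finite O M₀ := Module.Finite.of_basis b₀
  have : SMulCommClass (Engine.TwQuot O 2 r n) O N := ⟨fun a o m => by
    rw [hsmulO, hsmulO, smul_smul, smul_smul, mul_comm]⟩
  have : Module.Finite O N := by
    have : Fact (Nat.Prime 2) := ⟨Nat.prime_two⟩
    have : Fact (((2 : ℕ) : O) ∈ maximalIdeal O) := ⟨by exact_mod_cast h2⟩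
    have : IsScalarTower O (Engine.TwQuot O 2 r n) N := ⟨fun o a m => by
      obtain ⟨x, rfl⟩ := Ideal.Quotient.mk_surjective a
      rw [hsmulO, smul_smul]
      congr 1
      show Ideal.Quotient.mk _ (o • x) = _
      rw [MvPowerSeries.smul_eq_C_mul, map_mul]
      rfl⟩
    have := Module.Finite.of_basis e
    exact Module.Finite.trans (Engine.TwQuot O 2 r n) N
  let toO : Module.End (Engine.TwQuot O 2 r n) N → Module.End O N := fun f =>
    { toFun := f
      map_add' := map_add f
      map_smul' := fun o m => f.map_smul (Engine.twConst O 2 r n o) m }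
  let ρN : U.R →ₐ[O] Module.End O N :=
    { toFun := fun x => toO (ρ x)
      map_one' := LinearMap.ext fun m => LinearMap.congr_fun (map_one ρ) m
      map_mul' := fun x y => LinearMap.ext fun m => LinearMap.congr_fun (map_mul ρ x y) m
      map_zero' := LinearMap.ext fun m => LinearMap.congr_fun (map_zero ρ) m
      map_add' := fun x y => LinearMap.ext fun m => LinearMap.congr_fun (map_add ρ x y) m
      commutes' := fun o => LinearMap.ext fun m => hρO o m }
  let ρM : U.R →ₐ[O] Module.End O M₀ := (Algebra.lsmul O O M₀).comp ψ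
  let gO : N →ₗ[O] M₀ :=
    { toFun := g
      map_add' := map_add g
      map_smul' := fun o m => by
        rw [hsmulO, LinearMap.map_smulₛₗ]
        simp [Engine.twAug, Engine.twConst] }
  have hunit : IsUnit (uRoot U) :=
    IsLocalRing.notMem_maximalIdeal.mp fun hm => one_ne_zero (α := ResidueField O)
      ((isPair_universal U).residue_eq.symm.trans
        ((toResidue_eq_zero_iff U.instIsLocalHom U.residue_surjective).mpr hm))
  have hroot := intertwine_root h2 gO (toO TN) (ρN (uRoot U)) TM (ρM (uRoot U))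
    (hunit.map ρN) (hunit.map ρM) hT (fun m => by
      have h1 : (2 : O) • m = (2 : Engine.TwQuot O 2 r n) • m := by rw [hsmulO, map_ofNat]
      rw [h1]
      exact hαN m)
    (fun y => by
      show ψ (uRoot U) • ψ (uRoot U) • y + (2 : O) • y = TM (ψ (uRoot U) • y)
      rw [hψα]
      exact hαM y)
  have hall := intertwine_of_dense (R := U.R)
    ((fun σ => Matrix.trace (uRep U σ)) '' frobeniusSet S ∪ {uRoot U})
    (TSide.adjoin_root_trace_sub_mem U hspan S) ρN ρM gO (by
      rintro _ (⟨σ, hσ, rfl⟩ | rfl) m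
      · show g (ρ (Matrix.trace (uRep U σ)) m) = ψ (Matrix.trace (uRep U σ)) • g m
        rw [htr σ hσ, ← hψN]
        simp [Matrix.trace, Fin.sum_univ_two]
      · exact hroot m)
  exact ⟨{ N := N, g := g, basis := e, g_basis := he, ρ := ρ, ρ_algebraMap := hρO,
           g_ρ := fun x m => hall x m, ρ_trace := htame }⟩

end Fermat.Agent.TwoAdic.Pair
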