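import Fermat.Agent.TwoAdic.PatchingDouble
import Fermat.Agent.TwoAdic.Modules.TWSystem

/-!
# Taylor–Wiles levels at 2 as a patching system

The Taylor–Wiles levels at `2` with a double cover feed patching on `O⟦x, t⟧`: free modules over
`TwQuot O 2 r n` with a common base, acted on by `O⟦x, t⟧`.
-/

set_option autoImplicit false

open IsLocalRing Filter

namespace Fermat.Agent.TwoAdic

variable {O : Type} [CommRing O] [IsDomain O] [IsDiscreteValuationRing O]
  [IsAdicComplete (maximalIdeal O) O] [Finite (ResidueField O)]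

/-- **Patching a system over the Taylor–Wiles rings on a double cover.** -/
theorem free_rank_two_of_twSystem (h2 : (2 : O) ∈ maximalIdeal O) {r d : ℕ} [NeZero d]
    {R₀ : Type} [CommRing R₀] [IsLocalRing R₀] [Algebra O R₀]
    (π : MvPowerSeries (Fin (r + 1)) O →ₐ[O] R₀) (hπ : Function.Surjective π)
    {M₀ : Type} [AddCommGroup M₀] [Module R₀ M₀] [Module O M₀] [IsScalarTower O R₀ M₀]
    (b₀ : Module.Basis (Fin d) O M₀)
    (N : ℕ → Type) [∀ n, AddCommGroup (N n)] [∀ n, Module (Engine.TwQuot O 2 r n) (N n)]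
    (g : ∀ n, N n →ₛₗ[Engine.twAug O 2 r n] M₀)
    (e : ∀ n, Module.Basis (Fin d) (Engine.TwQuot O 2 r n) (N n))
    (he : ∀ n j, g n (e n j) = b₀ j)
    (act : ∀ n, MvPowerSeries (Fin (r + 1)) O →+* Module.End (Engine.TwQuot O 2 r n) (N n))
    (hC : ∀ n (o : O) (m : N n), act n (MvPowerSeries.C o) m = Engine.twConst O 2 r n o • m)
    (hact : ∀ n x m, g n (act n x m) = π x • g n m)
    (hker : ∀ n (i : Fin r), ∃ x, x ∈ xIdeal O r ∧ π x = 0 ∧
      ∀ m, act n ((1 + x) + Ring.inverse (1 + x)) m =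
        Ideal.Quotient.mk (Engine.twIdeal O 2 r n)
          ((1 + MvPowerSeries.X i) + Ring.inverse (1 + MvPowerSeries.X i)) • m)
    (hcover : ∀ n, ∃ q, q - MvPowerSeries.X (Fin.last r) ^ 2 ∈ xIdeal O r ∧ π q = 0 ∧
      act n q = 0)
    (hgen : ∃ m : Fin 2 → M₀,
      Submodule.span R₀ (Set.range m) ⊔ maximalIdeal R₀ • (⊤ : Submodule R₀ M₀) = ⊤)
    (hdim : Nat.card (ResidueField O) ^ 4 ≤
      Nat.card (M₀ ⧸ (xIdeal O r).map π • (⊤ : Submodule R₀ M₀))) :
    IsFiniteCI O R₀ ∧ Nonempty (Module.Basis (Fin 2) R₀ M₀) ∧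
      ∀ x : R₀, (∀ m : M₀, x • m = 0) → x = 0 := by
  let P := MvPowerSeries (Fin r) O
  let mk := fun n => Ideal.Quotient.mk (Engine.twIdeal O 2 r n)
  let inst : ∀ n, Module P (N n) := fun n => Module.compHom (N n) (mk n)
  have hsmul : ∀ n (l : P) (m : N n), l • m = mk n l • m := fun _ _ _ => rfl
  let ρ : ∀ n, MvPowerSeries (Fin (r + 1)) O →+* Module.End P (N n) := fun n =>
    { toFun := fun x =>
        { toFun := act n x
          map_add' := map_add (act n x)
          map_smul' := fun l m => (act n x).map_smul (mk n l) m }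
      map_one' := LinearMap.ext fun m => LinearMap.congr_fun (map_one (act n)) m
      map_mul' := fun x y => LinearMap.ext fun m => LinearMap.congr_fun (map_mul (act n) x y) m
      map_zero' := LinearMap.ext fun m => LinearMap.congr_fun (map_zero (act n)) m
      map_add' := fun x y => LinearMap.ext fun m => LinearMap.congr_fun (map_add (act n) x y) m }
  have hbasis : ∀ n, Patch.IsModBasis (Engine.twIdeal O 2 r n) (fun j => e n j) := fun n => by
    refine ⟨top_le_iff.mp fun m _ => ?_, fun c => ?_⟩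
    · rw [← (e n).sum_repr m]
      refine sum_mem fun j _ => ?_
      obtain ⟨l, hl⟩ := Ideal.Quotient.mk_surjective ((e n).repr m j)
      rw [← hl]
      exact Submodule.smul_mem _ l (Submodule.subset_span ⟨j, rfl⟩)
    · simp only [hsmul]
      exact ⟨fun h i => Ideal.Quotient.eq_zero_iff_mem.mp
          (Fintype.linearIndependent_iff.mp (e n).linearIndependent _ h i),
        fun h => Finset.sum_eq_zero fun i _ =>
          (congrArg (· • e n i) (Ideal.Quotient.eq_zero_iff_mem.mpr (h i))).trans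
            (zero_smul (Engine.TwQuot O 2 r n) (e n i))⟩
  refine free_rank_two_of_double_system π hπ (Engine.twIdeal O 2 r) (tendsToZero_twIdeal h2 r) N ρ
    (fun n j => e n j) hbasis (fun n o => LinearMap.ext fun m => hC n o m) (fun n i => ?_)
    (fun n => ?_) b₀ (fun n => (g n).toAddMonoidHom) (fun n l m => ?_) hact he hgen hdim
  · obtain ⟨x, hxJ, hx, h⟩ := hker n i
    exact ⟨x, hxJ, hx, LinearMap.ext h⟩
  · obtain ⟨q, hqJ, hq, h⟩ := hcover n
    exact ⟨q, hqJ, hq, LinearMap.ext fun m => LinearMap.congr_fun h m⟩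
  · show g n (mk n l • m) = _
    rw [LinearMap.map_smulₛₗ]
    rfl

end Fermat.Agent.TwoAdic
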