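import Fermat.Agent.TwoAdic.TopSystem
import Fermat.Agent.Deform.Relative

/-!
# A uniform presentation of the Taylor–Wiles levels

One map `O⟦x, t⟧ ↠ R₀` through the rings of all Taylor–Wiles levels: pigeonhole modulo `m ^ 3` and
re-parametrisation.  Then tame traces and the relation `t ^ 2 ∈ J` feed patching on a double cover.
-/

set_option autoImplicit false

open IsLocalRing Filter

namespace Fermat.Agent.TwoAdic

variable {O : Type} [CommRing O] [IsDomain O] [IsDiscreteValuationRing O]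
  [IsAdicComplete (maximalIdeal O) O] [Finite (ResidueField O)]

omit [IsDomain O] [IsDiscreteValuationRing O] [IsAdicComplete (maximalIdeal O) O]
  [Finite (ResidueField O)] in
theorem baseHom_apply_X {r : ℕ} (i : Fin r) :
    baseHom O r (MvPowerSeries.X i) = MvPowerSeries.X i.castSucc :=
  MvPowerSeries.rename_X (R := O) Fin.castSucc i

omit [IsDomain O] [IsDiscreteValuationRing O] [IsAdicComplete (maximalIdeal O) O]
  [Finite (ResidueField O)] in
theorem baseHom_apply_C {r : ℕ} (o : O) :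
    baseHom O r (MvPowerSeries.C o) = MvPowerSeries.C o :=
  MvPowerSeries.rename_C (R := O) Fin.castSucc o

section Ext

variable {A : Type} [CommRing A] [IsLocalRing A] [Algebra O A] {s : ℕ}

omit [IsDomain O] [IsDiscreteValuationRing O] [IsAdicComplete (maximalIdeal O) O]
  [Finite (ResidueField O)] in
/-- Algebra maps into a separated local ring agreeing on the variables are equal. -/
theorem algHom_powerSeries_ext [IsLocalRing O] [IsHausdorff (maximalIdeal A) A]
    {φ ψ : MvPowerSeries (Fin s) O →ₐ[O] A}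
    (hφ : ∀ i, φ (MvPowerSeries.X i) ∈ maximalIdeal A)
    (h : ∀ i, φ (MvPowerSeries.X i) = ψ (MvPowerSeries.X i)) : φ = ψ := by
  refine AlgHom.ext fun f => sub_eq_zero.mp (IsHausdorff.haus (I := maximalIdeal A) inferInstance _
    fun k => ?_)
  rw [SModEq.zero, smul_eq_mul, Ideal.mul_top, ← Ideal.Quotient.eq_zero_iff_mem, map_sub,
    sub_eq_zero]
  have hnil : IsNilpotent ((maximalIdeal A).map (Ideal.Quotient.mk (maximalIdeal A ^ k))) :=
    ⟨k, by rw [← Ideal.map_pow, Ideal.map_quotient_self, Ideal.zero_eq_bot]⟩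
  exact DFunLike.congr_fun (DefRing.algHom_ext_of_X (O := O) hnil
    (φ := (Ideal.Quotient.mkₐ O _).comp φ) (ψ := (Ideal.Quotient.mkₐ O _).comp ψ)
    (fun i => Ideal.mem_map_of_mem _ (hφ i)) fun i => congrArg _ (h i)) f

end Ext

section Reparam

variable {r : ℕ} {R R₀ : Type} [CommRing R] [IsLocalRing R] [IsNoetherianRing R]
  [IsAdicComplete (maximalIdeal R) R] [Algebra O R] [CommRing R₀] [IsLocalRing R₀] [Algebra O R₀]

omit [IsAdicComplete (maximalIdeal O) O] [Finite (ResidueField O)] [IsNoetherianRing R]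
  [IsAdicComplete (maximalIdeal R) R] [IsLocalRing R₀] [Algebra O R₀] in
/-- A surjection from `O⟦x, t⟧` sends variables and uniformizer into the maximal ideal. -/
theorem apply_mem_maximalIdeal_of_surjective (φ : MvPowerSeries (Fin (r + 1)) O →ₐ[O] R)
    (hφ : Function.Surjective φ) {x : MvPowerSeries (Fin (r + 1)) O}
    (hx : x ∈ maximalIdeal (MvPowerSeries (Fin (r + 1)) O)) : φ x ∈ maximalIdeal R := by
  have := DefRing.isLocalHom_of_surjective' (φ : MvPowerSeries (Fin (r + 1)) O →+* R) hφ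
  exact fun hu => hx (isUnit_of_map_unit (φ : MvPowerSeries (Fin (r + 1)) O →+* R) x hu)

omit [Finite (ResidueField O)] in
/-- **Re-parametrisation**: prescribe the images of `x` in a quotient, modulo `m ^ 3`. -/
theorem exists_reparam (ψ : R →ₐ[O] R₀) (hψ : Function.Surjective ψ)
    (φ : MvPowerSeries (Fin (r + 1)) O →ₐ[O] R) (hφ : Function.Surjective φ)
    (ht2 : φ (MvPowerSeries.X (Fin.last r)) ^ 2 ∈ (xIdeal O r).map φ)
    (z : Fin r → R₀)
    (hz : ∀ i, z i - ψ (φ (MvPowerSeries.X i.castSucc)) ∈ maximalIdeal R₀ ^ 3) :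
    ∃ φ' : MvPowerSeries (Fin (r + 1)) O →ₐ[O] R, Function.Surjective φ' ∧
      φ' (MvPowerSeries.X (Fin.last r)) = φ (MvPowerSeries.X (Fin.last r)) ∧
      (∀ i : Fin r, ψ (φ' (MvPowerSeries.X i.castSucc)) = z i) ∧
      (xIdeal O r).map φ' = (xIdeal O r).map φ := by
  classical
  let P := MvPowerSeries (Fin (r + 1)) O
  set J := (xIdeal O r).map φ with hJ
  set t := φ (MvPowerSeries.X (Fin.last r)) with ht
  have hloc : IsLocalHom (algebraMap O R) := ⟨fun a ha => by
    have := DefRing.isLocalHom_of_surjective' (φ : P →+* R) hφ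
    have h1 : IsUnit (algebraMap O P a) := by
      refine isUnit_of_map_unit (φ : P →+* R) _ ?_
      show IsUnit (φ (algebraMap O P a))
      rwa [φ.commutes]
    rw [show algebraMap O P a = MvPowerSeries.C a from rfl,
      MvPowerSeries.isUnit_iff_constantCoeff, MvPowerSeries.constantCoeff_C] at h1
    exact h1⟩
  have hm : maximalIdeal R ≤ J ⊔ Ideal.span {t} := by
    have h1 := Ideal.map_mono (f := (φ : P →+* R)) (maximalIdeal_le_sup (O := O) (r := r))
    rw [Ideal.map_sup, Ideal.map_span, Set.image_singleton] at h1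
    have h2 := DefRing.map_maximalIdeal_of_surjective (φ : P →+* R) hφ 1
    rw [pow_one, pow_one] at h2
    rw [h2] at h1
    exact h1
  have hm2 : maximalIdeal R ^ 2 ≤ J := by
    rw [pow_two, Ideal.mul_le]
    intro a ha b hb
    obtain ⟨j, hj, c, hc, rfl⟩ := Submodule.mem_sup.mp (hm ha)
    obtain ⟨j', hj', c', hc', rfl⟩ := Submodule.mem_sup.mp (hm hb)
    obtain ⟨d, rfl⟩ := Ideal.mem_span_singleton'.mp hc
    obtain ⟨d', rfl⟩ := Ideal.mem_span_singleton'.mp hc'
    rw [show (j + d * t) * (j' + d' * t) = j * (j' + d' * t) + d * t * j' + d * d' * t ^ 2 by ring]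
    exact add_mem (add_mem (J.mul_mem_right _ hj) (J.mul_mem_left _ hj')) (J.mul_mem_left _ ht2)
  have hm3 : maximalIdeal R ^ 3 ≤ maximalIdeal R * J := by
    rw [pow_succ']; exact Ideal.mul_mono_right hm2
  have hlift : ∀ i, ∃ δ ∈ maximalIdeal R ^ 3, ψ δ = z i - ψ (φ (MvPowerSeries.X i.castSucc)) :=
    fun i => by
      have h1 := hz i
      rw [← DefRing.map_maximalIdeal_of_surjective (ψ : R →+* R₀) hψ] at h1
      exact (Ideal.mem_map_iff_of_surjective (ψ : R →+* R₀) hψ).mp h1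
  choose δ hδ hδψ using hlift
  let x : Fin (r + 1) → R :=
    Fin.snoc (fun i : Fin r => φ (MvPowerSeries.X i.castSucc) + δ i) t
  have hx : ∀ i, x i ∈ maximalIdeal R := by
    intro i
    rcases Fin.eq_castSucc_or_eq_last i with ⟨j, rfl⟩ | rfl
    · simp only [x, Fin.snoc_castSucc]
      exact add_mem (apply_mem_maximalIdeal_of_surjective φ hφ (DefRing.X_mem_maximalIdeal _))
        (Ideal.pow_le_self three_ne_zero (hδ j))
    · simp only [x, Fin.snoc_last]
      exact apply_mem_maximalIdeal_of_surjective φ hφ (DefRing.X_mem_maximalIdeal _)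
  obtain ⟨φ', hφ'l, hφ'X⟩ := Deform.exists_algHom_powerSeries (B := O) x hx
  have hlast : φ' (MvPowerSeries.X (Fin.last r)) = t := by simp [hφ'X, x]
  have hcast : ∀ i : Fin r, φ' (MvPowerSeries.X i.castSucc) =
      φ (MvPowerSeries.X i.castSucc) + δ i := fun i => by simp [hφ'X, x]
  have hgen : xIdeal O r = Ideal.map (algebraMap O P) (maximalIdeal O) ⊔
      Ideal.span (Set.range fun i : Fin r => (MvPowerSeries.X i.castSucc : P)) := by
    obtain ⟨ϖ, hϖ⟩ := IsDiscreteValuationRing.exists_irreducible O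
    rw [xIdeal, ← Patching.ofList_params_eq_maximalIdeal O r ϖ hϖ, hϖ.maximalIdeal_eq,
      Ideal.ofList, Ideal.map_span, Ideal.map_span, Set.image_singleton, ← Ideal.span_union]
    congr 1
    ext y
    simp only [Patching.params, Set.mem_image, List.mem_append, List.mem_ofFn, List.mem_singleton,
      Set.mem_ofPred_eq, Set.mem_union, Set.mem_range, Set.mem_singleton_iff]
    constructor
    · rintro ⟨w, ⟨i, rfl⟩ | rfl, rfl⟩
      · exact Or.inr ⟨i, (baseHom_apply_X i).symm⟩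
      · exact Or.inl (baseHom_apply_C ϖ)
    · rintro (rfl | ⟨i, rfl⟩)
      · exact ⟨_, Or.inr rfl, baseHom_apply_C ϖ⟩
      · exact ⟨_, Or.inl ⟨i, rfl⟩, baseHom_apply_X i⟩
  set J' := (xIdeal O r).map φ' with hJ'
  have hX : ∀ θ : P →ₐ[O] R, (xIdeal O r).map θ =
      Ideal.map (algebraMap O R) (maximalIdeal O) ⊔
        Ideal.span (Set.range fun i : Fin r => θ (MvPowerSeries.X i.castSucc)) := fun θ => by
    rw [hgen]
    show Ideal.map (θ : P →+* R) _ = _
    rw [Ideal.map_sup, Ideal.map_map, Ideal.map_span, θ.comp_algebraMap, ← Set.range_comp]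
    rfl
  have hδJ : ∀ i, δ i ∈ maximalIdeal R * J := fun i => hm3 (hδ i)
  have hXmem : ∀ i : Fin r, (MvPowerSeries.X i.castSucc : P) ∈ xIdeal O r := fun i => by
    have h := Ideal.mem_map_of_mem (baseHom O r) (DefRing.X_mem_maximalIdeal (O := O) i)
    rwa [baseHom_apply_X] at h
  have hφX : ∀ i : Fin r, φ (MvPowerSeries.X i.castSucc) ∈ J := fun i =>
    Ideal.mem_map_of_mem φ (hXmem i)
  have hφ'X' : ∀ i : Fin r, φ' (MvPowerSeries.X i.castSucc) ∈ J' := fun i =>
    Ideal.mem_map_of_mem φ' (hXmem i)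
  have hcJ : Ideal.map (algebraMap O R) (maximalIdeal O) ≤ J := le_sup_left.trans (hX φ).ge
  have hcJ' : Ideal.map (algebraMap O R) (maximalIdeal O) ≤ J' := le_sup_left.trans (hX φ').ge
  have hle : J' ≤ J := by
    rw [hJ', hX φ']
    refine sup_le hcJ (Ideal.span_le.mpr (Set.range_subset_iff.mpr fun i => ?_))
    rw [SetLike.mem_coe, hcast]
    have hmJ : maximalIdeal R * J ≤ J := Ideal.mul_le_right
    exact J.add_mem (hφX i) (hmJ (hδJ i))
  have hge : J ≤ J' := by
    refine Submodule.le_of_le_smul_of_le_jacobson_bot (I := maximalIdeal R)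
      (IsNoetherian.noetherian J) (IsLocalRing.maximalIdeal_le_jacobson _) ?_
    refine (hX φ).le.trans (sup_le (hcJ'.trans le_sup_left)
      (Ideal.span_le.mpr (Set.range_subset_iff.mpr fun i => ?_)))
    rw [SetLike.mem_coe, show φ (MvPowerSeries.X i.castSucc) =
      φ' (MvPowerSeries.X i.castSucc) + -δ i by rw [hcast]; ring]
    exact Submodule.add_mem_sup (hφ'X' i) (neg_mem (hδJ i))
  have hJJ : J' = J := le_antisymm hle hge
  refine ⟨φ', ?_, hlast, fun i => by rw [hcast, map_add, hδψ]; ring, hJJ⟩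
  have : IsAdicComplete (maximalIdeal P) P := DefRing.isAdicComplete_mvPowerSeries
  refine Deform.surjective_of_cotangent (φ' : P →+* R) (fun y => ?_) ?_
  · obtain ⟨w, rfl⟩ := residue_surjective y
    obtain ⟨p, rfl⟩ := hφ w
    refine ⟨algebraMap O P (MvPowerSeries.constantCoeff p), ?_⟩
    show residue R (φ' _) = residue R (φ p)
    rw [φ'.commutes, ← φ.commutes, ← sub_eq_zero, ← map_sub, residue_eq_zero_iff, ← map_sub]
    refine apply_mem_maximalIdeal_of_surjective φ hφ ?_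
    rw [DefRing.mem_maximalIdeal_iff_constantCoeff, map_sub, MvPowerSeries.algebraMap_apply,
      MvPowerSeries.constantCoeff_C]
    simp
  · refine hm.trans (le_trans (sup_le ?_ ?_) le_sup_left)
    · rw [← hJJ]
      exact Ideal.map_mono xIdeal_le
    · rw [Ideal.span_singleton_le_iff_mem, ← hlast]
      exact Ideal.mem_map_of_mem _ (DefRing.X_mem_maximalIdeal _)

end Reparam

section Uniform

variable {r : ℕ} {R₀ : Type} [CommRing R₀] [IsLocalRing R₀] [IsNoetherianRing R₀]
  [IsAdicComplete (maximalIdeal R₀) R₀] [Finite (ResidueField R₀)] [Algebra O R₀]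

omit [IsAdicComplete (maximalIdeal R₀) R₀] in
/-- **One base map for all levels**, after a choice of levels. -/
theorem exists_uniform (R : ℕ → Type) [∀ n, CommRing (R n)] [∀ n, IsLocalRing (R n)]
    [∀ n, IsNoetherianRing (R n)] [∀ n, IsAdicComplete (maximalIdeal (R n)) (R n)]
    [∀ n, Algebra O (R n)] (ψ : ∀ n, R n →ₐ[O] R₀) (hψ : ∀ n, Function.Surjective (ψ n))
    (t : ∀ n, R n) (t₀ : R₀) (hψt : ∀ n, ψ n (t n) = t₀) (J : ∀ n, Ideal (R n))
    (ht2 : ∀ n, t n ^ 2 ∈ J n)
    (hkey : ∀ n, ∃ φ : MvPowerSeries (Fin (r + 1)) O →ₐ[O] R n, Function.Surjective φ ∧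
      φ (MvPowerSeries.X (Fin.last r)) = t n ∧ (xIdeal O r).map φ = J n) :
    ∃ (σ : ℕ → ℕ) (π : MvPowerSeries (Fin (r + 1)) O →ₐ[O] R₀)
      (φ : ∀ n, MvPowerSeries (Fin (r + 1)) O →ₐ[O] R (σ n)),
      (∀ n, n ≤ σ n) ∧ Function.Surjective π ∧ π (MvPowerSeries.X (Fin.last r)) = t₀ ∧
      ∀ n, Function.Surjective (φ n) ∧ φ n (MvPowerSeries.X (Fin.last r)) = t (σ n) ∧
        (xIdeal O r).map (φ n) = J (σ n) ∧ (ψ (σ n)).comp (φ n) = π := by
  classical
  choose φ hφ hφt hφJ using hkey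
  have : Finite (R₀ ⧸ maximalIdeal R₀ ^ 3) := by
    have : Finite (R₀ ⧸ maximalIdeal R₀) := ‹Finite (ResidueField R₀)›
    exact Ideal.finite_quotient_pow (IsNoetherian.noetherian _) 3
  let cls : ℕ → Fin r → R₀ ⧸ maximalIdeal R₀ ^ 3 := fun n i =>
    Ideal.Quotient.mk _ (ψ n (φ n (MvPowerSeries.X i.castSucc)))
  obtain ⟨y, hy⟩ := Finite.exists_infinite_fiber cls
  have hy' : (cls ⁻¹' {y}).Infinite := Set.infinite_coe_iff.mp hy
  choose σ hσy hσ using fun n : ℕ => hy'.exists_gt n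
  let z : Fin r → R₀ := fun i => ψ (σ 0) (φ (σ 0) (MvPowerSeries.X i.castSucc))
  have hz : ∀ n i, z i - ψ (σ n) (φ (σ n) (MvPowerSeries.X i.castSucc)) ∈
      maximalIdeal R₀ ^ 3 := fun n i =>
    Ideal.Quotient.eq.mp ((congrFun (hσy 0) i).trans (congrFun (hσy n) i).symm)
  choose φ' hφ' hlast hcast hJ using fun n => exists_reparam (ψ (σ n)) (hψ _) (φ (σ n)) (hφ _)
    (by rw [hφt, hφJ]; exact ht2 _) z (hz n)
  have hsame : ∀ n, (ψ (σ n)).comp (φ' n) = (ψ (σ 0)).comp (φ' 0) := fun n => by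
    refine algHom_powerSeries_ext (fun i => ?_) fun i => ?_
    · exact apply_mem_maximalIdeal_of_surjective ((ψ (σ n)).comp (φ' n)) ((hψ _).comp (hφ' n))
        (DefRing.X_mem_maximalIdeal i)
    · rcases Fin.eq_castSucc_or_eq_last i with ⟨j, rfl⟩ | rfl
      · exact (hcast n j).trans (hcast 0 j).symm
      · simp only [AlgHom.comp_apply, hlast, hφt, hψt]
  refine ⟨σ, (ψ (σ 0)).comp (φ' 0), φ', fun n => (hσ n).le, (hψ _).comp (hφ' 0),
    by rw [AlgHom.comp_apply, hlast, hφt, hψt], fun n => ⟨hφ' n, by rw [hlast, hφt],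
      (hJ n).trans (hφJ _), hsame n⟩⟩

end Uniform

section Top

variable {r d : ℕ} [NeZero d]

/-- **`R₀` is a complete intersection and the base module is free of rank two**, from modules over
the rings of the levels on which tame traces act by the diamond scalars. -/
theorem free_rank_two_of_uniform (h2 : (2 : O) ∈ maximalIdeal O)
    {R₀ : Type} [CommRing R₀] [IsLocalRing R₀] [Algebra O R₀]
    (π : MvPowerSeries (Fin (r + 1)) O →ₐ[O] R₀) (hπ : Function.Surjective π)
    {M₀ : Type} [AddCommGroup M₀] [Module R₀ M₀] [Module O M₀] [IsScalarTower O R₀ M₀]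
    (b₀ : Module.Basis (Fin d) O M₀)
    (R : ℕ → Type) [∀ n, CommRing (R n)] [∀ n, Algebra O (R n)] (ψ : ∀ n, R n →ₐ[O] R₀)
    (J : ∀ n, Ideal (R n)) (φ : ∀ n, MvPowerSeries (Fin (r + 1)) O →ₐ[O] R n)
    (hφ : ∀ n, Function.Surjective (φ n)) (hφJ : ∀ n, (xIdeal O r).map (φ n) = J n)
    (hψφ : ∀ n, (ψ n).comp (φ n) = π)
    (ht2 : ∀ n, φ n (MvPowerSeries.X (Fin.last r)) ^ 2 ∈ J n)
    (N : ℕ → Type) [∀ n, AddCommGroup (N n)] [∀ n, Module (Engine.TwQuot O 2 r n) (N n)]
    (g : ∀ n, N n →ₛₗ[Engine.twAug O 2 r n] M₀)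
    (e : ∀ n, Module.Basis (Fin d) (Engine.TwQuot O 2 r n) (N n))
    (he : ∀ n j, g n (e n j) = b₀ j)
    (ρ : ∀ n, R n →+* Module.End (Engine.TwQuot O 2 r n) (N n))
    (hρO : ∀ n (o : O) (m : N n), ρ n (algebraMap O (R n) o) m = Engine.twConst O 2 r n o • m)
    (hρg : ∀ n x m, g n (ρ n x m) = ψ n x • g n m)
    (u v : ∀ n, Fin r → R n) (huv : ∀ n i, u n i * v n i = 1)
    (huJ : ∀ n i, u n i - 1 ∈ J n) (hu0 : ∀ n i, ψ n (u n i) = 1)
    (htame : ∀ n i m, ρ n (u n i + v n i) m =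
      Ideal.Quotient.mk (Engine.twIdeal O 2 r n)
        ((1 + MvPowerSeries.X i) + Ring.inverse (1 + MvPowerSeries.X i)) • m)
    (hgen : ∃ m : Fin 2 → M₀,
      Submodule.span R₀ (Set.range m) ⊔ maximalIdeal R₀ • (⊤ : Submodule R₀ M₀) = ⊤)
    (hdim : Nat.card (ResidueField O) ^ 4 ≤
      Nat.card (M₀ ⧸ (xIdeal O r).map π • (⊤ : Submodule R₀ M₀))) :
    IsFiniteCI O R₀ ∧ Nonempty (Module.Basis (Fin 2) R₀ M₀) ∧
      ∀ x : R₀, (∀ m : M₀, x • m = 0) → x = 0 := by
  have hπφ : ∀ n p, ψ n (φ n p) = π p := fun n p => DFunLike.congr_fun (hψφ n) p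
  refine free_rank_two_of_twSystem h2 π hπ b₀ N g e he
    (fun n => (ρ n).comp (φ n : _ →+* R n)) (fun n o m => ?_) (fun n x m => ?_) (fun n i => ?_)
    (fun n => ?_) hgen hdim
  · show ρ n (φ n (MvPowerSeries.C o)) m = _
    rw [← hρO n o m, ← (φ n).commutes o]
    rfl
  · show g n (ρ n (φ n x) m) = _
    rw [hρg, hπφ]
  · have h1 : u n i - 1 ∈ Ideal.map (φ n) (xIdeal O r) := (hφJ n).symm ▸ huJ n i
    obtain ⟨x, hxJ, hx⟩ := (Ideal.mem_map_iff_of_surjective (φ n) (hφ n)).mp h1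
    have hx' : φ n x = u n i - 1 := hx
    have hx0 : π x = 0 := by rw [← hπφ n x, hx', map_sub, hu0, map_one, sub_self]
    have hunit : IsUnit (1 + x) := by
      rw [← sub_neg_eq_add]
      exact IsLocalRing.isUnit_one_sub_self_of_mem_nonunits _
        fun hu => not_isUnit_zero (M₀ := R₀) (by simpa [hx0] using hu.map π)
    have hv : φ n (Ring.inverse (1 + x)) = v n i := by
      have h2 : φ n (Ring.inverse (1 + x)) * u n i = 1 := by
        rw [show u n i = φ n (1 + x) by rw [map_add, map_one, hx']; ring, ← map_mul,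
          Ring.inverse_mul_cancel _ hunit, map_one]
      calc φ n (Ring.inverse (1 + x)) = φ n (Ring.inverse (1 + x)) * (u n i * v n i) := by
            rw [huv, mul_one]
        _ = v n i := by rw [← mul_assoc, h2, one_mul]
    refine ⟨x, hxJ, hx0, fun m => ?_⟩
    show ρ n (φ n (1 + x + Ring.inverse (1 + x))) m = _
    rw [show φ n (1 + x + Ring.inverse (1 + x)) = u n i + v n i by
      rw [map_add, map_add, map_one, hx', hv]; ring]
    exact htame n i m
  · have h1 : φ n (MvPowerSeries.X (Fin.last r)) ^ 2 ∈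
        Ideal.map (φ n) (xIdeal O r) := (hφJ n).symm ▸ ht2 n
    obtain ⟨y, hyJ, hy⟩ := (Ideal.mem_map_iff_of_surjective (φ n) (hφ n)).mp h1
    have hy' : φ n y = φ n (MvPowerSeries.X (Fin.last r)) ^ 2 := hy
    refine ⟨MvPowerSeries.X (Fin.last r) ^ 2 - y, ?_, ?_, ?_⟩
    · rw [show MvPowerSeries.X (Fin.last r) ^ 2 - y - MvPowerSeries.X (Fin.last r) ^ 2 = -y by ring]
      exact neg_mem hyJ
    · rw [← hπφ n, map_sub, map_pow, hy', sub_self, map_zero]
    · show ρ n (φ n _) = 0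
      rw [map_sub, map_pow, hy', sub_self, map_zero]

end Top

end Fermat.Agent.TwoAdic
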